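import Fermat.Agent.FF.ConstExt.AutExt
import Mathlib.FieldTheory.Galois.Infinite
import Mathlib.Analysis.Complex.Polynomial.Basic

/-!
# Endomorphisms of the field of complex numbers
-/

set_option autoImplicit false

noncomputable section

namespace Fermat.Agent.DS

/-- The algebraic numbers inside `ℂ`. -/
abbrev Kb : IntermediateField ℚ ℂ := algebraicClosure ℚ ℂ

-- Use the `ℚ`-algebra structure of an intermediate field on `Kb`.
local instance (priority := 10000) : Algebra ℚ Kb := Kb.algebra'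

instance instIsAlgClosureKb : IsAlgClosure ℚ Kb := algebraicClosure.isAlgClosure ℚ ℂ

instance instIsAlgClosedKb : IsAlgClosed Kb := IsAlgClosure.isAlgClosed ℚ

/-- An automorphism of the algebraic numbers extends to `ℂ`. -/
theorem exists_extend (e : Kb ≃ₐ[ℚ] Kb) :
    ∃ σ : ℂ →+* ℂ, ∀ y : Kb, σ y = e y := by
  classical
  obtain ⟨t, ht⟩ := exists_isTranscendenceBasis Kb ℂ
  let T : MvPolynomial t Kb ≃+* MvPolynomial t Kb := MvPolynomial.mapEquiv t e.toRingEquiv
  let E := (ht.1.aevalEquiv.symm.toRingEquiv.trans T).trans ht.1.aevalEquiv.toRingEquiv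
  let := IsAlgClosed.isAlgClosure_of_transcendence_basis (Subtype.val : t → ℂ) ht
  let σ : ℂ ≃+* ℂ := IsAlgClosure.equivOfEquiv ℂ ℂ E
  refine ⟨σ.toRingHom, fun y ↦ ?_⟩
  have h1 : (y : ℂ) = algebraMap (Algebra.adjoin Kb (Set.range (Subtype.val : t → ℂ))) ℂ
      (ht.1.aevalEquiv (MvPolynomial.C y)) := by
    rw [AlgebraicIndependent.algebraMap_aevalEquiv]
    simp
  show σ (y : ℂ) = _
  conv_lhs => rw [h1]
  rw [IsAlgClosure.equivOfEquiv_algebraMap ℂ ℂ E]
  simp only [E, T, RingEquiv.trans_apply]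
  erw [AlgEquiv.symm_apply_apply]
  erw [AlgebraicIndependent.algebraMap_aevalEquiv]
  · simp
  · exact ht.1

theorem isAlgebraic_iff_mem_Kb {x : ℂ} : IsAlgebraic ℚ x ↔ x ∈ Kb :=
  mem_algebraicClosure_iff.symm

/-- A number fixed up to finitely many values by all endomorphisms is algebraic. -/
theorem isAlgebraic_of_finite_orbit {x : ℂ}
    (h : (Set.range fun σ : ℂ →+* ℂ ↦ σ x).Finite) : IsAlgebraic ℚ x := by
  by_contra hx
  have hc : x ∉ Set.range (algebraMap Kb ℂ) := by
    rintro ⟨y, rfl⟩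
    exact hx (isAlgebraic_iff_mem_Kb.2 y.2)
  choose σ hσ using fun n : ℕ ↦ FF.ConstExt.exists_algEquiv_translate hc ((n : ℕ) : Kb)
  refine Set.infinite_range_of_injective (f := fun n : ℕ ↦ x + n)
    (fun a b hab ↦ by simpa using hab) (h.subset ?_)
  rintro _ ⟨n, rfl⟩
  exact ⟨(σ n).toAlgHom.toRingHom, by simpa using hσ n⟩

/-- An endomorphism of `ℂ` fixing a set of algebraic numbers and moving `x` exists as soon as
`x` is not in the field they generate. -/
theorem exists_ringHom_move {S : Set ℂ} (hS : ∀ s ∈ S, IsAlgebraic ℚ s) {x : ℂ}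
    (hx : IsAlgebraic ℚ x) (hxS : x ∉ IntermediateField.adjoin ℚ S) :
    ∃ σ : ℂ →+* ℂ, (∀ s ∈ S, σ s = s) ∧ σ x ≠ x := by
  set S' : Set Kb := Subtype.val ⁻¹' S
  set K : IntermediateField ℚ Kb := IntermediateField.adjoin ℚ S'
  have hxK : (⟨x, isAlgebraic_iff_mem_Kb.1 hx⟩ : Kb) ∉ K := by
    intro hmem
    refine hxS ?_
    have hle : IntermediateField.map Kb.val K ≤ IntermediateField.adjoin ℚ S := by
      rw [IntermediateField.adjoin_map]
      exact IntermediateField.adjoin.mono _ _ _ (by rintro _ ⟨s, hs, rfl⟩; exact hs)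
    exact hle ⟨_, hmem, rfl⟩
  have : IsGalois ℚ Kb := IsGalois.mk
  rw [← InfiniteGalois.fixedField_fixingSubgroup K, IntermediateField.mem_fixedField_iff] at hxK
  push Not at hxK
  obtain ⟨e, he, hne⟩ := hxK
  obtain ⟨σ, hσ⟩ := exists_extend e
  refine ⟨σ, fun s hs ↦ ?_, fun h ↦ hne (Subtype.ext ((hσ _).symm.trans h))⟩
  have hmem : (⟨s, isAlgebraic_iff_mem_Kb.1 (hS s hs)⟩ : Kb) ∈ K :=
    IntermediateField.subset_adjoin ℚ S' hs
  exact (hσ ⟨s, isAlgebraic_iff_mem_Kb.1 (hS s hs)⟩).trans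
    (congrArg Subtype.val ((IntermediateField.mem_fixingSubgroup_iff K e).1 he _ hmem))

/-- Only the rationals are fixed by all endomorphisms of `ℂ`. -/
theorem mem_range_rat_of_fixed {x : ℂ} (h : ∀ σ : ℂ →+* ℂ, σ x = x) :
    ∃ q : ℚ, (q : ℂ) = x := by
  have hx : IsAlgebraic ℚ x := isAlgebraic_of_finite_orbit
    ((Set.finite_singleton x).subset (by rintro _ ⟨σ, rfl⟩; exact h σ))
  by_contra hne
  obtain ⟨σ, -, hσ⟩ := exists_ringHom_move (S := ∅) (by simp) hx (by
    rw [IntermediateField.adjoin_empty, IntermediateField.mem_bot]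
    rintro ⟨q, hq⟩
    exact hne ⟨q, by simpa using hq⟩)
  exact hσ (h σ)

/-- Numbers with finitely many joint conjugates generate a number field. -/
theorem finiteDimensional_adjoin_of_finite_orbit {ι : Type*} (v : ι → ℂ)
    (h : (Set.range fun σ : ℂ →+* ℂ ↦ fun i ↦ σ (v i)).Finite) :
    FiniteDimensional ℚ (IntermediateField.adjoin ℚ (Set.range v)) := by
  classical
  have halg : ∀ i, IsAlgebraic ℚ (v i) := fun i ↦ isAlgebraic_of_finite_orbit
    ((h.image fun f ↦ f i).subset (by rintro _ ⟨σ, rfl⟩; exact ⟨_, ⟨σ, rfl⟩, rfl⟩))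
  -- a finite set of indices detecting every nontrivial conjugate
  set bad := h.toFinset.filter (fun f ↦ f ≠ v)
  have hbad : ∀ f ∈ bad, ∃ i, f i ≠ v i := fun f hf ↦
    Function.ne_iff.1 (Finset.mem_filter.1 hf).2
  set S : Set ℂ := (fun f : bad ↦ v (hbad f.1 f.2).choose) '' Set.univ
  have hSfin : S.Finite := Set.finite_univ.image _
  have hSalg : ∀ s ∈ S, IsAlgebraic ℚ s := by rintro _ ⟨f, -, rfl⟩; exact halg _
  have hle : IntermediateField.adjoin ℚ (Set.range v) ≤ IntermediateField.adjoin ℚ S := by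
    rw [IntermediateField.adjoin_le_iff]
    rintro _ ⟨i, rfl⟩
    by_contra hi
    obtain ⟨σ, hfix, hσ⟩ := exists_ringHom_move hSalg (halg i) hi
    have hm : (fun j ↦ σ (v j)) ∈ bad :=
      Finset.mem_filter.2 ⟨h.mem_toFinset.2 ⟨σ, rfl⟩, fun he ↦ hσ (congrFun he i)⟩
    exact (hbad _ hm).choose_spec (hfix _ ⟨⟨_, hm⟩, trivial, rfl⟩)
  have : Finite S := hSfin.to_subtype
  have := IntermediateField.finiteDimensional_adjoin (K := ℚ) (S := S)
    fun s hs ↦ (hSalg s hs).isIntegral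
  exact Module.Finite.of_injective (IntermediateField.inclusion hle).toLinearMap
    (IntermediateField.inclusion hle).injective

end Fermat.Agent.DS
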