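import Fermat.Prelude.Def_GaloisRep_Residual
import Mathlib.NumberTheory.DirichletCharacter.Basic
import Mathlib.LinearAlgebra.Matrix.GeneralLinearGroup.Defs

/-!
# Shared definitions for the Deligne–Serre construction (S48)
-/

set_option autoImplicit false

noncomputable section

namespace Fermat.Agent.DS

/-- The absolute Galois group of `ℚ`. -/
abbrev GalQ := AlgebraicClosure ℚ ≃ₐ[ℚ] AlgebraicClosure ℚ

/-- The Hecke relations of weight `w` at the primes not dividing `N`, on coefficients: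
`a (p n) + e p · p^(w-1) · a (n / p) = a p · a n`. -/
def HeckeRel (w N : ℕ) (e a : ℕ → ℂ) : Prop :=
  ∀ p : ℕ, p.Prime → ¬ p ∣ N → ∀ n : ℕ,
    a (p * n) + e p * (p : ℂ) ^ (w - 1) * (if p ∣ n then a (n / p) else 0) = a p * a n

/-- `ρ` is unramified at `p` and its Frobenius elements at `p` have trace `t` and determinant
`d`. -/
def UnramifiedWith {k : Type*} [CommRing k] (ρ : GalQ →* GL (Fin 2) k) (p : ℕ) (t d : k) : Prop :=
  ∀ A : ValuationSubring (AlgebraicClosure ℚ), A.LiesOverPrime p →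
    (∀ σ ∈ A.inertiaSubgroupIn ℚ, ρ σ = 1) ∧
    ∀ σ : GalQ, A.IsFrobeniusAt σ p →
      ((ρ σ : GL (Fin 2) k) : Matrix (Fin 2) (Fin 2) k).trace = t ∧
      ((ρ σ : GL (Fin 2) k) : Matrix (Fin 2) (Fin 2) k).det = d

theorem heckeRel_one_iff {N : ℕ} {e a : ℕ → ℂ} :
    HeckeRel 1 N e a ↔ ∀ p : ℕ, p.Prime → ¬ p ∣ N → ∀ n : ℕ,
      a (p * n) + e p * (if p ∣ n then a (n / p) else 0) = a p * a n := by
  simp [HeckeRel]

end Fermat.Agent.DS
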