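import Fermat.Agent.EIS.WeightOne
import Fermat.Agent.DS.Defs

/-!
# A weight one Eisenstein form of level `r` congruent to a constant modulo `r`
-/

set_option autoImplicit false

noncomputable section

namespace Fermat.Agent.DS

open UpperHalfPlane Matrix Finset EIS
open scoped MatrixGroups ModularForm Manifold Topology

variable {r : ℕ} [hr : Fact r.Prime]

/-- The row vector `(0, a)`. -/
def auxVec (a : ZMod r) : Fin 2 → ZMod r := ![0, a]

/-- The auxiliary weight one form `(1 - ζ)/r` times the torsion form of `(0, a)`. -/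
def auxEis (a : ZMod r) (z : ℍ) : ℂ := (1 - zetaC r) / r * hFun (auxVec a) z

theorem auxVec_ne_zero {a : ZMod r} (ha : a ≠ 0) : auxVec a ≠ 0 := fun h ↦
  ha (congrFun h 1)

theorem auxVec_vecMul (a : ZMod r) {γ : SL(2, ℤ)} (hγ : ((γ 1 0 : ℤ) : ZMod r) = 0) :
    auxVec a ᵥ* redMat r γ = auxVec (a * ((γ 1 1 : ℤ) : ZMod r)) := by
  ext i
  fin_cases i <;> simp [auxVec, redMat, Matrix.vecMul, dotProduct, Fin.sum_univ_two, hγ]

theorem auxEis_slash_apply (a : ZMod r) (γ : SL(2, ℤ)) (z : ℍ) :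
    (auxEis a ∣[(1 : ℤ)] γ) z = (1 - zetaC r) / r * hFun (auxVec a ᵥ* redMat r γ) z := by
  rw [ModularForm.SL_slash_apply, auxEis, hFun_smul, _root_.zpow_neg_one]
  field_simp [denom_ne_zero γ z]

theorem auxEis_slash (a : ZMod r) {γ : SL(2, ℤ)} (hγ : ((γ 1 0 : ℤ) : ZMod r) = 0) :
    auxEis a ∣[(1 : ℤ)] γ = auxEis (a * ((γ 1 1 : ℤ) : ZMod r)) := by
  funext z
  rw [auxEis_slash_apply, auxVec_vecMul a hγ, auxEis]

variable (hr2 : r ≠ 2)
include hr2

theorem auxEis_isBoundedAtImInfty_slash {a : ZMod r} (ha : a ≠ 0) (γ : SL(2, ℤ)) :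
    IsBoundedAtImInfty (auxEis a ∣[(1 : ℤ)] γ) := by
  have h := IsQSer.smul ((1 - zetaC r) / (r : ℂ))
    (isQSer_hFun hr2 (v := auxVec a ᵥ* EIS.redMat r γ) (vecMul_redMat_ne_zero (auxVec_ne_zero ha) γ))
  rw [show auxEis a ∣[(1 : ℤ)] γ =
      ((1 - zetaC r) / r) • hFun (auxVec a ᵥ* redMat r γ) from funext fun z ↦ by
    rw [auxEis_slash_apply, Pi.smul_apply, smul_eq_mul]]
  exact h.isBoundedAtImInfty (Nat.cast_pos.2 hr.out.pos)

theorem auxEis_mdiff {a : ZMod r} (ha : a ≠ 0) : MDiff (auxEis a) :=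
  ((isQSer_hFun hr2 (auxVec_ne_zero ha)).smul ((1 - zetaC r) / r)).mdiff
    (Nat.cast_pos.2 hr.out.pos)

omit hr2 in
theorem auxEis_periodic (a : ZMod r) : Function.Periodic (auxEis a ∘ ofComplex) 1 := by
  intro w
  by_cases hw : 0 < w.im
  · have hw' : 0 < (w + 1).im := by simpa using hw
    rw [Function.comp_apply, Function.comp_apply, ofComplex_apply_of_im_pos hw',
      ofComplex_apply_of_im_pos hw]
    have e : (⟨w + 1, hw'⟩ : ℍ) = ModularGroup.T • ⟨w, hw⟩ := by
      rw [modular_T_smul]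
      ext1
      simp [add_comm]
    rw [e, auxEis, hFun_smul, auxVec_vecMul a (by simp [ModularGroup.coe_T]), auxEis]
    simp [ModularGroup.coe_T, denom]
  · have hw' : ¬ 0 < (w + 1).im := by simpa using hw
    simp [ofComplex_apply_of_im_nonpos (not_lt.1 hw), ofComplex_apply_of_im_nonpos (not_lt.1 hw')]

/-- The expansion is integral and, in characteristic `r`, the constant `3 / a`. -/
theorem exists_auxEis_series {a : ℕ} (ha : (a : ZMod r) ≠ 0) {k : Type*} [Field k] [CharP k r]
    (φ : integralClosure ℤ ℂ →+* k) :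
    ∃ S : PowerSeries (integralClosure ℤ ℂ),
      IsQSer 1 (auxEis (a : ZMod r)) (PowerSeries.map (integralClosure ℤ ℂ).val.toRingHom S) ∧
      PowerSeries.map φ S = PowerSeries.C ((3 : k) / (a : k)) := by
  have hr0 : (r : ℂ) ≠ 0 := Nat.cast_ne_zero.2 hr.out.ne_zero
  set v := auxVec (a : ZMod r) with hv
  have hv0 : v 0 = 0 := rfl
  have hvne : v ≠ 0 := auxVec_ne_zero ha
  have hord : eisOrd v = 0 := (eisOrd_eq_zero_iff v).2 hv0
  have hζ := isPrimitiveRoot_zetaC (r := r)
  set ζ : integralClosure ℤ ℂ := ⟨zetaC r,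
    IsIntegral.of_pow hr.out.pos (by rw [hζ.pow_eq_one]; exact isIntegral_one)⟩
  set w : ℂ := zpw (zetaC r) (a : ZMod r) with hw
  set wO : integralClosure ℤ ℂ := ζ ^ (a : ZMod r).val
  have hwO : (wO : ℂ) = w := by simp [wO, w, zpw, ζ]
  have hw1 : w ≠ 1 := zpw_ne_one hr2 hζ ha
  have hφζ : φ ζ = 1 := by
    have h : (φ ζ - 1) ^ r = 0 := by
      rw [sub_pow_char, one_pow, ← map_pow, show ζ ^ r = 1 from Subtype.ext hζ.pow_eq_one, map_one,
        sub_self]
    exact sub_eq_zero.1 (eq_zero_of_pow_eq_zero h)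
  have hφw : φ wO = 1 := by rw [map_pow, hφζ, one_pow]
  obtain ⟨b, hb⟩ : ∃ b : ℕ, ((a * b : ℕ) : ZMod r) = 1 :=
    ⟨((a : ZMod r)⁻¹).val, by push_cast [ZMod.natCast_zmod_val]; exact mul_inv_cancel₀ ha⟩
  have hbk : (a : k) * b = 1 := by
    rw [← Nat.cast_mul]
    have := congrArg (ZMod.castHom (dvd_refl r) k) hb
    simpa using this
  have hwb : w ^ b = zetaC r := by
    rw [hw, zpw, ← pow_mul, pow_eq_pow_mod _ hζ.pow_eq_one]
    have : ((a : ZMod r).val * b) % r = 1 := by
      rw [← ZMod.val_natCast]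
      push_cast [ZMod.natCast_zmod_val]
      rw [Nat.cast_mul] at hb
      rw [hb]
      exact ZMod.val_one r
    rw [this, pow_one]
  -- numerator and denominator over the algebraic integers
  have hcoef : ∀ j n : ℕ, IsIntegral ℤ (eisCoef j (zetaC r) v n) := fun j n ↦ isIntegral_eisCoef hζ j v n
  let num : PowerSeries (integralClosure ℤ ℂ) := PowerSeries.mk fun n ↦
    if n = 0 then (∑ i ∈ range b, wO ^ i) * (wO * (1 + 4 * wO + wO ^ 2))
    else (1 - ζ) * (1 - wO) ^ 3 * ⟨_, hcoef 4 n⟩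
  let den : PowerSeries (integralClosure ℤ ℂ) := PowerSeries.mk fun n ↦
    if n = 0 then wO * (1 + wO) else (1 - wO) ^ 3 * ⟨_, hcoef 3 n⟩
  set ι : integralClosure ℤ ℂ →+* ℂ := (integralClosure ℤ ℂ).val.toRingHom with hι
  have hιinj : Function.Injective ι := Subtype.val_injective
  have hscale : eisScale (zetaC r) v = (1 - w) ^ 3 := by
    rw [eisScale, if_pos hv0]; rfl
  have hden : PowerSeries.map ι den = hDen (zetaC r) v := by
    ext n
    simp only [PowerSeries.coeff_map, den, PowerSeries.coeff_mk, hDen, PowerSeries.coeff_smul,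
      smul_eq_mul, hscale, eisShift, hord, add_zero, eisP, hv0, ↓reduceIte, hι]
    split_ifs with h
    · simp only [AlgHom.toRingHom_eq_coe, RingHom.coe_coe, map_mul, map_add, map_one,
        Subalgebra.coe_val, hwO]
      exact (eisScale_mul_eisR3 hr2 hζ hw1).symm
    · simp [hwO]
  have hnum : PowerSeries.map ι num = ((1 - zetaC r) / r) • hNum (zetaC r) v := by
    ext n
    simp only [PowerSeries.coeff_map, num, PowerSeries.coeff_mk, hNum, PowerSeries.coeff_smul,
      smul_eq_mul, hscale, eisShift, hord, add_zero, eisP, hv0, ↓reduceIte, hι]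
    rw [← mul_assoc ((1 - zetaC r) / (r : ℂ)), div_mul_eq_mul_div, mul_left_comm,
      mul_div_assoc, mul_comm (r : ℂ), mul_div_assoc, div_self hr0, mul_one]
    split_ifs with h
    · simp only [AlgHom.toRingHom_eq_coe, RingHom.coe_coe, map_mul, map_add, map_one, map_sum,
        map_pow, map_ofNat, Subalgebra.coe_val, hwO]
      rw [show zpw (zetaC r) (v 1) = w from rfl, eisR, if_neg (by norm_num), show 1 - zetaC r = (∑ i ∈ range b, w ^ i) * (1 - w) by
        rw [geom_sum_mul_neg, hwb]]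
      field_simp [sub_ne_zero.2 hw1.symm]
    · simp [hwO, ζ, mul_comm, mul_left_comm]
  obtain ⟨hd0, hd1⟩ := constantCoeff_hDen hr2 hζ hvne
  have hinv := (intSer_hDen hr2 hζ hvne).inv hd1
  obtain ⟨G, hG⟩ : ∃ G : PowerSeries (integralClosure ℤ ℂ),
      PowerSeries.map ι G = ((1 - zetaC r) / r) • hSer (zetaC r) v := by
    refine ⟨num * PowerSeries.mk fun n ↦ ⟨_, hinv n⟩, ?_⟩
    rw [map_mul, hnum, hSer, smul_mul_assoc]
    congr 2
    ext n
    simp [ι]
  have hmul : G * den = num := by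
    refine PowerSeries.map_injective ι hιinj ?_
    rw [map_mul, hG, hden, hnum, smul_mul_assoc, hSer, mul_assoc,
      PowerSeries.inv_mul_cancel _ hd0, mul_one]
  have h2 : (2 : k) ≠ 0 := by
    intro h
    have h' : ((2 : ℕ) : k) = 0 := by exact_mod_cast h
    rw [CharP.cast_eq_zero_iff k r, Nat.prime_dvd_prime_iff_eq hr.out Nat.prime_two] at h'
    exact hr2 h'
  have hφden : PowerSeries.map φ den = PowerSeries.C 2 := by
    ext n
    simp only [PowerSeries.coeff_map, den, PowerSeries.coeff_mk, PowerSeries.coeff_C]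
    split_ifs <;> simp [hφw] <;> norm_num
  have hφnum : PowerSeries.map φ num = PowerSeries.C (b * 6 : k) := by
    ext n
    simp only [PowerSeries.coeff_map, num, PowerSeries.coeff_mk, PowerSeries.coeff_C]
    split_ifs
    · simp only [map_mul, map_add, map_sum, map_pow, map_one, map_ofNat, hφw, one_pow, sum_const,
        card_range, nsmul_eq_mul, mul_one, one_mul]
      norm_num
    · simp [hφw]
  have hφG : PowerSeries.map φ G = PowerSeries.C ((3 : k) / a) := by
    have h := congrArg (PowerSeries.map φ) hmul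
    rw [map_mul, hφden, hφnum, show (b * 6 : k) = 3 / a * 2 by
      rw [div_mul_eq_mul_div, eq_div_iff (left_ne_zero_of_mul_eq_one hbk)]
      linear_combination 6 * hbk, map_mul] at h
    exact mul_right_cancel₀ ((map_ne_zero_iff _ PowerSeries.C_injective).2 h2) h
  refine ⟨PowerSeries.mk fun n ↦ PowerSeries.coeff (r * n) G, ?_, ?_⟩
  · have h := ((isQSer_hFun hr2 hvne).smul ((1 - zetaC r) / r)).congr
      (f' := auxEis (a : ZMod r)) fun z ↦ rfl
    rw [← hG] at h
    have h1 := IsQSer.descend (h := 1) one_pos hr.out.pos (M := r) (by rwa [mul_one])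
      (auxEis_periodic (a : ZMod r))
    convert h1 using 1
    ext n
    simp [ι]
  · ext n
    have h := congrArg (PowerSeries.coeff (r * n)) hφG
    simp only [PowerSeries.coeff_map, PowerSeries.coeff_mk, PowerSeries.coeff_C] at h ⊢
    rw [h]
    simp [hr.out.ne_zero]

end Fermat.Agent.DS
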