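import Fermat.Agent.DS.PrimeSums
import Fermat.Agent.Density.Finite
import Mathlib.RingTheory.RootsOfUnity.AlgebraicallyClosed

/-!
# Chebotarev's crossing argument at a finite level
-/

set_option autoImplicit false
set_option linter.unusedSectionVars false

noncomputable section

namespace Fermat.Agent.DS

open NumberField Filter Topology Fermat.Agent.Density
open scoped Classical Pointwise

/-- The indicator weight `p^(-s)` of a set of primes. -/
def primeWeight (T : Set ℕ) (s : ℝ) (p : Nat.Primes) : ℝ :=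
  if (p : ℕ) ∈ T then ((p : ℕ) : ℝ) ^ (-s) else 0

theorem primeWeight_nonneg (T : Set ℕ) (s : ℝ) (p : Nat.Primes) : 0 ≤ primeWeight T s p := by
  unfold primeWeight
  split_ifs <;> positivity

theorem summable_primes_rpow {s : ℝ} (hs : 1 < s) :
    Summable fun p : Nat.Primes ↦ ((p : ℕ) : ℝ) ^ (-s) :=
  (Real.summable_nat_rpow.2 (by linarith)).comp_injective Subtype.val_injective

theorem summable_primeWeight (T : Set ℕ) {s : ℝ} (hs : 1 < s) : Summable (primeWeight T s) :=
  (summable_primes_rpow hs).of_nonneg_of_le (primeWeight_nonneg T s) fun p ↦ by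
    unfold primeWeight
    split_ifs
    exacts [le_rfl, by positivity]

/-- Finitely supported discrepancies are bounded. -/
theorem exists_bound_finite_diff {S : Set ℕ} (hS : S.Finite) (a : ℕ → ℂ)
    (ha : ∀ p : ℕ, p.Prime → p ∉ S → a p = 0) :
    ∃ B : ℝ, ∀ s : ℝ, 0 ≤ s →
      ‖∑' p : Nat.Primes, a p * ((((p : ℕ) : ℝ) ^ (-s) : ℝ) : ℂ)‖ ≤ B := by
  refine ⟨∑ p ∈ (hS.toFinset.subtype Nat.Prime : Finset Nat.Primes), ‖a p‖, fun s hs ↦ ?_⟩
  refine le_of_eq_of_le (congrArg norm (tsum_eq_sum (L := SummationFilter.unconditional Nat.Primes)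
    (s := (hS.toFinset.subtype Nat.Prime : Finset Nat.Primes)) fun p hp ↦ ?_)) ?_
  · rw [ha p p.2 fun h ↦ hp (Finset.mem_subtype.2 (hS.mem_toFinset.2 h)), zero_mul]
  · refine (norm_sum_le _ _).trans (Finset.sum_le_sum fun p _ ↦ ?_)
    rw [norm_mul, Complex.norm_real, Real.norm_of_nonneg (by positivity)]
    exact mul_le_of_le_one_right (norm_nonneg _)
      (Real.rpow_le_one_of_one_le_of_nonpos (Nat.one_le_cast.2 p.2.one_le) (by linarith))

/-- A multiple of `log (1/(s-1))` bounded above forces a nonpositive coefficient. -/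
theorem nonpos_of_mul_log_le {a B : ℝ}
    (h : ∀ s : ℝ, 1 < s → s ≤ 2 → a * Real.log (1 / (s - 1)) ≤ B) : a ≤ 0 := by
  by_contra ha
  rw [not_le] at ha
  set t := (|B| + 1) / a
  have ht : 0 < t := by positivity
  have h1 := h (1 + Real.exp (-t)) (by linarith [Real.exp_pos (-t)])
    (by linarith [Real.exp_le_one_iff.2 (neg_nonpos.2 ht.le)])
  rw [add_sub_cancel_left, one_div, ← Real.exp_neg, neg_neg, Real.log_exp,
    mul_div_cancel₀ _ ha.ne'] at h1
  linarith [le_abs_self B]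

/-- Proportional degree one prime counts force equal factors. -/
theorem eq_of_idealCount_mul_eq {F₁ F₂ : Type*} [Field F₁] [NumberField F₁] [Field F₂]
    [NumberField F₂] (a b : ℕ) {S : Set ℕ} (hS : S.Finite)
    (h : ∀ p : ℕ, p.Prime → p ∉ S → a * idealCount F₁ p = b * idealCount F₂ p) : a = b := by
  obtain ⟨B₁, hB₁⟩ := exists_primeSumOne_bound F₁
  obtain ⟨B₂, hB₂⟩ := exists_primeSumOne_bound F₂
  obtain ⟨B₃, hB₃⟩ := exists_bound_finite_diff hS
    (fun p ↦ (((a : ℝ) * idealCount F₁ p - b * idealCount F₂ p : ℝ) : ℂ)) fun p hp hpS ↦ by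
      have := congrArg (fun n : ℕ ↦ (n : ℝ)) (h p hp hpS)
      push_cast at this
      simp [this]
  have key : ∀ s : ℝ, 1 < s → s ≤ 2 →
      |((a : ℝ) - b) * Real.log (1 / (s - 1))| ≤ a * B₁ + b * B₂ + B₃ := by
    intro s hs hs2
    have h3 : |(a : ℝ) * primeSumOne F₁ s - b * primeSumOne F₂ s| ≤ B₃ := by
      refine le_trans (le_of_eq ?_) (hB₃ s (by linarith))
      rw [primeSumOne, primeSumOne, ← tsum_mul_left, ← tsum_mul_left,
        ← ((summable_primes_zetaTerm (K := F₁) hs).mul_left (a : ℝ)).tsum_sub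
          ((summable_primes_zetaTerm (K := F₂) hs).mul_left (b : ℝ))]
      simp only [← Complex.ofReal_mul, ← Complex.ofReal_tsum, Complex.norm_real, Real.norm_eq_abs]
      congr 1
      exact tsum_congr fun p ↦ by simp only [zetaTerm]; ring
    have h1 := abs_le.1 (hB₁ s hs hs2)
    have h2 := abs_le.1 (hB₂ s hs hs2)
    have h3' := abs_le.1 h3
    rw [abs_le]
    constructor <;> nlinarith [Nat.cast_nonneg (α := ℝ) a, Nat.cast_nonneg (α := ℝ) b]
  have h1 := nonpos_of_mul_log_le fun s hs hs2 ↦ (le_abs_self _).trans (key s hs hs2)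
  have h2 := nonpos_of_mul_log_le (a := (b : ℝ) - a) (B := a * B₁ + b * B₂ + B₃) fun s hs hs2 ↦ by
    refine le_trans ?_ (key s hs hs2)
    rw [show ((b : ℝ) - a) * Real.log (1 / (s - 1)) = -(((a : ℝ) - b) * Real.log (1 / (s - 1))) by ring]
    exact neg_le_abs _
  exact_mod_cast le_antisymm (sub_nonpos.1 h1) (sub_nonpos.1 h2)

/-- The number of characters trivial at `c`. -/
theorem card_characters_trivial {m : ℕ} [NeZero m] (c : (ZMod m)ˣ) :
    (Finset.univ.filter fun χ : DirichletCharacter ℂ m ↦ χ (c : ZMod m) = 1).card * orderOf c =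
      m.totient := by
  have h1 : ∀ χ : DirichletCharacter ℂ m, ∑ j ∈ Finset.range (orderOf c),
      χ (((c ^ j : (ZMod m)ˣ) : ZMod m)) = if χ (c : ZMod m) = 1 then (orderOf c : ℂ) else 0 := by
    intro χ
    simp only [Units.val_pow_eq_pow_val, map_pow]
    split_ifs with h
    · simp [h]
    · rw [geom_sum_eq h, ← map_pow, ← Units.val_pow_eq_pow_val, pow_orderOf_eq_one, Units.val_one,
        map_one, sub_self, zero_div]
  have h2 : ∑ χ : DirichletCharacter ℂ m, ∑ j ∈ Finset.range (orderOf c),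
      χ (((c ^ j : (ZMod m)ˣ) : ZMod m)) = (m.totient : ℂ) := by
    rw [Finset.sum_comm, Finset.sum_eq_single 0]
    · rw [pow_zero, Units.val_one, DirichletCharacter.sum_characters_eq, if_pos rfl]
    · intro j hj hj0
      rw [DirichletCharacter.sum_characters_eq, if_neg fun h ↦ hj0 ?_]
      have h' : c ^ j = 1 := Units.ext h
      exact Nat.eq_zero_of_dvd_of_lt (orderOf_dvd_of_pow_eq_one h') (Finset.mem_range.1 hj)
    · exact fun h ↦ absurd (Finset.mem_range.2 (orderOf_pos c)) h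
  simp only [h1, ← Finset.sum_filter, Finset.sum_const, nsmul_eq_mul] at h2
  exact_mod_cast h2

variable {L : Type} [Field L] [NumberField L] [IsGalois ℚ L] {G : Type} [Group G] [Finite G]
  {m : ℕ} [NeZero m] (π : (L ≃ₐ[ℚ] L) →* G) (κ : (L ≃ₐ[ℚ] L) →* (ZMod m)ˣ)

/-- `κ` is the cyclotomic character at almost all Frobenius elements. -/
def IsCyclotomicAt (S : Set ℕ) : Prop :=
  ∀ p : ℕ, p.Prime → p ∉ S → Separated L p ∧ ¬ p ∣ m ∧
    ∀ (Q : Ideal (𝓞 L)) (σ : L ≃ₐ[ℚ] L), IsFrobAt Q σ p → ((κ σ : (ZMod m)ˣ) : ZMod m) = p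

/-- The primes outside `S` with Frobenius in the class of `g` and residue `c`. -/
def crossPrimes (S : Set ℕ) (g : G) (c : (ZMod m)ˣ) : Set ℕ :=
  {p | p ∉ S ∧ ((p : ZMod m) = c) ∧
    ∀ (Q : Ideal (𝓞 L)) (σ : L ≃ₐ[ℚ] L), IsFrobAt Q σ p → IsConj g (π σ)}

variable (g : G) (c : (ZMod m)ˣ)

/-- The crossing subgroup. -/
def crossGroup : Subgroup (L ≃ₐ[ℚ] L) := (Subgroup.zpowers (g, c)).comap (π.prod κ)

/-- The crossing field. -/
def crossField : IntermediateField ℚ L := IntermediateField.fixedField (crossGroup π κ g c)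

/-- The field cut out by both homomorphisms. -/
def kerField : IntermediateField ℚ L := IntermediateField.fixedField (π.prod κ).ker

variable {π κ g c} {S : Set ℕ}

theorem orderOf_pair (hn : orderOf g ∣ orderOf c) : orderOf (g, c) = orderOf c := by
  rw [Prod.orderOf]
  exact Nat.lcm_eq_right hn

theorem card_crossGroup (hsurj : Function.Surjective (π.prod κ)) (hn : orderOf g ∣ orderOf c) :
    Nat.card (crossGroup π κ g c) = Nat.card (π.prod κ).ker * orderOf c := by
  rw [← orderOf_pair hn, ← Nat.card_zpowers]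
  set f := ((π.prod κ).domRestrict (crossGroup π κ g c)).codRestrict (Subgroup.zpowers (g, c))
    fun x ↦ x.2
  have hf : Function.Surjective f := fun z ↦ by
    obtain ⟨y, hy⟩ := hsurj z.1
    exact ⟨⟨y, show (π.prod κ) y ∈ _ by rw [hy]; exact z.2⟩, Subtype.ext hy⟩
  rw [f.ker.card_eq_card_quotient_mul_card_subgroup, mul_comm,
    Nat.card_congr (QuotientGroup.quotientKerEquivOfSurjective f hf).toEquiv]
  congr 1
  refine Nat.card_congr ⟨fun x ↦ ⟨x.1.1, congrArg Subtype.val x.2⟩,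
    fun x ↦ ⟨⟨x.1, show (π.prod κ) x.1 ∈ Subgroup.zpowers (g, c) by rw [x.2]; exact one_mem _⟩,
      Subtype.ext x.2⟩, fun x ↦ rfl, fun x ↦ rfl⟩

theorem card_gal (hsurj : Function.Surjective (π.prod κ)) :
    Nat.card (L ≃ₐ[ℚ] L) = Nat.card (π.prod κ).ker * (Nat.card G * m.totient) := by
  rw [(π.prod κ).ker.card_eq_card_quotient_mul_card_subgroup, mul_comm,
    Nat.card_congr (QuotientGroup.quotientKerEquivOfSurjective _ hsurj).toEquiv, Nat.card_prod,
    Nat.card_eq_fintype_card (α := (ZMod m)ˣ), ZMod.card_units_eq_totient]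

/-- Membership of a Frobenius conjugate in the crossing group. -/
theorem mem_crossGroup_cases (hn : orderOf g ∣ orderOf c) {y : L ≃ₐ[ℚ] L}
    (hy : y ∈ crossGroup π κ g c) :
    (∃ k : ℕ, π y = g ^ k ∧ κ y = c ^ k) ∧ (κ y = c → π y = g) ∧ (κ y = 1 → π y = 1) := by
  obtain ⟨k, hk⟩ := mem_powers_iff_mem_zpowers.2 (show (π.prod κ) y ∈ Subgroup.zpowers (g, c) from hy)
  have h1 : g ^ k = π y := congrArg Prod.fst hk
  have h2 : c ^ k = κ y := congrArg Prod.snd hk
  refine ⟨⟨k, h1.symm, h2.symm⟩, fun h ↦ ?_, fun h ↦ ?_⟩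
  · have h3 : c ^ k = c ^ 1 := by rw [h2, h, pow_one]
    rw [pow_eq_pow_iff_modEq] at h3
    rw [← h1]
    conv_rhs => rw [← pow_one g]
    rw [pow_eq_pow_iff_modEq]
    exact h3.of_dvd hn
  · rw [← h1]
    exact orderOf_dvd_iff_pow_eq_one.1 (hn.trans (orderOf_dvd_of_pow_eq_one (h2.trans h)))

theorem conj_kappa (y σ : L ≃ₐ[ℚ] L) : κ (y * σ * y⁻¹) = κ σ := by
  rw [map_mul, map_mul, map_inv, mul_comm (κ y), mul_inv_cancel_right]

/-- The degree one count at residue `1`. -/
theorem idealCount_crossField_one (hsurj : Function.Surjective (π.prod κ))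
    (hn : orderOf g ∣ orderOf c) (hκ : IsCyclotomicAt κ S) {p : ℕ} (hp : p.Prime) (hpS : p ∉ S) :
    (if (p : ZMod m) = 1 then idealCount (crossField π κ g c) p else 0) * orderOf c =
      idealCount (kerField π κ) p := by
  obtain ⟨hsep, -, hfr⟩ := hκ p hp hpS
  obtain ⟨Q, σ, hσ⟩ := exists_isFrobAt (L := L) hp
  have hp' := hfr Q σ hσ
  have hker : ∀ y, y * σ * y⁻¹ ∈ (π.prod κ).ker ↔ σ ∈ (π.prod κ).ker := fun y ↦
    ⟨fun h ↦ by simpa [mul_assoc] using Subgroup.Normal.conj_mem inferInstance _ h y⁻¹,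
      fun h ↦ Subgroup.Normal.conj_mem inferInstance _ h y⟩
  have h2 : idealCount (kerField π κ) p * Nat.card (π.prod κ).ker =
      Nat.card {y : L ≃ₐ[ℚ] L // y * σ * y⁻¹ ∈ (π.prod κ).ker} :=
    idealCount_fixedField_mul hp hsep _ hσ
  have h1 : idealCount (crossField π κ g c) p * Nat.card (crossGroup π κ g c) =
      Nat.card {y : L ≃ₐ[ℚ] L // y * σ * y⁻¹ ∈ crossGroup π κ g c} :=
    idealCount_fixedField_mul hp hsep _ hσ
  simp only [hker] at h2
  refine Nat.eq_of_mul_eq_mul_right (Nat.card_pos : 0 < Nat.card (π.prod κ).ker) ?_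
  rw [h2]
  by_cases h : (p : ZMod m) = 1
  · rw [if_pos h, mul_assoc, mul_comm (orderOf c), ← card_crossGroup hsurj hn, h1]
    have hκ1 : κ σ = 1 := Units.ext (hp'.trans h)
    have hiff : ∀ y, y * σ * y⁻¹ ∈ crossGroup π κ g c ↔ σ ∈ (π.prod κ).ker := fun y ↦ by
      refine ⟨fun hy ↦ ?_, fun hy ↦ ?_⟩
      · have h3 := (mem_crossGroup_cases hn hy).2.2 ((conj_kappa y σ).trans hκ1)
        rw [map_mul, map_mul, map_inv, mul_inv_eq_one, mul_eq_left] at h3
        exact Prod.ext h3 hκ1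
      · exact show (π.prod κ) (y * σ * y⁻¹) ∈ Subgroup.zpowers (g, c) by
          rw [(hker y).2 hy]; exact one_mem _
    simp only [hiff]
  · rw [if_neg h, zero_mul, zero_mul]
    have : IsEmpty {y : L ≃ₐ[ℚ] L // σ ∈ (π.prod κ).ker} :=
      ⟨fun y ↦ h (by
        have h4 : κ σ = 1 := congrArg Prod.snd y.2
        rw [← hp', h4, Units.val_one])⟩
    exact Nat.card_of_isEmpty.symm

/-- The degree one count at residue `c` only sees the class of `g`. -/
theorem idealCount_crossField_le (hsurj : Function.Surjective (π.prod κ))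
    (hn : orderOf g ∣ orderOf c) (hκ : IsCyclotomicAt κ S) {p : ℕ} (hp : p.Prime) (hpS : p ∉ S)
    (hpc : (p : ZMod m) = c) (hpos : 0 < idealCount (crossField π κ g c) p) :
    p ∈ crossPrimes π S g c ∧
      idealCount (crossField π κ g c) p * orderOf c * Nat.card (conjugatesOf g) ≤
        m.totient * Nat.card G := by
  obtain ⟨hsep, -, hfr⟩ := hκ p hp hpS
  have key : ∀ (Q : Ideal (𝓞 L)) (σ : L ≃ₐ[ℚ] L), IsFrobAt Q σ p → ∀ y,
      y * σ * y⁻¹ ∈ crossGroup π κ g c → π y * π σ * (π y)⁻¹ = g := fun Q σ hσ y hy ↦ by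
    have h1 := (mem_crossGroup_cases hn hy).2.1
      ((conj_kappa y σ).trans (Units.ext ((hfr Q σ hσ).trans hpc)))
    rwa [map_mul, map_mul, map_inv] at h1
  have hcount := fun (Q : Ideal (𝓞 L)) (σ : L ≃ₐ[ℚ] L) (hσ : IsFrobAt Q σ p) ↦
    idealCount_fixedField_mul hp hsep (crossGroup π κ g c) hσ
  refine ⟨⟨hpS, hpc, fun Q σ hσ ↦ ?_⟩, ?_⟩
  · have : 0 < idealCount (crossField π κ g c) p * Nat.card (crossGroup π κ g c) :=
      Nat.mul_pos hpos Nat.card_pos
    rw [show idealCount (crossField π κ g c) p * Nat.card (crossGroup π κ g c) = _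
      from hcount Q σ hσ] at this
    obtain ⟨⟨y, hy⟩⟩ := (Nat.card_pos_iff.1 this).1
    exact (isConj_iff.2 ⟨π y, key Q σ hσ y hy⟩).symm
  · obtain ⟨Q, σ, hσ⟩ := exists_isFrobAt (L := L) hp
    have h := hcount Q σ hσ
    have hle : Nat.card {y : L ≃ₐ[ℚ] L // y * σ * y⁻¹ ∈ crossGroup π κ g c} ≤
        Nat.card (π.prod κ).ker * m.totient * Nat.card {z : G // z * π σ * z⁻¹ = g} := by
      have hs : Function.Surjective (π.prod κ) := hsurj
      choose lift hlift using fun z : G × (ZMod m)ˣ ↦ hs z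
      calc _ ≤ Nat.card ((π.prod κ).ker × (ZMod m)ˣ × {z : G // z * π σ * z⁻¹ = g}) := by
            refine Nat.card_le_card_of_injective (fun y ↦ (⟨y.1 * (lift (π y.1, κ y.1))⁻¹, ?_⟩,
              κ y.1, ⟨π y.1, key Q σ hσ y.1 y.2⟩)) ?_
            · rw [MonoidHom.mem_ker, map_mul, map_inv, hlift, mul_inv_eq_one]
              rfl
            · intro a b hab
              simp only [Prod.mk.injEq, Subtype.mk.injEq] at hab
              obtain ⟨h1, h2, h3⟩ := hab
              rw [h2, h3] at h1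
              exact Subtype.ext (mul_right_cancel h1)
        _ = _ := by
            rw [Nat.card_prod, Nat.card_prod, Nat.card_eq_fintype_card (α := (ZMod m)ˣ),
              ZMod.card_units_eq_totient, mul_assoc]
    have horb : Nat.card {z : G // z * π σ * z⁻¹ = g} * Nat.card (conjugatesOf g) ≤ Nat.card G := by
      have hz : ∀ x : conjugatesOf g, ∃ w : G, w * g * w⁻¹ = x := fun x ↦
        isConj_iff.1 (show IsConj g x from x.2)
      choose w hw using hz
      rw [← Nat.card_prod]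
      refine Nat.card_le_card_of_injective (fun a ↦ w a.2 * a.1.1) ?_
      rintro ⟨⟨z, hz⟩, x⟩ ⟨⟨z', hz'⟩, x'⟩ (hab : w x * z = w x' * z')
      have hx : (x : G) = x' := by
        rw [← hw x, ← hw x']
        nth_rewrite 1 [← hz]
        nth_rewrite 1 [← hz']
        rw [show w x * (z * π σ * z⁻¹) * (w x)⁻¹ = w x * z * π σ * (w x * z)⁻¹ by group, hab]
        group
      have hx' : x = x' := Subtype.ext hx
      subst hx'
      exact Prod.ext (Subtype.ext (mul_left_cancel hab)) rfl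
    have h' : idealCount (crossField π κ g c) p * Nat.card (crossGroup π κ g c) ≤
        Nat.card (π.prod κ).ker * m.totient * Nat.card {z : G // z * π σ * z⁻¹ = g} :=
      (le_of_eq h).trans hle
    rw [card_crossGroup hsurj hn] at h'
    refine Nat.le_of_mul_le_mul_left ?_ (Nat.card_pos : 0 < Nat.card (π.prod κ).ker)
    calc Nat.card (π.prod κ).ker *
          (idealCount (crossField π κ g c) p * orderOf c * Nat.card (conjugatesOf g))
        = idealCount (crossField π κ g c) p * (Nat.card (π.prod κ).ker * orderOf c) *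
            Nat.card (conjugatesOf g) := by ring
      _ ≤ Nat.card (π.prod κ).ker * m.totient * Nat.card {z : G // z * π σ * z⁻¹ = g} *
            Nat.card (conjugatesOf g) := Nat.mul_le_mul_right _ h'
      _ ≤ Nat.card (π.prod κ).ker * (m.totient * Nat.card G) := by
            rw [mul_assoc, mul_assoc]
            exact Nat.mul_le_mul_left _ (Nat.mul_le_mul_left _ horb)

/-- Characters nontrivial at `c` are nontrivial on the norms of the crossing field. -/
theorem apply_eq_one_of_not_nontrivial (hsurj : Function.Surjective (π.prod κ)) (hS : S.Finite)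
    (hκ : IsCyclotomicAt κ S) {χ : DirichletCharacter ℂ m}
    (hχ : ¬ NontrivialOnNorms (crossField π κ g c) χ) : χ (c : ZMod m) = 1 := by
  by_contra hne
  have hfin := Set.not_infinite.1 hχ
  set θ : (L ≃ₐ[ℚ] L) →* ℂ := (χ.toMonoidHom).comp ((Units.coeHom (ZMod m)).comp κ) with hθdef
  let H' : Subgroup (L ≃ₐ[ℚ] L) := crossGroup π κ g c ⊓ θ.ker
  have key := eq_of_idealCount_mul_eq (F₁ := crossField π κ g c)
    (F₂ := (IntermediateField.fixedField H' : IntermediateField ℚ L))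
    (Nat.card (crossGroup π κ g c)) (Nat.card H') (hS.union hfin) fun p hp hpS ↦ by
      obtain ⟨hsep, hpm, hfr⟩ := hκ p hp fun h ↦ hpS (Or.inl h)
      obtain ⟨Q, σ, hσ⟩ := exists_isFrobAt (L := L) hp
      have h1 : idealCount (crossField π κ g c) p * Nat.card (crossGroup π κ g c) =
          Nat.card {y : L ≃ₐ[ℚ] L // y * σ * y⁻¹ ∈ crossGroup π κ g c} :=
        idealCount_fixedField_mul hp hsep _ hσ
      rw [mul_comm, h1, mul_comm, idealCount_fixedField_mul hp hsep H' hσ]
      refine Nat.card_congr (Equiv.subtypeEquivRight fun y ↦ ⟨fun hy ↦ ⟨hy, ?_⟩, fun hy ↦ hy.1⟩)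
      have hpos : 0 < idealCount (crossField π κ g c) p := by
        have : Nonempty {y : L ≃ₐ[ℚ] L // y * σ * y⁻¹ ∈ crossGroup π κ g c} := ⟨⟨y, hy⟩⟩
        have h2 : 0 < idealCount (crossField π κ g c) p * Nat.card (crossGroup π κ g c) :=
          h1 ▸ Nat.card_pos
        exact Nat.pos_of_mul_pos_right h2
      have hval : χ ((p : ℕ) : ZMod m) = 1 := by
        by_contra hv
        refine hpS (Or.inr ⟨hp, hpos, ?_, hv⟩)
        have hu : IsUnit ((p : ℕ) : ZMod m) :=
          (ZMod.isUnit_iff_coprime p m).2 (hp.coprime_iff_not_dvd.2 hpm)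
        exact (hu.map χ).ne_zero
      show θ (y * σ * y⁻¹) = 1
      simp only [hθdef, MonoidHom.comp_apply, Units.coeHom_apply, conj_kappa, hfr Q σ hσ]
      exact hval
  obtain ⟨y, hy⟩ := hsurj (g, c)
  have hyH : y ∈ crossGroup π κ g c := show (π.prod κ) y ∈ _ by
    rw [hy]; exact Subgroup.mem_zpowers _
  have heq : H' = crossGroup π κ g c :=
    Subgroup.eq_of_le_of_card_ge inf_le_left key.le
  have h3 : θ y = 1 := (heq.symm ▸ hyH : y ∈ H').2
  refine hne ?_
  have hyc : κ y = c := congrArg Prod.snd hy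
  simpa [hθdef, hyc] using h3

/-- A residue class twisted by characters. -/
theorem sum_inv_mul_primeSum {F : Type*} [Field F] [NumberField F] (a : (ZMod m)ˣ) {s : ℝ}
    (hs : 1 < s) :
    ∑ χ : DirichletCharacter ℂ m, χ ((a : ZMod m))⁻¹ * primeSum F χ s =
      (m.totient : ℂ) * ((∑' p : Nat.Primes,
        if ((p : ℕ) : ZMod m) = a then zetaTerm F s p else 0 : ℝ) : ℂ) := by
  simp only [primeSum, ← tsum_mul_left, Complex.ofReal_tsum]
  rw [← Summable.tsum_finsetSum fun χ _ ↦ (summable_twistTerm hs).mul_left _]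
  refine tsum_congr fun p ↦ ?_
  simp only [twistTerm, ← mul_assoc, ← Finset.sum_mul,
    DirichletCharacter.sum_char_inv_mul_char_eq ℂ a.isUnit, eq_comm (a := (a : ZMod m))]
  split_ifs <;> simp

/-- **The crossing estimate.** -/
theorem exists_crossPrimes_lower (hsurj : Function.Surjective (π.prod κ))
    (hn : orderOf g ∣ orderOf c) (hS : S.Finite) (hκ : IsCyclotomicAt κ S) :
    ∃ D : ℝ, ∀ s : ℝ, 1 < s → s ≤ 2 →
      (Nat.card (conjugatesOf g) : ℝ) / (Nat.card G * m.totient) * Real.log (1 / (s - 1)) - D ≤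
        ∑' p : Nat.Primes, primeWeight (crossPrimes π S g c) s p := by
  set F := crossField π κ g c
  set M := kerField π κ
  set T := Finset.univ.filter fun χ : DirichletCharacter ℂ m ↦ ¬ NontrivialOnNorms F χ
  set oc : ℕ := orderOf c
  have hoc : (0 : ℝ) < oc := Nat.cast_pos.2 (orderOf_pos c)
  have hφ : (0 : ℝ) < m.totient := Nat.cast_pos.2 (Nat.totient_pos.2 (NeZero.pos m))
  obtain ⟨BF, hBF⟩ := exists_primeSumOne_bound F
  obtain ⟨BM, hBM⟩ := exists_primeSumOne_bound M
  -- trivial characters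
  have htriv : ∀ χ ∈ T, ∃ B : ℝ, ∀ s : ℝ, 1 < s → s ≤ 2 →
      ‖primeSum F χ s - (Real.log (1 / (s - 1)) : ℂ)‖ ≤ B := by
    intro χ hχ
    have hfin := Set.not_infinite.1 (Finset.mem_filter.1 hχ).2
    obtain ⟨B, hB⟩ := exists_bound_finite_diff (S := S ∪ _) (hS.union hfin)
      (fun p ↦ (χ (p : ℕ) - 1) * (idealCount F p : ℂ)) fun p hp hpS ↦ by
        rcases Nat.eq_zero_or_pos (idealCount F p) with h0 | hpos
        · simp [h0]
        have hu : IsUnit ((p : ℕ) : ZMod m) := (ZMod.isUnit_iff_coprime p m).2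
          (hp.coprime_iff_not_dvd.2 (hκ p hp fun h ↦ hpS (Or.inl h)).2.1)
        by_cases hv : χ ((p : ℕ) : ZMod m) = 1
        · simp [hv]
        · exact absurd (Or.inr ⟨hp, hpos, (hu.map χ).ne_zero, hv⟩) hpS
    refine ⟨B + BF, fun s hs hs2 ↦ ?_⟩
    have h1 : ‖primeSum F χ s - (primeSumOne F s : ℂ)‖ ≤ B := by
      refine le_trans (le_of_eq ?_) (hB s (by linarith))
      rw [primeSum, primeSumOne, Complex.ofReal_tsum, ← (summable_twistTerm hs).tsum_sub
        (Complex.summable_ofReal.2 (summable_primes_zetaTerm hs))]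
      congr 1
      refine tsum_congr fun p ↦ ?_
      simp only [twistTerm, zetaTerm]
      push_cast
      ring
    have h2 : ‖(primeSumOne F s : ℂ) - (Real.log (1 / (s - 1)) : ℂ)‖ ≤ BF := by
      rw [← Complex.ofReal_sub, Complex.norm_real]
      exact hBF s hs hs2
    calc ‖primeSum F χ s - (Real.log (1 / (s - 1)) : ℂ)‖
        ≤ ‖primeSum F χ s - (primeSumOne F s : ℂ)‖ +
          ‖(primeSumOne F s : ℂ) - (Real.log (1 / (s - 1)) : ℂ)‖ := norm_sub_le_norm_sub_add_norm_sub ..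
      _ ≤ B + BF := add_le_add h1 h2
  have hTc : ∀ χ ∈ T, χ (c : ZMod m) = 1 := fun χ hχ ↦
    apply_eq_one_of_not_nontrivial hsurj hS hκ (Finset.mem_filter.1 hχ).2
  have hre : ∀ χ ∉ T, ∃ B : ℝ, ∀ s : ℝ, 1 < s → s ≤ 2 → (primeSum F χ s).re ≤ B := fun χ hχ ↦
    exists_re_primeSum_le (by simpa [T] using hχ)
  choose! BT hBT using htriv
  choose! BR hBR using hre
  -- residue `1`
  obtain ⟨B1, hB1⟩ : ∃ B : ℝ, ∀ s : ℝ, 1 < s → s ≤ 2 →
      |(∑ χ : DirichletCharacter ℂ m, (primeSum F χ s).re) -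
        m.totient / oc * Real.log (1 / (s - 1))| ≤ B := by
    obtain ⟨B, hB⟩ := exists_bound_finite_diff hS
      (fun p ↦ ((((if (p : ZMod m) = 1 then idealCount F p else 0) * oc : ℕ) : ℝ) -
        idealCount M p : ℂ)) fun p hp hpS ↦ by
          rw [idealCount_crossField_one hsurj hn hκ hp hpS]
          simp [M]
    refine ⟨m.totient / oc * (B + BM), fun s hs hs2 ↦ ?_⟩
    set A := ∑' p : Nat.Primes, if ((p : ℕ) : ZMod m) = ((1 : (ZMod m)ˣ) : ZMod m) then zetaTerm F s p else 0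
    have hA : Summable fun p : Nat.Primes ↦
        if ((p : ℕ) : ZMod m) = ((1 : (ZMod m)ˣ) : ZMod m) then zetaTerm F s p else 0 :=
      (summable_primes_zetaTerm hs).of_nonneg_of_le
        (fun p ↦ by split_ifs; exacts [zetaTerm_nonneg F s _, le_rfl])
        (fun p ↦ by split_ifs; exacts [le_rfl, zetaTerm_nonneg F s _])
    have hsumA : (∑ χ : DirichletCharacter ℂ m, (primeSum F χ s).re) = m.totient * A := by
      have h := congrArg Complex.re (sum_inv_mul_primeSum (F := F) (1 : (ZMod m)ˣ) hs)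
      simpa [Complex.mul_re, ZMod.inv_coe_unit, A] using h
    have h1 : |A * oc - primeSumOne M s| ≤ B := by
      refine le_trans (le_of_eq ?_) (hB s (by linarith))
      rw [primeSumOne, ← tsum_mul_right, ← (hA.mul_right _).tsum_sub (summable_primes_zetaTerm hs),
        ← Real.norm_eq_abs, ← Complex.norm_real, Complex.ofReal_tsum]
      congr 1
      refine tsum_congr fun p ↦ ?_
      simp only [zetaTerm, Units.val_one]
      split_ifs <;> push_cast <;> ring
    have h2 := hBM s hs hs2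
    rw [hsumA, show (m.totient : ℝ) * A - m.totient / oc * Real.log (1 / (s - 1)) =
      m.totient / oc * ((A * oc - primeSumOne M s) + (primeSumOne M s - Real.log (1 / (s - 1)))) by
      field_simp; ring, abs_mul, abs_of_nonneg (by positivity)]
    exact mul_le_mul_of_nonneg_left ((abs_add_le _ _).trans (add_le_add h1 h2)) (by positivity)
  have hsplit : ∀ s, (∑ χ : DirichletCharacter ℂ m, (primeSum F χ s).re) =
      (∑ χ ∈ T, (primeSum F χ s).re) + ∑ χ ∈ Tᶜ, (primeSum F χ s).re := fun s ↦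
    (Finset.sum_add_sum_compl T _).symm
  have hTre : ∀ s : ℝ, 1 < s → s ≤ 2 →
      |(∑ χ ∈ T, (primeSum F χ s).re) - T.card * Real.log (1 / (s - 1))| ≤ ∑ χ ∈ T, BT χ := by
    intro s hs hs2
    rw [← nsmul_eq_mul, ← Finset.sum_const, ← Finset.sum_sub_distrib]
    refine (Finset.abs_sum_le_sum_abs _ _).trans (Finset.sum_le_sum fun χ hχ ↦ ?_)
    have := (Complex.abs_re_le_norm _).trans (hBT χ hχ s hs hs2)
    simpa using this
  have hle1 : (T.card : ℝ) ≤ m.totient / oc := by
    rw [le_div_iff₀ hoc]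
    have := card_characters_trivial c
    rw [← this]
    push_cast
    gcongr
    exact fun χ hχ ↦ Finset.mem_filter.2 ⟨Finset.mem_univ _, hTc χ hχ⟩
  have hle2 : (m.totient : ℝ) / oc - T.card ≤ 0 := by
    refine nonpos_of_mul_log_le (B := B1 + ∑ χ ∈ T, BT χ + ∑ χ ∈ Tᶜ, BR χ) fun s hs hs2 ↦ ?_
    have h1 := abs_le.1 (hB1 s hs hs2)
    have h2 := abs_le.1 (hTre s hs hs2)
    have h3 : ∑ χ ∈ Tᶜ, (primeSum F χ s).re ≤ ∑ χ ∈ Tᶜ, BR χ :=
      Finset.sum_le_sum fun χ hχ ↦ hBR χ (Finset.mem_compl.1 hχ) s hs hs2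
    rw [hsplit s] at h1
    rw [sub_mul]
    linarith [h1.1, h2.2]
  have hT : (T.card : ℝ) = m.totient / oc := le_antisymm hle1 (by linarith)
  have hnorm : ∀ χ ∉ T, ∃ B : ℝ, ∀ s : ℝ, 1 < s → s ≤ 2 → ‖primeSum F χ s‖ ≤ B := by
    intro χ hχ
    refine exists_norm_primeSum_le (by simpa [T] using hχ)
      ⟨B1 + ∑ ψ ∈ T, BT ψ + ∑ ψ ∈ Tᶜ.erase χ, BR ψ, fun s hs hs2 ↦ ?_⟩
    have h1 := abs_le.1 (hB1 s hs hs2)
    have h2 := abs_le.1 (hTre s hs hs2)
    rw [hsplit s, ← Finset.add_sum_erase _ _ (Finset.mem_compl.2 hχ), ← hT] at h1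
    have h3 : ∑ ψ ∈ Tᶜ.erase χ, (primeSum F ψ s).re ≤ ∑ ψ ∈ Tᶜ.erase χ, BR ψ :=
      Finset.sum_le_sum fun ψ hψ ↦
        hBR ψ (Finset.mem_compl.1 (Finset.mem_of_mem_erase hψ)) s hs hs2
    linarith [h1.1, h2.2]
  choose! BN hBN using hnorm
  -- residue `c`
  obtain ⟨BS, hBS⟩ := exists_bound_finite_diff hS (fun p ↦ if p ∈ S then (idealCount F p : ℂ) else 0)
    fun p _ hpS ↦ if_neg hpS
  set w : ℝ := (oc : ℝ) * Nat.card (conjugatesOf g) / (m.totient * Nat.card G)
  have hw : 0 ≤ w := by positivity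
  refine ⟨w * ((∑ χ ∈ T, BT χ + ∑ χ ∈ Tᶜ, BN χ) / m.totient + BS), fun s hs hs2 ↦ ?_⟩
  set A := ∑' p : Nat.Primes, if ((p : ℕ) : ZMod m) = (c : ZMod m) then zetaTerm F s p else 0
  have hlow : Real.log (1 / (s - 1)) / oc - (∑ χ ∈ T, BT χ + ∑ χ ∈ Tᶜ, BN χ) / m.totient ≤ A := by
    have h := sum_inv_mul_primeSum (F := F) c hs
    rw [← Finset.sum_add_sum_compl T] at h
    have h1 : ‖(∑ χ ∈ T, χ ((c : ZMod m))⁻¹ * primeSum F χ s) -
        ((T.card * Real.log (1 / (s - 1)) : ℝ) : ℂ)‖ ≤ ∑ χ ∈ T, BT χ := by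
      push_cast
      rw [← nsmul_eq_mul, ← Finset.sum_const, ← Finset.sum_sub_distrib]
      refine (norm_sum_le _ _).trans (Finset.sum_le_sum fun χ hχ ↦ ?_)
      have hinv : χ ((c : ZMod m))⁻¹ = 1 := by
        have h2 : χ ((c⁻¹ : (ZMod m)ˣ) : ZMod m) * χ (c : ZMod m) = 1 := by
          rw [← map_mul, ← Units.val_mul, inv_mul_cancel, Units.val_one, map_one]
        rwa [hTc χ hχ, mul_one, ← ZMod.inv_coe_unit] at h2
      rw [hinv, one_mul]
      simpa using hBT χ hχ s hs hs2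
    have h2 : ‖∑ χ ∈ Tᶜ, χ ((c : ZMod m))⁻¹ * primeSum F χ s‖ ≤ ∑ χ ∈ Tᶜ, BN χ := by
      refine (norm_sum_le _ _).trans (Finset.sum_le_sum fun χ hχ ↦ ?_)
      rw [norm_mul]
      exact (mul_le_of_le_one_left (norm_nonneg _) (χ.norm_le_one _)).trans
        (hBN χ (Finset.mem_compl.1 hχ) s hs hs2)
    have h3 : |(m.totient : ℝ) * A - T.card * Real.log (1 / (s - 1))| ≤
        ∑ χ ∈ T, BT χ + ∑ χ ∈ Tᶜ, BN χ := by
      rw [← Real.norm_eq_abs, ← Complex.norm_real, Complex.ofReal_sub, Complex.ofReal_mul,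
        Complex.ofReal_natCast, ← h, add_sub_right_comm]
      exact (norm_add_le _ _).trans (add_le_add h1 h2)
    rw [hT] at h3
    have h4 := (abs_le.1 h3).1
    rw [div_sub_div _ _ hoc.ne' hφ.ne', div_le_iff₀ (by positivity)]
    field_simp at h4
    nlinarith
  have hA : Summable fun p : Nat.Primes ↦
      if ((p : ℕ) : ZMod m) = (c : ZMod m) then zetaTerm F s p else 0 :=
    (summable_primes_zetaTerm hs).of_nonneg_of_le
      (fun p ↦ by split_ifs; exacts [zetaTerm_nonneg F s _, le_rfl])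
      (fun p ↦ by split_ifs; exacts [le_rfl, zetaTerm_nonneg F s _])
  have hW := summable_primeWeight (crossPrimes π S g c) hs
  set E := fun p : Nat.Primes ↦ (if (p : ℕ) ∈ S then (idealCount F p : ℝ) else 0) * ((p : ℕ) : ℝ) ^ (-s)
  have hE : Summable E := (summable_primes_zetaTerm (K := F) hs).of_nonneg_of_le
    (fun p ↦ by simp only [E]; positivity)
    (fun p ↦ by simp only [E, zetaTerm]; split_ifs <;> simp <;> positivity)
  have hEB : ∑' p, E p ≤ BS := by
    refine le_trans (le_of_eq ?_) ((Complex.re_le_norm _).trans (hBS s (by linarith)))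
    rw [show (fun p : Nat.Primes ↦ (if (p : ℕ) ∈ S then (idealCount F p : ℂ) else 0) *
      ((((p : ℕ) : ℝ) ^ (-s) : ℝ) : ℂ)) = fun p ↦ ((E p : ℝ) : ℂ) from funext fun p ↦ by
        simp only [E]; split_ifs <;> simp, ← Complex.ofReal_tsum, Complex.ofReal_re]
  have hAW : w * A ≤ (∑' p : Nat.Primes, primeWeight (crossPrimes π S g c) s p) + w * ∑' p, E p := by
    simp only [A]
    rw [← tsum_mul_left, ← tsum_mul_left, ← hW.tsum_add (hE.mul_left w)]
    refine (hA.mul_left w).tsum_le_tsum (fun p ↦ ?_) (hW.add (hE.mul_left w))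
    simp only [E, zetaTerm]
    have hW0 := primeWeight_nonneg (crossPrimes π S g c) s p
    split_ifs with hpc hpS hpS
    · linarith
    · rcases Nat.eq_zero_or_pos (idealCount F p) with h0 | hpos
      · simpa [h0] using hW0
      · obtain ⟨hmem, hle⟩ := idealCount_crossField_le hsurj hn hκ p.2 hpS hpc hpos
        rw [primeWeight, if_pos hmem, zero_mul, mul_zero, add_zero, ← mul_assoc]
        refine mul_le_of_le_one_left (by positivity) ?_
        simp only [w, div_mul_eq_mul_div]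
        rw [div_le_one (mul_pos hφ (Nat.cast_pos.2 Nat.card_pos))]
        calc (oc : ℝ) * Nat.card (conjugatesOf g) * idealCount F p =
              ((idealCount F p * oc * Nat.card (conjugatesOf g) : ℕ) : ℝ) := by push_cast; ring
          _ ≤ ((m.totient * Nat.card G : ℕ) : ℝ) := Nat.cast_le.2 hle
          _ = _ := by push_cast; ring
    · rw [mul_zero]; positivity
    · rw [mul_zero]; positivity
  have h5 : w * (Real.log (1 / (s - 1)) / oc) =
      (Nat.card (conjugatesOf g) : ℝ) / (Nat.card G * m.totient) * Real.log (1 / (s - 1)) := by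
    simp only [w]
    field_simp
  rw [← h5]
  nlinarith [mul_le_mul_of_nonneg_left hlow hw, mul_le_mul_of_nonneg_left hEB hw]

end Fermat.Agent.DS
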