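import Fermat.Agent.Density.Qbar

/-!
# Restricting Frobenius elements of `ℚ̄` to a finite Galois level
-/

set_option autoImplicit false
set_option linter.unusedSectionVars false

noncomputable section

namespace Fermat.Agent.DS

open NumberField Fermat.Agent.Density
open scoped Pointwise

attribute [local instance] Density.normal_qbar

variable (L : IntermediateField ℚ (AlgebraicClosure ℚ)) [NumberField L] [Normal ℚ L]

/-- The prime of a level under a valuation subring of `ℚ̄`. -/
def levelIdeal (A : ValuationSubring (AlgebraicClosure ℚ)) : Ideal (𝓞 L) :=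
  (IsLocalRing.maximalIdeal A).comap (levelToPlace L A)

variable {L}

theorem isFrobAt_restrictNormal {A : ValuationSubring (AlgebraicClosure ℚ)} {p : ℕ}
    (hA : A.LiesOverPrime p) {σ : AlgebraicClosure ℚ ≃ₐ[ℚ] AlgebraicClosure ℚ}
    (hσ : A.IsFrobeniusAt σ p) : IsFrobAt (levelIdeal L A) (σ.restrictNormal L) p := by
  have hmem : ∀ x : 𝓞 L, x ∈ levelIdeal L A ↔
      (((x : L) : AlgebraicClosure ℚ)) ∈ A.nonunits := by
    intro x
    rw [levelIdeal, Ideal.mem_comap, ← A.coe_mem_nonunits_iff]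
    rfl
  have : (levelIdeal L A).IsPrime := by unfold levelIdeal; infer_instance
  refine ⟨inferInstance, ?_, fun x => ?_⟩
  · rw [hmem]
    exact hA
  · rw [hmem]
    have key : ((((σ.restrictNormal L) • x - x ^ p : 𝓞 L) : L) : AlgebraicClosure ℚ) =
        σ ((x : L) : AlgebraicClosure ℚ) - ((x : L) : AlgebraicClosure ℚ) ^ p := by
      have h1 := AlgEquiv.restrictNormal_commutes σ L (x : L)
      rw [← show algebraMap L (AlgebraicClosure ℚ) (σ.restrictNormal L (x : L)) =
        σ ((x : L) : AlgebraicClosure ℚ) from h1]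
      rfl
    rw [key]
    exact Galois.isFrobeniusAt_sub_mem_nonunits hσ (levelToPlace L A x).2

/-- At a separated prime all Frobenius elements are conjugate. -/
theorem exists_conj_eq [IsGalois ℚ L] {p : ℕ} (hp : p.Prime) (hsep : Separated L p)
    {Q Q' : Ideal (𝓞 L)} {σ σ' : L ≃ₐ[ℚ] L} (h : IsFrobAt Q σ p) (h' : IsFrobAt Q' σ' p) :
    ∃ y : L ≃ₐ[ℚ] L, σ' = y * σ * y⁻¹ := by
  have := h.1
  have := h'.1
  obtain ⟨y, hy⟩ := Algebra.IsInvariant.exists_smul_of_under_eq ℤ (𝓞 L) (L ≃ₐ[ℚ] L) Q Q'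
    (by rw [under_int_eq hp h.1 h.2.1, under_int_eq hp h'.1 h'.2.1])
  exact ⟨y, h'.unique hp hsep (hy ▸ h.conj y)⟩

end Fermat.Agent.DS
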