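import Fermat.Agent.DS.Defs
import Fermat.Agent.DS.CrossField
import Fermat.Agent.DS.FrobLevel
import Fermat.Agent.Galois.Unramified
import Fermat.Agent.Galois.Cyclotomic
import Mathlib.NumberTheory.PrimesCongruentOne
import Mathlib.RingTheory.ZMod.UnitsCyclic
import Mathlib.Algebra.Group.Conj

/-!
# Chebotarev's density theorem, lower bound form
-/

set_option autoImplicit false

noncomputable section

namespace Fermat.Agent.DS

open NumberField Filter Topology Fermat.Agent.Density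
open scoped Classical

attribute [local instance] Density.normal_qbar

/-- The primes all whose Frobenius elements map into `C`. -/
def frobPrimes {G : Type*} [Monoid G] (ρ : GalQ →* G) (C : Set G) : Set ℕ :=
  {p | p.Prime ∧ ∀ A : ValuationSubring (AlgebraicClosure ℚ), A.LiesOverPrime p →
    ∀ σ : GalQ, A.IsFrobeniusAt σ p → ρ σ ∈ C}

/-- Few elements of a cyclic group of order divisible by `n ^ k` have order not divisible by `n`. -/
theorem card_not_dvd_orderOf_mul_le {α : Type*} [CommGroup α] [Fintype α] [IsCyclic α] {n k : ℕ}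
    (hn : n ≠ 0) (hdvd : n ^ (k + 1) ∣ Fintype.card α) :
    (Finset.univ.filter fun a : α ↦ ¬ n ∣ orderOf a).card * 2 ^ k ≤ n * Fintype.card α := by
  set N := Fintype.card α
  have hN : N ≠ 0 := Fintype.card_ne_zero
  have hr : ∀ r ∈ n.primeFactors, r ^ k ∣ N := fun r hr ↦
    (pow_dvd_pow_of_dvd (Nat.mem_primeFactors.1 hr).2.1 k).trans ((pow_dvd_pow n k.le_succ).trans hdvd)
  have hsub : (Finset.univ.filter fun a : α ↦ ¬ n ∣ orderOf a) ⊆
      n.primeFactors.biUnion fun r ↦ Finset.univ.filter fun a : α ↦ a ^ (N / r ^ k) = 1 := by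
    intro a ha
    rw [Finset.mem_filter] at ha
    obtain ⟨r, hr', hlt⟩ : ∃ r, r.Prime ∧ (orderOf a).factorization r < n.factorization r := by
      by_contra! h
      refine ha.2 ((Nat.factorization_le_iff_dvd hn (orderOf_pos a).ne').1 fun r ↦ ?_)
      by_cases hp : r.Prime
      · exact h r hp
      · simp [Nat.factorization_eq_zero_of_not_prime _ hp]
    have hrn : r ∈ n.primeFactors := by
      rw [← Nat.support_factorization, Finsupp.mem_support_iff]
      omega
    refine Finset.mem_biUnion.2 ⟨r, hrn, Finset.mem_filter.2 ⟨Finset.mem_univ _, ?_⟩⟩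
    rw [← orderOf_dvd_iff_pow_eq_one, Nat.dvd_div_iff_mul_dvd (hr r hrn)]
    have h1 := (Nat.factorization_le_iff_dvd (pow_ne_zero _ hn) hN).2 hdvd
    have hod : orderOf a ∣ N := orderOf_dvd_card
    have h2 := (Nat.factorization_le_iff_dvd (orderOf_pos a).ne' hN).2 hod
    refine (Nat.factorization_le_iff_dvd (mul_ne_zero (pow_ne_zero _ hr'.ne_zero)
      (orderOf_pos a).ne') hN).1 fun i ↦ ?_
    rw [Nat.factorization_mul (pow_ne_zero _ hr'.ne_zero) (orderOf_pos a).ne', Finsupp.add_apply,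
      Nat.Prime.factorization_pow hr']
    by_cases hi : i = r
    · subst hi
      have h3 := h1 i
      rw [Nat.factorization_pow] at h3
      simp only [Finsupp.smul_apply, smul_eq_mul] at h3
      rw [Finsupp.single_eq_same]
      nlinarith
    · rw [Finsupp.single_eq_of_ne hi, zero_add]
      exact h2 i
  calc (Finset.univ.filter fun a : α ↦ ¬ n ∣ orderOf a).card * 2 ^ k
      ≤ (∑ r ∈ n.primeFactors, N / r ^ k) * 2 ^ k := by
        refine Nat.mul_le_mul_right _ ((Finset.card_le_card hsub).trans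
          (Finset.card_biUnion_le.trans (Finset.sum_le_sum fun r hr' ↦ ?_)))
        refine IsCyclic.card_pow_eq_one_le (Nat.div_pos (Nat.le_of_dvd (Nat.pos_of_ne_zero hN)
          (hr r hr')) ?_)
        exact pow_pos (Nat.mem_primeFactors.1 hr').1.pos k
    _ ≤ n.primeFactors.card * N := by
        rw [Finset.sum_mul]
        refine Finset.sum_le_card_nsmul _ _ N fun r hr' ↦ ?_
        exact (Nat.mul_le_mul_left _ (Nat.pow_le_pow_left (Nat.mem_primeFactors.1 hr').1.two_le k)).trans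
          (Nat.div_mul_le_self _ _)
    _ ≤ n * N := Nat.mul_le_mul_right _ (by
        calc n.primeFactors.card ≤ (Finset.Icc 1 n).card := Finset.card_le_card fun r hr' ↦
              Finset.mem_Icc.2 ⟨(Nat.mem_primeFactors.1 hr').1.one_le,
                Nat.le_of_dvd (Nat.pos_of_ne_zero hn) (Nat.mem_primeFactors.1 hr').2.1⟩
          _ = n := by simp)

/-- The finite level data for crossing. -/
theorem exists_crossing {G : Type} [Group G] [Finite G] (ρ : GalQ →* G)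
    (hfac : GaloisFactorsThroughFiniteLevel ρ) (hsurj : Function.Surjective ρ) (N : ℕ) (hN : N ≠ 0) :
    ∃ q : ℕ, q.Prime ∧ N ∣ (q ^ 1).totient ∧ IsCyclic (ZMod (q ^ 1))ˣ ∧
      ∃ (L : IntermediateField ℚ (AlgebraicClosure ℚ)) (_ : FiniteDimensional ℚ L) (_ : Normal ℚ L)
        (_ : NumberField L) (π : (L ≃ₐ[ℚ] L) →* G) (κ : (L ≃ₐ[ℚ] L) →* (ZMod (q ^ 1))ˣ) (S : Set ℕ),
        S.Finite ∧ IsCyclotomicAt κ S ∧ Function.Surjective (π.prod κ) ∧
          ∀ σ : GalQ, ρ σ = π (σ.restrictNormal L) := by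
  obtain ⟨L₀, hL₀, hρ⟩ := hfac
  obtain ⟨S₀, hS₀⟩ := Galois.exists_finset_inertiaLE L₀
  obtain ⟨q, hq, hqlt, hqmod⟩ := Nat.exists_prime_gt_modEq_one (S₀.sup id + 2) hN
  have hqS : q ∉ S₀ := fun h ↦ by
    have := Finset.le_sup (f := id) h
    simp only [id] at this
    omega
  have : Fact q.Prime := ⟨hq⟩
  have : NeZero (q ^ 1) := ⟨by simp [hq.ne_zero]⟩
  have hN' : N ∣ (q ^ 1).totient := by
    rw [pow_one, Nat.totient_prime hq]
    exact (Nat.modEq_iff_dvd' hq.one_le).1 hqmod.symm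
  have hcyc : IsCyclic (ZMod (q ^ 1))ˣ := by
    rw [pow_one]; infer_instance
  refine ⟨q, hq, hN', hcyc, ?_⟩
  have hn : Nat.card (rootsOfUnity (q ^ 1) (AlgebraicClosure ℚ)) = q ^ 1 :=
    HasEnoughRootsOfUnity.natCard_rootsOfUnity _ _
  obtain ⟨ζ, hζ⟩ := HasEnoughRootsOfUnity.exists_primitiveRoot (AlgebraicClosure ℚ) (q ^ 1)
  let L₁ : IntermediateField ℚ (AlgebraicClosure ℚ) := L₀ ⊔ IntermediateField.adjoin ℚ {ζ}
  have : FiniteDimensional ℚ (IntermediateField.adjoin ℚ ({ζ} : Set (AlgebraicClosure ℚ))) :=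
    IntermediateField.adjoin.finiteDimensional (Algebra.IsIntegral.isIntegral ζ)
  have : FiniteDimensional ℚ L₁ := IntermediateField.finiteDimensional_sup _ _
  let L := IntermediateField.normalClosure ℚ L₁ (AlgebraicClosure ℚ)
  have : Normal ℚ L := normalClosure.normal ℚ _ _
  have : NumberField L := NumberField.of_module_finite ℚ L
  have : IsGalois ℚ L := ⟨⟩
  set κ₀ : GalQ →* (ZMod (q ^ 1))ˣ :=
    (modularCyclotomicCharacter (AlgebraicClosure ℚ) hn).comp
      { toFun := fun σ ↦ (σ : AlgebraicClosure ℚ ≃+* AlgebraicClosure ℚ)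
        map_one' := rfl
        map_mul' := fun _ _ ↦ rfl }
  have hrs : Function.Surjective (AlgEquiv.restrictNormalHom (F := ℚ) (K₁ := AlgebraicClosure ℚ) L) :=
    AlgEquiv.restrictNormalHom_surjective _
  have hfix : ∀ σ : GalQ, AlgEquiv.restrictNormalHom L σ = 1 →
      (∀ x ∈ L₀, σ x = x) ∧ σ ζ = ζ := by
    intro σ hσ
    have h : ∀ x ∈ L, σ x = x := fun x hx ↦ by
      have h1 := AlgEquiv.restrictNormal_commutes σ L ⟨x, hx⟩
      rw [show σ.restrictNormal L = 1 from hσ] at h1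
      exact h1.symm
    exact ⟨fun x hx ↦ h x (IntermediateField.le_normalClosure L₁ ((le_sup_left : L₀ ≤ L₁) hx)),
      h ζ (IntermediateField.le_normalClosure L₁ ((le_sup_right : _ ≤ L₁)
        (IntermediateField.mem_adjoin_simple_self ℚ ζ)))⟩
  have hkρ : (AlgEquiv.restrictNormalHom L).ker ≤ ρ.ker := fun σ hσ ↦ hρ σ (hfix σ hσ).1
  have hkκ : (AlgEquiv.restrictNormalHom L).ker ≤ κ₀.ker := fun σ hσ ↦ by
    refine Units.ext (modularCyclotomicCharacter.unique (AlgebraicClosure ℚ) hn _ (c := 1)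
      fun t ht ↦ ?_).symm
    obtain ⟨i, -, hi⟩ := hζ.eq_pow_of_pow_eq_one ((mem_rootsOfUnity' _ t).1 ht)
    show σ (t : AlgebraicClosure ℚ) = _
    rw [← hi, map_pow, (hfix σ hσ).2, ZMod.val_one_eq_one_mod]
    exact ((pow_one _).symm.trans (pow_eq_pow_mod 1 (by rw [← pow_mul, mul_comm, pow_mul, hζ.pow_eq_one, one_pow])))
  let π : (L ≃ₐ[ℚ] L) →* G := MonoidHom.liftOfSurjective _ hrs ⟨ρ, hkρ⟩
  let κ : (L ≃ₐ[ℚ] L) →* (ZMod (q ^ 1))ˣ := MonoidHom.liftOfSurjective _ hrs ⟨κ₀, hkκ⟩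
  have hπ : ∀ σ : GalQ, π (σ.restrictNormal L) = ρ σ :=
    MonoidHom.liftOfRightInverse_comp_apply _ _ _ _
  have hκ : ∀ σ : GalQ, κ (σ.restrictNormal L) = κ₀ σ :=
    MonoidHom.liftOfRightInverse_comp_apply _ _ _ _
  refine ⟨L, inferInstance, inferInstance, inferInstance, π, κ,
    {p | p.Prime ∧ ¬ Separated L p} ∪ {q}, (finite_not_separated L).union (Set.finite_singleton q),
    ?_, ?_, fun σ ↦ (hπ σ).symm⟩
  · intro p hp hpS
    rw [Set.mem_union, not_or] at hpS
    have hsep : Separated L p := not_not.1 fun h ↦ hpS.1 ⟨hp, h⟩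
    have hpq : ¬ p ∣ q ^ 1 := fun h ↦ hpS.2 (by
      rw [pow_one] at h
      exact (Nat.prime_dvd_prime_iff_eq hp hq).1 h)
    refine ⟨hsep, hpq, fun Q σ hσ ↦ ?_⟩
    obtain ⟨A, τ, hA, hτ⟩ := Galois.exists_place_isFrobeniusAt hp
    obtain ⟨y, rfl⟩ := exists_conj_eq hp hsep (isFrobAt_restrictNormal (L := L) hA hτ) hσ
    rw [conj_kappa (κ := κ), hκ]
    exact Galois.modularCyclotomicCharacter_frobenius hA hp hτ hpq hn
  · rintro ⟨z, u⟩
    obtain ⟨τ, rfl⟩ := hsurj z
    obtain ⟨A, σ₀, hA, -⟩ := Galois.exists_place_isFrobeniusAt hq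
    obtain ⟨σ, hσ, hσu⟩ := Galois.exists_inertia_modularCyclotomicCharacter_eq hA hq 1 hn
      ((κ₀ τ)⁻¹ * u)
    refine ⟨(τ * σ).restrictNormal L, Prod.ext ?_ ?_⟩
    · rw [MonoidHom.prod_apply]
      show π _ = _
      rw [hπ, map_mul, show ρ σ = 1 from hρ σ fun x hx ↦ ?_, mul_one]
      exact hS₀ q hq hqS A hA hσ ⟨x, hx⟩
    · rw [MonoidHom.prod_apply]
      show κ _ = u
      rw [hκ, map_mul, show κ₀ σ = (κ₀ τ)⁻¹ * u from hσu, mul_inv_cancel_left]

/-- A finset realising most of a prime sum. -/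
theorem exists_finset_primeWeight_ge (T : Set ℕ) {s : ℝ} (hs : 1 < s) :
    ∃ P : Finset ℕ, (∀ p ∈ P, p.Prime ∧ p ∈ T) ∧
      (∑' p : Nat.Primes, primeWeight T s p) - 1 ≤ ∑ p ∈ P, (p : ℝ) ^ (-s) := by
  obtain ⟨U, hU⟩ : ∃ U : Finset Nat.Primes,
      (∑' p : Nat.Primes, primeWeight T s p) - 1 ≤ ∑ p ∈ U, primeWeight T s p := by
    have h := (summable_primeWeight T hs).hasSum
    exact ((h.eventually (lt_mem_nhds (sub_one_lt _))).exists).imp fun U hU ↦ hU.le
  refine ⟨(U.filter fun p : Nat.Primes ↦ (p : ℕ) ∈ T).map ⟨fun p : Nat.Primes ↦ (p : ℕ), fun _ _ h ↦ Subtype.ext h⟩,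
    fun p hp ↦ ?_, hU.trans (le_of_eq ?_)⟩
  · obtain ⟨x, hx, rfl⟩ := Finset.mem_map.1 hp
    exact ⟨x.2, (Finset.mem_filter.1 hx).2⟩
  · rw [Finset.sum_map, Finset.sum_filter]
    rfl

/-- Chebotarev, lower bound: the primes with Frobenius in the conjugacy class of `g` have
Dirichlet density at least `|class g| / |G|`. -/
theorem chebotarev_lower {G : Type} [Group G] [Finite G] (ρ : GalQ →* G)
    (hfac : GaloisFactorsThroughFiniteLevel ρ) (hsurj : Function.Surjective ρ) (g : G)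
    {δ : ℝ} (hδ : 0 < δ) :
    ∃ D : ℝ, ∀ s : ℝ, 1 < s → s ≤ 2 → ∃ P : Finset ℕ,
      (∀ p ∈ P, p ∈ frobPrimes ρ (conjugatesOf g)) ∧
      (1 - δ) * ((Nat.card (conjugatesOf g) : ℝ) / Nat.card G) * Real.log (1 / (s - 1)) - D
        ≤ ∑ p ∈ P, (p : ℝ) ^ (-s) := by
  set n := orderOf g
  have hn0 : n ≠ 0 := (orderOf_pos g).ne'
  obtain ⟨k, hk⟩ := pow_unbounded_of_one_lt ((n : ℝ) / δ) one_lt_two
  obtain ⟨q, hq, hdvd, hcyc, L, _, _, _, π, κ, S, hS, hκ, hjoint, hres⟩ :=
    exists_crossing ρ hfac hsurj (n ^ (k + 1)) (pow_ne_zero _ hn0)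
  have : IsGalois ℚ L := ⟨⟩
  have : NeZero (q ^ 1) := ⟨by simp [hq.ne_zero]⟩
  set m := q ^ 1 with hm
  set good := Finset.univ.filter fun c : (ZMod m)ˣ ↦ n ∣ orderOf c
  have hbad := card_not_dvd_orderOf_mul_le (α := (ZMod m)ˣ) hn0
    (by rwa [ZMod.card_units_eq_totient])
  rw [ZMod.card_units_eq_totient] at hbad
  have hφ : (0 : ℝ) < m.totient := Nat.cast_pos.2 (Nat.totient_pos.2 (NeZero.pos m))
  have hgood : (1 - δ) * m.totient ≤ (good.card : ℝ) := by
    have hsplit : (good.card : ℝ) + (Finset.univ.filter fun c : (ZMod m)ˣ ↦ ¬ n ∣ orderOf c).card =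
        m.totient := by
      rw [← Nat.cast_add, Finset.card_filter_add_card_filter_not, Finset.card_univ,
        ZMod.card_units_eq_totient]
    have hk' : (n : ℝ) < δ * 2 ^ k := by rwa [div_lt_iff₀ hδ, mul_comm] at hk
    have hbad' : ((Finset.univ.filter fun c : (ZMod m)ˣ ↦ ¬ n ∣ orderOf c).card : ℝ) * 2 ^ k ≤
        n * m.totient := by exact_mod_cast hbad
    have : ((Finset.univ.filter fun c : (ZMod m)ˣ ↦ ¬ n ∣ orderOf c).card : ℝ) ≤ δ * m.totient := by
      refine le_of_mul_le_mul_right (hbad'.trans ?_) (pow_pos two_pos k)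
      nlinarith
    linarith
  choose! D hD using fun c (hc : c ∈ good) ↦
    exists_crossPrimes_lower (g := g) (c := c) hjoint (Finset.mem_filter.1 hc).2 hS hκ
  set T : Set ℕ := {p | p.Prime ∧ p ∈ frobPrimes ρ (conjugatesOf g)}
  refine ⟨∑ c ∈ good, D c + 1, fun s hs hs2 ↦ ?_⟩
  obtain ⟨P, hP, hPsum⟩ := exists_finset_primeWeight_ge T hs
  refine ⟨P, fun p hp ↦ (hP p hp).2.2, ?_⟩
  have hlog : 0 ≤ Real.log (1 / (s - 1)) :=
    Real.log_nonneg (by rw [le_div_iff₀ (by linarith)]; linarith)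
  have h1 : ∑ c ∈ good, ((Nat.card (conjugatesOf g) : ℝ) / (Nat.card G * m.totient) *
      Real.log (1 / (s - 1)) - D c) ≤ ∑' p : Nat.Primes, primeWeight T s p := by
    refine (Finset.sum_le_sum fun c hc ↦ hD c hc s hs hs2).trans ?_
    rw [← Summable.tsum_finsetSum fun c _ ↦ summable_primeWeight _ hs]
    refine (summable_sum fun c _ ↦ summable_primeWeight _ hs).tsum_le_tsum (fun p ↦ ?_)
      (summable_primeWeight T hs)
    have hsub : ∀ c : (ZMod m)ˣ, (p : ℕ) ∈ crossPrimes π S g c → (p : ℕ) ∈ T := fun c hc ↦ by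
      refine ⟨p.2, p.2, fun A hA σ hσ ↦ ?_⟩
      rw [hres]
      exact hc.2.2 _ _ (isFrobAt_restrictNormal hA hσ)
    by_cases hp : ∃ c ∈ good, (p : ℕ) ∈ crossPrimes π S g c
    · obtain ⟨c, hc, hpc⟩ := hp
      rw [Finset.sum_eq_single c]
      · rw [primeWeight, primeWeight, if_pos hpc, if_pos (hsub c hpc)]
      · intro c' _ hne
        rw [primeWeight, if_neg fun h ↦ hne (Units.ext (h.2.1.symm.trans hpc.2.1))]
      · exact fun h ↦ absurd hc h
    · push Not at hp
      rw [Finset.sum_eq_zero fun c hc ↦ by rw [primeWeight, if_neg (hp c hc)]]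
      exact primeWeight_nonneg _ _ _
  rw [Finset.sum_sub_distrib, Finset.sum_const, nsmul_eq_mul] at h1
  have h2 : (1 - δ) * ((Nat.card (conjugatesOf g) : ℝ) / Nat.card G) * Real.log (1 / (s - 1)) ≤
      (good.card : ℝ) * ((Nat.card (conjugatesOf g) : ℝ) / (Nat.card G * m.totient) *
        Real.log (1 / (s - 1))) := by
    rw [← mul_assoc (good.card : ℝ)]
    refine mul_le_mul_of_nonneg_right ?_ hlog
    rw [show (good.card : ℝ) * ((Nat.card (conjugatesOf g) : ℝ) / (Nat.card G * m.totient)) =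
      (good.card / m.totient) * ((Nat.card (conjugatesOf g) : ℝ) / Nat.card G) by ring]
    refine mul_le_mul_of_nonneg_right ?_ (by positivity)
    rw [le_div_iff₀ hφ]
    exact hgood
  linarith

end Fermat.Agent.DS
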