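import Mathlib.NumberTheory.ModularForms.EisensteinSeries.Basic
import Mathlib.NumberTheory.ModularForms.EisensteinSeries.QExpansion
import Mathlib.NumberTheory.ModularForms.CongruenceSubgroups
import Mathlib.Analysis.Normed.Group.Tannery
import Fermat.Prelude.Def_FLTPrelim_Modularity

/-!
# Congruence Eisenstein series on `Γ₁(N)` with rational `q`-expansions

For a set `S` of residue vectors mod `N` we put `congrEis k S = ∑_{(c,d) mod N ∈ S} (cτ+d)^{-k}`.
For `S = {w | w 0 = a}`, `a ≠ 0`, this is a modular form on `Γ₁(N)` whose `q`-expansion is a fixed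
constant times an integral series, and these series separate the cosets of `±Γ₁(N)`.
-/

set_option autoImplicit false

noncomputable section

namespace Fermat.Agent.DS

open UpperHalfPlane EisensteinSeries ModularForm CongruenceSubgroup Matrix Filter Complex
open scoped MatrixGroups Topology Manifold

variable {N : ℕ}

/-- Reduction of an integer vector modulo `N`. -/
def redVec (N : ℕ) (v : Fin 2 → ℤ) : Fin 2 → ZMod N := fun i ↦ (v i : ZMod N)

/-- Reduction of a matrix in `SL(2, ℤ)` modulo `N`. -/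
def redMat (N : ℕ) (γ : SL(2, ℤ)) : Matrix (Fin 2) (Fin 2) (ZMod N) :=
  (γ : Matrix (Fin 2) (Fin 2) ℤ).map (Int.cast : ℤ → ZMod N)

theorem redMat_mul (γ δ : SL(2, ℤ)) : redMat N (γ * δ) = redMat N γ * redMat N δ := by
  show ((γ : Matrix (Fin 2) (Fin 2) ℤ) * (δ : Matrix (Fin 2) (Fin 2) ℤ)).map
      (Int.castRingHom (ZMod N)) = _
  exact Matrix.map_mul

theorem redMat_one : redMat N 1 = 1 := by simp [redMat]

theorem redVec_vecMul (v : Fin 2 → ℤ) (γ : SL(2, ℤ)) :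
    redVec N (v ᵥ* (γ : Matrix (Fin 2) (Fin 2) ℤ)) = redVec N v ᵥ* redMat N γ := by
  ext i
  exact RingHom.map_vecMul (Int.castRingHom (ZMod N)) _ v i

/-- The congruence Eisenstein series attached to a set of residue vectors. -/
def congrEis (k : ℤ) (S : Set (Fin 2 → ZMod N)) (z : ℍ) : ℂ :=
  ∑' v : Fin 2 → ℤ, (redVec N ⁻¹' S).indicator (eisSummand k · z) v

/-- The image of a set of residue vectors under right multiplication by `γ`. -/
def slashSet (S : Set (Fin 2 → ZMod N)) (γ : SL(2, ℤ)) : Set (Fin 2 → ZMod N) :=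
  {w | w ᵥ* redMat N γ⁻¹ ∈ S}

theorem norm_congrSummand_le (k : ℤ) (S : Set (Fin 2 → ZMod N)) (z : ℍ) (v : Fin 2 → ℤ) :
    ‖(redVec N ⁻¹' S).indicator (eisSummand k · z) v‖ ≤ ‖eisSummand k v z‖ := by
  exact norm_indicator_le_norm_self (eisSummand k · z) v

theorem summable_norm_congr {k : ℤ} (hk : 3 ≤ k) (S : Set (Fin 2 → ZMod N)) (z : ℍ) :
    Summable fun v ↦ ‖(redVec N ⁻¹' S).indicator (eisSummand k · z) v‖ :=
  (summable_norm_eisSummand hk z).of_nonneg_of_le (fun _ ↦ norm_nonneg _)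
    (norm_congrSummand_le k S z)

theorem norm_congrEis_le {k : ℤ} (hk : 3 ≤ k) (S : Set (Fin 2 → ZMod N)) (z : ℍ) :
    ‖congrEis k S z‖ ≤ ∑' v : Fin 2 → ℤ, ‖eisSummand k v z‖ :=
  (norm_tsum_le_tsum_norm (summable_norm_congr hk S z)).trans
    ((summable_norm_congr hk S z).tsum_le_tsum (norm_congrSummand_le k S z)
      (summable_norm_eisSummand hk z))

theorem congrEis_slash (k : ℤ) (S : Set (Fin 2 → ZMod N)) (γ : SL(2, ℤ)) :
    congrEis k S ∣[k] γ = congrEis k (slashSet S γ) := by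
  ext z
  rw [ModularForm.SL_slash_apply, congrEis]
  have hinv : ∀ (g : SL(2, ℤ)) (v : Fin 2 → ℤ),
      (v ᵥ* (g : Matrix (Fin 2) (Fin 2) ℤ)) ᵥ* ((g⁻¹ : SL(2, ℤ)) : Matrix (Fin 2) (Fin 2) ℤ) = v :=
    fun g v ↦ by
      have h : (g : Matrix (Fin 2) (Fin 2) ℤ) * ((g⁻¹ : SL(2, ℤ)) : Matrix (Fin 2) (Fin 2) ℤ)
          = 1 := congrArg Subtype.val (mul_inv_cancel g)
      rw [vecMul_vecMul, h, vecMul_one]
  let e : (Fin 2 → ℤ) ≃ (Fin 2 → ℤ) :=
    { toFun := fun v ↦ v ᵥ* (γ : Matrix (Fin 2) (Fin 2) ℤ)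
      invFun := fun v ↦ v ᵥ* ((γ⁻¹ : SL(2, ℤ)) : Matrix (Fin 2) (Fin 2) ℤ)
      left_inv := hinv γ
      right_inv := fun v ↦ by simpa using hinv γ⁻¹ v }
  rw [congrEis, ← e.tsum_eq (fun v ↦ (redVec N ⁻¹' slashSet S γ).indicator (eisSummand k · z) v),
    ← tsum_mul_right]
  refine tsum_congr fun v ↦ ?_
  have hmem : e v ∈ redVec N ⁻¹' slashSet S γ ↔ v ∈ redVec N ⁻¹' S := by
    show redVec N (v ᵥ* (γ : Matrix (Fin 2) (Fin 2) ℤ)) ᵥ* redMat N γ⁻¹ ∈ S ↔ redVec N v ∈ S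
    rw [redVec_vecMul, vecMul_vecMul, ← redMat_mul, mul_inv_cancel, redMat_one, vecMul_one]
  by_cases hv : v ∈ redVec N ⁻¹' S
  · rw [Set.indicator_of_mem (hmem.2 hv), Set.indicator_of_mem hv, eisSummand_SL2_apply,
      mul_right_comm, _root_.zpow_neg, mul_inv_cancel₀ (zpow_ne_zero _ (denom_ne_zero _ _)), one_mul]
    rfl
  · rw [Set.indicator_of_notMem (mt hmem.1 hv), Set.indicator_of_notMem hv, zero_mul]

theorem slashSet_of_mem_Gamma (S : Set (Fin 2 → ZMod N)) {γ : SL(2, ℤ)} (hγ : γ ∈ Γ(N)) :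
    slashSet S γ = S := by
  have : redMat N γ⁻¹ = 1 := congrArg Subtype.val (Gamma_mem'.1 (inv_mem hγ))
  simp [slashSet, this]

/-- `congrEis` as a slash invariant form of level `Γ(N)`. -/
def congrEisSIF (k : ℤ) (S : Set (Fin 2 → ZMod N)) : SlashInvariantForm Γ(N) k where
  toFun := congrEis k S
  slash_action_eq' A hA := by
    obtain ⟨γ, hγ, rfl⟩ := Subgroup.mem_map.1 hA
    show congrEis k S ∣[k] γ = _
    rw [congrEis_slash, slashSet_of_mem_Gamma S hγ]

theorem congrEis_tendstoLocallyUniformly {k : ℤ} (hk : 3 ≤ k) (S : Set (Fin 2 → ZMod N)) :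
    TendstoLocallyUniformly
      (fun s : Finset (Fin 2 → ℤ) ↦ fun z : ℍ ↦
        ∑ v ∈ s, (redVec N ⁻¹' S).indicator (eisSummand k · z) v)
      (congrEis k S) atTop := by
  have hk' : (2 : ℝ) < k := by norm_cast
  have p_sum : Summable fun x : Fin 2 → ℤ ↦ ‖x‖ ^ (-k) :=
    mod_cast summable_one_div_norm_rpow hk'
  rw [tendstoLocallyUniformly_iff_forall_isCompact]
  intro K hK
  obtain ⟨A, B, hB, HABK⟩ := subset_verticalStrip_of_isCompact hK
  refine (tendstoUniformlyOn_tsum (hu := p_sum.mul_left <| r ⟨⟨A, B⟩, hB⟩ ^ (-k : ℝ))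
    (fun p z hz ↦ ?_)).mono HABK
  refine (norm_congrSummand_le k S z p).trans ?_
  simpa only [eisSummand, one_div, ← _root_.zpow_neg, norm_zpow, ← Real.rpow_intCast,
    Int.cast_neg] using summand_bound_of_mem_verticalStrip (by positivity) p hB hz

theorem congrEis_mdifferentiable {k : ℤ} (hk : 3 ≤ k) (S : Set (Fin 2 → ZMod N)) :
    MDiff (congrEis k S) := by
  rw [UpperHalfPlane.mdifferentiable_iff]
  have h : TendstoLocallyUniformlyOn
      (fun s : Finset (Fin 2 → ℤ) ↦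
        (fun z : ℍ ↦ ∑ v ∈ s, (redVec N ⁻¹' S).indicator (eisSummand k · z) v) ∘ ofComplex)
      (congrEis k S ∘ ofComplex) atTop upperHalfPlaneSet := by
    rw [← range_coe, ← Set.image_univ]
    apply TendstoLocallyUniformlyOn.comp (s := ⊤) _ _ _ (OpenPartialHomeomorph.continuousOn_symm _)
    · simpa [tendstoLocallyUniformlyOn_univ] using congrEis_tendstoLocallyUniformly hk S
    · simp
  refine h.differentiableOn (Eventually.of_forall fun s ↦ ?_) isOpen_upperHalfPlaneSet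
  refine DifferentiableOn.fun_sum fun v _ ↦ ?_
  by_cases hv : v ∈ redVec N ⁻¹' S
  · simp only [Set.indicator_of_mem hv]
    exact eisSummand_extension_differentiableOn k v
  · simp [Set.indicator_of_notMem hv]

theorem congrEis_isBoundedAtImInfty [NeZero N] {k : ℤ} (hk : 3 ≤ k) (S : Set (Fin 2 → ZMod N)) :
    IsBoundedAtImInfty (congrEis k S) := by
  rw [UpperHalfPlane.isBoundedAtImInfty_iff]
  refine ⟨∑' (x : Fin 2 → ℤ), r ⟨⟨N, 2⟩, Nat.ofNat_pos⟩ ^ (-k) * ‖x‖ ^ (-k), 2, fun z hz ↦ ?_⟩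
  obtain ⟨n, hn⟩ := ModularGroup_T_zpow_mem_verticalStrip z (NeZero.pos N)
  have hT : congrEis k S (ModularGroup.T ^ ((N : ℤ) * n) • z) = congrEis k S z :=
    SlashInvariantForm.T_zpow_width_invariant N k n (congrEisSIF k S) z
  rw [← hT]
  refine (norm_congrEis_le hk S _).trans ?_
  have hk' : (2 : ℝ) < k := by norm_cast
  apply (summable_norm_eisSummand hk _).tsum_le_tsum _
  · exact_mod_cast (summable_one_div_norm_rpow hk').mul_left <| r ⟨⟨N, 2⟩, Nat.ofNat_pos⟩ ^ (-k)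
  · intro x
    simp_rw [eisSummand, norm_zpow]
    exact_mod_cast
      summand_bound_of_mem_verticalStrip (lt_trans two_pos hk').le x two_pos
      (verticalStrip_anti_right N hz hn)

/-- Residue vectors with `w 0 * x + w 1 * y = a`. -/
def linSet (x y a : ZMod N) : Set (Fin 2 → ZMod N) := {w | w 0 * x + w 1 * y = a}

theorem slashSet_linSet (γ : SL(2, ℤ)) (a : ZMod N) :
    slashSet (linSet 1 0 a) γ = linSet (γ 1 1 : ZMod N) (-(γ 1 0 : ZMod N)) a := by
  ext w
  simp [slashSet, linSet, redMat, vecMul, vec2_dotProduct,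
    Matrix.adjugate_fin_two]

/-- `∑_{c ≡ a (N)} ∑_d (cτ + d)^{-k}` as a modular form on `Γ₁(N)`. -/
def rowEis [NeZero N] {k : ℤ} (hk : 3 ≤ k) (a : ZMod N) : ModularForm (Gamma1 N) k where
  toFun := congrEis k (linSet 1 0 a)
  slash_action_eq' A hA := by
    obtain ⟨γ, hγ, rfl⟩ := Subgroup.mem_map.1 hA
    obtain ⟨-, h11, h10⟩ := (Gamma1_mem N γ).1 hγ
    show congrEis k (linSet 1 0 a) ∣[k] γ = _
    simp [congrEis_slash, slashSet_linSet, h11, h10]
  holo' := congrEis_mdifferentiable hk _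
  bdd_at_cusps' {c} hc := by
    rw [Subgroup.IsArithmetic.isCusp_iff_isCusp_SL2Z] at hc
    rw [OnePoint.isBoundedAt_iff_forall_SL2Z hc]
    exact fun γ _ ↦ by rw [congrEis_slash]; exact congrEis_isBoundedAtImInfty hk _

@[simp]
theorem rowEis_apply [NeZero N] {k : ℤ} (hk : 3 ≤ k) (a : ZMod N) (z : ℍ) :
    rowEis hk a z = congrEis k (linSet 1 0 a) z := rfl

theorem rowEis_slash [NeZero N] {k : ℤ} (hk : 3 ≤ k) (a : ZMod N) (γ : SL(2, ℤ)) :
    (⇑(rowEis hk a) : ℍ → ℂ) ∣[k] γ =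
      congrEis k (linSet (γ 1 1 : ZMod N) (-(γ 1 0 : ZMod N)) a) := by
  show congrEis k (linSet 1 0 a) ∣[k] γ = _
  rw [congrEis_slash, slashSet_linSet]

end Fermat.Agent.DS
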