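import Fermat.Agent.DS.CongrEis

/-!
# `q`-expansion of the congruence Eisenstein series, separation of cosets
-/

set_option autoImplicit false

noncomputable section

namespace Fermat.Agent.DS

open UpperHalfPlane hiding I
open EisensteinSeries CongruenceSubgroup Matrix Filter Complex ModularFormClass
open scoped MatrixGroups Topology Real Nat

variable {N : ℕ}

/-- The sign weight `[c ≡ a] + (-1)^k [c ≡ -a]`. -/
def rowSign (N k : ℕ) (a : ZMod N) (c : ℕ) : ℤ :=
  (if (c : ZMod N) = a then 1 else 0) + (-1) ^ k * (if -(c : ZMod N) = a then 1 else 0)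

/-- The rational `q`-expansion coefficients of `rowEis`, without the constant factor. -/
def rowCoeff (N k : ℕ) (a : ZMod N) (m : ℕ) : ℤ :=
  ∑ c ∈ m.divisors, rowSign N k a c * ((m / c : ℕ) : ℤ) ^ (k - 1)

/-- The transcendental factor `(-2πi)^k / (k-1)!`. -/
def eisConst (k : ℕ) : ℂ := (-2 * π * I) ^ k / (k - 1)!

theorem eisConst_ne_zero (k : ℕ) : eisConst k ≠ 0 := by
  simp [eisConst, Nat.factorial_ne_zero, Real.pi_ne_zero, I_ne_zero]

theorem hasSum_congrEis_linSet [NeZero N] {k : ℕ} (hk : 3 ≤ k) {a : ZMod N} (ha : a ≠ 0) (z : ℍ) :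
    HasSum (fun m : ℕ ↦ (eisConst k * (rowCoeff N k a m : ℂ)) * cexp (2 * π * I * z) ^ m)
      (congrEis k (linSet 1 0 a) z) := by
  set q : ℂ := cexp (2 * π * I * z)
  have hq : ‖q‖ < 1 := norm_exp_two_pi_I_lt_one z
  set F : (Fin 2 → ℤ) → ℂ :=
    fun v ↦ (redVec N ⁻¹' linSet 1 0 a).indicator (eisSummand k · z) v
  have hF : Summable F := (summable_norm_congr (by omega) (linSet 1 0 a) z).of_norm
  set G : ℤ × ℤ → ℂ := F ∘ (finTwoArrowEquiv ℤ).symm
  have hG : Summable G := (finTwoArrowEquiv ℤ).symm.summable_iff.mpr hF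
  have hGv : ∀ c d : ℤ, G (c, d) = if (c : ZMod N) = a then ((c * (z : ℂ) + d) ^ k)⁻¹ else 0 := by
    intro c d
    simp only [G, F, Function.comp_apply, finTwoArrowEquiv_symm_apply, Set.indicator,
      Set.mem_preimage, linSet, Set.mem_ofPred_eq, redVec]
    simp [eisSummand]
  -- the sum over `d` for fixed positive `c`
  have hrow : ∀ c : ℕ+, (∑' d : ℤ, G ((c : ℕ), d)) + ∑' d : ℤ, G (-((c : ℕ) : ℤ), d)
      = ∑' n : ℕ+, eisConst k * (rowSign N k a c : ℂ) * (((n : ℕ) : ℂ) ^ (k - 1)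
        * q ^ ((c : ℕ) * (n : ℕ))) := by
    intro c
    have hc : 0 < ((c : ℕ) * (z : ℂ)).im := by
      simpa using mul_pos (by exact_mod_cast c.pos : (0 : ℝ) < (c : ℕ)) z.im_pos
    have H := qExpansion_identity_pnat (k := k - 1) (by omega) ⟨_, hc⟩
    rw [show k - 1 + 1 = k by omega] at H
    simp only [one_div] at H
    have hq' : ∀ n : ℕ, cexp (2 * π * I * ((c : ℕ) * (z : ℂ))) ^ n = q ^ ((c : ℕ) * n) := by
      intro n
      rw [pow_mul]
      congr 1
      rw [← Complex.exp_nat_mul]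
      ring_nf
    simp only [hq'] at H
    have hneg : ∑' d : ℤ, ((-((c : ℕ) : ℂ) * (z : ℂ) + d) ^ k)⁻¹
        = (-1) ^ k * ∑' d : ℤ, (((c : ℕ) * (z : ℂ) + d) ^ k)⁻¹ := by
      rw [← tsum_mul_left, ← (Equiv.neg ℤ).tsum_eq]
      refine tsum_congr fun d ↦ ?_
      rw [Equiv.neg_apply, Int.cast_neg,
        show -((c : ℕ) : ℂ) * (z : ℂ) + -(d : ℂ) = -1 * ((c : ℕ) * (z : ℂ) + d) by ring, mul_pow,
        mul_inv, ← inv_pow (-1 : ℂ), inv_neg_one]
    simp only [hGv, Int.cast_natCast, Int.cast_neg]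
    rw [tsum_mul_left, rowSign, eisConst, mul_right_comm, ← H]
    simp only [neg_mul] at hneg ⊢
    split_ifs with h1 h2 h2 <;> (simp [hneg] <;> ring)
  have hsumm : Summable fun p : ℕ+ × ℕ+ ↦ eisConst k * (rowSign N k a p.1 : ℂ) *
      (((p.2 : ℕ) : ℂ) ^ (k - 1) * q ^ ((p.1 : ℕ) * (p.2 : ℕ))) := by
    refine Summable.of_norm_bounded
      (((summable_prod_mul_pow (k - 1) hq).norm).mul_left (2 * ‖eisConst k‖)) fun p ↦ ?_
    rw [norm_mul, norm_mul, mul_comm 2 ‖eisConst k‖]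
    gcongr
    simp only [rowSign, Int.cast_add, Int.cast_mul, Int.cast_pow, Int.cast_neg, Int.cast_one]
    refine (norm_add_le _ _).trans ?_
    rw [norm_mul, norm_pow, norm_neg, norm_one, one_pow, one_mul]
    split_ifs <;> simp <;> norm_num
  have htot : congrEis k (linSet 1 0 a) z = ∑' p : ℕ+ × ℕ+, eisConst k * (rowSign N k a p.1 : ℂ) *
      (((p.2 : ℕ) : ℂ) ^ (k - 1) * q ^ ((p.1 : ℕ) * (p.2 : ℕ))) := by
    rw [hsumm.tsum_prod, show congrEis k (linSet 1 0 a) z = ∑' p, G p from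
      ((finTwoArrowEquiv ℤ).symm.tsum_eq F).symm, hG.tsum_prod]
    simp_rw [← hrow]
    have hg : Summable fun c : ℤ ↦ ∑' d : ℤ, G (c, d) := hG.prod
    have h0 : ∑' d : ℤ, G (0, d) = 0 := by simp [hGv, Ne.symm ha]
    have h2 := hg.hasSum.nat_add_neg
    rw [h0, add_zero] at h2
    refine (((Function.Injective.hasSum_iff PNat.coe_injective ?_).2 h2).tsum_eq).symm
    intro n hn
    have : n = 0 := by
      by_contra hn0
      exact hn ⟨⟨n, Nat.pos_of_ne_zero hn0⟩, rfl⟩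
    simp [this, h0]
  have hs := hsumm.hasSum
  rw [← htot, ← sigmaAntidiagonalEquivProd.hasSum_iff] at hs
  have hs' : HasSum (fun m : ℕ+ ↦ (eisConst k * (rowCoeff N k a m : ℂ)) * q ^ (m : ℕ))
      (congrEis k (linSet 1 0 a) z) := by
    refine hs.sigma fun m ↦ ?_
    refine (congrArg (HasSum _) ?_).mpr (hasSum_fintype _)
    simp only [Finset.univ_eq_attach, Function.comp_apply, sigmaAntidiagonalEquivProd,
      divisorsAntidiagonalFactors, Equiv.coe_fn_mk, PNat.mk_coe]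
    rw [(m : ℕ).divisorsAntidiagonal.sum_attach fun x : ℕ × ℕ ↦ eisConst k *
        (rowSign N k a x.1 : ℂ) * ((x.2 : ℂ) ^ (k - 1) * q ^ (x.1 * x.2)),
      Nat.sum_divisorsAntidiagonal fun x y ↦ eisConst k * (rowSign N k a x : ℂ) *
        ((y : ℂ) ^ (k - 1) * q ^ (x * y)), rowCoeff]
    simp only [Int.cast_sum, Int.cast_mul, Int.cast_pow, Int.cast_natCast]
    rw [Finset.mul_sum, Finset.sum_mul]
    refine Finset.sum_congr rfl fun c hc ↦ ?_
    rw [Nat.mul_div_cancel' (Nat.dvd_of_mem_divisors hc)]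
    ring
  refine ((Function.Injective.hasSum_iff PNat.coe_injective fun m hm ↦ ?_).1 hs')
  have : m = 0 := by
    by_contra h0
    exact hm ⟨⟨m, Nat.pos_of_ne_zero h0⟩, rfl⟩
  simp [this, rowCoeff]

/-- The `q`-expansion of `rowEis`. -/
theorem qCoeff_rowEis [NeZero N] {k : ℕ} (hk : 3 ≤ k) {a : ZMod N} (ha : a ≠ 0) (m : ℕ) :
    qCoeff (rowEis (k := k) (by omega) a) m = eisConst k * (rowCoeff N k a m : ℂ) := by
  refine (ModularFormClass.qExpansion_coeff_unique (f := rowEis (k := (k : ℤ)) (by omega) a)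
    (Γ := ↑(Gamma1 N)) (k := (k : ℤ)) (c := fun m ↦ eisConst k * (rowCoeff N k a m : ℂ))
    one_pos ?_ (fun τ ↦ ?_) m).symm
  · simp
  · show HasSum _ (congrEis (k : ℤ) (linSet 1 0 a) τ)
    convert hasSum_congrEis_linSet hk ha τ using 2 with n
    simp [Function.Periodic.qParam]

theorem qCoeff_rowEis_one [NeZero N] {k : ℕ} (hk : 3 ≤ k) {a : ZMod N} (ha : a ≠ 0) :
    qCoeff (rowEis (k := k) (by omega) a) 1 = eisConst k * (rowSign N k a 1 : ℂ) := by
  rw [qCoeff_rowEis hk ha]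
  simp [rowCoeff]

theorem rowEis_three_ne_zero [NeZero N] (hN : 3 ≤ N) :
    rowEis (k := 3) le_rfl (1 : ZMod N) ≠ 0 := by
  have h1 : (1 : ZMod N) ≠ 0 := by
    have : Fact (1 < N) := ⟨by omega⟩
    exact one_ne_zero
  have h2 : -(1 : ZMod N) ≠ 1 := by
    intro h
    have h' : ((2 : ℕ) : ZMod N) = 0 := by
      push_cast
      linear_combination -h
    have := Nat.le_of_dvd two_pos ((ZMod.natCast_eq_zero_iff _ _).1 h')
    omega
  intro h
  have := qCoeff_rowEis_one (k := 3) le_rfl h1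
  rw [show (⇑(rowEis (k := ((3 : ℕ) : ℤ)) le_rfl (1 : ZMod N)) : ℍ → ℂ) = 0 from
    congrArg DFunLike.coe h] at this
  simp [qCoeff, UpperHalfPlane.qExpansion_zero, rowSign, h2] at this
  exact eisConst_ne_zero 3 this.symm

/-- The value at `i∞` of a congruence Eisenstein series. -/
theorem tendsto_congrEis [NeZero N] {k : ℕ} (hk : 3 ≤ k) (S : Set (Fin 2 → ZMod N)) :
    Tendsto (fun y : ℕ ↦ congrEis k S ⟨I * (y + 2 : ℕ), by simp; positivity⟩) atTop
      (𝓝 (∑' v : Fin 2 → ℤ, (redVec N ⁻¹' S).indicator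
        (fun v ↦ if v 0 = 0 then ((v 1 : ℂ) ^ k)⁻¹ else 0) v)) := by
  have hk' : (2 : ℝ) < (k : ℤ) := by norm_cast
  refine tendsto_tsum_of_dominated_convergence
    (bound := fun v ↦ r ⟨⟨1, 2⟩, Nat.ofNat_pos⟩ ^ (-(k : ℤ) : ℝ) * ‖v‖ ^ (-(k : ℤ) : ℝ))
    ((summable_one_div_norm_rpow hk').mul_left _) (fun v ↦ ?_) (Eventually.of_forall fun y v ↦ ?_)
  · by_cases hv : v ∈ redVec N ⁻¹' S
    · simp only [Set.indicator_of_mem hv, eisSummand]
      rcases eq_or_ne (v 0) 0 with h0 | h0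
      · simp [h0]
      · simp only [if_neg h0, _root_.zpow_neg, zpow_natCast]
        rw [tendsto_zero_iff_norm_tendsto_zero]
        simp only [norm_inv, norm_pow]
        refine tendsto_inv_atTop_zero.comp ((tendsto_pow_atTop (by omega)).comp ?_)
        refine tendsto_atTop_mono (fun y ↦ ?_) tendsto_natCast_atTop_atTop
        refine le_trans ?_ (Complex.abs_im_le_norm _)
        have h1 : (1 : ℝ) ≤ |(v 0 : ℝ)| := by exact_mod_cast Int.one_le_abs h0
        simp [abs_mul]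
        nlinarith [abs_of_nonneg (by positivity : (0 : ℝ) ≤ (y : ℝ) + 2)]
    · simp [Set.indicator_of_notMem hv]
  · refine (norm_congrSummand_le k S _ v).trans ?_
    simp only [eisSummand, norm_zpow]
    have := summand_bound_of_mem_verticalStrip (k := ((k : ℤ) : ℝ)) (by positivity) v
      (A := 1) two_pos (z := (⟨I * (y + 2 : ℕ), by simp; positivity⟩ : ℍ)) ⟨by simp, by simp⟩
    exact_mod_cast this

/-- The family `a ↦ rowEis a` separates the cosets of `±Γ₁(N)`. -/
theorem eq_one_or_neg_one_of_congrEis_eq [NeZero N] {k : ℕ} (hk : 3 ≤ k) (hke : Even k)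
    {x y : ZMod N} (hxy : y = 0 → IsUnit x)
    (h : ∀ a : ZMod N, a ≠ 0 → congrEis (k : ℤ) (linSet x y a) = congrEis (k : ℤ) (linSet 1 0 a)) :
    y = 0 ∧ (x = 1 ∨ x = -1) := by
  have hy : y = 0 := by
    by_contra hy
    have H : ∀ S : Set (Fin 2 → ZMod N), congrEis (k : ℤ) S = congrEis (k : ℤ) (linSet x y y) →
        Tendsto (fun n : ℕ ↦ congrEis k S ⟨I * (n + 2 : ℕ), by simp; positivity⟩) atTop
          (𝓝 (∑' v : Fin 2 → ℤ, (redVec N ⁻¹' linSet x y y).indicator
            (fun v ↦ if v 0 = 0 then ((v 1 : ℂ) ^ k)⁻¹ else 0) v)) :=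
      fun S hS ↦ hS ▸ tendsto_congrEis hk _
    have h1 := tendsto_nhds_unique (H (linSet 1 0 y) (h y hy).symm)
      (tendsto_congrEis hk (linSet 1 0 y))
    set g : (Fin 2 → ℤ) → ℝ := fun v ↦ (redVec N ⁻¹' linSet x y y).indicator
      (fun v ↦ if v 0 = 0 then ((v 1 : ℝ) ^ k)⁻¹ else 0) v
    have hz : (∑' v : Fin 2 → ℤ, (redVec N ⁻¹' linSet 1 0 y).indicator
        (fun v ↦ if v 0 = 0 then ((v 1 : ℂ) ^ k)⁻¹ else 0) v) = 0 := by
      refine (tsum_congr fun v ↦ Set.indicator_apply_eq_zero.2 fun hv ↦ ?_).trans tsum_zero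
      rw [if_neg]
      intro h0
      simp [linSet, redVec, h0, Ne.symm hy] at hv
    have hcast : ∀ v, (redVec N ⁻¹' linSet x y y).indicator
        (fun v ↦ if v 0 = 0 then ((v 1 : ℂ) ^ k)⁻¹ else 0) v = ((g v : ℝ) : ℂ) := by
      intro v
      by_cases hv : v ∈ redVec N ⁻¹' linSet x y y
      · simp only [g, Set.indicator_of_mem hv]
        split_ifs <;> simp
      · simp [g, Set.indicator_of_notMem hv]
    rw [hz, tsum_congr hcast, ← Complex.ofReal_tsum, Complex.ofReal_eq_zero] at h1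
    have hpos : ∀ v, 0 ≤ g v := fun v ↦ Set.indicator_nonneg
      (fun w _ ↦ by split_ifs <;> first | exact inv_nonneg.2 (hke.pow_nonneg _) | exact le_rfl) v
    have hsum : Summable g := by
      have hk' : (2 : ℝ) < (k : ℝ) := by norm_cast
      refine (summable_one_div_norm_rpow hk').of_nonneg_of_le hpos fun v ↦ ?_
      refine Set.indicator_apply_le' (fun _ ↦ ?_) (fun _ ↦ by positivity)
      split_ifs with h0
      · rw [EisensteinSeries.norm_eq_max_natAbs, h0, Int.natAbs_zero, Nat.zero_max,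
          Real.rpow_neg (by positivity), Real.rpow_natCast, Nat.cast_natAbs, Int.cast_abs,
          hke.pow_abs]
      · positivity
    refine (hsum.tsum_pos hpos ![0, 1] ?_).ne' h1
    rw [show g ![0, 1] = 1 from ?_]
    · exact one_pos
    · have hm : (![0, 1] : Fin 2 → ℤ) ∈ redVec N ⁻¹' linSet x y y := by simp [linSet, redVec]
      simp [g, Set.indicator_of_mem hm]
  refine ⟨hy, ?_⟩
  obtain ⟨u, rfl⟩ := hxy hy
  subst hy
  by_cases hu0 : (u : ZMod N) = 0
  · left
    have : Subsingleton (ZMod N) := by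
      have h0 : IsUnit (0 : ZMod N) := hu0 ▸ u.isUnit
      exact isUnit_zero_iff.1 h0 |> subsingleton_of_zero_eq_one
    exact Subsingleton.elim _ _
  · have hset : linSet (u : ZMod N) 0 (u : ZMod N) = linSet 1 0 1 := by
      ext w
      simp [linSet]
      exact ⟨fun h ↦ by simpa [mul_assoc] using congrArg (· * ((u⁻¹ : (ZMod N)ˣ) : ZMod N)) h,
        fun h ↦ by simp [h]⟩
    have h1 := h (u : ZMod N) hu0
    rw [hset] at h1
    have h10 : (1 : ZMod N) ≠ 0 := fun h10 ↦ hu0 (by rw [← mul_one (u : ZMod N), h10, mul_zero])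
    have e1 := qCoeff_rowEis_one hk h10
    have e2 := qCoeff_rowEis_one hk hu0
    rw [show (⇑(rowEis (k := (k : ℤ)) (by omega) (1 : ZMod N)) : ℍ → ℂ)
      = ⇑(rowEis (k := (k : ℤ)) (by omega) (u : ZMod N)) from h1, e2] at e1
    have e3 : rowSign N k (u : ZMod N) 1 = rowSign N k 1 1 := by
      exact_mod_cast mul_left_cancel₀ (eisConst_ne_zero k) e1
    simp only [rowSign, hke.neg_one_pow, Nat.cast_one, one_mul, if_true] at e3
    by_contra hne
    push Not at hne
    rw [if_neg (Ne.symm hne.1), if_neg (Ne.symm hne.2)] at e3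
    split_ifs at e3 <;> omega

end Fermat.Agent.DS
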