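import Fermat.Agent.DS.Ratio
import Fermat.Agent.MF.DivideForms

/-!
# Conjugating the coefficients of forms on `Γ₁(N)`
-/

set_option autoImplicit false

noncomputable section

namespace Fermat.Agent.DS

open UpperHalfPlane hiding I
open ModularForm CongruenceSubgroup Finset Filter
open scoped MatrixGroups Manifold Topology

variable {N : ℕ}

theorem qE_sum {ι : Type*} (s : Finset ι) (f : ι → ℍ → ℂ)
    (hf : ∀ i ∈ s, f i ∈ MF.qFunctions) : qE (∑ i ∈ s, f i) = ∑ i ∈ s, qE (f i) := by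
  classical
  induction s using Finset.induction_on with
  | empty => simp [qE_zero]
  | insert a s ha ih =>
    rw [sum_insert ha, sum_insert ha, qE_add (hf a (mem_insert_self a s))
      (sum_mem fun i hi ↦ hf i (mem_insert_of_mem hi)), ih fun i hi ↦ hf i (mem_insert_of_mem hi)]

theorem map_smul_series (σ : ℂ →+* ℂ) (c : ℂ) (s : PowerSeries ℂ) :
    PowerSeries.map σ (c • s) = σ c • PowerSeries.map σ s := by
  ext m
  simp

/-- A form on `Γ₁(1)` is a level one form. -/
def toLevelOne {w : ℤ} (G : MF1 1 w) : ModularForm 𝒮ℒ w :=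
  levelOneOfInvariant (⇑G) (by simpa using slash_mem_hbFun G 1) fun δ ↦
    SlashInvariantFormClass.slash_action_eq G _ ⟨δ, (Gamma1_mem 1 δ).2
      ⟨Subsingleton.elim _ _, Subsingleton.elim _ _, Subsingleton.elim _ _⟩, rfl⟩

theorem exists_levelOne_conj (σ : ℂ →+* ℂ) {w : ℤ} (T : ModularForm 𝒮ℒ w) :
    ∃ T' : ModularForm 𝒮ℒ w, qE T' = PowerSeries.map σ (qE T) := by
  obtain ⟨G, hG⟩ := exists_form_of_mem_intForms
    (map_mem_intForms σ (levelOne_mem_intForms' (N := 1) T))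
  exact ⟨toLevelOne G, hG⟩

/-- The roots of a monic polynomial are small when its coefficients are. -/
theorem norm_lt_of_monic_root {D : ℕ} {x : ℂ} {c : ℕ → ℂ} (hc : c 0 = 1) {ε : ℝ} (hε : 0 < ε)
    (hroot : ∑ t ∈ range (D + 1), (-1) ^ t * x ^ (D - t) * c t = 0)
    (hsmall : ∑ t ∈ range D, ‖c (t + 1)‖ / ε ^ (t + 1) < 1) : ‖x‖ < ε := by
  by_contra hx
  push Not at hx
  have hx0 : 0 < ‖x‖ := hε.trans_le hx
  rw [sum_range_succ'] at hroot
  simp only [pow_zero, one_mul, Nat.sub_zero, hc, mul_one] at hroot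
  have h1 : ‖x‖ ^ D ≤ ∑ t ∈ range D, ‖x‖ ^ (D - (t + 1)) * ‖c (t + 1)‖ := by
    rw [← norm_pow, eq_neg_of_add_eq_zero_right hroot, norm_neg]
    refine (norm_sum_le _ _).trans (le_of_eq (sum_congr rfl fun t _ ↦ ?_))
    simp
  have h2 : ∑ t ∈ range D, ‖x‖ ^ (D - (t + 1)) * ‖c (t + 1)‖ ≤
      ‖x‖ ^ D * ∑ t ∈ range D, ‖c (t + 1)‖ / ε ^ (t + 1) := by
    rw [mul_sum]
    refine sum_le_sum fun t ht ↦ ?_
    rw [← mul_div_assoc, le_div_iff₀ (pow_pos hε _), mul_right_comm]
    gcongr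
    calc ‖x‖ ^ (D - (t + 1)) * ε ^ (t + 1) ≤ ‖x‖ ^ (D - (t + 1)) * ‖x‖ ^ (t + 1) := by gcongr
      _ = _ := by rw [← pow_add]; congr 1; have := Finset.mem_range.1 ht; omega
  nlinarith [pow_pos hx0 D]

theorem norm_le_of_monic_root {D : ℕ} {x : ℂ} {c : ℕ → ℂ} (hc : c 0 = 1)
    (hroot : ∑ t ∈ range (D + 1), (-1) ^ t * x ^ (D - t) * c t = 0) :
    ‖x‖ ≤ 1 + ∑ t ∈ range D, ‖c (t + 1)‖ := by
  set S := ∑ t ∈ range D, ‖c (t + 1)‖
  have hS : 0 ≤ S := by positivity
  refine (norm_lt_of_monic_root hc (by linarith) hroot ?_).le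
  calc ∑ t ∈ range D, ‖c (t + 1)‖ / (1 + S) ^ (t + 1)
      ≤ ∑ t ∈ range D, ‖c (t + 1)‖ / (1 + S) := by
        refine sum_le_sum fun t _ ↦ ?_
        gcongr
        exact le_self_pow₀ (by linarith) (by omega)
    _ = S / (1 + S) := (sum_div ..).symm
    _ < 1 := by rw [div_lt_one (by linarith)]; linarith

theorem meromorphicOrderAt_le_of_monic {P Q : ℂ → ℂ} {z₀ : ℂ} (hP : AnalyticAt ℂ P z₀)
    (hQ : AnalyticAt ℂ Q z₀) (hQ0 : ∀ᶠ w in 𝓝[≠] z₀, Q w ≠ 0) {D : ℕ} {c : ℕ → ℂ → ℂ}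
    (hc0 : ∀ w, c 0 w = 1) (hcc : ∀ t, ContinuousAt (c t) z₀)
    (hrel : ∀ᶠ w in 𝓝[≠] z₀, Q w ≠ 0 →
      ∑ t ∈ range (D + 1), (-1) ^ t * (P w / Q w) ^ (D - t) * c t w = 0) :
    meromorphicOrderAt Q z₀ ≤ meromorphicOrderAt P z₀ := by
  by_contra hlt
  push Not at hlt
  have hne : meromorphicOrderAt Q z₀ ≠ ⊤ :=
    (meromorphicOrderAt_ne_top_iff_eventually_ne_zero hQ.meromorphicAt).mpr hQ0
  have hdiv : meromorphicOrderAt (fun w ↦ P w / Q w) z₀ =
      meromorphicOrderAt P z₀ - meromorphicOrderAt Q z₀ :=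
    meromorphicOrderAt_div hP.meromorphicAt hQ.meromorphicAt
  obtain ⟨b, hb⟩ := WithTop.ne_top_iff_exists.mp hne
  obtain ⟨a, ha⟩ := WithTop.ne_top_iff_exists.mp hlt.ne_top
  have hneg : meromorphicOrderAt (fun w ↦ P w / Q w) z₀ < 0 := by
    rw [hdiv, ← ha, ← hb, ← WithTop.LinearOrderedAddCommGroup.coe_sub]
    rw [← ha, ← hb, WithTop.coe_lt_coe] at hlt
    exact_mod_cast sub_neg.mpr hlt
  have ht := tendsto_norm_cobounded_atTop.comp (tendsto_cobounded_of_meromorphicOrderAt_neg hneg)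
  have hcont : ContinuousAt (fun w ↦ 1 + ∑ t ∈ range D, ‖c (t + 1) w‖) z₀ :=
    continuousAt_const.add (tendsto_finsetSum _ fun t _ ↦ (hcc (t + 1)).norm)
  set M := 1 + ∑ t ∈ range D, ‖c (t + 1) z₀‖
  have hev : ∀ᶠ w in 𝓝[≠] z₀, ‖P w / Q w‖ < M + 1 := by
    filter_upwards [hrel, hQ0,
      (hcont.eventually_lt_const (lt_add_one M)).filter_mono nhdsWithin_le_nhds] with w h1 h2 h3
    exact (norm_le_of_monic_root (hc0 w) (h1 h2)).trans_lt h3
  obtain ⟨w, h1, h2⟩ := ((ht.eventually_ge_atTop (M + 1)).and hev).exists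
  exact absurd h1 (not_le.2 h2)

/-- The quotient `f` with `qE f · B = σ (qE F · B)` satisfies the conjugated monic relation. -/
theorem exists_conj_aux [NeZero N] (σ : ℂ →+* ℂ) {k : ℤ} (F : MF1 N k) :
    ∃ F' : MF1 N k, qE F' = PowerSeries.map σ (qE F) ∧
      ((∀ γ : SL(2, ℤ), IsZeroAtImInfty (⇑F ∣[k] γ)) →
        ∀ γ : SL(2, ℤ), IsZeroAtImInfty (⇑F' ∣[k] γ)) := by
  obtain ⟨n, B, hB, hB0, hFB⟩ := exists_ratio F
  obtain ⟨B', hB'⟩ := exists_form_of_mem_intForms (map_mem_intForms σ hB)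
  obtain ⟨A', hA'⟩ := exists_form_of_mem_intForms (map_mem_intForms σ hFB)
  obtain ⟨D, e, hD, he0, hrel, hez⟩ := exists_monic F
  choose e' he' using fun t ↦ exists_levelOne_conj σ (e t)
  have hσ : Function.Injective (PowerSeries.map σ) := fun s t h ↦ by
    ext m
    exact σ.injective (by simpa using congrArg (PowerSeries.coeff m) h)
  have he'0 : ⇑(e' 0) = 1 := by
    refine (qE_inj (MF.coe_levelOne_mem_qFunctions _) MF.qFunctions.one_mem).1 ?_
    rw [he', he0, qE_one, map_one]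
  have hB'0 : qE B' ≠ 0 := hB' ▸ fun h ↦ hB0 (hσ (h.trans (map_zero _).symm))
  -- the conjugated relation, cleared of denominators
  have hP : ∑ t ∈ range (D + 1),
      (-1 : ℂ) ^ t • (⇑A' ^ (D - t) * ⇑B' ^ t * ⇑(e' t)) = 0 := by
    have hm : ∀ t, ⇑A' ^ (D - t) * ⇑B' ^ t * ⇑(e' t) ∈ MF.qFunctions := fun t ↦
      mul_mem (mul_mem (pow_mem (form_mem_qFunctions A') _) (pow_mem (form_mem_qFunctions B') _))
        (MF.coe_levelOne_mem_qFunctions _)
    have hF : ∑ t ∈ range (D + 1), (-1 : ℂ) ^ t • (⇑F ^ (D - t) * ⇑(e t)) = 0 := by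
      rw [← hrel]
      refine sum_congr rfl fun t _ ↦ ?_
      rw [← Int.cast_smul_eq_zsmul ℂ]
      simp
    have hm0 : ∀ t, ⇑F ^ (D - t) * ⇑(e t) ∈ MF.qFunctions := fun t ↦
      mul_mem (pow_mem (form_mem_qFunctions F) _) (MF.coe_levelOne_mem_qFunctions _)
    refine (qE_eq_zero_iff (sum_mem fun t _ ↦ Subalgebra.smul_mem _ (hm t) _)).1 ?_
    rw [qE_sum _ _ fun t _ ↦ Subalgebra.smul_mem _ (hm t) _]
    have h0 := congrArg (fun s ↦ PowerSeries.map σ B ^ D * PowerSeries.map σ s)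
      (congrArg qE hF)
    simp only [qE_zero, map_zero, mul_zero] at h0
    rw [qE_sum _ _ fun t _ ↦ Subalgebra.smul_mem _ (hm0 t) _, map_sum, mul_sum] at h0
    rw [← h0]
    refine sum_congr rfl fun t ht ↦ ?_
    rw [qE_smul _ (hm t), qE_smul _ (hm0 t),
      qE_mul (mul_mem (pow_mem (form_mem_qFunctions A') _) (pow_mem (form_mem_qFunctions B') _))
        (MF.coe_levelOne_mem_qFunctions _),
      qE_mul (pow_mem (form_mem_qFunctions A') _) (pow_mem (form_mem_qFunctions B') _),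
      qE_pow (form_mem_qFunctions A'), qE_pow (form_mem_qFunctions B'),
      qE_mul (pow_mem (form_mem_qFunctions F) _) (MF.coe_levelOne_mem_qFunctions _),
      qE_pow (form_mem_qFunctions F), hA', hB', he', map_mul]
    rw [map_smul_series, map_pow σ (-1 : ℂ), map_neg, map_one]
    rw [map_mul, map_pow, mul_smul_comm]
    congr 1
    have : D - t + t = D := by
      have := Finset.mem_range.1 ht
      omega
    rw [mul_pow, show PowerSeries.map σ B ^ D =
      PowerSeries.map σ B ^ (D - t) * PowerSeries.map σ B ^ t by rw [← pow_add, this]]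
    ring
  have hPz : ∀ z, ∑ t ∈ range (D + 1), (-1 : ℂ) ^ t * (A' z ^ (D - t) * B' z ^ t * e' t z) = 0 :=
    fun z ↦ by simpa [Finset.sum_apply] using congrFun hP z
  have hB'f : (⇑B' : ℍ → ℂ) ≠ 0 := fun h ↦ hB'0 (by rw [h, qE_zero])
  have hrelQ : ∀ z, B' z ≠ 0 →
      ∑ t ∈ range (D + 1), (-1 : ℂ) ^ t * (A' z / B' z) ^ (D - t) * e' t z = 0 := by
    intro z hz
    have := congrArg (fun s ↦ s / B' z ^ D) (hPz z)
    simp only [zero_div, sum_div] at this
    rw [← this]
    refine sum_congr rfl fun t ht ↦ ?_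
    have h' : D - t + t = D := by
      have := Finset.mem_range.1 ht
      omega
    conv_rhs => rw [← h', pow_add]
    rw [h', div_pow]
    field_simp
  -- holomorphic quotient
  have hU := isOpen_upperHalfPlaneSet
  obtain ⟨f, hfhol, hf⟩ := MF.exists_mdifferentiable_mul_eq (ModularFormClass.holo A')
    (ModularFormClass.holo B') hB'f fun τ ↦ by
      have han : ∀ {g : ℍ → ℂ}, MDiff g → AnalyticAt ℂ (g ∘ ofComplex) (τ : ℂ) := fun hg ↦
        (UpperHalfPlane.mdifferentiable_iff.mp hg).analyticAt (hU.mem_nhds τ.im_pos)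
      refine meromorphicOrderAt_le_of_monic (D := D) (c := fun t ↦ ⇑(e' t) ∘ ofComplex)
        (han (ModularFormClass.holo A')) (han (ModularFormClass.holo B')) ?_
        (fun w ↦ by simp [he'0]) (fun t ↦ (han (ModularFormClass.holo _)).continuousAt) ?_
      · rcases (han (ModularFormClass.holo B')).eventually_eq_zero_or_eventually_ne_zero with h | h
        · refine absurd ?_ hB'f
          funext z
          have hconn : IsPreconnected upperHalfPlaneSet :=
            (convex_halfSpace_im_gt 0).isPreconnected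
          have := AnalyticOnNhd.eqOn_zero_of_preconnected_of_eventuallyEq_zero
            (fun w hw ↦ (UpperHalfPlane.mdifferentiable_iff.mp
              (ModularFormClass.holo B')).analyticAt (hU.mem_nhds hw)) hconn τ.im_pos h z.im_pos
          simpa using this
        · exact h
      · exact Eventually.of_forall fun w hw ↦ hrelQ (ofComplex w) hw
  have hfrel : ∀ z, ∑ t ∈ range (D + 1), (-1 : ℂ) ^ t * f z ^ (D - t) * e' t z = 0 := by
    have hmd : MDiff (∑ t ∈ range (D + 1), (-1 : ℂ) ^ t • (f ^ (D - t) * ⇑(e' t))) :=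
      Finset.sum_induction _ (fun g : ℍ → ℂ ↦ MDiff g) (fun a b ha hb ↦ ha.add hb)
        mdifferentiable_const fun t _ ↦
          (((hfhol.pow _).mul (ModularFormClass.holo (e' t))).const_smul _)
    have h0 : (∑ t ∈ range (D + 1), (-1 : ℂ) ^ t • (f ^ (D - t) * ⇑(e' t))) * ⇑B' ^ D = 0 := by
      rw [← hP, sum_mul]
      refine sum_congr rfl fun t ht ↦ ?_
      have h' : D - t + t = D := by
        have := Finset.mem_range.1 ht
        omega
      conv_lhs => rw [← h', pow_add, h']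
      rw [← hf, mul_pow, smul_mul_assoc]
      congr 1
      ring
    have h1 := ((UpperHalfPlane.mul_eq_zero_iff hmd ((ModularFormClass.holo B').pow D)).1
      h0).resolve_right (pow_ne_zero D hB'f)
    intro z
    have := congrFun h1 z
    simpa [Finset.sum_apply, mul_assoc] using this
  have hinv : ∀ γ ∈ Gamma1 N, f ∣[k] γ = f := by
    intro γ hγ
    have h2 := ModularForm.mul_slash_SL2 k n γ f ⇑B'
    rw [hf, show ⇑A' ∣[k + n] γ = ⇑A' from
        SlashInvariantFormClass.slash_action_eq A' _ ⟨γ, hγ, rfl⟩,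
      show ⇑B' ∣[n] γ = ⇑B' from SlashInvariantFormClass.slash_action_eq B' _ ⟨γ, hγ, rfl⟩] at h2
    have h3 : (f ∣[k] γ - f) * ⇑B' = 0 := by rw [sub_mul, ← h2, hf, sub_self]
    exact sub_eq_zero.1 (((UpperHalfPlane.mul_eq_zero_iff ((hfhol.slash k _).sub hfhol)
      (ModularFormClass.holo B')).1 h3).resolve_right hB'f)
  have hslrel : ∀ (γ : SL(2, ℤ)) (z : ℍ),
      ∑ t ∈ range (D + 1), (-1 : ℂ) ^ t * (f ∣[k] γ) z ^ (D - t) * e' t z = 0 := by
    intro γ z
    have he_inv : ∀ t, e' t (γ • z) = denom γ z ^ (k * t) * e' t z := fun t ↦ by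
      have h1 : ⇑(e' t) ∣[k * (t : ℤ)] γ = ⇑(e' t) :=
        SlashInvariantFormClass.slash_action_eq (e' t) _ ⟨γ, rfl⟩
      have h2 := congrFun h1 z
      rw [ModularForm.SL_slash_apply, zpow_neg,
        mul_inv_eq_iff_eq_mul₀ (zpow_ne_zero _ (denom_ne_zero _ _))] at h2
      rw [h2, mul_comm]
    have h := hfrel (γ • z)
    rw [ModularForm.SL_slash_apply]
    have hd := denom_ne_zero (γ : GL (Fin 2) ℝ) z
    suffices hmain : denom γ z ^ (k * D) * ∑ t ∈ range (D + 1),
        (-1 : ℂ) ^ t * (f (γ • z) * denom γ z ^ (-k)) ^ (D - t) * e' t z = 0 from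
      (mul_eq_zero.1 hmain).resolve_left (zpow_ne_zero _ hd)
    rw [← h, mul_sum]
    refine sum_congr rfl fun t ht ↦ ?_
    rw [he_inv, mul_pow, ← zpow_natCast (denom γ z ^ (-k)), ← zpow_mul,
      show k * (D : ℤ) = k * t + k * ((D - t : ℕ) : ℤ) by
        have := Finset.mem_range.1 ht
        push_cast [show t ≤ D by omega]
        ring,
      zpow_add₀ hd, neg_mul, zpow_neg]
    field_simp
  have hbdd : ∀ γ : SL(2, ℤ), IsBoundedAtImInfty (f ∣[k] γ) := by
    intro γ
    have hb : ∀ t, IsBoundedAtImInfty (⇑(e' t)) := fun t ↦ ModularFormClass.bdd_at_infty (e' t)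
    simp only [UpperHalfPlane.isBoundedAtImInfty_iff] at hb ⊢
    choose M A hMA using hb
    refine ⟨1 + ∑ t ∈ range D, M (t + 1), ∑ t ∈ range D, |A (t + 1)|, fun z hz ↦ ?_⟩
    refine (norm_le_of_monic_root (c := fun t ↦ e' t z) (congrFun he'0 z) (hslrel γ z)).trans ?_
    gcongr with t ht
    exact hMA (t + 1) z (le_trans ((le_abs_self _).trans
      (single_le_sum (f := fun t ↦ |A (t + 1)|) (fun _ _ ↦ abs_nonneg _) ht)) hz)
  let F' : MF1 N k :=
    { toFun := f
      slash_action_eq' := fun g hg ↦ by obtain ⟨γ, hγ, rfl⟩ := hg; exact hinv γ hγ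
      holo' := hfhol
      bdd_at_cusps' := fun {c} hc ↦ by
        rw [Subgroup.IsArithmetic.isCusp_iff_isCusp_SL2Z] at hc
        rw [OnePoint.isBoundedAt_iff_forall_SL2Z hc]
        exact fun γ _ ↦ hbdd γ }
  refine ⟨F', mul_right_cancel₀ hB'0 ?_, fun hcusp γ ↦ ?_⟩
  · rw [← qE_mul (form_mem_qFunctions F') (form_mem_qFunctions B'),
      show ⇑F' * ⇑B' = ⇑A' from hf, hA', map_mul, hB']
  · have hzero : ∀ t, IsZeroAtImInfty ⇑(e' (t + 1)) := by
      intro t
      have h0 : (qExpansion 1 (e (t + 1))).coeff 0 = 0 := by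
        rw [PowerSeries.coeff_zero_eq_constantCoeff,
          ← PowerSeries.coeff_zero_eq_constantCoeff_apply,
          UpperHalfPlane.qExpansion_coeff_zero one_pos (ModularFormClass.analyticAt_cuspFunction_zero
            (e (t + 1)) one_pos one_mem_strictPeriods_SL)
            (SlashInvariantFormClass.periodic_comp_ofComplex _ one_mem_strictPeriods_SL)]
        exact (hez hcusp (t + 1) (by omega)).valueAtInfty_eq_zero
      have h1 : (qExpansion 1 (e' (t + 1))).coeff 0 = 0 := by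
        rw [show qExpansion 1 (e' (t + 1)) = _ from he' (t + 1), PowerSeries.coeff_map,
          qE_coeff, h0, map_zero]
      exact CuspFormClass.zero_at_infty (ModularForm.toCuspForm (e' (t + 1)) h1)
    rw [IsZeroAtImInfty, ZeroAtFilter, NormedAddGroup.tendsto_nhds_zero]
    intro ε hε
    have hlim : Tendsto (fun z ↦ ∑ t ∈ range D, ‖e' (t + 1) z‖ / ε ^ (t + 1)) atImInfty (𝓝 0) := by
      simpa using tendsto_finsetSum (range D) fun t _ ↦ ((hzero t).norm.div_const (ε ^ (t + 1)))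
    filter_upwards [hlim.eventually_lt_const one_pos] with z hz
    exact norm_lt_of_monic_root (congrFun he'0 z) hε (hslrel γ z) hz

/-- Conjugation of coefficients preserves the modular forms on `Γ₁(N)`. -/
theorem exists_conj_form [NeZero N] (σ : ℂ →+* ℂ) {k : ℤ} (F : MF1 N k) :
    ∃ F' : MF1 N k, qE F' = PowerSeries.map σ (qE F) :=
  let ⟨F', h, _⟩ := exists_conj_aux σ F
  ⟨F', h⟩

/-- Conjugation of coefficients preserves the cusp forms on `Γ₁(N)`. -/
theorem exists_conj_cusp [NeZero N] (σ : ℂ →+* ℂ) {k : ℤ} (f : CuspForm (Gamma1 N) k) :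
    ∃ f' : CuspForm (Gamma1 N) k, qE f' = PowerSeries.map σ (qE f) := by
  let F : MF1 N k :=
    { toFun := f
      slash_action_eq' := f.slash_action_eq'
      holo' := f.holo'
      bdd_at_cusps' := fun hc γ hγ ↦ (f.zero_at_cusps' hc γ hγ).boundedAtFilter }
  obtain ⟨F', h, hz⟩ := exists_conj_aux σ F
  exact ⟨{ toFun := F'
           slash_action_eq' := F'.slash_action_eq'
           holo' := F'.holo'
           zero_at_cusps' := fun {c} hc ↦ by
             rw [Subgroup.IsArithmetic.isCusp_iff_isCusp_SL2Z] at hc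
             rw [OnePoint.isZeroAt_iff_forall_SL2Z hc]
             exact fun γ _ ↦ hz (fun δ ↦ CuspFormClass.zero_at_infty_slash f δ) γ }, h⟩

end Fermat.Agent.DS
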