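import Fermat.Agent.DS.Defs
import Fermat.Agent.LT.WeightOne.Gamma1Forms
import Fermat.Agent.MF.HeckeIntegrality
import Fermat.Agent.MOD.EigenCharacter
import Mathlib.RingTheory.Ideal.GoingUp
import Mathlib.RingTheory.IntegralClosure.IsIntegralClosure.Basic
import Mathlib.FieldTheory.IsAlgClosed.Basic
import Mathlib.Analysis.Complex.Polynomial.Basic
import Mathlib.RingTheory.Int.Basic
import Mathlib.NumberTheory.DirichletCharacter.Basic

/-!
# The Deligne–Serre lifting lemma on `S₂(Γ₁(M))`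

A weight two form on `Γ₁(M)` whose diamond translates are integral and which is, modulo a prime,
an eigenvector of `T_p` (`p ∤ M`) and of the diamond operators, gives a form in characteristic zero
which is an eigenvector of these operators, with congruent eigenvalues.
-/

set_option autoImplicit false
set_option linter.style.haveILetI false

noncomputable section

namespace Fermat.Agent.DS

open CongruenceSubgroup UpperHalfPlane ModularFormClass Matrix.SpecialLinearGroup
open Fermat.Agent.LT.WeightOne Fermat.Agent.MF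
open scoped MatrixGroups ModularForm

/-- A character into an algebraically closed field extends along an integral map. -/
theorem exists_extend_character {R S : Type*} [CommRing R] [CommRing S] (f : R →+* S)
    (hf : f.IsIntegral) {k : Type*} [Field k] [IsAlgClosed k] (θ : R →+* k)
    [(RingHom.ker θ).IsMaximal] (hker : RingHom.ker f ≤ RingHom.ker θ) :
    ∃ φ' : S →+* k, ∀ t, φ' (f t) = θ t := by
  let := f.toAlgebra
  haveI : Algebra.IsIntegral R S := ⟨hf⟩
  obtain ⟨P, hP, hcomap⟩ := Ideal.exists_ideal_over_maximal_of_isIntegral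
    (S := S) (RingHom.ker θ) hker
  let fbar : R ⧸ RingHom.ker θ →+* S ⧸ P := Ideal.quotientMap P f (le_of_eq hcomap.symm)
  letI : Field (R ⧸ RingHom.ker θ) := Ideal.Quotient.field _
  letI : Field (S ⧸ P) := Ideal.Quotient.field P
  letI : Algebra (R ⧸ RingHom.ker θ) (S ⧸ P) := fbar.toAlgebra
  letI : Algebra (R ⧸ RingHom.ker θ) k := (Ideal.Quotient.lift _ θ fun _ h => h).toAlgebra
  haveI : Algebra.IsIntegral (R ⧸ RingHom.ker θ) (S ⧸ P) := by
    constructor
    intro x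
    obtain ⟨y, rfl⟩ := Ideal.Quotient.mk_surjective x
    obtain ⟨Q, hQ, hQ0⟩ := hf y
    refine ⟨Q.map (Ideal.Quotient.mk (RingHom.ker θ)), hQ.map _, ?_⟩
    have := congrArg (Ideal.Quotient.mk P) hQ0
    rw [map_zero, Polynomial.hom_eval₂] at this
    rw [Polynomial.eval₂_map]
    exact this
  let L : (S ⧸ P) →ₐ[R ⧸ RingHom.ker θ] k := IsAlgClosed.lift
  exact ⟨L.toRingHom.comp (Ideal.Quotient.mk P), fun t => L.commutes (Ideal.Quotient.mk _ t)⟩

variable {M : ℕ} [NeZero M]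

theorem diaForm_congr {k : ℤ} {a b : ℕ} (ha : a.Coprime M) (hb : b.Coprime M)
    (h : (a : ZMod M) = (b : ZMod M)) (f : CuspForm (Gamma1 M) k) : diaForm a f = diaForm b f :=
  DFunLike.coe_injective <| (isInv_form f).slash_eq_of_map_eq
    (by rw [gamma0Map_lowRow ha, gamma0Map_lowRow hb, h])

theorem diaForm_one {k : ℤ} (f : CuspForm (Gamma1 M) k) : diaForm 1 f = f :=
  DFunLike.coe_injective <| (isInv_form f).diaFun_of_eq_one (Nat.coprime_one_left M) Nat.cast_one

variable (M) in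
/-- The operators `T_p` for `p ∤ M` and the diamond operators. -/
def liftGens : Set (Module.End ℂ (CuspForm (Gamma1 M) 2)) :=
  {t | (∃ (p : ℕ) (hp : p.Prime), ¬ p ∣ M ∧ t = haveI := Fact.mk hp; heckeLin 2 M p) ∨
    ∃ a : ℕ, a.Coprime M ∧ t = diaLin 2 M a}

theorem liftGens_comm : ∀ x ∈ liftGens M, ∀ y ∈ liftGens M, x * y = y * x := by
  intro x hx y hy
  refine LinearMap.ext fun f => ?_
  rcases hx with ⟨p, hp, -, rfl⟩ | ⟨a, ha, rfl⟩ <;>
    rcases hy with ⟨q, hq, -, rfl⟩ | ⟨b, hb, rfl⟩ <;>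
    simp only [Module.End.mul_apply, heckeLin_apply, diaLin_apply]
  · haveI := Fact.mk hp; haveI := Fact.mk hq; exact heckeForm_comm f
  · haveI := Fact.mk hp; exact (diaForm_heckeForm b f).symm
  · haveI := Fact.mk hq; exact diaForm_heckeForm a f
  · exact diaForm_comm b a hb ha f

variable (M) in
/-- The algebra generated by `T_p` for `p ∤ M` and the diamond operators. -/
abbrev liftAlg : Subalgebra ℤ (Module.End ℂ (CuspForm (Gamma1 M) 2)) :=
  Algebra.adjoin ℤ (liftGens M)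

instance liftAlgCommRing : CommRing (liftAlg M) :=
  Algebra.adjoinCommRingOfComm ℤ liftGens_comm

theorem moduleFinite_liftAlg : Module.Finite ℤ (liftAlg M) := by
  refine Periods.moduleFinite_adjoin (Γ := Gamma1 M) (w := 0) (liftGens M) fun t ht => ?_
  rcases ht with ⟨p, hp, -, rfl⟩ | ⟨a, -, rfl⟩
  · haveI := Fact.mk hp
    let e := Fintype.equivFin (HK.HeckeIdx M p)
    refine ⟨_, fun i => repGL (e.symm i), fun i => rep (e.symm i), fun i => ⟨val_repGL _, ?_⟩,
      fun f => ?_⟩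
    · rw [(inDelta_rep _).det]
      exact_mod_cast hp.pos
    · show heckeOp 2 M p ⇑f = _
      rw [heckeOp, ← e.symm.sum_comp]
      rfl
  · refine ⟨1, fun _ => mapGL ℝ (lowRow M a : SL(2, ℤ)), fun _ => (lowRow M a : SL(2, ℤ)),
      fun _ => Periods.intPos_mapGL _, fun f => ?_⟩
    rw [Fin.sum_univ_one]
    rfl

section GoodForm

variable {k : Type*} [Field k] (φ : integralClosure ℤ ℂ →+* k) (B Φ : ℕ → k)

/-- The coefficients of `⟨a⟩ G` are integral and congruent to `c · B a · Φ`. -/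
def GoodForm (G : CuspForm (Gamma1 M) 2) (c : k) : Prop :=
  ∀ a : ℕ, a.Coprime M → ∀ n : ℕ, ∃ z : integralClosure ℤ ℂ,
    (z : ℂ) = qCoeff (diaForm a G) n ∧ φ z = c * B a * Φ n

/-- `x` acts on good forms by multiplication by `d`. -/
def GoodOp (x : Module.End ℂ (CuspForm (Gamma1 M) 2)) (d : k) : Prop :=
  ∀ (G : CuspForm (Gamma1 M) 2) (c : k), GoodForm φ B Φ G c → GoodForm φ B Φ (x G) (d * c)

variable {φ B Φ}

theorem GoodOp.add {x y : Module.End ℂ (CuspForm (Gamma1 M) 2)} {d e : k}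
    (hx : GoodOp φ B Φ x d) (hy : GoodOp φ B Φ y e) : GoodOp φ B Φ (x + y) (d + e) := by
  intro G c hG a ha n
  obtain ⟨z, hz, hz'⟩ := hx G c hG a ha n
  obtain ⟨w, hw, hw'⟩ := hy G c hG a ha n
  refine ⟨z + w, ?_, ?_⟩
  · rw [LinearMap.add_apply, show diaForm a (x G + y G) = diaForm a (x G) + diaForm a (y G) from
      (diaLin 2 M a).map_add _ _, ← coeffLin_apply, map_add, coeffLin_apply, coeffLin_apply,
      ← hz, ← hw]
    rfl
  · rw [map_add, hz', hw']; ring

theorem GoodOp.mul {x y : Module.End ℂ (CuspForm (Gamma1 M) 2)} {d e : k}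
    (hx : GoodOp φ B Φ x d) (hy : GoodOp φ B Φ y e) : GoodOp φ B Φ (x * y) (d * e) :=
  fun G c hG => by simpa [mul_assoc] using hx _ _ (hy G c hG)

theorem goodOp_int (z : ℤ) :
    GoodOp φ B Φ (algebraMap ℤ (Module.End ℂ (CuspForm (Gamma1 M) 2)) z) (z : k) := by
  intro G c hG a ha n
  obtain ⟨w, hw, hw'⟩ := hG a ha n
  refine ⟨(z : integralClosure ℤ ℂ) * w, ?_, by rw [map_mul, map_intCast, hw']; ring⟩
  rw [Module.algebraMap_end_apply, show diaForm a (z • G) = z • diaForm a G from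
    map_zsmul (diaLin 2 M a) z G, ← coeffLin_apply, map_zsmul, coeffLin_apply, ← hw, zsmul_eq_mul]
  push_cast
  rfl

theorem goodOp_dia (hBmul : ∀ a b : ℕ, a.Coprime M → b.Coprime M → B (a * b) = B a * B b)
    {b : ℕ} (hb : b.Coprime M) : GoodOp φ B Φ (diaLin 2 M b) (B b) := by
  intro G c hG a ha n
  obtain ⟨z, hz, hz'⟩ := hG (b * a) (hb.mul_left ha) n
  refine ⟨z, ?_, by rw [hz', hBmul b a hb ha]; ring⟩
  rw [hz, diaLin_apply, diaForm_diaForm hb ha (hb.mul_left ha) rfl]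

theorem goodOp_hecke (hBmul : ∀ a b : ℕ, a.Coprime M → b.Coprime M → B (a * b) = B a * B b)
    {p : ℕ} [hp : Fact p.Prime] (hpM : ¬ p ∣ M) {A : k}
    (hA : ∀ n, Φ (n * p) + (if p ∣ n then (p : k) * B p * Φ (n / p) else 0) = A * Φ n) :
    GoodOp φ B Φ (heckeLin 2 M p) A := by
  intro G c hG a ha n
  have hpc : p.Coprime M := coprime_of_not_dvd hpM
  obtain ⟨z, hz, hz'⟩ := hG a ha (n * p)
  obtain ⟨w, hw, hw'⟩ := hG (a * p) (ha.mul_left hpc) (n / p)
  refine ⟨z + (if p ∣ n then (p : integralClosure ℤ ℂ) * w else 0), ?_, ?_⟩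
  · rw [heckeLin_apply, diaForm_heckeForm, qCoeff_heckeForm,
      diaForm_diaForm ha hpc (ha.mul_left hpc) rfl, ← hz, ← hw,
      show ((2 : ℤ) - 1) = 1 from rfl, zpow_one]
    simp only [hpM, not_false_eq_true, true_and]
    split_ifs <;> simp
  · rw [map_add, hz', apply_ite φ, map_mul, map_natCast, hw', map_zero, hBmul a p ha hpc,
      mul_assoc A c, mul_comm A, mul_assoc (c * B a) A, ← hA n]
    split_ifs <;> ring

end GoodForm

/-- **Deligne–Serre lifting on `S₂(Γ₁(M))`.** -/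
theorem exists_eigenLift {l : ℕ} [Fact l.Prime] {k : Type} [Field k] [CharP k l] [IsAlgClosed k]
    (φ : integralClosure ℤ ℂ →+* k) (F : CuspForm (Gamma1 M) 2) (A B Φ : ℕ → k)
    (hB1 : B 1 = 1) (hBmul : ∀ a b : ℕ, a.Coprime M → b.Coprime M → B (a * b) = B a * B b)
    (hF : ∀ a : ℕ, a.Coprime M → ∀ n : ℕ, ∃ z : integralClosure ℤ ℂ,
      (z : ℂ) = qCoeff (diaForm a F) n ∧ φ z = B a * Φ n)
    (hΦ : Φ 1 ≠ 0)
    (hA : ∀ p : ℕ, p.Prime → ¬ p ∣ M → ∀ n : ℕ,
      Φ (n * p) + (if p ∣ n then (p : k) * B p * Φ (n / p) else 0) = A p * Φ n) :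
    ∃ (g : CuspForm (Gamma1 M) 2) (ψ : DirichletCharacter ℂ M) (lam : ℕ → ℂ)
      (φ' : integralClosure ℤ ℂ →+* k),
      g ≠ 0 ∧
      (∀ γ : Gamma0 M, (⇑g) ∣[(2 : ℤ)] (γ : SL(2, ℤ)) =
        ψ (((γ : SL(2, ℤ)) 1 1 : ℤ) : ZMod M) • ⇑g) ∧
      (∀ p : ℕ, p.Prime → ¬ p ∣ M → ∀ n : ℕ, qCoeff g (p * n) +
        ψ (p : ZMod M) * (p : ℂ) * (if p ∣ n then qCoeff g (n / p) else 0) =
          lam p * qCoeff g n) ∧
      ∀ p : ℕ, p.Prime → ¬ p ∣ M → ∃ a b : integralClosure ℤ ℂ,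
        (a : ℂ) = lam p ∧ (b : ℂ) = ψ (p : ZMod M) ∧ φ' a = A p ∧ φ' b = B p := by
  classical
  have : FiniteDimensional ℂ (CuspForm (Gamma1 M) 2) := finiteDimensional_cuspForm 2
  haveI : Module.Finite ℤ (liftAlg M) := moduleFinite_liftAlg
  have hF' : GoodForm φ B Φ F 1 := fun a ha n => by simpa using hF a ha n
  -- the residual character
  have hall : ∀ t ∈ liftAlg M, ∃ d, GoodOp φ B Φ t d := by
    intro t ht
    induction ht using Algebra.adjoin_induction with
    | mem x hx =>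
      rcases hx with ⟨p, hp, hpM, rfl⟩ | ⟨b, hb, rfl⟩
      · haveI := Fact.mk hp
        exact ⟨A p, goodOp_hecke hBmul hpM (hA p hp hpM)⟩
      · exact ⟨B b, goodOp_dia hBmul hb⟩
    | algebraMap z => exact ⟨z, goodOp_int z⟩
    | add x y _ _ hx hy =>
      obtain ⟨d, hd⟩ := hx
      obtain ⟨e, he⟩ := hy
      exact ⟨d + e, hd.add he⟩
    | mul x y _ _ hx hy =>
      obtain ⟨d, hd⟩ := hx
      obtain ⟨e, he⟩ := hy
      exact ⟨d * e, hd.mul he⟩
  choose c hc using fun t : liftAlg M => hall t.1 t.2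
  have huniq : ∀ (t : liftAlg M) (d : k), GoodOp φ B Φ t.1 d → c t = d := by
    intro t d hd
    obtain ⟨z, hz, hz'⟩ := hc t F 1 hF' 1 (Nat.coprime_one_left M) 1
    obtain ⟨w, hw, hw'⟩ := hd F 1 hF' 1 (Nat.coprime_one_left M) 1
    rw [show z = w from Subtype.ext (hz.trans hw.symm), hw', hB1] at hz'
    simp only [mul_one] at hz'
    exact (mul_right_cancel₀ hΦ hz').symm
  let θ : liftAlg M →+* k :=
    { toFun := c
      map_one' := by simpa using huniq (algebraMap ℤ _ 1) _ (goodOp_int 1)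
      map_mul' := fun s t => huniq (s * t) _ ((hc s).mul (hc t))
      map_zero' := by simpa using huniq (algebraMap ℤ _ 0) _ (goodOp_int 0)
      map_add' := fun s t => huniq (s + t) _ ((hc s).add (hc t)) }
  -- its kernel is maximal
  haveI : Algebra.IsIntegral ℤ (liftAlg M) := Algebra.IsIntegral.of_finite ℤ _
  let 𝔪 := RingHom.ker θ
  haveI h𝔪p : 𝔪.IsPrime := RingHom.ker_isPrime θ
  haveI h𝔪 : 𝔪.IsMaximal := by
    refine Ideal.isMaximal_of_isIntegral_of_isMaximal_comap (R := ℤ) 𝔪 ?_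
    have hl : (Ideal.span {(l : ℤ)}).IsMaximal :=
      Int.ideal_span_isMaximal_of_prime l
    have he : 𝔪.comap (algebraMap ℤ (liftAlg M)) = Ideal.span {(l : ℤ)} := by
      ext z
      rw [Ideal.mem_comap, RingHom.mem_ker, eq_intCast (algebraMap ℤ (liftAlg M)), map_intCast,
        CharP.intCast_eq_zero_iff k l, Ideal.mem_span_singleton]
    rw [he]
    exact hl
  -- a characteristic zero eigen character below it
  let act : liftAlg M →+* Module.End ℂ (CuspForm (Gamma1 M) 2) := (liftAlg M).val.toRingHom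
  obtain ⟨g, lam, hg, hlam, hker⟩ := MOD.exists_eigvec_ker_le act 𝔪 (fun t ht => by
    have : t = 0 := Subtype.ext ht
    simp [this])
  have hint : ∀ t, lam t ∈ integralClosure ℤ ℂ := fun t =>
    (Algebra.IsIntegral.isIntegral (R := ℤ) t).map lam.toIntAlgHom
  let lam' : liftAlg M →+* integralClosure ℤ ℂ := lam.codRestrict (integralClosure ℤ ℂ) hint
  obtain ⟨φ', hφ'⟩ := exists_extend_character lam'
    (by let := lam'.toAlgebra
        exact fun x => (Algebra.IsIntegral.isIntegral (R := ℤ) x).tower_top (A := liftAlg M)) θ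
    (fun t ht => hker (congrArg Subtype.val ht))
  -- the eigenvalues
  have hmem : ∀ t ∈ liftGens M, t ∈ liftAlg M := fun t ht => Algebra.subset_adjoin ht
  let D : ∀ a : ℕ, a.Coprime M → liftAlg M := fun a ha => ⟨diaLin 2 M a, hmem _ (Or.inr ⟨a, ha, rfl⟩)⟩
  have hD : ∀ a ha, θ (D a ha) = B a := fun a ha => huniq _ _ (goodOp_dia hBmul ha)
  have hDg : ∀ a ha, diaForm a g = lam (D a ha) • g := fun a ha => hlam (D a ha)
  have hmul : ∀ (a b e : ℕ) (ha : a.Coprime M) (hb : b.Coprime M) (he : e.Coprime M),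
      ((a * b : ℕ) : ZMod M) = e → lam (D e he) = lam (D a ha) * lam (D b hb) := by
    intro a b e ha hb he h
    refine smul_left_injective ℂ hg ?_
    show lam (D e he) • g = (lam (D a ha) * lam (D b hb)) • g
    rw [← hDg e he, ← diaForm_diaForm ha hb he h, hDg a ha]
    show diaLin 2 M b (lam (D a ha) • g) = _
    rw [map_smul, diaLin_apply, hDg b hb, smul_smul]
  have hD1 : lam (D 1 (Nat.coprime_one_left M)) = 1 := by
    refine smul_left_injective ℂ hg ?_
    show lam _ • g = (1 : ℂ) • g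
    rw [← hDg 1 (Nat.coprime_one_left M), diaForm_one, one_smul]
  have hcongr : ∀ (a b : ℕ) (ha : a.Coprime M) (hb : b.Coprime M),
      (a : ZMod M) = b → lam (D a ha) = lam (D b hb) := fun a b ha hb h => by
    rw [hmul b 1 a hb (Nat.coprime_one_left M) ha (by rw [mul_one, h]), hD1, mul_one]
  let χ : (ZMod M)ˣ →* ℂ :=
    { toFun := fun u => lam (D (u : ZMod M).val (ZMod.val_coe_unit_coprime u))
      map_one' := (hcongr _ 1 (ZMod.val_coe_unit_coprime 1) (Nat.coprime_one_left M) (by simp)).trans hD1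
      map_mul' := fun u v => hmul _ _ _ (ZMod.val_coe_unit_coprime u) (ZMod.val_coe_unit_coprime v)
        (ZMod.val_coe_unit_coprime (u * v)) (by simp) }
  let ψ : DirichletCharacter ℂ M := MulChar.ofUnitHom χ.toHomUnits
  have hψ : ∀ (a : ℕ) (ha : a.Coprime M), ψ (a : ZMod M) = lam (D a ha) := fun a ha => by
    rw [show (a : ZMod M) = (ZMod.unitOfCoprime a ha : ZMod M) from rfl, MulChar.ofUnitHom_coe,
      MonoidHom.coe_toHomUnits]
    exact hcongr _ _ (ZMod.val_coe_unit_coprime _) ha (by simp)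
  let ev : ℕ → ℂ := fun p => if h : p.Prime ∧ ¬ p ∣ M then
    lam ⟨haveI := Fact.mk h.1; heckeLin 2 M p, hmem _ (Or.inl ⟨p, h.1, h.2, rfl⟩)⟩ else 0
  refine ⟨g, ψ, ev, φ', hg, fun γ => ?_, fun p hp hpM n => ?_, fun p hp hpM => ?_⟩
  · obtain ⟨u, hu⟩ : IsUnit ((((γ : SL(2, ℤ)) 1 1 : ℤ)) : ZMod M) :=
      isUnit_iff_exists_inv.2 ⟨(((γ : SL(2, ℤ)) 0 0 : ℤ) : ZMod M), by
        have hdet := congrArg (fun y : ℤ => (y : ZMod M))
          ((Matrix.det_fin_two _).symm.trans (γ : SL(2, ℤ)).det_coe)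
        simp only [Int.cast_sub, Int.cast_mul, Gamma0_mem.1 γ.2, mul_zero, sub_zero,
          Int.cast_one] at hdet
        rw [mul_comm]; exact hdet⟩
    have e : Gamma0Map M γ = Gamma0Map M (lowRow M (u : ZMod M).val) := by
      rw [gamma0Map_lowRow (ZMod.val_coe_unit_coprime u), ZMod.natCast_zmod_val, hu]
      rfl
    rw [← hu, MulChar.ofUnitHom_coe, MonoidHom.coe_toHomUnits,
      (isInv_form g).slash_eq_of_map_eq e]
    exact congrArg DFunLike.coe (hDg _ (ZMod.val_coe_unit_coprime u))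
  · haveI := Fact.mk hp
    have hpc : p.Coprime M := coprime_of_not_dvd hpM
    have h1 : heckeForm p g = ev p • g := by
      simp only [ev, dif_pos (show p.Prime ∧ ¬ p ∣ M from ⟨hp, hpM⟩)]
      exact hlam ⟨heckeLin 2 M p, hmem _ (Or.inl ⟨p, hp, hpM, rfl⟩)⟩
    have h2 := qCoeff_heckeForm (p := p) g n
    rw [h1, qCoeff_form_smul, hDg p hpc, qCoeff_form_smul, ← hψ p hpc,
      show ((2 : ℤ) - 1) = 1 from rfl, zpow_one, mul_comm n p] at h2
    simp only [hpM, not_false_eq_true, true_and] at h2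
    rw [h2]
    split_ifs <;> ring
  · haveI := Fact.mk hp
    let T : liftAlg M := ⟨heckeLin 2 M p, hmem _ (Or.inl ⟨p, hp, hpM, rfl⟩)⟩
    refine ⟨lam' T, lam' (D p (coprime_of_not_dvd hpM)), ?_, (hψ p (coprime_of_not_dvd hpM)).symm, ?_, ?_⟩
    · simp only [ev, dif_pos (show p.Prime ∧ ¬ p ∣ M from ⟨hp, hpM⟩)]
      rfl
    · rw [hφ']
      exact huniq T _ (goodOp_hecke hBmul hpM (hA p hp hpM))
    · rw [hφ', hD p (coprime_of_not_dvd hpM)]

end Fermat.Agent.DS
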