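import Fermat.Agent.DS.WeightOneBound
import Mathlib.NumberTheory.NumberField.InfinitePlace.Embeddings

/-!
# Upper density of the primes with large coefficients, finiteness of the values
-/

set_option autoImplicit false

noncomputable section

namespace Fermat.Agent.DS

open Finset Real

/-- The set `T` of primes has upper (Dirichlet) density at most `η`. -/
def PrimeDensityLE (T : Set ℕ) (η : ℝ) : Prop :=
  ∃ C : ℝ, ∀ s : ℝ, 1 < s → s ≤ 2 → ∀ P : Finset ℕ, (∀ p ∈ P, p.Prime ∧ p ∈ T) →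
    ∑ p ∈ P, (p : ℝ) ^ (-s) ≤ η * Real.log (1 / (s - 1)) + C

theorem PrimeDensityLE.mono {T T' : Set ℕ} {η : ℝ} (h : PrimeDensityLE T η) (hT : T' ⊆ T) :
    PrimeDensityLE T' η :=
  let ⟨C, hC⟩ := h
  ⟨C, fun s hs hs2 P hP ↦ hC s hs hs2 P fun p hp ↦ ⟨(hP p hp).1, hT (hP p hp).2⟩⟩

theorem PrimeDensityLE.mono_right {T : Set ℕ} {η η' : ℝ} (h : PrimeDensityLE T η) (hη : η ≤ η') :
    PrimeDensityLE T η' := by
  obtain ⟨C, hC⟩ := h
  refine ⟨C, fun s hs hs2 P hP ↦ (hC s hs hs2 P hP).trans ?_⟩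
  have : 0 ≤ Real.log (1 / (s - 1)) :=
    Real.log_nonneg (by rw [le_div_iff₀ (by linarith)]; linarith)
  nlinarith

theorem primeDensityLE_of_finite {T : Set ℕ} (hT : T.Finite) : PrimeDensityLE T 0 := by
  refine ⟨hT.toFinset.card, fun s hs _ P hP ↦ ?_⟩
  calc ∑ p ∈ P, (p : ℝ) ^ (-s) ≤ ∑ _p ∈ P, (1 : ℝ) := sum_le_sum fun p hp ↦
        Real.rpow_le_one_of_one_le_of_nonpos (mod_cast (hP p hp).1.one_le) (by linarith)
    _ ≤ _ := by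
        simp only [sum_const, nsmul_eq_mul, mul_one, zero_mul, zero_add, Nat.cast_le]
        exact card_le_card fun p hp ↦ hT.mem_toFinset.2 (hP p hp).2

theorem PrimeDensityLE.union {T T' : Set ℕ} {η η' : ℝ} (h : PrimeDensityLE T η)
    (h' : PrimeDensityLE T' η') : PrimeDensityLE (T ∪ T') (η + η') := by
  classical
  obtain ⟨C, hC⟩ := h
  obtain ⟨C', hC'⟩ := h'
  refine ⟨C + C', fun s hs hs2 P hP ↦ ?_⟩
  rw [← sum_filter_add_sum_filter_not P (fun p ↦ p ∈ T)]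
  have h1 := hC s hs hs2 (P.filter fun p ↦ p ∈ T) fun p hp ↦
    ⟨(hP p (mem_filter.1 hp).1).1, (mem_filter.1 hp).2⟩
  have h2 := hC' s hs hs2 (P.filter fun p ↦ ¬ p ∈ T) fun p hp ↦
    ⟨(hP p (mem_filter.1 hp).1).1, ((hP p (mem_filter.1 hp).1).2).resolve_left (mem_filter.1 hp).2⟩
  linarith

/-- Finitely many coefficient sequences: the primes where `∑ ‖a i p‖²` exceeds `c` have upper
density at most `card ι / c`. -/
theorem primeDensityLE_of_sum_sq_gt {ι : Type*} [Fintype ι] {N : ℕ} (a : ι → ℕ → ℂ)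
    (ha : ∀ i, MulAwayFrom N (a i))
    (hC : ∀ i, ∃ C : ℝ, ∀ X : ℕ, 0 < X → ∑ n ∈ Finset.range (X + 1), ‖a i n‖ ^ 2 ≤ C * X)
    {c : ℝ} (hc : 0 < c) :
    PrimeDensityLE {p : ℕ | ¬ p ∣ N ∧ c < ∑ i, ‖a i p‖ ^ 2} (Fintype.card ι / c) := by
  classical
  have h : ∀ i, ∃ D : ℝ, ∀ s : ℝ, 1 < s → s ≤ 2 → ∀ P : Finset ℕ,
      (∀ p ∈ P, p.Prime ∧ ¬ p ∣ N) →
      ∑ p ∈ P, min (‖a i p‖ ^ 2) c * (p : ℝ) ^ (-s) ≤ Real.log (1 / (s - 1)) + D := fun i ↦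
    (hC i).elim fun _ hi ↦ (ha i).exists_sum_min_le hi hc.le
  choose D hD using h
  refine ⟨(∑ i, D i) / c, fun s hs hs2 P hP ↦ ?_⟩
  rw [div_mul_eq_mul_div, ← add_div, le_div_iff₀ hc, sum_mul]
  calc ∑ p ∈ P, (p : ℝ) ^ (-s) * c
      ≤ ∑ p ∈ P, ∑ i, min (‖a i p‖ ^ 2) c * (p : ℝ) ^ (-s) := by
        refine sum_le_sum fun p hp ↦ ?_
        rw [← sum_mul, mul_comm]
        refine mul_le_mul_of_nonneg_right ?_ (by positivity)
        by_cases hb : ∃ i, c ≤ ‖a i p‖ ^ 2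
        · obtain ⟨i, hi⟩ := hb
          exact (min_eq_right hi).ge.trans
            (single_le_sum (f := fun j ↦ min (‖a j p‖ ^ 2) c) (fun j _ ↦ le_min (by positivity) hc.le) (mem_univ i))
        · push Not at hb
          calc c ≤ ∑ i, ‖a i p‖ ^ 2 := (hP p hp).2.2.le
            _ = _ := sum_congr rfl fun i _ ↦ (min_eq_left (hb i).le).symm
    _ = ∑ i, ∑ p ∈ P, min (‖a i p‖ ^ 2) c * (p : ℝ) ^ (-s) := sum_comm
    _ ≤ ∑ i, (Real.log (1 / (s - 1)) + D i) :=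
        sum_le_sum fun i _ ↦ hD i s hs hs2 P fun p hp ↦ ⟨(hP p hp).1, (hP p hp).2.1⟩
    _ = _ := by rw [sum_add_distrib, sum_const, card_univ, nsmul_eq_mul]

/-- Deligne–Serre 5.2: off a set of primes of upper density `≤ η` the values lie in a finite
set. -/
theorem exists_finite_values {N : ℕ} (K : Type*) [Field K] [NumberField K] (α : ℕ → K)
    (hint : ∀ p : ℕ, p.Prime → ¬ p ∣ N → IsIntegral ℤ (α p))
    (hmul : ∀ σ : K →+* ℂ, MulAwayFrom N fun n ↦ σ (α n))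
    (hC : ∀ σ : K →+* ℂ, ∃ C : ℝ, ∀ X : ℕ, 0 < X →
      ∑ n ∈ Finset.range (X + 1), ‖σ (α n)‖ ^ 2 ≤ C * X)
    {η : ℝ} (hη : 0 < η) :
    ∃ Y : Set K, Y.Finite ∧
      PrimeDensityLE {p : ℕ | p.Prime ∧ ¬ p ∣ N ∧ α p ∉ Y} η := by
  set c : ℝ := Fintype.card (K →+* ℂ) / η + 1
  have hc : 0 < c := by positivity
  refine ⟨{x | IsIntegral ℤ x ∧ ∀ φ : K →+* ℂ, ‖φ x‖ ≤ Real.sqrt c},
    NumberField.Embeddings.finite_of_norm_le K ℂ _, ?_⟩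
  refine ((primeDensityLE_of_sum_sq_gt (N := N) (fun (σ : K →+* ℂ) n ↦ σ (α n)) hmul hC hc).mono_right ?_).mono
    fun p hp ↦ ⟨hp.2.1, lt_of_not_ge fun hle ↦ hp.2.2 ⟨hint p hp.1 hp.2.1, fun φ ↦ ?_⟩⟩
  · rw [div_le_iff₀ hc, mul_add, mul_div_cancel₀ _ hη.ne', mul_one]
    linarith
  · exact Real.le_sqrt_of_sq_le
      ((single_le_sum (fun σ _ ↦ sq_nonneg ‖σ (α p)‖) (mem_univ φ)).trans hle)

/-- When the weighted squares are bounded by `c`, the truncation disappears. -/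
theorem MulAwayFrom.exists_sum_sq_le {N : ℕ} {a : ℕ → ℂ} (ha : MulAwayFrom N a) {C : ℝ}
    (hC : ∀ X : ℕ, 0 < X → ∑ n ∈ Finset.range (X + 1), ‖a n‖ ^ 2 ≤ C * X)
    {c : ℝ} (hc : ∀ p : ℕ, p.Prime → ¬ p ∣ N → ‖a p‖ ^ 2 ≤ c) :
    ∃ D : ℝ, ∀ s : ℝ, 1 < s → s ≤ 2 → ∀ P : Finset ℕ, (∀ p ∈ P, p.Prime ∧ ¬ p ∣ N) →
      ∑ p ∈ P, ‖a p‖ ^ 2 * (p : ℝ) ^ (-s) ≤ Real.log (1 / (s - 1)) + D := by
  obtain ⟨D, hD⟩ := ha.exists_sum_min_le hC (le_max_right c 0)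
  refine ⟨D, fun s hs hs2 P hP ↦ le_trans (le_of_eq ?_) (hD s hs hs2 P hP)⟩
  exact sum_congr rfl fun p hp ↦ by
    rw [min_eq_left (le_max_of_le_left (hc p (hP p hp).1 (hP p hp).2))]

open ModularFormClass in
/-- The Hecke relations at primes not dividing `N` give multiplicativity away from `N`. -/
theorem mulAwayFrom_of_hecke {N : ℕ} {a : ℕ → ℂ} {e : ℕ → ℂ} (h1 : a 1 = 1)
    (hT : ∀ p : ℕ, p.Prime → ¬ p ∣ N → ∀ n : ℕ,
      a (p * n) + e p * (if p ∣ n then a (n / p) else 0) = a p * a n) :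
    MulAwayFrom N a :=
  ⟨h1, fun p hp hpN n hn ↦ by simpa [hn] using hT p hp hpN n⟩

end Fermat.Agent.DS
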