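import Fermat.Agent.DS.Chebotarev
import Fermat.Agent.DS.PrimeDensity

/-!
# Averages over the image controlled by prime sums
-/

set_option autoImplicit false

noncomputable section

namespace Fermat.Agent.DS

open Finset
open scoped Classical

/-- Frobenius data at `p` determine the conjugacy class. -/
theorem frobPrimes_class_unique {G : Type*} [Group G] (ρ : GalQ →* G) {p : ℕ} {g g' : G}
    (h : p ∈ frobPrimes ρ (conjugatesOf g)) (h' : p ∈ frobPrimes ρ (conjugatesOf g')) :
    IsConj g g' := by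
  obtain ⟨A, σ, hA, hσ⟩ := Galois.exists_place_isFrobeniusAt h.1
  exact IsConj.trans (h.2 A hA σ hσ) (IsConj.symm (h'.2 A hA σ hσ))

/-- If a class function `w ≥ 0` of the Frobenius elements has prime sums at most
`c log (1/(s-1))`, then its average over the image is at most `c / (1 - δ)`. -/
theorem sum_le_of_frob_primeSum {G : Type} [Group G] [Fintype G] (ρ : GalQ →* G)
    (hfac : GaloisFactorsThroughFiniteLevel ρ) (hsurj : Function.Surjective ρ) (w : G → ℝ)
    (hw0 : ∀ g, 0 ≤ w g) (hw : ∀ g g', IsConj g g' → w g = w g') (S : Finset ℕ) {c D δ : ℝ}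
    (hδ : 0 < δ)
    (hbound : ∀ s : ℝ, 1 < s → s ≤ 2 → ∀ (P : Finset ℕ) (γ : ℕ → G),
      (∀ p ∈ P, p ∉ S ∧ p ∈ frobPrimes ρ (conjugatesOf (γ p))) →
        ∑ p ∈ P, w (γ p) * (p : ℝ) ^ (-s) ≤ c * Real.log (1 / (s - 1)) + D) :
    (1 - δ) * ∑ g, w g ≤ c * Fintype.card G := by
  choose E hE using fun C : ConjClasses G ↦ chebotarev_lower ρ hfac hsurj C.out hδ
  choose P hP hPsum using hE
  have hG : (0 : ℝ) < Fintype.card G := Nat.cast_pos.2 Fintype.card_pos
  have key : ∀ s : ℝ, 1 < s → s ≤ 2 →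
      ((1 - δ) * (∑ g, w g) / Fintype.card G - c) * Real.log (1 / (s - 1)) ≤
        D + ∑ C : ConjClasses G, w C.out * (E C + S.card) := by
    intro s hs hs2
    let Q : ConjClasses G → Finset ℕ := fun C ↦ (P C s hs hs2).filter fun p ↦ p ∉ S
    have hQ : ∀ C, ∀ p ∈ Q C, p ∉ S ∧ p ∈ frobPrimes ρ (conjugatesOf C.out) := fun C p hp ↦
      ⟨(mem_filter.1 hp).2, hP C s hs hs2 p (mem_filter.1 hp).1⟩
    have hdisj : ∀ C C' p, p ∈ Q C → p ∈ Q C' → C = C' := fun C C' p h h' ↦ by
      rw [← Quotient.out_eq C, ← Quotient.out_eq C']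
      exact ConjClasses.mk_eq_mk_iff_isConj.2 (frobPrimes_class_unique ρ (hQ C p h).2 (hQ C' p h').2)
    let γ : ℕ → G := fun p ↦ if h : ∃ C, p ∈ Q C then h.choose.out else 1
    have hγ : ∀ C, ∀ p ∈ Q C, γ p = C.out := fun C p hp ↦ by
      have hex : ∃ C, p ∈ Q C := ⟨C, hp⟩
      simp only [γ, dif_pos hex, hdisj _ _ p hex.choose_spec hp]
    have h1 := hbound s hs hs2 (univ.biUnion Q) γ fun p hp ↦ by
      obtain ⟨C, -, hC⟩ := mem_biUnion.1 hp
      rw [hγ C p hC]
      exact hQ C p hC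
    rw [sum_biUnion fun C _ C' _ hne ↦ disjoint_left.2 fun p h h' ↦ hne (hdisj C C' p h h')] at h1
    have h2 : ∀ C : ConjClasses G, w C.out * ((1 - δ) *
        ((Nat.card (conjugatesOf C.out) : ℝ) / Fintype.card G) * Real.log (1 / (s - 1)))
          - w C.out * (E C + S.card) ≤ ∑ p ∈ Q C, w (γ p) * (p : ℝ) ^ (-s) := by
      intro C
      rw [sum_congr rfl fun p hp ↦ by rw [hγ C p hp], ← mul_sum, ← mul_sub]
      refine mul_le_mul_of_nonneg_left ?_ (hw0 _)
      have h3 := hPsum C s hs hs2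
      rw [← Finset.sum_filter_add_sum_filter_not _ (fun p ↦ p ∉ S),
        Nat.card_eq_fintype_card (α := G)] at h3
      have h4 : ∑ p ∈ (P C s hs hs2).filter (fun p ↦ ¬ p ∉ S), (p : ℝ) ^ (-s) ≤ S.card := by
        calc _ ≤ ∑ _p ∈ (P C s hs hs2).filter (fun p ↦ ¬ p ∉ S), (1 : ℝ) :=
              sum_le_sum fun p hp ↦ Real.rpow_le_one_of_one_le_of_nonpos
                (Nat.one_le_cast.2 (hP C s hs hs2 p (mem_filter.1 hp).1).1.one_le) (by linarith)
          _ ≤ _ := by
              simp only [sum_const, nsmul_eq_mul, mul_one, Nat.cast_le]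
              exact card_le_card fun p hp ↦ not_not.1 (mem_filter.1 hp).2
      linarith
    have h5 : ∑ g, w g = ∑ C : ConjClasses G, (Nat.card (conjugatesOf C.out) : ℝ) * w C.out := by
      rw [← sum_fiberwise univ ConjClasses.mk w]
      refine sum_congr rfl fun C _ ↦ ?_
      have hmem : ∀ g, g ∈ univ.filter (fun g : G ↦ ConjClasses.mk g = C) ↔
          g ∈ conjugatesOf C.out := fun g ↦ by
        rw [mem_filter, and_iff_right (mem_univ _)]
        refine ⟨fun h ↦ ConjClasses.mk_eq_mk_iff_isConj.1 ?_, fun h ↦ ?_⟩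
        · exact (Quotient.out_eq C).trans h.symm
        · exact (ConjClasses.mk_eq_mk_iff_isConj.2 h).symm.trans (Quotient.out_eq C)
      rw [sum_congr rfl (fun g hg ↦ (hw _ _ ((hmem g).1 hg)).symm), sum_const, nsmul_eq_mul]
      congr 2
      rw [Nat.card_coe_set_eq, Set.ncard_eq_toFinset_card']
      congr 1
      ext g
      rw [Set.mem_toFinset, hmem]
    have h6 := (sum_le_sum fun C (_ : C ∈ univ) ↦ h2 C).trans h1
    rw [sum_sub_distrib] at h6
    have h7 : ∑ C : ConjClasses G, w C.out * ((1 - δ) *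
        ((Nat.card (conjugatesOf C.out) : ℝ) / Fintype.card G) * Real.log (1 / (s - 1))) =
        (1 - δ) * (∑ g, w g) / Fintype.card G * Real.log (1 / (s - 1)) := by
      rw [h5, mul_sum, sum_div, sum_mul]
      exact sum_congr rfl fun C _ ↦ by ring
    linarith
  have := nonpos_of_mul_log_le key
  rw [sub_nonpos, div_le_iff₀ hG] at this
  exact this

end Fermat.Agent.DS
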