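import Fermat.Agent.DS.LatticeSum
import Fermat.Agent.Density.Zeta
import Mathlib.NumberTheory.DirichletCharacter.Bounds
import Mathlib.RingTheory.Ideal.Norm.AbsNorm
import Mathlib.NumberTheory.NumberField.Ideal.Basic

/-!
# Continuity at `s = 1` of `∑ χ(N I) (N I)^(-s)`

If some ideal `I` of norm prime to the modulus has `χ (N I) ≠ 1`, the series extends
continuously to `[1, 2]`: compare each class sum with its multiples of `I`.
-/

set_option autoImplicit false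
set_option linter.unusedSectionVars false

noncomputable section

namespace Fermat.Agent.DS

open NumberField NumberField.mixedEmbedding NumberField.Units Module Filter Topology
open scoped nonZeroDivisors Classical

variable (K : Type*) [Field K] [NumberField K]

/-- `ι : 𝓞 K → mixedSpace`. -/
def toMixedSpace : 𝓞 K →+* mixedSpace K :=
  (mixedEmbedding K).comp (algebraMap (𝓞 K) K)

variable {K}

theorem toMixedSpace_apply (x : 𝓞 K) : toMixedSpace K x = mixedEmbedding K (x : K) := rfl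

theorem algebraNorm_mixedEmbedding (x : K) :
    Algebra.norm ℝ (mixedEmbedding K x) = (Algebra.norm ℚ x : ℝ) := by
  rw [Algebra.norm_eq_matrix_det (latticeBasis K), Algebra.norm_eq_matrix_det (integralBasis K),
    ← eq_ratCast (algebraMap ℚ ℝ), RingHom.map_det]
  congr 1
  ext i j
  rw [Algebra.leftMulMatrix_eq_repr_mul, latticeBasis_apply, ← map_mul, latticeBasis_repr_apply,
    RingHom.mapMatrix_apply, Matrix.map_apply, Algebra.leftMulMatrix_eq_repr_mul, eq_ratCast]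

theorem algebraNorm_toMixedSpace (x : 𝓞 K) :
    Algebra.norm ℝ (toMixedSpace K x) = (Algebra.norm ℤ x : ℝ) := by
  rw [toMixedSpace_apply, algebraNorm_mixedEmbedding, ← Algebra.coe_norm_int, Rat.cast_intCast]

theorem norm_toMixedSpace (x : 𝓞 K) :
    mixedEmbedding.norm (toMixedSpace K x) = |(Algebra.norm ℤ x : ℝ)| := by
  rw [toMixedSpace_apply, mixedEmbedding.norm_eq_norm, ← Algebra.coe_norm_int]
  push_cast
  rfl

/-- The determinant of multiplication `𝓞 K → J` in bases; it is `± N x / N J`. -/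
def idealDet {J : Ideal (𝓞 K)} (bJ : Basis (Free.ChooseBasisIndex ℤ (𝓞 K)) ℤ J) (x : J) : ℤ :=
  (Matrix.of fun i j ↦ bJ.repr ((RingOfIntegers.basis K j) • x) i).det

variable {J : Ideal (𝓞 K)} (bJ : Basis (Free.ChooseBasisIndex ℤ (𝓞 K)) ℤ J)

theorem det_toMatrix_mul_idealDet (x : J) :
    (RingOfIntegers.basis K).det ((↑) ∘ bJ) * idealDet bJ x = Algebra.norm ℤ (x : 𝓞 K) := by
  rw [Algebra.norm_eq_matrix_det (RingOfIntegers.basis K), Basis.det_apply, idealDet,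
    ← Matrix.det_mul]
  congr 1
  ext i j
  rw [Matrix.mul_apply, Algebra.leftMulMatrix_eq_repr_mul]
  have h : (x : 𝓞 K) * RingOfIntegers.basis K j =
      ∑ k, (bJ.repr ((RingOfIntegers.basis K j) • x) k) • ((bJ k : J) : 𝓞 K) := by
    have h1 := congrArg (Subtype.val : J → 𝓞 K) (bJ.sum_repr ((RingOfIntegers.basis K j) • x))
    simp only [AddSubmonoidClass.coe_finsetSum, SetLike.val_smul_of_tower,
      smul_eq_mul] at h1
    rw [mul_comm]
    exact h1.symm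
  rw [h, map_sum]
  simp only [map_smul, Finsupp.coe_finsetSum, Finset.sum_apply, Finsupp.coe_smul, Pi.smul_apply,
    smul_eq_mul, Basis.toMatrix_apply, Function.comp_apply, Matrix.of_apply]
  exact Finset.sum_congr rfl fun k _ ↦ mul_comm _ _

theorem idealDet_congr {m : ℕ} {x x' : J} (y : J) (h : (x' : 𝓞 K) = x + (m : 𝓞 K) * y) :
    ((idealDet bJ x' : ℤ) : ZMod m) = (idealDet bJ x : ℤ) := by
  rw [idealDet, idealDet, ← eq_intCast (Int.castRingHom (ZMod m)), RingHom.map_det,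
    ← eq_intCast (Int.castRingHom (ZMod m)), RingHom.map_det]
  congr 1
  ext i j
  have hx : x' = x + (m : ℤ) • y := Subtype.ext (by
    push_cast [zsmul_eq_mul]
    exact h)
  simp only [RingHom.mapMatrix_apply, Matrix.map_apply, Matrix.of_apply, eq_intCast, hx, smul_add,
    map_add, Finsupp.add_apply]
  rw [smul_comm, map_zsmul, Finsupp.smul_apply, smul_eq_mul]
  push_cast
  simp

theorem natAbs_det_mul_natAbs_idealDet (x : J) :
    Ideal.absNorm J * (idealDet bJ x).natAbs = (Algebra.norm ℤ (x : 𝓞 K)).natAbs := by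
  rw [← det_toMatrix_mul_idealDet bJ, Int.natAbs_mul, Ideal.natAbs_det_basis_change]

theorem exists_idealBasis (hJ : J ≠ ⊥) :
    Nonempty (Basis (Free.ChooseBasisIndex ℤ (𝓞 K)) ℤ J) := by
  let c := Free.chooseBasis ℤ J
  exact ⟨c.reindex (Fintype.equivOfCardEq (Ideal.rank_eq (RingOfIntegers.basis K) hJ c))⟩

variable (K)

/-- The nonzero ideals. -/
abbrev NZIdeal := (Ideal (𝓞 K))⁰

variable {K} {m : ℕ} (χ : DirichletCharacter ℂ m)

/-- The summand of the norm-twisted zeta series. -/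
def idealTerm (s : ℝ) (I : NZIdeal K) : ℂ :=
  χ (Ideal.absNorm (I : Ideal (𝓞 K)) : ℕ) *
    (((Ideal.absNorm (I : Ideal (𝓞 K)) : ℝ) ^ (-s) : ℝ) : ℂ)

theorem summable_zetaTerm {s : ℝ} (hs : 1 < s) : Summable (Density.zetaTerm K s) := by
  obtain ⟨t, ⟨ht, -⟩, hts⟩ := ((Density.eventually_zeta_pos K).and
    (Ioo_mem_nhdsGT hs)).exists
  refine ht.of_nonneg_of_le (Density.zetaTerm_nonneg K s) fun n ↦ ?_
  rcases eq_or_ne n 0 with rfl | hn
  · simp [Density.zetaTerm, Real.zero_rpow (by linarith : (-s : ℝ) ≠ 0),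
      Real.zero_rpow (by linarith [hts.1] : (-t : ℝ) ≠ 0)]
  · exact mul_le_mul_of_nonneg_left (Real.rpow_le_rpow_of_exponent_le
      (Nat.one_le_cast.2 (Nat.one_le_iff_ne_zero.2 hn)) (by linarith [hts.2])) (Nat.cast_nonneg _)

theorem summable_norm_rpow_nzIdeal {s : ℝ} (hs : 1 < s) :
    Summable fun I : NZIdeal K ↦ (Ideal.absNorm (I : Ideal (𝓞 K)) : ℝ) ^ (-s) := by
  have : Summable fun I : Ideal (𝓞 K) ↦ (Ideal.absNorm I : ℝ) ^ (-s) := by
    rw [← (Equiv.sigmaFiberEquiv fun I : Ideal (𝓞 K) ↦ Ideal.absNorm I).summable_iff]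
    refine (summable_sigma_of_nonneg fun _ ↦ Real.rpow_nonneg (Nat.cast_nonneg _) _).2 ⟨fun n ↦ ?_, ?_⟩
    · have := (Ideal.finite_setOfPred_absNorm_eq (S := 𝓞 K) n).to_subtype
      exact .of_finite
    · refine (summable_zetaTerm (K := K) hs).congr fun n ↦ ?_
      have := (Ideal.finite_setOfPred_absNorm_eq (S := 𝓞 K) n).to_subtype
      cases nonempty_fintype {I : Ideal (𝓞 K) // Ideal.absNorm I = n}
      rw [tsum_fintype]
      simp only [Equiv.sigmaFiberEquiv, Equiv.coe_fn_mk]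
      rw [Finset.sum_congr rfl fun I _ ↦ by rw [I.2], Finset.sum_const, Finset.card_univ,
        nsmul_eq_mul, ← Nat.card_eq_fintype_card]
      rfl
  exact this.comp_injective Subtype.val_injective

theorem norm_idealTerm_le (s : ℝ) (I : NZIdeal K) :
    ‖idealTerm χ s I‖ ≤ (Ideal.absNorm (I : Ideal (𝓞 K)) : ℝ) ^ (-s) := by
  rw [idealTerm, norm_mul, Complex.norm_real, Real.norm_of_nonneg (by positivity)]
  exact mul_le_of_le_one_left (by positivity) (DirichletCharacter.norm_le_one χ _)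

theorem summable_idealTerm {s : ℝ} (hs : 1 < s) :
    Summable (idealTerm (K := K) χ s) :=
  Summable.of_norm_bounded (summable_norm_rpow_nzIdeal hs) (norm_idealTerm_le χ s)

/-- A bounded function on `𝓞 K` supported on an ideal, built from the determinant. -/
def detWeight (J' : Ideal (𝓞 K)) (x : 𝓞 K) : ℂ :=
  if h : x ∈ J ∧ x ∈ J' then χ ((idealDet bJ ⟨x, h.1⟩ : ℤ) : ZMod m) else 0

theorem detWeight_congr {g : ℕ} {J' : Ideal (𝓞 K)} (hg : (g : 𝓞 K) ∈ Ideal.span {(m : 𝓞 K)} * J)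
    (hg' : (g : 𝓞 K) ∈ J') (x y : 𝓞 K) :
    detWeight bJ χ J' ((g : 𝓞 K) * y + x) = detWeight bJ χ J' x := by
  obtain ⟨j, hj, hgj⟩ := Ideal.mem_span_singleton_mul.1 hg
  have hgJ : (g : 𝓞 K) ∈ J := hgj ▸ J.mul_mem_left _ hj
  have hiff : ((g : 𝓞 K) * y + x ∈ J ∧ (g : 𝓞 K) * y + x ∈ J') ↔ (x ∈ J ∧ x ∈ J') :=
    and_congr (J.add_mem_iff_right (J.mul_mem_right _ hgJ))
      (J'.add_mem_iff_right (J'.mul_mem_right _ hg'))
  unfold detWeight
  by_cases hx : x ∈ J ∧ x ∈ J'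
  · rw [dif_pos hx, dif_pos (hiff.2 hx)]
    exact congrArg χ (idealDet_congr bJ ⟨j * y, J.mul_mem_right _ hj⟩
      (by simp only; rw [← hgj]; ring))
  · rw [dif_neg hx, dif_neg fun h ↦ hx (hiff.1 h)]

/-- `R` is a complete set of residues modulo `g`. -/
def IsResidues (g : ℕ) (R : Finset (𝓞 K)) : Prop :=
  ∀ x, ∃! r, r ∈ R ∧ r - x ∈ Ideal.span {(g : 𝓞 K)}

theorem IsResidues.eq_of_sub_mem {g : ℕ} {R : Finset (𝓞 K)} (hR : IsResidues g R) {r r' : 𝓞 K}
    (hr : r ∈ R) (hr' : r' ∈ R) (h : r - r' ∈ Ideal.span {(g : 𝓞 K)}) : r = r' :=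
  (hR r').unique ⟨hr, h⟩ ⟨hr', by simp⟩

theorem IsResidues.exists_rep {g : ℕ} {R : Finset (𝓞 K)} (hR : IsResidues g R) :
    ∃ rep : 𝓞 K → 𝓞 K, ∀ x, rep x ∈ R ∧ rep x - x ∈ Ideal.span {(g : 𝓞 K)} :=
  ⟨fun x ↦ (hR x).exists.choose, fun x ↦ (hR x).exists.choose_spec⟩

/-- Translation by `t ∈ m J` carries the residues in a coset to the residues in `J * I`. -/
theorem sum_detWeight_coset {g : ℕ} {I : Ideal (𝓞 K)}
    (hg : (g : 𝓞 K) ∈ Ideal.span {(m : 𝓞 K)} * J) (hg' : (g : 𝓞 K) ∈ J * I)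
    {R : Finset (𝓞 K)} (hR : IsResidues g R) (a t : 𝓞 K)
    (ht : t ∈ Ideal.span {(m : 𝓞 K)} * J) (hat : a - t ∈ J * I) :
    ∑ r ∈ R.filter (fun r ↦ r ∈ J ∧ r - a ∈ J * I), detWeight bJ χ J r =
      ∑ r ∈ R, detWeight bJ χ (J * I) r := by
  obtain ⟨rep, hrep⟩ := hR.exists_rep
  have hgJ : (g : 𝓞 K) ∈ J := Ideal.mul_le_left hg'
  have hspan : ∀ (T : Ideal (𝓞 K)), (g : 𝓞 K) ∈ T → ∀ x, rep x - x ∈ T := fun T hT x ↦
    (Ideal.span_singleton_le_iff_mem _).2 hT (hrep x).2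
  have htJ : t ∈ J := (Ideal.mul_le_right : Ideal.span {(m : 𝓞 K)} * J ≤ J) ht
  rw [← Finset.sum_subset (Finset.filter_subset (fun r ↦ r ∈ J * I) R)
    (f := detWeight bJ χ (J * I))
    fun r hr h ↦ dif_neg fun h' ↦ h (Finset.mem_filter.2 ⟨hr, h'.2⟩)]
  refine Finset.sum_nbij' (fun r ↦ rep (r - t)) (fun r ↦ rep (r + t)) ?_ ?_ ?_ ?_ ?_
  · intro r hr
    simp only [Finset.mem_filter] at hr ⊢
    refine ⟨(hrep _).1, ?_⟩
    have := (J * I).add_mem (hspan _ hg' (r - t)) ((J * I).add_mem hr.2.2 hat)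
    rwa [show rep (r - t) - (r - t) + (r - a + (a - t)) = rep (r - t) by ring] at this
  · intro r hr
    simp only [Finset.mem_filter] at hr ⊢
    refine ⟨(hrep _).1, ?_, ?_⟩
    · have := J.add_mem (hspan _ hgJ (r + t)) (J.add_mem (Ideal.mul_le_left hr.2) htJ)
      rwa [show rep (r + t) - (r + t) + (r + t) = rep (r + t) by ring] at this
    · have := (J * I).add_mem (hspan _ hg' (r + t)) ((J * I).sub_mem hr.2 hat)
      rwa [show rep (r + t) - (r + t) + (r - (a - t)) = rep (r + t) - a by ring] at this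
  · intro r hr
    simp only [Finset.mem_filter] at hr
    refine hR.eq_of_sub_mem (hrep _).1 hr.1 ?_
    have := Ideal.add_mem _ (hrep (rep (r - t) + t)).2 (hrep (r - t)).2
    rwa [show rep (rep (r - t) + t) - (rep (r - t) + t) + (rep (r - t) - (r - t)) =
      rep (rep (r - t) + t) - r by ring] at this
  · intro r hr
    simp only [Finset.mem_filter] at hr
    refine hR.eq_of_sub_mem (hrep _).1 hr.1 ?_
    have := Ideal.add_mem _ (hrep (rep (r + t) - t)).2 (hrep (r + t)).2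
    rwa [show rep (rep (r + t) - t) - (rep (r + t) - t) + (rep (r + t) - (r + t)) =
      rep (rep (r + t) - t) - r by ring] at this
  · intro r hr
    simp only [Finset.mem_filter] at hr
    obtain ⟨y, hy⟩ := Ideal.mem_span_singleton'.1 (hrep (r - t)).2
    rw [show rep (r - t) = (g : 𝓞 K) * y + (r - t) by rw [mul_comm, hy]; ring,
      detWeight_congr bJ χ hg hg']
    have hmem : r - t ∈ J * I := by
      have := (J * I).add_mem hr.2.2 hat
      rwa [show r - a + (a - t) = r - t by ring] at this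
    unfold detWeight
    rw [dif_pos ⟨hr.2.1, hr.2.1⟩, dif_pos ⟨Ideal.mul_le_left hmem, hmem⟩]
    obtain ⟨j, hj, htj⟩ := Ideal.mem_span_singleton_mul.1 ht
    exact congrArg χ (idealDet_congr bJ ⟨j, hj⟩ (by simp only; rw [htj]; ring))

theorem span_mul_sup_mul_eq {I : Ideal (𝓞 K)} (hI : (Ideal.absNorm I).Coprime m) :
    Ideal.span {(m : 𝓞 K)} * J ⊔ J * I = J := by
  have htop : Ideal.span {(m : 𝓞 K)} ⊔ I = ⊤ := by
    rw [eq_top_iff, ← Density.natCast_sup_natCast_eq_top (K := K) hI.symm]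
    exact sup_le_sup_left ((Ideal.span_singleton_le_iff_mem _).2 (Ideal.absNorm_mem I)) _
  rw [mul_comm J I, ← Ideal.sup_mul, htop, Ideal.top_mul]

/-- The number of cosets of `J * I` in `J`. -/
theorem card_quotient_comap {I : Ideal (𝓞 K)} (hJ : J ≠ ⊥) :
    Nat.card (J ⧸ Submodule.comap J.subtype (J * I)) = Ideal.absNorm I := by
  refine Nat.eq_of_mul_eq_mul_left (Nat.pos_of_ne_zero (Ideal.absNorm_eq_zero_iff.not.2 hJ)) ?_
  rw [← map_mul, Ideal.absNorm_apply, Submodule.cardQuot_apply, Ideal.absNorm_apply,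
    Submodule.cardQuot_apply]
  have h := Submodule.card_quotient_mul_card_quotient J (J * I) Ideal.mul_le_left
  rw [← h, mul_comm]
  congr 1
  refine Nat.card_congr (((Submodule.quotEquivOfEq _ _ ?_).trans
    (((J * I).mkQ.comp J.subtype).quotKerEquivRange)).trans (LinearEquiv.ofEq _ _ ?_)).toEquiv
  · rw [LinearMap.ker_comp, Submodule.ker_mkQ]
  · rw [LinearMap.range_comp, Submodule.range_subtype]

/-- Equidistribution of the residues of `J` among the cosets of `J * I`. -/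
theorem sum_detWeight_mul {g : ℕ} [NeZero g] {I : Ideal (𝓞 K)}
    (hg : (g : 𝓞 K) ∈ Ideal.span {(m : 𝓞 K)} * J) (hg' : (g : 𝓞 K) ∈ J * I)
    (hI : (Ideal.absNorm I).Coprime m) (hJ : J ≠ ⊥)
    {R : Finset (𝓞 K)} (hR : IsResidues g R) :
    (Ideal.absNorm I : ℂ) * ∑ r ∈ R, detWeight bJ χ (J * I) r =
      ∑ r ∈ R, detWeight bJ χ J r := by
  have hcov : ∀ a : J, ∃ t ∈ Ideal.span {(m : 𝓞 K)} * J, (a : 𝓞 K) - t ∈ J * I := fun a ↦ by
    obtain ⟨t, ht, u, hu, htu⟩ := Submodule.mem_sup.1 ((span_mul_sup_mul_eq (J := J) hI).symm ▸ a.2 :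
      (a : 𝓞 K) ∈ Ideal.span {(m : 𝓞 K)} * J ⊔ J * I)
    exact ⟨t, ht, by rwa [← htu, add_sub_cancel_left]⟩
  have hQc := card_quotient_comap (I := I) hJ
  have hIne : Ideal.absNorm I ≠ 0 := by
    intro h
    have hI0 : I = ⊥ := Ideal.absNorm_eq_zero_iff.1 h
    rw [hI0, Ideal.mul_bot, Ideal.mem_bot, Nat.cast_eq_zero] at hg'
    exact NeZero.ne g hg'
  have : Finite (J ⧸ Submodule.comap J.subtype (J * I)) := Nat.finite_of_card_ne_zero (hQc ▸ hIne)
  cases nonempty_fintype (J ⧸ Submodule.comap J.subtype (J * I))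
  have hpart : ∑ q : J ⧸ Submodule.comap J.subtype (J * I),
      ∑ r ∈ R.filter (fun r ↦ r ∈ J ∧ r - (Quotient.out q : J) ∈ J * I),
      detWeight bJ χ J r = ∑ r ∈ R, detWeight bJ χ J r := by
    simp only [Finset.sum_filter]
    rw [Finset.sum_comm]
    refine Finset.sum_congr rfl fun r _ ↦ ?_
    by_cases hr : r ∈ J
    · rw [Finset.sum_eq_single (Submodule.Quotient.mk (⟨r, hr⟩ : J))]
      · refine if_pos ⟨hr, ?_⟩
        have := (Submodule.Quotient.eq (Submodule.comap J.subtype (J * I))).1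
          (Quotient.out_eq (Submodule.Quotient.mk (⟨r, hr⟩ : J) :
            J ⧸ Submodule.comap J.subtype (J * I)))
        rw [Submodule.mem_comap] at this
        simpa using (J * I).neg_mem this
      · intro q _ hq
        refine if_neg fun h ↦ hq ?_
        refine (Quotient.out_eq q).symm.trans
          ((Submodule.Quotient.eq (Submodule.comap J.subtype (J * I))).2 ?_)
        rw [Submodule.mem_comap]
        simpa using (J * I).neg_mem h.2
      · exact fun h ↦ absurd (Finset.mem_univ _) h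
    · rw [show detWeight bJ χ J r = 0 from dif_neg fun h ↦ hr h.1]
      exact Finset.sum_eq_zero fun q _ ↦ if_neg fun h ↦ hr h.1
  refine (Eq.trans ?_ (Finset.sum_congr rfl fun q _ ↦ (sum_detWeight_coset bJ χ hg hg' hR _ _
      (hcov (Quotient.out q)).choose_spec.1 (hcov (Quotient.out q)).choose_spec.2).symm)).trans hpart
  rw [Finset.sum_const, Finset.card_univ, ← Nat.card_eq_fintype_card, nsmul_eq_mul]
  exact congrArg (fun c : ℕ ↦ (c : ℂ) * _) hQc.symm

/-- `|D| = κ · sgn · D` read through a character. -/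
theorem exists_apply_natAbs_idealDet :
    ∃ κ : ℂ, ∀ x : J, (x : 𝓞 K) ≠ 0 →
      χ ((idealDet bJ x).natAbs : ℕ) =
        κ * (if Algebra.norm ℝ (toMixedSpace K (x : 𝓞 K)) < 0 then χ (-1) else 1) *
          χ ((idealDet bJ x : ℤ) : ZMod m) := by
  set P := (RingOfIntegers.basis K).det ((↑) ∘ bJ)
  refine ⟨if P < 0 then χ (-1) else 1, fun x hx ↦ ?_⟩
  have hN : Algebra.norm ℤ (x : 𝓞 K) ≠ 0 := Algebra.norm_ne_zero_iff.2 hx
  have hmul : P * idealDet bJ x = Algebra.norm ℤ (x : 𝓞 K) := det_toMatrix_mul_idealDet bJ x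
  set D := idealDet bJ x
  have hP : P ≠ 0 := left_ne_zero_of_mul (hmul ▸ hN)
  have hD : D ≠ 0 := right_ne_zero_of_mul (hmul ▸ hN)
  have he : χ (-1) * χ (-1) = 1 := by rw [← map_mul, neg_mul_neg, one_mul, map_one]
  have hneg : D < 0 → χ (D.natAbs : ℕ) = χ (-1) * χ (D : ZMod m) := fun h ↦ by
    have h1 : ((D.natAbs : ℕ) : ℤ) = -D := Int.ofNat_natAbs_of_nonpos h.le
    rw [← map_mul, neg_one_mul, ← Int.cast_neg, ← h1, Int.cast_natCast]
  have hpos : 0 < D → χ (D.natAbs : ℕ) = χ (D : ZMod m) := fun h ↦ by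
    conv_rhs => rw [← Int.natAbs_of_nonneg h.le, Int.cast_natCast]
  have hsign : Algebra.norm ℝ (toMixedSpace K (x : 𝓞 K)) < 0 ↔ P * D < 0 := by
    rw [algebraNorm_toMixedSpace, hmul, Int.cast_lt_zero]
  rcases lt_or_gt_of_ne hP with hP | hP <;> rcases lt_or_gt_of_ne hD with hD | hD
  · rw [if_pos hP, if_neg (hsign.not.2 (not_lt.2 (mul_pos_of_neg_of_neg hP hD).le)), hneg hD,
      mul_one]
  · rw [if_pos hP, if_pos (hsign.2 (mul_neg_of_neg_of_pos hP hD)), hpos hD, he, one_mul]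
  · rw [if_neg (not_lt.2 hP.le), if_pos (hsign.2 (mul_neg_of_pos_of_neg hP hD)), hneg hD, one_mul]
  · rw [if_neg (not_lt.2 hP.le), if_neg (hsign.not.2 (not_lt.2 (mul_pos hP hD).le)), hpos hD,
      one_mul, one_mul]

theorem norm_apply_neg_one_le : ‖χ (-1)‖ ≤ 1 := χ.norm_le_one _

/-- The ideals of a given class. -/
abbrev ClassIdeals (C : ClassGroup (𝓞 K)) := {a : NZIdeal K // ClassGroup.mk0 a = C}

theorem isPrincipal_mul {C : ClassGroup (𝓞 K)} {J₀ : NZIdeal K} (hJ : ClassGroup.mk0 J₀ = C⁻¹)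
    (a : ClassIdeals C) : ((a.1 : Ideal (𝓞 K)) * J₀).IsPrincipal := by
  refine (ClassGroup.mk0_eq_one_iff (mul_mem a.1.2 J₀.2)).1 ?_
  rw [show (⟨(a.1 : Ideal (𝓞 K)) * J₀, mul_mem a.1.2 J₀.2⟩ : NZIdeal K) = a.1 * J₀ from rfl,
    map_mul, a.2, hJ, mul_inv_cancel]

theorem exists_classEquiv {C : ClassGroup (𝓞 K)} {J₀ : NZIdeal K}
    (hJ : ClassGroup.mk0 J₀ = C⁻¹) :
    ∃ e : ClassIdeals C × (𝓞 K)ˣ ≃ {x : 𝓞 K // x ∈ (J₀ : Ideal (𝓞 K)) ∧ x ≠ 0},
      ∀ a, ∃ x₀ : 𝓞 K, x₀ ≠ 0 ∧ Ideal.span {x₀} = (a.1 : Ideal (𝓞 K)) * J₀ ∧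
        ∀ u : (𝓞 K)ˣ, (e (a, u) : 𝓞 K) = u * x₀ := by
  choose gen hgen using fun a ↦ (isPrincipal_mul hJ a).principal
  have hgen' : ∀ a : ClassIdeals C, Ideal.span {gen a} = (a.1 : Ideal (𝓞 K)) * J₀ := fun a ↦
    (hgen a).symm
  have hne : ∀ a, gen a ≠ 0 := fun a h ↦ by
    have := hgen' a
    rw [h, Ideal.span_singleton_zero] at this
    exact mul_ne_zero (nonZeroDivisors.coe_ne_zero a.1) (nonZeroDivisors.coe_ne_zero J₀) this.symm
  have hmem : ∀ (p : ClassIdeals C × (𝓞 K)ˣ),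
      (p.2 : 𝓞 K) * gen p.1 ∈ (J₀ : Ideal (𝓞 K)) ∧ (p.2 : 𝓞 K) * gen p.1 ≠ 0 := fun p ↦
    ⟨Ideal.mul_mem_left _ _ ((Ideal.mul_le_right : (p.1.1 : Ideal (𝓞 K)) * J₀ ≤ J₀) (hgen' p.1 ▸ Ideal.mem_span_singleton_self _)),
      mul_ne_zero p.2.ne_zero (hne _)⟩
  refine ⟨Equiv.ofBijective (fun p ↦ ⟨(p.2 : 𝓞 K) * gen p.1, hmem p⟩) ⟨?_, ?_⟩,
    fun a ↦ ⟨gen a, hne a, hgen' a, fun u ↦ rfl⟩⟩
  · rintro ⟨a, u⟩ ⟨b, v⟩ h
    have h' : (u : 𝓞 K) * gen a = v * gen b := congrArg Subtype.val h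
    have hab : a = b := by
      have hspan : Ideal.span {gen a} = Ideal.span {gen b} := by
        rw [← Ideal.span_singleton_mul_left_unit u.isUnit, h',
          Ideal.span_singleton_mul_left_unit v.isUnit]
      rw [hgen' a, hgen' b] at hspan
      exact Subtype.ext (Subtype.ext (mul_right_cancel₀ (nonZeroDivisors.coe_ne_zero J₀) hspan))
    subst hab
    exact Prod.ext rfl (Units.ext (mul_right_cancel₀ (hne a) h'))
  · rintro ⟨x, hxJ, hx⟩
    obtain ⟨a, ha⟩ := Ideal.dvd_iff_le.2 ((Ideal.span_singleton_le_iff_mem _).2 hxJ)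
    have ha0 : a ≠ ⊥ := fun h ↦ by
      rw [h, Ideal.mul_bot, Ideal.span_singleton_eq_bot] at ha
      exact hx ha
    let A : NZIdeal K := ⟨a, mem_nonZeroDivisors_of_ne_zero ha0⟩
    have hA : ClassGroup.mk0 A = C := by
      have h1 : ClassGroup.mk0 (J₀ * A) = 1 :=
        (ClassGroup.mk0_eq_one_iff (J₀ * A).2).2 ⟨⟨x, by
          rw [← Ideal.submodule_span_eq] at ha
          exact ha.symm⟩⟩
      rw [map_mul, hJ, inv_mul_eq_one] at h1
      exact h1.symm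
    obtain ⟨u, hu⟩ := Ideal.span_singleton_eq_span_singleton.1
      (show Ideal.span {gen ⟨A, hA⟩} = Ideal.span {x} by rw [hgen' ⟨A, hA⟩, ha, mul_comm])
    exact ⟨(⟨A, hA⟩, u), Subtype.ext ((mul_comm _ _).trans hu)⟩

/-- The summand on `𝓞 K`. -/
def latticeTerm (J' : Ideal (𝓞 K)) (s : ℝ) (x : 𝓞 K) : ℂ :=
  detWeight bJ χ J' x * term K (χ (-1)) (toMixedSpace K x) s

theorem norm_detWeight_le (J' : Ideal (𝓞 K)) (x : 𝓞 K) : ‖detWeight bJ χ J' x‖ ≤ 1 := by
  unfold detWeight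
  split_ifs
  exacts [χ.norm_le_one _, by simp]

theorem summable_latticeTerm (J' : Ideal (𝓞 K)) {s : ℝ} (hs : 1 < s) :
    Summable (latticeTerm bJ χ J' s) := by
  refine Summable.of_norm_bounded
    (summable_term (norm_apply_neg_one_le χ) one_ne_zero (0 : mixedSpace K) hs).norm fun x ↦ ?_
  rw [latticeTerm, norm_mul]
  refine (mul_le_of_le_one_left (norm_nonneg _) (norm_detWeight_le bJ χ J' x)).trans (le_of_eq ?_)
  simp [latticePoint, toMixedSpace_apply]

theorem exists_classSum_eq {C : ClassGroup (𝓞 K)} {J₀ : NZIdeal K}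
    (hJ : ClassGroup.mk0 J₀ = C⁻¹)
    (bJ : Basis (Free.ChooseBasisIndex ℤ (𝓞 K)) ℤ (J₀ : Ideal (𝓞 K))) :
    ∃ κ : ℂ, ∀ s : ℝ, 1 < s → ∀ (I : Ideal (𝓞 K)),
      (torsionOrder K : ℂ) * ∑' a : ClassIdeals C,
          (if I ∣ (a.1 : Ideal (𝓞 K)) then idealTerm χ s a.1 else 0) =
        κ * (((Ideal.absNorm (J₀ : Ideal (𝓞 K)) : ℝ) ^ s : ℝ) : ℂ) *
          ∑' x : 𝓞 K, latticeTerm bJ χ ((J₀ : Ideal (𝓞 K)) * I) s x := by
  obtain ⟨κ, hκ⟩ := exists_apply_natAbs_idealDet bJ χ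
  obtain ⟨e, he⟩ := exists_classEquiv hJ
  refine ⟨κ, fun s hs I ↦ ?_⟩
  set J' := (J₀ : Ideal (𝓞 K)) * I
  set c : ℂ := κ * (((Ideal.absNorm (J₀ : Ideal (𝓞 K)) : ℝ) ^ s : ℝ) : ℂ)
  have hsum := summable_latticeTerm bJ χ J' hs
  have hsupp : Function.support (latticeTerm bJ χ J' s) ⊆
      {x | x ∈ (J₀ : Ideal (𝓞 K)) ∧ x ≠ 0} := fun x hx ↦ by
    refine ⟨?_, fun h ↦ hx ?_⟩
    · by_contra h
      exact hx (by simp [latticeTerm, detWeight, h])
    · simp [latticeTerm, h, term_zero]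
  have h1 := ((hasSum_subtype_iff_of_support_subset hsupp).2 hsum.hasSum).mul_left c
  replace h1 := e.hasSum_iff.2 h1
  have hfib : ∀ a : ClassIdeals C, HasSum
      (fun u ↦ c * latticeTerm bJ χ J' s (e (a, u) : 𝓞 K))
      ((torsionOrder K : ℂ) * (if I ∣ (a.1 : Ideal (𝓞 K)) then idealTerm χ s a.1 else 0)) := by
    intro a
    obtain ⟨x₀, hx₀, hspan, heu⟩ := he a
    have hx₀J : x₀ ∈ (J₀ : Ideal (𝓞 K)) :=
      (Ideal.mul_le_right : (a.1 : Ideal (𝓞 K)) * J₀ ≤ J₀) (hspan ▸ Ideal.mem_span_singleton_self x₀)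
    have hxN : mixedEmbedding.norm (toMixedSpace K x₀) ≠ 0 := by
      rw [norm_toMixedSpace, abs_ne_zero, Int.cast_ne_zero]
      exact Algebra.norm_ne_zero_iff.2 hx₀
    have hkey : ∀ u : (𝓞 K)ˣ,
        c * latticeTerm bJ χ J' s (u * x₀) = (if I ∣ (a.1 : Ideal (𝓞 K)) then idealTerm χ s a.1
          else 0) * (unitWeight K (u • toMixedSpace K x₀) : ℂ) := by
      intro u
      set x := (u : 𝓞 K) * x₀
      have hx : x ≠ 0 := mul_ne_zero u.ne_zero hx₀
      have hxJ : x ∈ (J₀ : Ideal (𝓞 K)) := Ideal.mul_mem_left _ _ hx₀J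
      have hxspan : Ideal.span {x} = (J₀ : Ideal (𝓞 K)) * a.1 := by
        rw [Ideal.span_singleton_mul_left_unit u.isUnit, hspan, mul_comm]
      have hiff : x ∈ J' ↔ I ∣ (a.1 : Ideal (𝓞 K)) := by
        rw [← Ideal.span_singleton_le_iff_mem, ← Ideal.dvd_iff_le, hxspan,
          mul_dvd_mul_iff_left (nonZeroDivisors.coe_ne_zero J₀)]
      by_cases hI : I ∣ (a.1 : Ideal (𝓞 K))
      swap
      · simp [latticeTerm, detWeight, hI, mt hiff.1 hI]
      have hD : (idealDet bJ ⟨x, hxJ⟩).natAbs = Ideal.absNorm (a.1 : Ideal (𝓞 K)) := by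
        have h2 := natAbs_det_mul_natAbs_idealDet bJ ⟨x, hxJ⟩
        rw [← Ideal.absNorm_span_singleton, hxspan, map_mul] at h2
        exact Nat.eq_of_mul_eq_mul_left
          (Nat.pos_of_ne_zero (Ideal.absNorm_eq_zero_iff.not.2 (nonZeroDivisors.coe_ne_zero J₀))) h2
      have hn : mixedEmbedding.norm (toMixedSpace K x) =
          (Ideal.absNorm (J₀ : Ideal (𝓞 K)) : ℝ) * Ideal.absNorm (a.1 : Ideal (𝓞 K)) := by
        rw [norm_toMixedSpace, ← Int.cast_abs, Int.abs_eq_natAbs, ← Ideal.absNorm_span_singleton,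
          hxspan, map_mul]
        push_cast
        rfl
      have hsmul : u • toMixedSpace K x₀ = toMixedSpace K x := by
        rw [unitSMul_smul, toMixedSpace_apply, toMixedSpace_apply, ← map_mul]
        rfl
      have hNJ : (0 : ℝ) < Ideal.absNorm (J₀ : Ideal (𝓞 K)) := Nat.cast_pos.2
        (Nat.pos_of_ne_zero (Ideal.absNorm_eq_zero_iff.not.2 (nonZeroDivisors.coe_ne_zero J₀)))
      have hκx := hκ ⟨x, hxJ⟩ hx
      rw [hD] at hκx
      rw [if_pos hI, idealTerm, hκx, latticeTerm, detWeight, dif_pos ⟨hxJ, hiff.2 hI⟩, term, hn,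
        hsmul, Real.mul_rpow hNJ.le (Nat.cast_nonneg _), Real.rpow_neg hNJ.le]
      simp only [c]
      push_cast
      have : (((Ideal.absNorm (J₀ : Ideal (𝓞 K)) : ℝ) ^ s : ℝ) : ℂ) ≠ 0 :=
        Complex.ofReal_ne_zero.2 (Real.rpow_pos_of_pos hNJ s).ne'
      field_simp
    have hW := (Complex.hasSum_ofReal.2 (hasSum_unitWeight_smul hxN)).mul_left
      (if I ∣ (a.1 : Ideal (𝓞 K)) then idealTerm χ s a.1 else 0)
    rw [mul_comm (torsionOrder K : ℂ)]
    simp only [Complex.ofReal_natCast] at hW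
    refine hW.congr_fun fun u ↦ ?_
    rw [heu u]
    exact hkey u
  have h2 := (h1.prod_fiberwise hfib).tsum_eq
  rw [tsum_mul_left] at h2
  exact h2

/-- A complete set of residues. -/
theorem exists_residues (g : ℕ) [NeZero g] :
    ∃ R : Finset (𝓞 K), IsResidues g R := by
  have : Finite (𝓞 K ⧸ Ideal.span {(g : 𝓞 K)}) :=
    Ideal.finiteQuotientOfFreeOfNeBot _ (by simp [NeZero.ne g])
  cases nonempty_fintype (𝓞 K ⧸ Ideal.span {(g : 𝓞 K)})
  refine ⟨Finset.univ.image fun q : 𝓞 K ⧸ Ideal.span {(g : 𝓞 K)} ↦ Quotient.out q, fun x ↦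
    ⟨Quotient.out (Ideal.Quotient.mk _ x), ⟨Finset.mem_image_of_mem _ (Finset.mem_univ _), ?_⟩, ?_⟩⟩
  · exact Ideal.Quotient.eq.1 (Quotient.out_eq _)
  · rintro y ⟨hy, hyx⟩
    obtain ⟨q, -, rfl⟩ := Finset.mem_image.1 hy
    rw [← Ideal.Quotient.eq.2 hyx]
    exact congrArg Quotient.out (Quotient.out_eq q).symm

theorem tsum_latticeTerm_eq {g : ℕ} [NeZero g] {J' : Ideal (𝓞 K)}
    (hg : (g : 𝓞 K) ∈ Ideal.span {(m : 𝓞 K)} * J) (hg' : (g : 𝓞 K) ∈ J') {R : Finset (𝓞 K)}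
    (hR : IsResidues g R) {s : ℝ} (hs : 1 < s) :
    ∑' x : 𝓞 K, latticeTerm bJ χ J' s x =
      ∑ r ∈ R, detWeight bJ χ J' r *
        ∑' y : 𝓞 K, term K (χ (-1)) (latticePoint g (toMixedSpace K r) y) s := by
  obtain ⟨rep, hrep⟩ := hR.exists_rep
  have hg0 : (g : 𝓞 K) ≠ 0 := Nat.cast_ne_zero.2 (NeZero.ne g)
  have hbij : Function.Bijective fun p : R × 𝓞 K ↦ (g : 𝓞 K) * p.2 + p.1 := by
    refine ⟨fun p q h ↦ ?_, fun x ↦ ?_⟩
    · have h' : (g : 𝓞 K) * p.2 + p.1 = g * q.2 + q.1 := h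
      have h1 : (p.1 : 𝓞 K) = q.1 := hR.eq_of_sub_mem p.1.2 q.1.2
        (Ideal.mem_span_singleton'.2 ⟨q.2 - p.2, by linear_combination (norm := ring) -h'⟩)
      rw [h1, add_left_inj] at h'
      exact Prod.ext (Subtype.ext h1) (mul_left_cancel₀ hg0 h')
    · obtain ⟨y, hy⟩ := Ideal.mem_span_singleton'.1 (hrep x).2
      exact ⟨(⟨rep x, (hrep x).1⟩, -y), by simp only; linear_combination (norm := ring) -hy⟩
  set e := Equiv.ofBijective _ hbij
  have h1 := summable_latticeTerm bJ χ J' hs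
  have h2 : Summable (latticeTerm bJ χ J' s ∘ e) := e.summable_iff.2 h1
  rw [← e.tsum_eq, show (fun p ↦ latticeTerm bJ χ J' s (e p)) = latticeTerm bJ χ J' s ∘ e from rfl,
    h2.tsum_prod, tsum_fintype, ← Finset.sum_coe_sort R]
  refine Finset.sum_congr rfl fun r _ ↦ ?_
  rw [← tsum_mul_left]
  refine tsum_congr fun y ↦ ?_
  simp only [Function.comp_apply, e, Equiv.ofBijective_apply, latticeTerm,
    detWeight_congr bJ χ hg hg']
  congr 2
  rw [map_add, map_mul, map_natCast, latticePoint, Algebra.smul_def]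
  simp [toMixedSpace_apply]

theorem exists_classDiff {C : ClassGroup (𝓞 K)} [NeZero m] {I : Ideal (𝓞 K)}
    (hI : (Ideal.absNorm I).Coprime m) (hI0 : I ≠ ⊥) :
    ∃ F : ℝ → ℂ, ContinuousOn F (Set.Icc 1 2) ∧ ∀ s : ℝ, 1 < s →
      (Ideal.absNorm I : ℂ) * ∑' a : ClassIdeals C,
          (if I ∣ (a.1 : Ideal (𝓞 K)) then idealTerm χ s a.1 else 0) -
        ∑' a : ClassIdeals C, idealTerm χ s a.1 = F s := by
  obtain ⟨J₀, hJ⟩ := ClassGroup.mk0_surjective C⁻¹
  set J := (J₀ : Ideal (𝓞 K))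
  have hJ0 : J ≠ ⊥ := nonZeroDivisors.coe_ne_zero J₀
  obtain ⟨bJ⟩ := exists_idealBasis hJ0
  obtain ⟨κ, hκ⟩ := exists_classSum_eq χ hJ bJ
  set NI := Ideal.absNorm I
  set g : ℕ := m * Ideal.absNorm J * NI
  have : NeZero g := ⟨mul_ne_zero (mul_ne_zero (NeZero.ne m)
    (Ideal.absNorm_eq_zero_iff.not.2 hJ0)) (Ideal.absNorm_eq_zero_iff.not.2 hI0)⟩
  have hg : (g : 𝓞 K) ∈ Ideal.span {(m : 𝓞 K)} * J := by
    simp only [g, NI, Nat.cast_mul]
    exact Ideal.mul_mem_right _ _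
      (Ideal.mul_mem_mul (Ideal.mem_span_singleton_self _) (Ideal.absNorm_mem J))
  have hgI : (g : 𝓞 K) ∈ J * I := by
    simp only [g, NI, Nat.cast_mul, mul_assoc]
    exact Ideal.mul_mem_left _ _ (Ideal.mul_mem_mul (Ideal.absNorm_mem J) (Ideal.absNorm_mem I))
  have hgJ : (g : 𝓞 K) ∈ J := (Ideal.mul_le_right : Ideal.span {(m : 𝓞 K)} * J ≤ J) hg
  obtain ⟨R, hR⟩ := exists_residues (K := K) g
  set D : 𝓞 K → ℝ → ℂ := fun r s ↦ ∑' y : 𝓞 K,
    (term K (χ (-1)) (latticePoint g (toMixedSpace K r) y) s -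
      term K (χ (-1)) (latticePoint g (0 : mixedSpace K) y) s) with hD
  set w : ℂ := (torsionOrder K : ℂ) with hw
  refine ⟨fun s ↦ w⁻¹ * (κ * (((Ideal.absNorm J : ℝ) ^ s : ℝ) : ℂ) *
    ∑ r ∈ R, ((NI : ℂ) * detWeight bJ χ (J * I) r - detWeight bJ χ J r) * D r s), ?_, ?_⟩
  · refine continuousOn_const.mul ((continuousOn_const.mul ?_).mul
      (continuousOn_finsetSum _ fun r _ ↦ continuousOn_const.mul ?_))
    · refine (Complex.continuous_ofReal.comp (Real.continuous_const_rpow ?_)).continuousOn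
      exact Nat.cast_ne_zero.2 (Ideal.absNorm_eq_zero_iff.not.2 hJ0)
    · exact continuousOn_tsum_term_sub (norm_apply_neg_one_le χ) (NeZero.ne g) _ _
  intro s hs
  have hw0 : w ≠ 0 := Nat.cast_ne_zero.2 (torsionOrder_ne_zero K)
  have h1 := hκ s hs I
  have h2 := hκ s hs ⊤
  simp only [Ideal.mul_top, Ideal.dvd_iff_le, le_top, if_true] at h2
  simp only [Ideal.dvd_iff_le] at h1 ⊢
  rw [tsum_latticeTerm_eq bJ χ hg hgI hR hs] at h1
  rw [tsum_latticeTerm_eq bJ χ hg hgJ hR hs] at h2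
  have hzero := sum_detWeight_mul bJ χ hg hgI hI hJ0 hR
  set A : 𝓞 K → ℂ := fun r ↦
    ∑' y : 𝓞 K, term K (χ (-1)) (latticePoint g (toMixedSpace K r) y) s with hA
  set A0 := ∑' y : 𝓞 K, term K (χ (-1)) (latticePoint g (0 : mixedSpace K) y) s
  have hDA : ∀ r, D r s = A r - A0 := fun r ↦
    (summable_term (norm_apply_neg_one_le χ) (NeZero.ne g) _ hs).tsum_sub
      (summable_term (norm_apply_neg_one_le χ) (NeZero.ne g) _ hs)
  have hfin : ∑ r ∈ R, ((NI : ℂ) * detWeight bJ χ (J * I) r - detWeight bJ χ J r) * D r s =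
      (NI : ℂ) * ∑ r ∈ R, detWeight bJ χ (J * I) r * A r -
        ∑ r ∈ R, detWeight bJ χ J r * A r := by
    have : ∑ r ∈ R, ((NI : ℂ) * detWeight bJ χ (J * I) r - detWeight bJ χ J r) * A0 = 0 := by
      rw [← Finset.sum_mul, Finset.sum_sub_distrib, ← Finset.mul_sum, hzero, sub_self, zero_mul]
    simp only [hDA, mul_sub, Finset.sum_sub_distrib, this, sub_zero]
    simp only [sub_mul, Finset.sum_sub_distrib, Finset.mul_sum, mul_assoc]
  simp only [hfin]
  rw [eq_inv_mul_iff_mul_eq₀ hw0]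
  linear_combination (NI : ℂ) * h1 - h2

/-- The norm-twisted zeta series. -/
def idealLSeries (K : Type*) [Field K] [NumberField K] {m : ℕ} (χ : DirichletCharacter ℂ m)
    (s : ℝ) : ℂ :=
  ∑' a : NZIdeal K, idealTerm χ s a

theorem tsum_dvd_idealTerm {s : ℝ} {I : NZIdeal K} :
    ∑' a : NZIdeal K,
        (if (I : Ideal (𝓞 K)) ∣ (a : Ideal (𝓞 K)) then idealTerm χ s a else 0) =
      idealTerm χ s I * idealLSeries K χ s := by
  have hinj : Function.Injective fun b : NZIdeal K ↦ I * b := fun a b h ↦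
    Subtype.ext (mul_left_cancel₀ (nonZeroDivisors.coe_ne_zero I) (congrArg Subtype.val h))
  rw [← hinj.tsum_eq (f := fun a : NZIdeal K ↦
    if (I : Ideal (𝓞 K)) ∣ (a : Ideal (𝓞 K)) then idealTerm χ s a else 0) fun a ha ↦ ?_]
  · rw [idealLSeries, ← tsum_mul_left]
    refine tsum_congr fun b ↦ ?_
    rw [Submonoid.coe_mul, if_pos (dvd_mul_right _ _), idealTerm, idealTerm, idealTerm, Submonoid.coe_mul, map_mul,
      Nat.cast_mul, Nat.cast_mul, map_mul, Real.mul_rpow (Nat.cast_nonneg _) (Nat.cast_nonneg _)]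
    push_cast
    ring
  · simp only [Function.mem_support, ne_eq, ite_eq_right_iff, not_forall] at ha
    obtain ⟨⟨b, hb⟩, -⟩ := ha
    refine ⟨⟨b, mem_nonZeroDivisors_of_ne_zero fun h ↦ nonZeroDivisors.coe_ne_zero a ?_⟩,
      Subtype.ext hb.symm⟩
    rw [hb, h, mul_zero]

/-- **Continuity at `1`** of the series twisted by a character nontrivial on norms. -/
theorem exists_continuousOn_idealLSeries [NeZero m] {I : Ideal (𝓞 K)} (hI0 : I ≠ ⊥)
    (hI : (Ideal.absNorm I).Coprime m) (hχ : χ (Ideal.absNorm I : ℕ) ≠ 1) :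
    ∃ F : ℝ → ℂ, ContinuousOn F (Set.Icc 1 2) ∧
      ∀ s ∈ Set.Ioc (1 : ℝ) 2, idealLSeries K χ s = F s := by
  choose F hFc hF using fun C : ClassGroup (𝓞 K) ↦ exists_classDiff χ (C := C) hI hI0
  set NI := Ideal.absNorm I
  let I₀ : NZIdeal K := ⟨I, mem_nonZeroDivisors_of_ne_zero hI0⟩
  set q : ℝ → ℂ := fun s ↦ (NI : ℂ) * idealTerm χ s I₀ - 1 with hq
  have hNI : NI ≠ 0 := Ideal.absNorm_eq_zero_iff.not.2 hI0
  have hqc : ContinuousOn q (Set.Icc 1 2) := by
    refine (continuousOn_const.mul (continuousOn_const.mul ?_)).sub continuousOn_const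
    exact (Complex.continuous_ofReal.comp ((Real.continuous_const_rpow
      (Nat.cast_ne_zero.2 hNI)).comp continuous_neg)).continuousOn
  have hq0 : ∀ s ∈ Set.Icc (1 : ℝ) 2, q s ≠ 0 := by
    intro s hs h
    have h' : (NI : ℂ) * idealTerm χ s I₀ = 1 := sub_eq_zero.1 h
    have hunit : IsUnit ((NI : ℕ) : ZMod m) := (ZMod.isUnit_iff_coprime NI m).2 hI
    have hnorm := congrArg (‖·‖) h'
    simp only [idealTerm, I₀, norm_mul, Complex.norm_natCast, Complex.norm_real, norm_one] at hnorm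
    rw [← hunit.unit_spec, DirichletCharacter.unit_norm_eq_one, one_mul,
      Real.norm_of_nonneg (Real.rpow_nonneg (Nat.cast_nonneg _) _)] at hnorm
    have hNI' : (0 : ℝ) < NI := Nat.cast_pos.2 (Nat.pos_of_ne_zero hNI)
    rcases eq_or_lt_of_le hs.1 with h1 | h1
    · subst h1
      simp only [idealTerm, I₀, Real.rpow_neg_one] at h'
      push_cast at h'
      rw [mul_left_comm, mul_inv_cancel₀ (Nat.cast_ne_zero.2 hNI), mul_one] at h'
      exact hχ h'
    · rcases eq_or_lt_of_le (Nat.one_le_iff_ne_zero.2 hNI) with h2 | h2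
      · rw [← h2] at hχ
        simp at hχ
      · nth_rewrite 1 [← Real.rpow_one (NI : ℝ)] at hnorm
        rw [← Real.rpow_add hNI'] at hnorm
        exact (Real.rpow_lt_one_of_one_lt_of_neg (Nat.one_lt_cast.2 h2) (by linarith)).ne hnorm
  refine ⟨fun s ↦ (∑ C, F C s) / q s, (continuousOn_finsetSum _ fun C _ ↦ hFc C).div hqc hq0,
    fun s hs ↦ ?_⟩
  rw [eq_div_iff (hq0 s (Set.Ioc_subset_Icc_self hs))]
  have hsum1 : Summable fun a : NZIdeal K ↦ idealTerm χ s a := summable_idealTerm χ hs.1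
  have hsum2 : Summable fun a : NZIdeal K ↦
      if I ∣ (a : Ideal (𝓞 K)) then idealTerm χ s a else 0 := by
    refine Summable.of_norm_bounded hsum1.norm fun a ↦ ?_
    split_ifs <;> simp
  rw [← Finset.sum_congr rfl fun C _ ↦ hF C s hs.1, Finset.sum_sub_distrib, ← Finset.mul_sum]
  have e : ∀ f : NZIdeal K → ℂ, Summable f →
      ∑ C : ClassGroup (𝓞 K), ∑' a : ClassIdeals C, f a.1 = ∑' a, f a := fun f hf ↦ by
    rw [← (Equiv.sigmaFiberEquiv (ClassGroup.mk0 (R := 𝓞 K))).tsum_eq f, Summable.tsum_sigma,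
      tsum_fintype]
    · rfl
    · exact (Equiv.sigmaFiberEquiv (ClassGroup.mk0 (R := 𝓞 K))).summable_iff.2 hf
  rw [e _ hsum1, e _ hsum2, show ∑' a : NZIdeal K,
      (if I ∣ (a : Ideal (𝓞 K)) then idealTerm χ s a else 0) =
      idealTerm χ s I₀ * idealLSeries K χ s from tsum_dvd_idealTerm χ (I := I₀), hq, idealLSeries]
  ring

end Fermat.Agent.DS
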