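import Fermat.Agent.MF.Defs
import Mathlib.NumberTheory.ModularForms.LevelOne.DimensionFormula
import Mathlib.NumberTheory.ModularForms.LevelOne.GradedRing
import Mathlib.RingTheory.PowerSeries.Basic

/-!
# The span of the integral `q`-expansions of forms on `Γ₁(N)`

`intForms N w` is the complex span of the integral `q`-expansions of weight `w` forms on `Γ₁(N)`.
It is stable under products and under conjugation of coefficients, and contains every level one
form.
-/

set_option autoImplicit false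

noncomputable section

namespace Fermat.Agent.DS

open UpperHalfPlane ModularForm EisensteinSeries CongruenceSubgroup PowerSeries
open scoped MatrixGroups Manifold

variable {N : ℕ}

/-- Modular forms on `Γ₁(N)`. -/
abbrev MF1 (N : ℕ) (w : ℤ) := ModularForm (Gamma1 N) w

theorem one_mem_strictPeriods_gamma1 (N : ℕ) :
    (1 : ℝ) ∈ ((Gamma1 N : Subgroup SL(2, ℤ)) : Subgroup (GL (Fin 2) ℝ)).strictPeriods := by
  simp

/-- The `q`-expansion at `∞` with period `1`. -/
def qE (f : ℍ → ℂ) : PowerSeries ℂ := qExpansion 1 f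

theorem qE_coeff (f : ℍ → ℂ) (n : ℕ) : (qE f).coeff n = (qExpansion 1 f).coeff n := rfl

theorem form_mem_qFunctions {w : ℤ} (F : MF1 N w) : (F : ℍ → ℂ) ∈ MF.qFunctions :=
  MF.mem_qFunctions_of_form (one_mem_strictPeriods_gamma1 N) F

theorem qE_add {f g : ℍ → ℂ} (hf : f ∈ MF.qFunctions) (hg : g ∈ MF.qFunctions) :
    qE (f + g) = qE f + qE g :=
  qExpansion_add (MF.analyticAt_of_mem_qFunctions hf) (MF.analyticAt_of_mem_qFunctions hg)

theorem qE_sub {f g : ℍ → ℂ} (hf : f ∈ MF.qFunctions) (hg : g ∈ MF.qFunctions) :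
    qE (f - g) = qE f - qE g :=
  qExpansion_sub (MF.analyticAt_of_mem_qFunctions hf) (MF.analyticAt_of_mem_qFunctions hg)

theorem qE_smul (c : ℂ) {f : ℍ → ℂ} (hf : f ∈ MF.qFunctions) : qE (c • f) = c • qE f :=
  qExpansion_smul (MF.analyticAt_of_mem_qFunctions hf) c

theorem qE_mul {f g : ℍ → ℂ} (hf : f ∈ MF.qFunctions) (hg : g ∈ MF.qFunctions) :
    qE (f * g) = qE f * qE g :=
  qExpansion_mul (MF.analyticAt_of_mem_qFunctions hf) (MF.analyticAt_of_mem_qFunctions hg)

theorem qE_eq_zero_iff {f : ℍ → ℂ} (hf : f ∈ MF.qFunctions) : qE f = 0 ↔ f = 0 :=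
  qExpansion_eq_zero_iff one_pos (by simpa using hf.1) hf.2.1 hf.2.2

theorem qE_inj {f g : ℍ → ℂ} (hf : f ∈ MF.qFunctions) (hg : g ∈ MF.qFunctions) :
    qE f = qE g ↔ f = g := by
  rw [← sub_eq_zero, ← qE_sub hf hg, qE_eq_zero_iff (sub_mem hf hg), sub_eq_zero]

theorem qE_one : qE (1 : ℍ → ℂ) = 1 := qExpansion_one 1

theorem qE_zero : qE (0 : ℍ → ℂ) = 0 := qExpansion_zero 1

theorem qE_pow {f : ℍ → ℂ} (hf : f ∈ MF.qFunctions) (n : ℕ) : qE (f ^ n) = qE f ^ n := by
  induction n with
  | zero => simpa using qE_one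
  | succ n ih => rw [pow_succ, pow_succ, qE_mul (pow_mem hf n) hf, ih]

/-- `qE` as a ring homomorphism. -/
def qEHom : MF.qFunctions →+* PowerSeries ℂ where
  toFun f := qE f
  map_one' := qExpansion_one 1
  map_mul' f g := qE_mul f.2 g.2
  map_zero' := qExpansion_zero 1
  map_add' f g := qE_add f.2 g.2

theorem qEHom_apply (f : MF.qFunctions) : qEHom f = qE f := rfl

/-- Power series with integral coefficients. -/
def intSeries : Subring (PowerSeries ℂ) := (PowerSeries.map (Int.castRingHom ℂ)).range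

theorem mem_intSeries_iff {s : PowerSeries ℂ} :
    s ∈ intSeries ↔ ∀ n, ∃ z : ℤ, s.coeff n = z := by
  constructor
  · rintro ⟨t, rfl⟩ n
    exact ⟨t.coeff n, by simp⟩
  · intro h
    choose z hz using h
    exact ⟨PowerSeries.mk z, by ext n; simp [hz]⟩

/-- The span of the integral `q`-expansions of forms of weight `w` on `Γ₁(N)`. -/
def intForms (N : ℕ) (w : ℤ) : Submodule ℂ (PowerSeries ℂ) :=
  Submodule.span ℂ {s | (∃ F : MF1 N w, qE F = s) ∧ s ∈ intSeries}

theorem mem_intForms_of_form {w : ℤ} (F : MF1 N w) (h : qE F ∈ intSeries) :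
    qE F ∈ intForms N w :=
  Submodule.subset_span ⟨⟨F, rfl⟩, h⟩

theorem intForms_cast {w w' : ℤ} (h : w = w') {s : PowerSeries ℂ} (hs : s ∈ intForms N w) :
    s ∈ intForms N w' := h ▸ hs

theorem exists_form_of_mem_intForms [NeZero N] {w : ℤ} {s : PowerSeries ℂ}
    (hs : s ∈ intForms N w) : ∃ F : MF1 N w, qE F = s := by
  induction hs using Submodule.span_induction with
  | mem x hx => exact hx.1
  | zero => exact ⟨0, by simp [qE, qExpansion_zero]⟩
  | add x y _ _ hx hy =>
    obtain ⟨F, rfl⟩ := hx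
    obtain ⟨G, rfl⟩ := hy
    exact ⟨F + G, by rw [FunLike.coe_add, qE_add (form_mem_qFunctions F) (form_mem_qFunctions G)]⟩
  | smul c x _ hx =>
    obtain ⟨F, rfl⟩ := hx
    exact ⟨c • F, by rw [FunLike.coe_smul, qE_smul c (form_mem_qFunctions F)]⟩

theorem mul_mem_intForms [NeZero N] {w w' : ℤ} {s t : PowerSeries ℂ} (hs : s ∈ intForms N w)
    (ht : t ∈ intForms N w') : s * t ∈ intForms N (w + w') := by
  induction hs using Submodule.span_induction with
  | mem x hx =>
    induction ht using Submodule.span_induction with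
    | mem y hy =>
      obtain ⟨⟨F, rfl⟩, hF⟩ := hx
      obtain ⟨⟨G, rfl⟩, hG⟩ := hy
      have : qE (F.mul G) = qE F * qE G := by
        rw [ModularForm.coe_mul, qE_mul (form_mem_qFunctions F) (form_mem_qFunctions G)]
      exact this ▸ mem_intForms_of_form _ (this ▸ mul_mem hF hG)
    | zero => simp
    | add y z _ _ hy hz => rw [mul_add]; exact add_mem hy hz
    | smul c y _ hy => rw [mul_smul_comm]; exact Submodule.smul_mem _ c hy
  | zero => simp
  | add y z _ _ hy hz => rw [add_mul]; exact add_mem hy hz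
  | smul c y _ hy => rw [smul_mul_assoc]; exact Submodule.smul_mem _ c hy

/-- Conjugation of coefficients preserves `intForms`. -/
theorem map_mem_intForms {w : ℤ} (σ : ℂ →+* ℂ) {s : PowerSeries ℂ} (hs : s ∈ intForms N w) :
    PowerSeries.map σ s ∈ intForms N w := by
  induction hs using Submodule.span_induction with
  | mem x hx =>
    obtain ⟨hF, t, rfl⟩ := hx
    have : PowerSeries.map σ (PowerSeries.map (Int.castRingHom ℂ) t) =
        PowerSeries.map (Int.castRingHom ℂ) t := by ext n; simp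
    exact this.symm ▸ Submodule.subset_span ⟨hF, t, rfl⟩
  | zero => simp
  | add y z _ _ hy hz => rw [map_add]; exact add_mem hy hz
  | smul c y _ hy =>
    rw [show PowerSeries.map σ (c • y) = σ c • PowerSeries.map σ y by ext n; simp]
    exact Submodule.smul_mem _ _ hy

/-- Restriction of a level one form to `Γ₁(N)`. -/
def restrictLevelOne (N : ℕ) [NeZero N] {k : ℤ} (F : ModularForm 𝒮ℒ k) : MF1 N k where
  toFun := F
  slash_action_eq' γ hγ := by
    obtain ⟨g, -, rfl⟩ := Subgroup.mem_map.1 hγ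
    exact F.slash_action_eq' _ ⟨g, rfl⟩
  holo' := F.holo'
  bdd_at_cusps' {c} hc := F.bdd_at_cusps' (by
    rw [Subgroup.IsArithmetic.isCusp_iff_isCusp_SL2Z] at hc ⊢
    exact hc)

@[simp]
theorem coe_restrictLevelOne (N : ℕ) [NeZero N] {k : ℤ} (F : ModularForm 𝒮ℒ k) :
    (restrictLevelOne N F : ℍ → ℂ) = F := rfl

theorem qE_E_mem_intSeries {k : ℕ} (hk : 3 ≤ k) (hk2 : Even k) {z : ℤ}
    (hz : -(2 * k / bernoulli k : ℂ) = z) : qE (E hk) ∈ intSeries := by
  refine mem_intSeries_iff.2 fun n ↦ ?_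
  rw [qE_coeff, E_qExpansion_coeff hk hk2, hz]
  split_ifs
  · exact ⟨1, by simp⟩
  · exact ⟨z * ArithmeticFunction.sigma (k - 1) n, by simp⟩

theorem qE_E₄_mem [NeZero N] : qE E₄ ∈ intForms N 4 :=
  mem_intForms_of_form (restrictLevelOne N E₄) (qE_E_mem_intSeries (z := 240) (show 3 ≤ 4 by norm_num) ⟨2, rfl⟩
    (by norm_num [show bernoulli 4 = -1 / 30 by decide +kernel]))

theorem qE_E₆_mem [NeZero N] : qE E₆ ∈ intForms N 6 :=
  mem_intForms_of_form (restrictLevelOne N E₆) (qE_E_mem_intSeries (z := -504) (show 3 ≤ 6 by norm_num) ⟨3, rfl⟩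
    (by norm_num [show bernoulli 6 = 1 / 42 by decide +kernel]))

theorem one_mem_intForms [NeZero N] : (1 : PowerSeries ℂ) ∈ intForms N 0 := by
  have h : qE ((ModularForm.const 1 : MF1 N 0) : ℍ → ℂ) = 1 := qExpansion_one 1
  exact h ▸ mem_intForms_of_form (ModularForm.const 1 : MF1 N 0) (h ▸ one_mem _)

theorem pow_mem_intForms [NeZero N] {w : ℤ} {s : PowerSeries ℂ} (hs : s ∈ intForms N w) (n : ℕ) :
    s ^ n ∈ intForms N (n * w) := by
  induction n with
  | zero => simpa using one_mem_intForms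
  | succ n ih =>
    rw [pow_succ]
    exact intForms_cast (by push_cast; ring) (mul_mem_intForms ih hs)

theorem qE_discriminant :
    qE ModularForm.discriminant = (1 / 1728 : ℂ) • (qE E₄ ^ 3 - qE E₆ ^ 2) := by
  have h4 : (E₄ : ℍ → ℂ) ∈ MF.qFunctions := MF.coe_levelOne_mem_qFunctions E₄
  have h6 : (E₆ : ℍ → ℂ) ∈ MF.qFunctions := MF.coe_levelOne_mem_qFunctions E₆
  have h : ModularForm.discriminant = (1 / 1728 : ℂ) • ((⇑E₄) ^ 3 - (⇑E₆) ^ 2) := by
    funext z
    have h0 := ModularForm.discriminant_eq_E₄_cube_sub_E₆_sq z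
    simp only [Pi.smul_apply, Pi.sub_apply, Pi.pow_apply, smul_eq_mul]
    rw [h0, one_div, ← div_eq_inv_mul]
  rw [h, qE_smul _ (sub_mem (pow_mem h4 3) (pow_mem h6 2)),
    qE_sub (pow_mem h4 3) (pow_mem h6 2), qE_pow h4, qE_pow h6]

theorem qE_discriminant_mem [NeZero N] : qE ModularForm.discriminant ∈ intForms N 12 := by
  rw [qE_discriminant]
  exact Submodule.smul_mem _ _ (sub_mem
    (intForms_cast (by norm_num) (pow_mem_intForms qE_E₄_mem 3))
    (intForms_cast (by norm_num) (pow_mem_intForms qE_E₆_mem 2)))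

/-- Every level one form lies in `intForms`. -/
theorem levelOne_mem_intForms [NeZero N] :
    ∀ (m : ℕ) {k : ℤ}, k ≤ m → ∀ F : ModularForm 𝒮ℒ k, qE F ∈ intForms N k := by
  intro m
  induction m using Nat.strong_induction_on with | _ m ih => ?_
  intro k hk F
  rcases lt_or_ge k 0 with hneg | hpos
  · rw [ModularFormClass.levelOne_neg_weight_eq_zero hneg F, qE, qExpansion_zero]
    exact zero_mem _
  rcases Int.even_or_odd k with hev | hodd
  swap
  · rw [ModularForm.levelOne_odd_weight_eq_zero hodd F]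
    simp [qE, qExpansion_zero]
  rcases eq_or_ne k 0 with rfl | hk0
  · obtain ⟨c, hc⟩ := ModularFormClass.levelOne_weight_zero_const F
    rw [hc, show Function.const ℍ c = c • (1 : ℍ → ℂ) by ext; simp,
      qE_smul c MF.qFunctions.one_mem, show qE (1 : ℍ → ℂ) = 1 from qExpansion_one 1]
    exact Submodule.smul_mem _ c one_mem_intForms
  rcases eq_or_ne k 2 with rfl | hk2
  · have := (rank_zero_iff_forall_zero).1 levelOne_weight_two_rank_zero F
    simp [this, qE, qExpansion_zero]
  obtain ⟨j, rfl⟩ := hev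
  obtain ⟨a, b, hab⟩ : ∃ a b : ℕ, (4 * a + 6 * b : ℤ) = j + j := by
    obtain ⟨j', rfl⟩ := Int.eq_ofNat_of_zero_le (show 0 ≤ j by omega)
    rcases Nat.even_or_odd j' with ⟨i, rfl⟩ | ⟨i, rfl⟩
    · exact ⟨i, 0, by push_cast; ring⟩
    · exact ⟨i - 1, 1, by omega⟩
  set M : ModularForm 𝒮ℒ (j + j) :=
    ModularForm.mcast (by push_cast; omega) ((E₄.pow a).mul (E₆.pow b)) with hM
  have hMq : qE M = qE E₄ ^ a * qE E₆ ^ b := by
    rw [hM, ModularForm.coe_mcast, qE, ModularForm.qExpansion_mul one_pos one_mem_strictPeriods_SL,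
      ModularForm.qExpansion_pow one_pos one_mem_strictPeriods_SL,
      ModularForm.qExpansion_pow one_pos one_mem_strictPeriods_SL]
    rfl
  have hMmem : qE M ∈ intForms N (j + j) := hMq ▸
    intForms_cast (by omega) (mul_mem_intForms (pow_mem_intForms qE_E₄_mem a)
      (pow_mem_intForms qE_E₆_mem b))
  have hM0 : (qE M).coeff 0 = 1 := by
    rw [hMq, coeff_zero_eq_constantCoeff, map_mul, map_pow, map_pow,
      ← coeff_zero_eq_constantCoeff_apply, ← coeff_zero_eq_constantCoeff_apply, qE_coeff, qE_coeff,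
      E_qExpansion_coeff_zero _ ⟨2, rfl⟩, E_qExpansion_coeff_zero _ ⟨3, rfl⟩, one_pow, one_pow,
      mul_one]
  set c := (qE F).coeff 0
  set G : ModularForm 𝒮ℒ (j + j) := F - c • M with hG
  have hFq : qE F = c • qE M + qE G := by
    have hm := MF.coe_levelOne_mem_qFunctions M
    rw [hG, FunLike.coe_sub, FunLike.coe_smul,
      qE_sub (MF.coe_levelOne_mem_qFunctions F) (Subalgebra.smul_mem _ hm c), qE_smul c hm]
    ring
  have hG0 : (qExpansion 1 G).coeff 0 = 0 := by
    have := congrArg (coeff 0) hFq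
    rw [map_add, PowerSeries.coeff_smul, hM0, smul_eq_mul, mul_one] at this
    exact left_eq_add.mp this
  rw [hFq]
  refine add_mem (Submodule.smul_mem _ c hMmem) ?_
  rw [qE, ModularForm.qExpansion_eq_qExpansion_discriminant_mul G hG0]
  refine intForms_cast (by ring) (mul_mem_intForms qE_discriminant_mem
    (?_ : qE (CuspForm.discriminantEquiv (toCuspForm G hG0)) ∈ intForms N (j + j - 12)))
  rcases lt_or_ge (j + j) 12 with h12 | h12
  · rw [ModularFormClass.levelOne_neg_weight_eq_zero (by omega) _, qE, qExpansion_zero]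
    exact zero_mem _
  · exact ih (m - 12) (by omega) (by omega) _

theorem levelOne_mem_intForms' [NeZero N] {k : ℤ} (F : ModularForm 𝒮ℒ k) :
    qE F ∈ intForms N k :=
  levelOne_mem_intForms k.toNat (Int.self_le_toNat k) F

end Fermat.Agent.DS
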