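import Fermat.Agent.DS.Chebotarev
import Fermat.Agent.Deform.FrobExist
import Fermat.Prelude.Def_Deformations_MatrixRepresentation
import Mathlib.RepresentationTheory.Irreducible
import Mathlib.RingTheory.IntegralDomain
import Mathlib.Algebra.Group.Conj

/-!
# Irreducibility of the representation attached to a weight one form (Deligne–Serre 5.3)
-/

set_option autoImplicit false

noncomputable section

namespace Fermat.Agent.DS

open Matrix Finset

/-- A non-irreducible two-dimensional representation has trace a sum of two characters. -/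
theorem exists_chars_of_not_irreducible {G : Type} [Group G] (ρ : G →* GL (Fin 2) ℂ)
    (h : ¬ (Deformation.matrixRepresentation ρ).IsIrreducible) :
    ∃ χ₁ χ₂ : G →* ℂ, ∀ g, ((ρ g : GL (Fin 2) ℂ) : Matrix (Fin 2) (Fin 2) ℂ).trace
      = χ₁ g + χ₂ g := by
  classical
  set R := Deformation.matrixRepresentation ρ
  obtain ⟨v, hv0, hv⟩ : ∃ v : Fin 2 → ℂ, v ≠ 0 ∧ ∀ g, ∃ c : ℂ, R g v = c • v := by
    have hb : (⊥ : Subrepresentation R) ≠ ⊤ := fun e ↦ by
      have := congrArg Subrepresentation.toSubmodule e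
      exact bot_ne_top (α := Submodule ℂ (Fin 2 → ℂ)) this
    have : Nontrivial (Subrepresentation R) := ⟨⟨_, _, hb⟩⟩
    obtain ⟨W, hW0, hW1⟩ : ∃ W : Subrepresentation R, W ≠ ⊥ ∧ W ≠ ⊤ := by
      by_contra hc
      push Not at hc
      exact h { eq_bot_or_eq_top := fun W ↦ (em (W = ⊥)).imp_right (hc W) }
    have hdim : Module.finrank ℂ W.toSubmodule = 1 := by
      have h0 : W.toSubmodule ≠ ⊥ := fun e ↦ hW0 (Subrepresentation.toSubmodule_injective e)
      have h1 : W.toSubmodule ≠ ⊤ := fun e ↦ hW1 (Subrepresentation.toSubmodule_injective e)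
      have hlt := Submodule.finrank_lt h1
      have hpos : 1 ≤ Module.finrank ℂ W.toSubmodule := Submodule.one_le_finrank_iff.2 h0
      rw [Module.finrank_fin_fun] at hlt
      omega
    obtain ⟨⟨v, hvW⟩, hv0, hv⟩ := finrank_eq_one_iff'.1 hdim
    refine ⟨v, fun e ↦ hv0 (Subtype.ext e), fun g ↦ ?_⟩
    obtain ⟨c, hc⟩ := hv ⟨R g v, W.apply_mem_toSubmodule g hvW⟩
    exact ⟨c, (congrArg Subtype.val hc).symm⟩
  choose c hc using hv
  have hcv : ∀ g, ((ρ g : GL (Fin 2) ℂ) : Matrix (Fin 2) (Fin 2) ℂ) *ᵥ v = c g • v := fun g ↦ by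
    simpa [R] using hc g
  have hsmul : ∀ a b : ℂ, a • v = b • v → a = b := fun a b e ↦ smul_left_injective ℂ hv0 e
  let χ : G →* ℂ :=
    { toFun := c
      map_one' := hsmul _ _ (by rw [← hcv]; simp)
      map_mul' := fun g k ↦ hsmul _ _ (by
        rw [← hcv, map_mul, Units.val_mul, ← mulVec_mulVec, hcv, mulVec_smul, hcv, smul_smul,
          mul_comm]) }
  refine ⟨χ, { toFun := fun g ↦ ((ρ g : GL (Fin 2) ℂ) : Matrix (Fin 2) (Fin 2) ℂ).det * χ g⁻¹
               map_one' := by simp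
               map_mul' := fun g k ↦ by
                 simp only [map_mul, Units.val_mul, det_mul, _root_.mul_inv_rev]
                 ring }, fun g ↦ ?_⟩
  set M := ((ρ g : GL (Fin 2) ℂ) : Matrix (Fin 2) (Fin 2) ℂ)
  have hdet : (M - c g • 1).det = 0 := exists_mulVec_eq_zero_iff.1
    ⟨v, hv0, by rw [sub_mulVec, hcv, smul_mulVec, one_mulVec, sub_self]⟩
  simp only [det_fin_two, Matrix.sub_apply, Matrix.smul_apply, Matrix.one_apply, Fin.isValue,
    if_true, smul_eq_mul, mul_one, zero_ne_one, one_ne_zero, if_false, mul_zero, sub_zero] at hdet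
  have hinv : χ g⁻¹ * c g = 1 := by
    rw [show c g = χ g from rfl, ← map_mul, inv_mul_cancel, map_one]
  show M.trace = c g + M.det * χ g⁻¹
  rw [trace_fin_two, det_fin_two]
  linear_combination (M 0 0 + M 1 1 - c g) * (-hinv) - χ g⁻¹ * hdet

/-- The mean square of a sum of two characters of a finite group is at least `2`. -/
theorem two_mul_card_le_sum_norm_sq {G : Type} [Group G] [Fintype G] (χ₁ χ₂ : G →* ℂ) :
    2 * (Fintype.card G : ℝ) ≤ ∑ g, ‖χ₁ g + χ₂ g‖ ^ 2 := by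
  classical
  have hnorm : ∀ (χ : G →* ℂ) (g : G), ‖χ g‖ = 1 := fun χ g ↦
    Complex.norm_eq_one_of_pow_eq_one (by rw [← map_pow, pow_card_eq_one, map_one])
      Fintype.card_ne_zero
  let ψ : G →* ℂ :=
    { toFun := fun g ↦ χ₁ g * χ₂ g⁻¹
      map_one' := by simp
      map_mul' := fun g k ↦ by simp only [map_mul, _root_.mul_inv_rev]; ring }
  have hpt : ∀ g, ‖χ₁ g + χ₂ g‖ ^ 2 = 2 + 2 * (ψ g).re := by
    intro g
    have hinv : χ₂ g⁻¹ = starRingEnd ℂ (χ₂ g) := by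
      have h1 : χ₂ g⁻¹ * χ₂ g = 1 := by rw [← map_mul, inv_mul_cancel, map_one]
      have h2 : starRingEnd ℂ (χ₂ g) * χ₂ g = 1 := by
        rw [Complex.conj_mul', hnorm]; simp
      exact mul_right_cancel₀ (right_ne_zero_of_mul_eq_one h1) (h1.trans h2.symm)
    show _ = 2 + 2 * (χ₁ g * χ₂ g⁻¹).re
    rw [hinv, Complex.sq_norm, Complex.normSq_add, ← Complex.sq_norm, ← Complex.sq_norm,
      hnorm, hnorm]
    ring
  rw [sum_congr rfl fun g _ ↦ hpt g, sum_add_distrib, ← mul_sum, ← Complex.re_sum,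
    sum_hom_units ψ]
  simp only [sum_const, card_univ, nsmul_eq_mul]
  split_ifs <;> simp <;> nlinarith [Nat.cast_nonneg (α := ℝ) (Fintype.card G)]

theorem trace_eq_of_isConj {G : Subgroup (GL (Fin 2) ℂ)} {g h : G} (hgh : IsConj g h) :
    ((g : GL (Fin 2) ℂ) : Matrix (Fin 2) (Fin 2) ℂ).trace =
      ((h : GL (Fin 2) ℂ) : Matrix (Fin 2) (Fin 2) ℂ).trace := by
  obtain ⟨u, rfl⟩ := isConj_iff.1 hgh
  push_cast
  rw [Matrix.trace_mul_cycle, ← Matrix.coe_units_inv, ← Units.val_mul, inv_mul_cancel,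
    Units.val_one, one_mul]

/-- A finite-image representation with Frobenius traces `a p` is irreducible when
`∑ ‖a p‖² p⁻ˢ ≤ log (1 / (s - 1)) + O(1)`. -/
theorem isIrreducible_of_sum_sq_le {N : ℕ} [NeZero N] (ρ : GalQ →* GL (Fin 2) ℂ)
    (hfac : GaloisFactorsThroughFiniteLevel ρ) (a d : ℕ → ℂ)
    (hρ : ∀ p : ℕ, p.Prime → ¬ p ∣ N → UnramifiedWith ρ p (a p) (d p))
    (hbound : ∃ D : ℝ, ∀ s : ℝ, 1 < s → s ≤ 2 → ∀ P : Finset ℕ, (∀ p ∈ P, p.Prime ∧ ¬ p ∣ N) →
      ∑ p ∈ P, ‖a p‖ ^ 2 * (p : ℝ) ^ (-s) ≤ Real.log (1 / (s - 1)) + D)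
    (hfin : Finite ρ.range) :
    (Deformation.matrixRepresentation ρ).IsIrreducible := by
  classical
  by_contra hirr
  let G := ρ.range
  let f : G → ℝ := fun g ↦ ‖((g : GL (Fin 2) ℂ) : Matrix (Fin 2) (Fin 2) ℂ).trace‖ ^ 2
  have := Fintype.ofFinite G
  -- the diagonal characters live on the image
  have hmean : 2 * (Fintype.card G : ℝ) ≤ ∑ g, f g := by
    have hirr' : ¬ (Deformation.matrixRepresentation G.subtype).IsIrreducible := by
      intro hG
      apply hirr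
      have hiff : ∀ (W : Submodule ℂ (Fin 2 → ℂ)),
          (∀ (g : G) ⦃v⦄, v ∈ W → Deformation.matrixRepresentation G.subtype g v ∈ W) ↔
          (∀ (σ : GalQ) ⦃v⦄, v ∈ W → Deformation.matrixRepresentation ρ σ v ∈ W) := by
        refine fun W ↦ ⟨fun hW σ v hv ↦ by simpa using hW ⟨ρ σ, σ, rfl⟩ hv, ?_⟩
        rintro hW ⟨_, σ, rfl⟩ v hv
        simpa using hW σ hv
      let e : Subrepresentation (Deformation.matrixRepresentation G.subtype) ≃o
          Subrepresentation (Deformation.matrixRepresentation ρ) :=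
        { toFun := fun W ↦ ⟨W.toSubmodule, (hiff _).1 W.apply_mem_toSubmodule⟩
          invFun := fun W ↦ ⟨W.toSubmodule, (hiff _).2 W.apply_mem_toSubmodule⟩
          left_inv := fun _ ↦ rfl
          right_inv := fun _ ↦ rfl
          map_rel_iff' := Iff.rfl }
      exact e.symm.isSimpleOrder
    obtain ⟨ξ₁, ξ₂, hξ⟩ := exists_chars_of_not_irreducible G.subtype hirr'
    refine (two_mul_card_le_sum_norm_sq ξ₁ ξ₂).trans (le_of_eq (sum_congr rfl fun g _ ↦ ?_))
    rw [← hξ]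
    rfl
  have hfac' : GaloisFactorsThroughFiniteLevel ρ.rangeRestrict := by
    obtain ⟨L, hL, hL'⟩ := hfac
    exact ⟨L, hL, fun σ hσ ↦ Subtype.ext (hL' σ hσ)⟩
  choose rep hrep using ConjClasses.mk_surjective (α := G)
  choose D hD using fun c : ConjClasses G ↦ chebotarev_lower ρ.rangeRestrict hfac'
    ρ.rangeRestrict_surjective (rep c) (show (0 : ℝ) < 1 / 4 by norm_num)
  obtain ⟨D0, hD0⟩ := hbound
  set M : ℝ := (N.primeFactors.card : ℝ)
  set C : ℝ := D0 + ∑ c : ConjClasses G, f (rep c) * (D c + M)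
  -- evaluate close to `1`
  set s : ℝ := 1 + Real.exp (-2 * (|C| + 1)) with hs
  have hs1 : 1 < s := by rw [hs]; linarith [Real.exp_pos (-2 * (|C| + 1))]
  have hs2 : s ≤ 2 := by
    rw [hs]; linarith [Real.exp_le_one_iff.2 (by linarith [abs_nonneg C] : -2 * (|C| + 1) ≤ 0)]
  set Lg := Real.log (1 / (s - 1)) with hLg
  have hLg' : Lg = 2 * (|C| + 1) := by
    rw [hLg, hs, add_sub_cancel_left, one_div, ← Real.exp_neg, Real.log_exp]
    ring
  choose P hP hPsum using fun c ↦ hD c s hs1 hs2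
  set Q : ConjClasses G → Finset ℕ := fun c ↦ (P c).filter fun p ↦ ¬ p ∣ N
  have hval : ∀ c, ∀ p ∈ Q c, ‖a p‖ ^ 2 = f (rep c) ∧
      ∃ σ : GalQ, ConjClasses.mk (ρ.rangeRestrict σ) = c ∧
        ∀ c', p ∈ P c' → ConjClasses.mk (ρ.rangeRestrict σ) = c' := by
    intro c p hp
    obtain ⟨hpP, hpN⟩ := mem_filter.1 hp
    have hprime := (hP c p hpP).1
    obtain ⟨A, hA⟩ := Deform.exists_valuationSubring_liesOverPrime hprime
    obtain ⟨σ, hσ⟩ := Deform.exists_isFrobeniusAt hprime hA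
    have hmk : ∀ c', p ∈ P c' → ConjClasses.mk (ρ.rangeRestrict σ) = c' := fun c' hc' ↦ by
      rw [← hrep c']
      exact ConjClasses.mk_eq_mk_iff_isConj.2
        (IsConj.symm ((hP c' p hc').2 A hA σ hσ))
    refine ⟨?_, σ, hmk c hpP, hmk⟩
    have ht := ((hρ p hprime hpN A hA).2 σ hσ).1
    have hc : IsConj (rep c) (ρ.rangeRestrict σ) := (hP c p hpP).2 A hA σ hσ
    simp only [f]
    rw [← ht, trace_eq_of_isConj hc]
    rfl
  have hdisj : (↑(univ : Finset (ConjClasses G)) : Set (ConjClasses G)).PairwiseDisjoint Q := by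
    intro c _ c' _ hne
    refine Finset.disjoint_left.2 fun p hp hp' ↦ hne ?_
    obtain ⟨-, σ, h1, h2⟩ := hval c p hp
    exact h1.symm.trans (h2 c' (mem_filter.1 hp').1)
  have hsumG : ∑ c : ConjClasses G, (Nat.card (conjugatesOf (rep c)) : ℝ) * f (rep c) = ∑ g, f g := by
    rw [← sum_fiberwise (univ : Finset G) ConjClasses.mk f]
    refine sum_congr rfl fun c _ ↦ ?_
    have hmem : ∀ g : G, g ∈ conjugatesOf (rep c) ↔ ConjClasses.mk g = c := fun g ↦ by
      show IsConj (rep c) g ↔ _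
      rw [← ConjClasses.mk_eq_mk_iff_isConj, hrep]
      exact eq_comm
    rw [Nat.card_eq_fintype_card, ← Set.toFinset_card, show (conjugatesOf (rep c)).toFinset =
      univ.filter (fun g ↦ ConjClasses.mk g = c) by ext g; simp [hmem], ← nsmul_eq_mul, ← sum_const]
    refine sum_congr rfl fun g hg ↦ ?_
    simp only [f]
    rw [trace_eq_of_isConj (ConjClasses.mk_eq_mk_iff_isConj.1 ((mem_filter.1 hg).2.trans (hrep c).symm))]
  have hQ : ∀ c, 3 / 4 * ((Nat.card (conjugatesOf (rep c)) : ℝ) / Nat.card G) * Lg - (D c + M)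
      ≤ ∑ p ∈ Q c, (p : ℝ) ^ (-s) := by
    intro c
    have h1 := sum_filter_add_sum_filter_not (P c) (fun p ↦ p ∣ N) fun p ↦ (p : ℝ) ^ (-s)
    have h2 : ∑ p ∈ (P c).filter (fun p ↦ p ∣ N), (p : ℝ) ^ (-s) ≤ M := by
      refine (sum_le_sum (g := fun _ ↦ (1 : ℝ)) fun p hp ↦ Real.rpow_le_one_of_one_le_of_nonpos
        (mod_cast (hP c p (mem_filter.1 hp).1).1.one_le) (by linarith)).trans ?_
      simp only [sum_const, nsmul_eq_mul, mul_one, M, Nat.cast_le]
      refine card_le_card fun p hp ↦ ?_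
      exact Nat.mem_primeFactors.2 ⟨(hP c p (mem_filter.1 hp).1).1, (mem_filter.1 hp).2, NeZero.ne N⟩
    have h3 := hPsum c
    rw [show (1 - 1 / 4 : ℝ) = 3 / 4 by norm_num] at h3
    show _ ≤ ∑ p ∈ (P c).filter (fun p ↦ ¬ p ∣ N), (p : ℝ) ^ (-s)
    linarith
  have hlow : 3 / 4 * ((∑ g, f g) / Fintype.card G) * Lg - (C - D0) ≤
      ∑ c, ∑ p ∈ Q c, ‖a p‖ ^ 2 * (p : ℝ) ^ (-s) := by
    have h1 : ∑ c, f (rep c) * (3 / 4 * ((Nat.card (conjugatesOf (rep c)) : ℝ) / Nat.card G) * Lg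
        - (D c + M)) ≤ ∑ c, f (rep c) * ∑ p ∈ Q c, (p : ℝ) ^ (-s) :=
      sum_le_sum fun c _ ↦ mul_le_mul_of_nonneg_left (hQ c) (sq_nonneg _)
    refine le_trans (le_of_eq ?_) (h1.trans (le_of_eq (sum_congr rfl fun c _ ↦ ?_)))
    · rw [← hsumG, Nat.card_eq_fintype_card]
      simp only [mul_sub, sum_sub_distrib, C, add_sub_cancel_left, mul_div_assoc, mul_sum, sum_mul,
        sum_div]
      congr 1
      exact sum_congr rfl fun c _ ↦ by ring
    · rw [mul_sum]
      exact sum_congr rfl fun p hp ↦ by rw [(hval c p hp).1]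
  have hup : ∑ c, ∑ p ∈ Q c, ‖a p‖ ^ 2 * (p : ℝ) ^ (-s) ≤ Lg + D0 := by
    rw [← sum_biUnion hdisj]
    refine hD0 s hs1 hs2 _ fun p hp ↦ ?_
    obtain ⟨c, -, hc⟩ := mem_biUnion.1 hp
    exact ⟨(hP c p (mem_filter.1 hc).1).1, (mem_filter.1 hc).2⟩
  have hcard : (0 : ℝ) < Fintype.card G := by exact_mod_cast Fintype.card_pos
  have h32 : 3 / 2 * Lg ≤ 3 / 4 * ((∑ g, f g) / Fintype.card G) * Lg := by
    have : 2 ≤ (∑ g, f g) / Fintype.card G := by rw [le_div_iff₀ hcard]; exact hmean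
    have : 0 ≤ Lg := by rw [hLg']; positivity
    nlinarith
  linarith [le_abs_self C]

end Fermat.Agent.DS
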