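import Mathlib.NumberTheory.NumberField.CanonicalEmbedding.FundamentalCone
import Mathlib.Algebra.Module.ZLattice.Summable
import Mathlib.Analysis.SpecialFunctions.Pow.Continuity
import Mathlib.RingTheory.Norm.Basic

/-!
# Smoothed lattice sums of `|N x|^(-s)`

A unit-periodic partition of unity `unitWeight` on the mixed space, and the fact that the sums
of `unitWeight x * |N x|^(-s)` over two translates of a scaled copy of `𝓞 K` differ by a
function of `s` continuous on `[1, 2]`.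
-/

set_option autoImplicit false

noncomputable section

namespace Fermat.Agent.DS

open NumberField NumberField.InfinitePlace NumberField.mixedEmbedding NumberField.Units
  NumberField.Units.dirichletUnitTheorem Module Set Filter Topology

open scoped Classical

/-- The hat function. -/
def hat (t : ℝ) : ℝ := max 0 (1 - |t|)

theorem hat_nonneg (t : ℝ) : 0 ≤ hat t := le_max_left _ _

theorem hat_le_one (t : ℝ) : hat t ≤ 1 :=
  max_le zero_le_one (by linarith [abs_nonneg t])

theorem hat_eq_zero {t : ℝ} (h : 1 ≤ |t|) : hat t = 0 := max_eq_left (by linarith)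

theorem abs_hat_sub_le (a b : ℝ) : |hat a - hat b| ≤ |a - b| := by
  refine (abs_max_sub_max_le_max 0 (1 - |a|) 0 (1 - |b|)).trans (max_le (by simp) ?_)
  rw [sub_sub_sub_cancel_left, abs_sub_comm a b]
  exact abs_abs_sub_abs_le_abs_sub b a

theorem hat_intCast_add_eq_zero {t : ℝ} {n : ℤ}
    (hn : n ∉ ({-⌊t⌋, -⌊t⌋ - 1} : Finset ℤ)) : hat (n + t) = 0 := by
  simp only [Finset.mem_insert, Finset.mem_singleton, not_or] at hn
  refine hat_eq_zero ?_
  have h1 := Int.floor_le t
  have h2 := Int.lt_floor_add_one t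
  rcases lt_or_gt_of_ne hn.1 with h | h
  · have h' : n ≤ -⌊t⌋ - 2 := by omega
    have : (n : ℝ) ≤ -(⌊t⌋ : ℝ) - 2 := by exact_mod_cast h'
    exact le_trans (by linarith) (neg_le_abs _)
  · have h' : -⌊t⌋ + 1 ≤ n := h
    have : -(⌊t⌋ : ℝ) + 1 ≤ (n : ℝ) := by exact_mod_cast h'
    exact le_trans (by linarith) (le_abs_self _)

theorem sum_hat_intCast_add (t : ℝ) :
    ∑ n ∈ ({-⌊t⌋, -⌊t⌋ - 1} : Finset ℤ), hat (n + t) = 1 := by
  rw [Finset.sum_pair (by omega)]
  have h1 := Int.floor_le t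
  have h2 := Int.lt_floor_add_one t
  unfold hat
  push_cast
  rw [abs_of_nonneg (by linarith), abs_of_nonpos (by linarith),
    max_eq_right (by linarith), max_eq_right (by linarith)]
  ring

theorem hasSum_prod_hat {r : ℕ} (t : Fin r → ℝ) :
    HasSum (fun v : Fin r → ℤ ↦ ∏ i, hat (v i + t i)) 1 := by
  classical
  have h : HasSum (fun v : Fin r → ℤ ↦ ∏ i, hat (v i + t i))
      (∑ v ∈ Fintype.piFinset fun i ↦ ({-⌊t i⌋, -⌊t i⌋ - 1} : Finset ℤ),
        ∏ i, hat (v i + t i)) :=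
    hasSum_sum_of_ne_finset_zero (by
      intro v hv
      obtain ⟨i, hi⟩ : ∃ i, v i ∉ ({-⌊t i⌋, -⌊t i⌋ - 1} : Finset ℤ) := by
        simpa only [Fintype.mem_piFinset, not_forall] using hv
      exact Finset.prod_eq_zero (Finset.mem_univ i) (hat_intCast_add_eq_zero hi))
  rwa [← Finset.prod_univ_sum (fun i ↦ ({-⌊t i⌋, -⌊t i⌋ - 1} : Finset ℤ))
      (fun i (n : ℤ) ↦ hat (n + t i)),
    Finset.prod_eq_one fun i _ ↦ sum_hat_intCast_add (t i)] at h

variable (K : Type*) [Field K] [NumberField K]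

open scoped Classical in
/-- The real basis of the log space given by the unit lattice. -/
def unitBasis : Basis (Fin (rank K)) ℝ (logSpace K) :=
  (basisUnitLattice K).ofZLatticeBasis ℝ _

/-- A partition of unity for the action of the units. -/
def unitWeight (x : mixedSpace K) : ℝ :=
  if mixedEmbedding.norm x = 0 then 0 else ∏ i, hat ((unitBasis K).repr (logMap x) i)

open scoped Classical in
/-- The summand: sign twist times weight times `|N x|^(-s)`. -/
def term (e : ℂ) (x : mixedSpace K) (s : ℝ) : ℂ :=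
  (if Algebra.norm ℝ x < 0 then e else 1) *
    ((unitWeight K x * (mixedEmbedding.norm x) ^ (-s) : ℝ) : ℂ)

variable {K}

theorem unitWeight_nonneg (x : mixedSpace K) : 0 ≤ unitWeight K x := by
  unfold unitWeight
  split_ifs
  exacts [le_rfl, Finset.prod_nonneg fun i _ ↦ hat_nonneg _]

theorem unitWeight_le_one (x : mixedSpace K) : unitWeight K x ≤ 1 := by
  unfold unitWeight
  split_ifs
  exacts [zero_le_one, Finset.prod_le_one (fun i _ ↦ hat_nonneg _) fun i _ ↦ hat_le_one _]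

theorem term_zero (e : ℂ) (s : ℝ) : term K e 0 s = 0 := by
  simp [term, unitWeight]

theorem logEmbedding_torsion_mul_prod (ζ : torsion K) (v : Fin (rank K) → ℤ) (i : Fin (rank K)) :
    (unitBasis K).repr (logEmbedding K (Additive.ofMul
      ((ζ : (𝓞 K)ˣ) * ∏ j, fundSystem K j ^ v j))) i = v i := by
  classical
  have : logEmbedding K (Additive.ofMul ((ζ : (𝓞 K)ˣ) * ∏ j, fundSystem K j ^ v j)) =
      ∑ j, (v j : ℝ) • (unitBasis K) j := by
    rw [ofMul_mul, map_add, (logEmbedding_eq_zero_iff (K := K)).2 ζ.2, zero_add, ofMul_prod,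
      map_sum]
    refine Finset.sum_congr rfl fun j _ ↦ ?_
    rw [ofMul_zpow, map_zsmul, logEmbedding_fundSystem, Int.cast_smul_eq_zsmul]
    simp [unitBasis, Basis.ofZLatticeBasis_apply]
  rw [this, Basis.repr_sum_self]

/-- The partition of unity. -/
theorem hasSum_unitWeight_smul {x : mixedSpace K} (hx : mixedEmbedding.norm x ≠ 0) :
    HasSum (fun u : (𝓞 K)ˣ ↦ unitWeight K (u • x)) (torsionOrder K) := by
  classical
  let e : torsion K × (Fin (rank K) → ℤ) ≃ (𝓞 K)ˣ :=
    Equiv.ofBijective (fun ζv ↦ (ζv.1 : (𝓞 K)ˣ) * ∏ j, fundSystem K j ^ ζv.2 j)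
      ((Function.bijective_iff_existsUnique _).2 fun u ↦ by
        simpa [eq_comm] using exist_unique_eq_mul_prod K u)
  rw [← e.hasSum_iff]
  set t : Fin (rank K) → ℝ := fun i ↦ (unitBasis K).repr (logMap x) i
  have key : ∀ p, unitWeight K (e p • x) = ∏ i, hat (p.2 i + t i) := by
    rintro ⟨ζ, v⟩
    rw [unitWeight, norm_unit_smul, if_neg hx]
    refine Finset.prod_congr rfl fun i _ ↦ ?_
    rw [logMap_unit_smul _ hx, map_add, Finsupp.add_apply]
    congr 1
    rw [show t i = (unitBasis K).repr (logMap x) i from rfl]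
    exact congrArg (· + _) (logEmbedding_torsion_mul_prod ζ v i)
  have hs : Summable fun p : torsion K × (Fin (rank K) → ℤ) ↦ unitWeight K (e p • x) := by
    simp only [key]
    exact (summable_prod_of_nonneg fun p ↦ Finset.prod_nonneg fun i _ ↦ hat_nonneg _).2
      ⟨fun _ ↦ (hasSum_prod_hat t).summable, Summable.of_finite⟩
  have hfib : ∀ ζ : torsion K, HasSum (fun v ↦ unitWeight K (e (ζ, v) • x)) 1 := fun ζ ↦ by
    simpa only [key] using hasSum_prod_hat t
  have := hs.hasSum.prod_fiberwise hfib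
  have h2 : HasSum (fun _ : torsion K ↦ (1 : ℝ)) (torsionOrder K) := by
    have : Fintype (torsion K) := Fintype.ofFinite _
    convert! hasSum_fintype (fun _ : torsion K ↦ (1 : ℝ))
    simp only [torsionOrder, Finset.sum_const, Finset.card_univ, nsmul_eq_mul, mul_one]
    rw [← Nat.card_eq_fintype_card]
  have h3 := hs.hasSum
  rw [this.unique h2] at h3
  exact h3


/-- In the mixed space, nonvanishing norm means invertible. -/
theorem algebraNorm_ne_zero {x : mixedSpace K} (hx : mixedEmbedding.norm x ≠ 0) :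
    Algebra.norm ℝ x ≠ 0 := by
  rw [mixedEmbedding.norm_ne_zero_iff] at hx
  have h1 : ∀ w, x.1 w ≠ 0 := fun w h ↦ hx w.1 (by
    rw [normAtPlace_apply_of_isReal w.2, h, norm_zero])
  have h2 : ∀ w, x.2 w ≠ 0 := fun w h ↦ hx w.1 (by
    rw [normAtPlace_apply_of_isComplex w.2, h, norm_zero])
  have hu : IsUnit x := IsUnit.of_mul_eq_one (b := (fun w ↦ (x.1 w)⁻¹, fun w ↦ (x.2 w)⁻¹))
    (Prod.ext (funext fun w ↦ mul_inv_cancel₀ (h1 w)) (funext fun w ↦ mul_inv_cancel₀ (h2 w)))
  exact (hu.map (Algebra.norm ℝ)).ne_zero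

theorem continuous_algebraNorm : Continuous fun x : mixedSpace K ↦ Algebra.norm ℝ x := by
  classical
  simp_rw [Algebra.norm_eq_matrix_det (latticeBasis K)]
  refine Continuous.matrix_det ?_
  exact (Algebra.leftMulMatrix (latticeBasis K)).toLinearMap.continuous_of_finiteDimensional

theorem algebraNorm_sign_add {x δ : mixedSpace K}
    (h : ∀ t ∈ Set.Icc (0 : ℝ) 1, mixedEmbedding.norm (x + t • δ) ≠ 0) :
    Algebra.norm ℝ (x + δ) < 0 ↔ Algebra.norm ℝ x < 0 := by
  set f : ℝ → ℝ := fun t ↦ Algebra.norm ℝ (x + t • δ) with hf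
  have hc : ContinuousOn f (Set.Icc 0 1) :=
    (continuous_algebraNorm.comp (by fun_prop)).continuousOn
  have hne : ∀ t ∈ Set.Icc (0 : ℝ) 1, f t ≠ 0 := fun t ht ↦ algebraNorm_ne_zero (h t ht)
  have h0 : f 0 = Algebra.norm ℝ x := by simp [hf]
  have h1 : f 1 = Algebra.norm ℝ (x + δ) := by simp [hf]
  rw [← h0, ← h1]
  constructor
  · intro h1'
    by_contra h0'
    rw [not_lt] at h0'
    obtain ⟨t, ht, hz⟩ := intermediate_value_Icc' zero_le_one hc (show (0 : ℝ) ∈ Set.Icc (f 1) (f 0)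
      from ⟨h1'.le, h0'⟩)
    exact hne t ht hz
  · intro h0'
    by_contra h1'
    rw [not_lt] at h1'
    obtain ⟨t, ht, hz⟩ := intermediate_value_Icc zero_le_one hc (show (0 : ℝ) ∈ Set.Icc (f 0) (f 1)
      from ⟨h0'.le, h1'⟩)
    exact hne t ht hz

/-- On the support of the weight all places are comparable. -/
theorem exists_support_bound :
    ∃ a : ℝ, 0 < a ∧ a ≤ 1 ∧ ∀ x : mixedSpace K, unitWeight K x ≠ 0 →
      ∀ w, a * ‖x‖ ≤ normAtPlace w x := by
  classical
  set B : ℝ := ∑ i, ‖unitBasis K i‖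
  set B' : ℝ := (Fintype.card (InfinitePlace K) + 1) * B
  have hB : 0 ≤ B := Finset.sum_nonneg fun i _ ↦ norm_nonneg _
  have hB' : B ≤ B' := le_mul_of_one_le_left hB (by simp)
  refine ⟨Real.exp (-(2 * B')), Real.exp_pos _, Real.exp_le_one_iff.2 (by linarith),
    fun x hx w ↦ ?_⟩
  have hN : mixedEmbedding.norm x ≠ 0 := fun h ↦ hx (by simp [unitWeight, h])
  rw [unitWeight, if_neg hN] at hx
  have hc : ∀ i, |(unitBasis K).repr (logMap x) i| ≤ 1 := fun i ↦ by
    by_contra h
    exact hx (Finset.prod_eq_zero (Finset.mem_univ i) (hat_eq_zero (le_of_not_ge h)))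
  have hl : ‖logMap x‖ ≤ B := by
    conv_lhs => rw [← (unitBasis K).sum_repr (logMap x)]
    refine (norm_sum_le _ _).trans (Finset.sum_le_sum fun i _ ↦ ?_)
    rw [_root_.norm_smul, Real.norm_eq_abs]
    exact mul_le_of_le_one_left (norm_nonneg _) (hc i)
  have hne := mixedEmbedding.norm_ne_zero_iff.1 hN
  set d : ℝ := (finrank ℚ K : ℝ)
  have hd : d ≠ 0 := Nat.cast_ne_zero.2 finrank_pos.ne'
  set L := Real.log (mixedEmbedding.norm x) * d⁻¹
  set g : InfinitePlace K → ℝ := fun v ↦ mult v * (Real.log (normAtPlace v x) - L)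
  have hg1 : ∀ v, v ≠ w₀ → |g v| ≤ B := fun v hv ↦ by
    have := (norm_le_pi_norm (logMap x) ⟨v, hv⟩).trans hl
    simpa only [logMap_apply, Real.norm_eq_abs] using this
  have hsum : ∑ v, g v = 0 := by
    simp only [g, mul_sub, Finset.sum_sub_distrib, ← Finset.sum_mul]
    have hlog : Real.log (mixedEmbedding.norm x) = ∑ v, (mult v : ℝ) * Real.log (normAtPlace v x) := by
      rw [mixedEmbedding.norm_apply, Real.log_prod fun v _ ↦ pow_ne_zero _ (hne v)]
      simp [Real.log_pow]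
    rw [← Nat.cast_sum, sum_mult_eq, ← hlog]
    simp only [L]
    field_simp
    ring
  have hg : ∀ v, |g v| ≤ B' := fun v ↦ by
    rcases eq_or_ne v w₀ with rfl | hv
    · rw [← Finset.add_sum_erase _ g (Finset.mem_univ (w₀ : InfinitePlace K))] at hsum
      rw [show g (w₀ : InfinitePlace K) = -∑ u ∈ Finset.univ.erase w₀, g u by linarith, abs_neg]
      refine (Finset.abs_sum_le_sum_abs _ _).trans ((Finset.sum_le_card_nsmul _ _ B
        fun u hu ↦ hg1 u (Finset.ne_of_mem_erase hu)).trans ?_)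
      rw [nsmul_eq_mul]
      refine mul_le_mul_of_nonneg_right ?_ hB
      have := Finset.card_le_univ (Finset.univ.erase (w₀ : InfinitePlace K))
      have : ((Finset.univ.erase (w₀ : InfinitePlace K)).card : ℝ) ≤ Fintype.card (InfinitePlace K) :=
        Nat.cast_le.2 this
      linarith
    · exact (hg1 v hv).trans hB'
  have hlog : ∀ v, |Real.log (normAtPlace v x) - L| ≤ B' := fun v ↦ by
    refine le_trans ?_ (hg v)
    simp only [g, abs_mul, Nat.abs_cast]
    exact le_mul_of_one_le_left (abs_nonneg _) (by exact_mod_cast mult_pos)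
  obtain ⟨v, -, hv⟩ := Finset.exists_mem_eq_sup' Finset.univ_nonempty fun v ↦ normAtPlace v x
  rw [norm_eq_sup'_normAtPlace, hv, ← Real.exp_log ((normAtPlace_nonneg v x).lt_of_ne' (hne v)),
    ← Real.exp_add, ← Real.exp_log ((normAtPlace_nonneg w x).lt_of_ne' (hne w))]
  refine Real.exp_le_exp.2 ?_
  have h1 := abs_le.1 (hlog v)
  have h2 := abs_le.1 (hlog w)
  linarith

theorem normAtPlace_le_norm (w : InfinitePlace K) (x : mixedSpace K) : normAtPlace w x ≤ ‖x‖ := by
  classical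
  rw [norm_eq_sup'_normAtPlace]
  exact Finset.le_sup' (fun v ↦ normAtPlace v x) (Finset.mem_univ w)

theorem abs_log_sub_log_le {m p q : ℝ} (hm : 0 < m) (hp : m ≤ p) (hq : m ≤ q) :
    |Real.log p - Real.log q| ≤ |p - q| / m := by
  wlog h : q ≤ p generalizing p q
  · rw [abs_sub_comm, abs_sub_comm p]
    exact this hq hp (le_of_not_ge h)
  have hq0 : 0 < q := hm.trans_le hq
  rw [abs_of_nonneg (sub_nonneg.2 (Real.log_le_log hq0 h)), abs_of_nonneg (sub_nonneg.2 h),
    ← Real.log_div (hm.trans_le hp).ne' hq0.ne']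
  calc Real.log (p / q) ≤ p / q - 1 := Real.log_le_sub_one_of_pos (div_pos (hm.trans_le hp) hq0)
    _ = (p - q) / q := by field_simp
    _ ≤ (p - q) / m := div_le_div_of_nonneg_left (sub_nonneg.2 h) hm hq

/-- The mean value estimate for `exp`. -/
theorem abs_exp_sub_exp_le {u v U : ℝ} (hu : u ≤ U) (hv : v ≤ U) :
    |Real.exp u - Real.exp v| ≤ Real.exp U * |u - v| := by
  wlog h : v ≤ u generalizing u v
  · rw [abs_sub_comm, abs_sub_comm u]
    exact this hv hu (le_of_not_ge h)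
  rw [abs_of_nonneg (sub_nonneg.2 (Real.exp_le_exp.2 h)), abs_of_nonneg (sub_nonneg.2 h)]
  calc Real.exp u - Real.exp v = Real.exp u * (1 - Real.exp (v - u)) := by
        rw [mul_sub, mul_one, ← Real.exp_add]; ring_nf
    _ ≤ Real.exp U * (u - v) := by
        refine mul_le_mul (Real.exp_le_exp.2 hu) ?_ ?_ (Real.exp_pos _).le
        · linarith [Real.add_one_le_exp (v - u)]
        · linarith [Real.exp_le_one_iff.2 (sub_nonpos.2 h)]

theorem prod_le_abs_sub {ι : Type*} (s : Finset ι) (f g : ι → ℝ)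
    (hf : ∀ i, 0 ≤ f i ∧ f i ≤ 1) (hg : ∀ i, 0 ≤ g i ∧ g i ≤ 1) :
    |∏ i ∈ s, f i - ∏ i ∈ s, g i| ≤ ∑ i ∈ s, |f i - g i| := by
  classical
  induction s using Finset.induction_on with
  | empty => simp
  | insert i s hi ih =>
    rw [Finset.prod_insert hi, Finset.prod_insert hi, Finset.sum_insert hi]
    have h1 : |f i * ∏ j ∈ s, f j - g i * ∏ j ∈ s, g j| ≤
        |f i - g i| * ∏ j ∈ s, f j + g i * |∏ j ∈ s, f j - ∏ j ∈ s, g j| := by
      rw [show f i * ∏ j ∈ s, f j - g i * ∏ j ∈ s, g j =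
        (f i - g i) * ∏ j ∈ s, f j + g i * (∏ j ∈ s, f j - ∏ j ∈ s, g j) by ring]
      refine (abs_add_le _ _).trans (le_of_eq ?_)
      rw [abs_mul, abs_mul, abs_of_nonneg (Finset.prod_nonneg fun j _ ↦ (hf j).1),
        abs_of_nonneg (hg i).1]
    refine h1.trans (add_le_add ?_ ((mul_le_of_le_one_left (abs_nonneg _) (hg i).2).trans ih))
    exact mul_le_of_le_one_right (abs_nonneg _)
      (Finset.prod_le_one (fun j _ ↦ (hf j).1) fun j _ ↦ (hf j).2)

/-- All places `≥ m`. -/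
def PlacesGE (m : ℝ) (x : mixedSpace K) : Prop := ∀ w, m ≤ normAtPlace w x

variable {m : ℝ} {x y δ : mixedSpace K}

theorem PlacesGE.norm_pos (hm : 0 < m) (hx : PlacesGE m x) : 0 < mixedEmbedding.norm x :=
  (mixedEmbedding.norm_nonneg _).lt_of_ne'
    (mixedEmbedding.norm_ne_zero_iff.2 fun w ↦ (hm.trans_le (hx w)).ne')

theorem PlacesGE.pow_le_norm (hm : 0 < m) (hx : PlacesGE m x) :
    m ^ finrank ℚ K ≤ mixedEmbedding.norm x := by
  rw [mixedEmbedding.norm_apply, ← sum_mult_eq (K := K), ← Finset.prod_pow_eq_pow_sum]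
  exact Finset.prod_le_prod (fun w _ ↦ pow_nonneg hm.le _)
    fun w _ ↦ pow_le_pow_left₀ hm.le (hx w) _

theorem abs_log_normAtPlace_sub (hm : 0 < m) (hx : PlacesGE m x) (hy : PlacesGE m y)
    (w : InfinitePlace K) :
    |Real.log (normAtPlace w y) - Real.log (normAtPlace w x)| ≤ ‖y - x‖ / m := by
  refine (abs_log_sub_log_le hm (hy w) (hx w)).trans (div_le_div_of_nonneg_right ?_ hm.le)
  refine le_trans ?_ (normAtPlace_le_norm w (y - x))
  have h1 := normAtPlace_add_le w x (y - x)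
  have h2 := normAtPlace_add_le w y (-(y - x))
  rw [add_sub_cancel] at h1
  rw [normAtPlace_neg, show y + -(y - x) = x by abel] at h2
  exact abs_le.2 ⟨by linarith, by linarith⟩

theorem abs_log_norm_sub (hm : 0 < m) (hx : PlacesGE m x) (hy : PlacesGE m y) :
    |Real.log (mixedEmbedding.norm y) - Real.log (mixedEmbedding.norm x)| ≤
      finrank ℚ K * (‖y - x‖ / m) := by
  rw [mixedEmbedding.norm_apply, mixedEmbedding.norm_apply,
    Real.log_prod (fun w _ ↦ pow_ne_zero _ (hm.trans_le (hy w)).ne'),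
    Real.log_prod (fun w _ ↦ pow_ne_zero _ (hm.trans_le (hx w)).ne'),
    ← Finset.sum_sub_distrib, ← sum_mult_eq (K := K), Nat.cast_sum, Finset.sum_mul]
  refine (Finset.abs_sum_le_sum_abs _ _).trans (Finset.sum_le_sum fun w _ ↦ ?_)
  rw [Real.log_pow, Real.log_pow, ← mul_sub, abs_mul, Nat.abs_cast]
  exact mul_le_mul_of_nonneg_left (abs_log_normAtPlace_sub hm hx hy w) (Nat.cast_nonneg _)

theorem norm_logMap_sub (hm : 0 < m) (hx : PlacesGE m x) (hy : PlacesGE m y) :
    ‖logMap y - logMap x‖ ≤ 4 * (finrank ℚ K + 1) * (‖y - x‖ / m) := by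
  set r : ℝ := ‖y - x‖ / m
  have hr : 0 ≤ r := by positivity
  refine (pi_norm_le_iff_of_nonneg (by positivity)).2 fun w ↦ ?_
  rw [Pi.sub_apply, Real.norm_eq_abs, logMap_apply, logMap_apply, ← mul_sub, abs_mul,
    Nat.abs_cast, sub_sub_sub_comm, ← sub_mul]
  have hmult : (mult w.1 : ℝ) ≤ 2 := by
    have : mult w.1 ≤ 2 := by unfold mult; split_ifs <;> norm_num
    exact_mod_cast this
  have hde : |(Real.log (mixedEmbedding.norm y) - Real.log (mixedEmbedding.norm x)) *
      (finrank ℚ K : ℝ)⁻¹| ≤ finrank ℚ K * r := by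
    rw [abs_mul, abs_inv, Nat.abs_cast]
    refine (mul_le_of_le_one_right (abs_nonneg _) ?_).trans (abs_log_norm_sub hm hx hy)
    exact inv_le_one_of_one_le₀ (Nat.one_le_cast.2 finrank_pos)
  calc _ ≤ 2 * (r + finrank ℚ K * r) :=
        mul_le_mul hmult ((abs_sub _ _).trans (add_le_add (abs_log_normAtPlace_sub hm hx hy _) hde))
          (abs_nonneg _) two_pos.le
    _ ≤ _ := by nlinarith

theorem exists_unitWeight_sub_le :
    ∃ W : ℝ, 0 ≤ W ∧ ∀ (m : ℝ) (x y : mixedSpace K), 0 < m → PlacesGE m x → PlacesGE m y →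
      |unitWeight K y - unitWeight K x| ≤ W * (‖y - x‖ / m) := by
  set c : logSpace K →ₗ[ℝ] (Fin (rank K) → ℝ) := (unitBasis K).equivFun.toLinearMap with hc
  obtain ⟨M, hM0, hM⟩ : ∃ M : ℝ, 0 ≤ M ∧ ∀ v, ‖c v‖ ≤ M * ‖v‖ :=
    ⟨‖c.toContinuousLinearMap‖, norm_nonneg _, fun v ↦ c.toContinuousLinearMap.le_opNorm v⟩
  refine ⟨Fintype.card (Fin (rank K)) * (M * (4 * (finrank ℚ K + 1))), by positivity,
    fun m x y hm hx hy ↦ ?_⟩
  rw [unitWeight, unitWeight, if_neg (hy.norm_pos hm).ne', if_neg (hx.norm_pos hm).ne']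
  refine (prod_le_abs_sub _ _ _ (fun i ↦ ⟨hat_nonneg _, hat_le_one _⟩)
    fun i ↦ ⟨hat_nonneg _, hat_le_one _⟩).trans ?_
  refine (Finset.sum_le_card_nsmul _ _ (M * (4 * (finrank ℚ K + 1)) * (‖y - x‖ / m))
    fun i _ ↦ ?_).trans (le_of_eq ?_)
  · refine (abs_hat_sub_le _ _).trans ?_
    have := (norm_le_pi_norm (c (logMap y - logMap x)) i).trans ((hM _).trans
      (mul_le_mul_of_nonneg_left (norm_logMap_sub hm hx hy) hM0))
    simpa [hc, mul_assoc] using this
  · rw [nsmul_eq_mul, Finset.card_univ]; ring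

theorem norm_rpow_neg_le (hm : 0 < m) (hx : PlacesGE m x) {P X : ℝ} {s : ℝ}
    (hmP : m ^ finrank ℚ K = P * X) (hP : 0 < P) (hP1 : P ≤ 1) (hX : 1 ≤ X)
    (hs : s ∈ Set.Icc (1 : ℝ) 2) :
    mixedEmbedding.norm x ^ (-s) ≤ P⁻¹ ^ 2 * X⁻¹ := by
  refine (Real.rpow_le_rpow_of_nonpos (pow_pos hm _) (hx.pow_le_norm hm)
    (by linarith [hs.1])).trans ?_
  rw [hmP, Real.mul_rpow hP.le (by linarith)]
  refine mul_le_mul ?_ ?_ (by positivity) (by positivity)
  · calc P ^ (-s) ≤ P ^ (-(2 : ℝ)) :=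
          Real.rpow_le_rpow_of_exponent_ge hP hP1 (by linarith [hs.2])
      _ = P⁻¹ ^ 2 := by
          rw [Real.rpow_neg hP.le, show (2 : ℝ) = ((2 : ℕ) : ℝ) by norm_num, Real.rpow_natCast,
            inv_pow]
  · calc X ^ (-s) ≤ X ^ (-(1 : ℝ)) :=
          Real.rpow_le_rpow_of_exponent_le hX (by linarith [hs.1])
      _ = X⁻¹ := Real.rpow_neg_one _

theorem abs_norm_rpow_sub_le (hm : 0 < m) (hx : PlacesGE m x) (hy : PlacesGE m y) {U s : ℝ}
    (hUx : mixedEmbedding.norm x ^ (-s) ≤ U) (hUy : mixedEmbedding.norm y ^ (-s) ≤ U)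
    (hs : s ∈ Set.Icc (1 : ℝ) 2) :
    |mixedEmbedding.norm y ^ (-s) - mixedEmbedding.norm x ^ (-s)| ≤
      U * (2 * finrank ℚ K * (‖y - x‖ / m)) := by
  have hNx := hx.norm_pos hm
  have hNy := hy.norm_pos hm
  have hU : 0 ≤ U := le_trans (Real.rpow_nonneg hNx.le _) hUx
  rw [Real.rpow_def_of_pos hNy] at hUy ⊢
  rw [Real.rpow_def_of_pos hNx] at hUx ⊢
  refine (abs_exp_sub_exp_le (le_max_left _ _) (le_max_right _ _)).trans
    (mul_le_mul ?_ ?_ (abs_nonneg _) hU)
  · rcases max_choice (Real.log (mixedEmbedding.norm y) * -s)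
      (Real.log (mixedEmbedding.norm x) * -s) with h | h <;> rw [h] <;> assumption
  · rw [← sub_mul, abs_mul, abs_neg, abs_of_nonneg (show (0:ℝ) ≤ s by linarith [hs.1])]
    calc _ ≤ finrank ℚ K * (‖y - x‖ / m) * 2 :=
          mul_le_mul (abs_log_norm_sub hm hx hy) hs.2 (by linarith [hs.1]) (by positivity)
      _ = _ := by ring

theorem placesGE_segment {a : ℝ} (ha : 0 < a) (ha1 : a ≤ 1)
    (hsupp : ∀ z : mixedSpace K, unitWeight K z ≠ 0 → ∀ w, a * ‖z‖ ≤ normAtPlace w z)
    (hδ : ‖δ‖ ≤ a / 4 * ‖x‖) (hW : ¬(unitWeight K x = 0 ∧ unitWeight K (x + δ) = 0))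
    {t : ℝ} (ht : t ∈ Set.Icc (0 : ℝ) 1) : PlacesGE (a / 4 * ‖x‖) (x + t • δ) := by
  intro w
  have h4 := normAtPlace_le_norm w δ
  have hlow : a / 2 * ‖x‖ ≤ normAtPlace w x := by
    by_cases h : unitWeight K x = 0
    · have h1 := hsupp _ (fun h' ↦ hW ⟨h, h'⟩) w
      have h2 : ‖x‖ ≤ ‖x + δ‖ + ‖δ‖ := by simpa using norm_sub_le (x + δ) δ
      have h3 := normAtPlace_add_le w x δ
      have h5 := mul_le_mul_of_nonneg_left h2 ha.le
      have h6 := mul_le_of_le_one_left (norm_nonneg δ) ha1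
      linarith
    · have := hsupp x h w
      have : 0 ≤ a * ‖x‖ := mul_nonneg ha.le (norm_nonneg x)
      linarith
  have h2 := normAtPlace_add_le w (x + t • δ) (-(t • δ))
  rw [add_neg_cancel_right, normAtPlace_neg, normAtPlace_smul, abs_of_nonneg ht.1] at h2
  have h3 := mul_le_of_le_one_left (normAtPlace_nonneg w δ) ht.2
  linarith

/-- The mean value estimate for the summand. -/
theorem exists_term_sub_le {e : ℂ} (he : ‖e‖ ≤ 1) :
    ∃ C R : ℝ, 0 ≤ C ∧ 1 ≤ R ∧ ∀ x δ : mixedSpace K, R ≤ ‖x‖ → R * ‖δ‖ ≤ ‖x‖ →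
      ∀ s ∈ Set.Icc (1 : ℝ) 2,
        ‖term K e (x + δ) s - term K e x s‖ ≤ C * ‖δ‖ * (‖x‖ ^ (finrank ℚ K + 1))⁻¹ := by
  obtain ⟨a, ha, ha1, hsupp⟩ := exists_support_bound (K := K)
  obtain ⟨W, hW0, hWb⟩ := exists_unitWeight_sub_le (K := K)
  set P : ℝ := (a / 4) ^ finrank ℚ K with hPdef
  have hP : 0 < P := by positivity
  have hP1 : P ≤ 1 := pow_le_one₀ (by positivity) (by linarith)
  set C1 : ℝ := W + 2 * finrank ℚ K
  refine ⟨P⁻¹ ^ 2 * C1 * (4 / a), 4 / a, by positivity, by rw [le_div_iff₀ ha]; linarith,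
    fun x δ hxR hδ s hs ↦ ?_⟩
  have hx0 : 0 < ‖x‖ := lt_of_lt_of_le (by positivity) hxR
  have hδ' : ‖δ‖ ≤ a / 4 * ‖x‖ := by
    rw [div_mul_eq_mul_div, div_le_iff₀ ha] at hδ
    linarith
  by_cases hW : unitWeight K x = 0 ∧ unitWeight K (x + δ) = 0
  · simp only [term, hW.1, hW.2, zero_mul, Complex.ofReal_zero, mul_zero, sub_self, norm_zero]
    positivity
  have hm : 0 < a / 4 * ‖x‖ := by positivity
  have hseg := fun t ht ↦ placesGE_segment ha ha1 hsupp hδ' hW (t := t) ht
  have hsign := algebraNorm_sign_add fun t ht ↦ ((hseg t ht).norm_pos hm).ne'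
  have hgx : PlacesGE (a / 4 * ‖x‖) x := by simpa using hseg 0 (by simp)
  have hgy : PlacesGE (a / 4 * ‖x‖) (x + δ) := by simpa using hseg 1 (by simp)
  have hd : ‖(x + δ) - x‖ = ‖δ‖ := by simp
  set X : ℝ := ‖x‖ ^ finrank ℚ K with hXdef
  have hX : 1 ≤ X := one_le_pow₀ (le_trans (by rw [le_div_iff₀ ha]; linarith) hxR)
  have hmP : (a / 4 * ‖x‖) ^ finrank ℚ K = P * X := mul_pow _ _ _
  have hUx := norm_rpow_neg_le hm hgx hmP hP hP1 hX hs
  have hUy := norm_rpow_neg_le hm hgy hmP hP hP1 hX hs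
  have hWd := hWb _ x _ hm hgx hgy
  have hpow := abs_norm_rpow_sub_le hm hgx hgy hUx hUy hs
  rw [hd] at hWd hpow
  set U := P⁻¹ ^ 2 * X⁻¹ with hU
  set r := ‖δ‖ / (a / 4 * ‖x‖) with hr
  rw [term, term]
  simp only [hsign, ← mul_sub, ← Complex.ofReal_sub, norm_mul, Complex.norm_real, Real.norm_eq_abs]
  calc _ ≤ 1 * |unitWeight K (x + δ) * mixedEmbedding.norm (x + δ) ^ (-s) -
        unitWeight K x * mixedEmbedding.norm x ^ (-s)| := by
        refine mul_le_mul_of_nonneg_right ?_ (abs_nonneg _)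
        split_ifs <;> simp [he]
    _ ≤ |unitWeight K (x + δ) - unitWeight K x| * mixedEmbedding.norm (x + δ) ^ (-s) +
        unitWeight K x * |mixedEmbedding.norm (x + δ) ^ (-s) - mixedEmbedding.norm x ^ (-s)| := by
        rw [one_mul, show unitWeight K (x + δ) * mixedEmbedding.norm (x + δ) ^ (-s) -
          unitWeight K x * mixedEmbedding.norm x ^ (-s) =
          (unitWeight K (x + δ) - unitWeight K x) * mixedEmbedding.norm (x + δ) ^ (-s) +
          unitWeight K x * (mixedEmbedding.norm (x + δ) ^ (-s) - mixedEmbedding.norm x ^ (-s)) by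
          ring]
        refine (abs_add_le _ _).trans (le_of_eq ?_)
        rw [abs_mul, abs_mul, abs_of_pos (Real.rpow_pos_of_pos (hgy.norm_pos hm) _),
          abs_of_nonneg (unitWeight_nonneg x)]
    _ ≤ W * r * U + 1 * (U * (2 * finrank ℚ K * r)) := by
        refine add_le_add
          (mul_le_mul hWd hUy (Real.rpow_nonneg (mixedEmbedding.norm_nonneg _) _) (by positivity))
          (mul_le_mul (unitWeight_le_one x) hpow (abs_nonneg _) zero_le_one)
    _ = _ := by
        rw [hU, hr, hXdef, pow_succ ‖x‖]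
        simp only [C1]
        field_simp

theorem norm_term_le {e : ℂ} (he : ‖e‖ ≤ 1) :
    ∃ a : ℝ, 0 < a ∧ ∀ (x : mixedSpace K) (s : ℝ), 0 ≤ s →
      ‖term K e x s‖ ≤ a ^ (-(finrank ℚ K * s)) * ‖x‖ ^ (-(finrank ℚ K * s)) := by
  classical
  obtain ⟨a, ha, -, hsupp⟩ := exists_support_bound (K := K)
  refine ⟨a, ha, fun x s hs ↦ ?_⟩
  rcases eq_or_ne (unitWeight K x) 0 with h | h
  · simp only [term, h, zero_mul, Complex.ofReal_zero, mul_zero, norm_zero]
    exact mul_nonneg (Real.rpow_nonneg ha.le _) (Real.rpow_nonneg (norm_nonneg x) _)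
  have hN : mixedEmbedding.norm x ≠ 0 := fun h' ↦ h (by simp [unitWeight, h'])
  have hx : 0 < ‖x‖ := by
    refine norm_pos_iff.2 fun h' ↦ hN ?_
    rw [h', map_zero]
  have hlow : (a * ‖x‖) ^ finrank ℚ K ≤ mixedEmbedding.norm x := by
    rw [mixedEmbedding.norm_apply, ← sum_mult_eq (K := K), ← Finset.prod_pow_eq_pow_sum]
    exact Finset.prod_le_prod (fun w _ ↦ by positivity)
      fun w _ ↦ pow_le_pow_left₀ (by positivity) (hsupp x h w) _
  rw [term, norm_mul, Complex.norm_real, norm_mul, Real.norm_of_nonneg (unitWeight_nonneg x),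
    Real.norm_of_nonneg (Real.rpow_nonneg (mixedEmbedding.norm_nonneg _) _),
    ← Real.mul_rpow ha.le hx.le]
  calc _ ≤ 1 * (1 * mixedEmbedding.norm x ^ (-s)) := by
        have hp := Real.rpow_nonneg (mixedEmbedding.norm_nonneg x) (-s)
        refine mul_le_mul ?_ (mul_le_mul_of_nonneg_right (unitWeight_le_one x) hp)
          (mul_nonneg (unitWeight_nonneg x) hp) zero_le_one
        split_ifs <;> simp [he]
    _ ≤ _ := by
        rw [one_mul, one_mul, neg_mul_eq_mul_neg, Real.rpow_mul (by positivity), Real.rpow_natCast]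
        exact Real.rpow_le_rpow_of_nonpos (by positivity) hlow (by linarith)

theorem continuous_term (e : ℂ) (x : mixedSpace K) : Continuous fun s : ℝ ↦ term K e x s := by
  classical
  rcases eq_or_ne (mixedEmbedding.norm x) 0 with h | h
  · simp only [term, unitWeight, h, if_true, zero_mul, Complex.ofReal_zero, mul_zero]
    exact continuous_const
  · unfold term
    exact continuous_const.mul (Complex.continuous_ofReal.comp
      (continuous_const.mul ((Real.continuous_const_rpow h).comp continuous_neg)))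

/-- The point `g y + r`. -/
def latticePoint (g : ℕ) (r : mixedSpace K) (y : 𝓞 K) : mixedSpace K :=
  (g : ℝ) • mixedEmbedding K (y : K) + r

theorem summable_norm_latticePoint_rpow {g : ℕ} (hg : g ≠ 0) (r : mixedSpace K) {t : ℝ}
    (ht : t < -(finrank ℚ K : ℝ)) : Summable fun y : 𝓞 K ↦ ‖latticePoint g r y‖ ^ t := by
  classical
  have hrk : Module.finrank ℤ (mixedEmbedding.integerLattice K) = finrank ℚ K := by
    rw [ZLattice.rank ℝ, mixedEmbedding.finrank]
  let emb : 𝓞 K → mixedEmbedding.integerLattice K := fun y ↦ ⟨mixedEmbedding K (y : K), y, rfl⟩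
  have hinj : Function.Injective emb := fun y z h ↦
    RingOfIntegers.ext (mixedEmbedding_injective K (congrArg Subtype.val h))
  have := ((ZLattice.summable_norm_sub_rpow (mixedEmbedding.integerLattice K) t
    (by rw [hrk]; exact ht) ((-(g : ℝ)⁻¹) • r)).mul_left ((g : ℝ) ^ t)).comp_injective hinj
  refine this.congr fun y ↦ ?_
  simp only [Function.comp_apply, emb]
  rw [← Real.mul_rpow (Nat.cast_nonneg _) (norm_nonneg _)]
  congr 1
  calc (g : ℝ) * ‖mixedEmbedding K (y : K) - (-(g : ℝ)⁻¹) • r‖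
      = ‖(g : ℝ)‖ * ‖mixedEmbedding K (y : K) - (-(g : ℝ)⁻¹) • r‖ := by rw [Real.norm_natCast]
    _ = ‖(g : ℝ) • (mixedEmbedding K (y : K) - (-(g : ℝ)⁻¹) • r)‖ := (_root_.norm_smul _ _).symm
    _ = ‖latticePoint g r y‖ := by
        rw [latticePoint, smul_sub, smul_smul, mul_neg, mul_inv_cancel₀ (Nat.cast_ne_zero.2 hg)]
        simp

theorem finite_norm_latticePoint_lt {g : ℕ} (hg : g ≠ 0) (r : mixedSpace K) (B : ℝ) :
    {y : 𝓞 K | ‖latticePoint g r y‖ < B}.Finite := by
  classical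
  rcases le_or_gt B 0 with hB | hB
  · simp only [show ∀ y, ¬ ‖latticePoint g r y‖ < B from fun y h ↦
      absurd (norm_nonneg (latticePoint g r y)) (by linarith), Set.ofPred_false, Set.finite_empty]
  have ht : -((finrank ℚ K : ℝ) + 1) < -(finrank ℚ K : ℝ) := by linarith
  have h0 : {y : 𝓞 K | latticePoint g r y = 0}.Finite := by
    refine Set.Subsingleton.finite fun y (hy : _ = 0) z (hz : _ = 0) ↦ ?_
    have := hy.trans hz.symm
    simp only [latticePoint, add_left_inj] at this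
    exact RingOfIntegers.ext (mixedEmbedding_injective K
      (smul_right_injective _ (Nat.cast_ne_zero.2 hg) this))
  have hev := (summable_norm_latticePoint_rpow (K := K) hg r ht).tendsto_cofinite_zero.eventually
    (gt_mem_nhds (Real.rpow_pos_of_pos hB (-((finrank ℚ K : ℝ) + 1))))
  refine (h0.union (Filter.eventually_cofinite.1 hev)).subset fun y hy ↦ ?_
  rcases eq_or_ne (latticePoint g r y) 0 with h | h
  · exact Or.inl h
  · refine Or.inr (not_lt.2 ?_)
    exact Real.rpow_le_rpow_of_nonpos (norm_pos_iff.2 h) (le_of_lt hy) (by positivity |> fun h' ↦ neg_nonpos.2 h')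

/-- Absolute convergence for `s > 1`. -/
theorem summable_term {e : ℂ} (he : ‖e‖ ≤ 1) {g : ℕ} (hg : g ≠ 0) (r : mixedSpace K) {s : ℝ}
    (hs : 1 < s) : Summable fun y : 𝓞 K ↦ term K e (latticePoint g r y) s := by
  obtain ⟨a, -, hb⟩ := norm_term_le (K := K) he
  refine Summable.of_norm_bounded ((summable_norm_latticePoint_rpow hg r ?_).mul_left _)
    fun y ↦ hb _ s (by linarith)
  have : (0 : ℝ) < finrank ℚ K := Nat.cast_pos.2 finrank_pos
  nlinarith

/-- Two translates give sums differing by a function continuous up to `s = 1`. -/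
theorem continuousOn_tsum_term_sub {e : ℂ} (he : ‖e‖ ≤ 1) {g : ℕ} (hg : g ≠ 0)
    (r r' : mixedSpace K) :
    ContinuousOn (fun s : ℝ ↦ ∑' y : 𝓞 K,
      (term K e (latticePoint g r y) s - term K e (latticePoint g r' y) s)) (Set.Icc 1 2) := by
  classical
  obtain ⟨C, R, hC, hR, hCR⟩ := exists_term_sub_le (K := K) he
  set B : ℝ := R + R * ‖r' - r‖
  have hfin := finite_norm_latticePoint_lt (K := K) hg r B
  have hcont : ∀ y, ContinuousOn (fun s : ℝ ↦
      term K e (latticePoint g r y) s - term K e (latticePoint g r' y) s) (Set.Icc 1 2) :=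
    fun y ↦ ((continuous_term e _).sub (continuous_term e _)).continuousOn
  choose K0 hK0 using fun y ↦
    (isCompact_Icc (a := (1 : ℝ)) (b := 2)).exists_bound_of_continuousOn (hcont y)
  refine continuousOn_tsum hcont (u := fun y ↦ if y ∈ hfin.toFinset then K0 y
    else C * ‖r' - r‖ * ‖latticePoint g r y‖ ^ (-((finrank ℚ K : ℝ) + 1))) ?_ fun y s hs ↦ ?_
  · refine (Summable.congr_cofinite
      ((summable_norm_latticePoint_rpow hg r (t := -((finrank ℚ K : ℝ) + 1))
        (by linarith)).mul_left (C * ‖r' - r‖)) ?_)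
    filter_upwards [hfin.toFinset.finite_toSet.eventually_cofinite_notMem] with y hy
    rw [Finset.mem_coe] at hy
    rw [if_neg hy]
  · split_ifs with hy
    · exact hK0 y s hs
    · rw [Set.Finite.mem_toFinset, Set.mem_ofPred_eq, not_lt] at hy
      have hR0 : 0 ≤ R * ‖r' - r‖ := by positivity
      have := hCR _ (r' - r) (le_trans (le_add_of_nonneg_right hR0) hy)
        (le_trans (le_add_of_nonneg_left (by linarith)) hy) s hs
      rw [show latticePoint g r y + (r' - r) = latticePoint g r' y by simp [latticePoint]] at this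
      rw [norm_sub_rev]
      refine this.trans (le_of_eq ?_)
      rw [Real.rpow_neg (norm_nonneg _), show ((finrank ℚ K : ℝ) + 1) = ((finrank ℚ K + 1 : ℕ) : ℝ)
        by push_cast; ring, Real.rpow_natCast]

end Fermat.Agent.DS
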