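import Fermat.Agent.DS.Defs
import Mathlib.RingTheory.Jacobson.Ring
import Mathlib.FieldTheory.IsAlgClosed.Basic
import Mathlib.RingTheory.Localization.FractionRing
import Mathlib.Analysis.Complex.Polynomial.Basic
import Mathlib.RingTheory.Ideal.Maximal

/-!
# Lifting to characteristic zero a representation given in infinitely many characteristics
-/

set_option autoImplicit false
set_option synthInstance.maxHeartbeats 80000

noncomputable section

namespace Fermat.Agent.DS

open Matrix

/-- A nonzero algebraic integer dies in only finitely many residue characteristics. -/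
theorem finite_ker_char {J : Type*} (l : J → ℕ) (hl : Function.Injective l) (k : J → Type*)
    [∀ j, Field (k j)] [∀ j, CharP (k j) (l j)] (φ : ∀ j, integralClosure ℤ ℂ →+* k j)
    {x : integralClosure ℤ ℂ} (hx : x ≠ 0) : {j | φ j x = 0}.Finite := by
  obtain ⟨c, hc⟩ : ∃ c : ℤ, c ≠ 0 ∧ ∀ j, φ j x = 0 → ((c : ℤ) : k j) = 0 := by
    have hint : IsIntegral ℤ x := (isIntegral_algHom_iff (integralClosure ℤ ℂ).val
      Subtype.val_injective).1 x.2
    obtain ⟨c, hc, y, hy⟩ := hint.isAlgebraic.exists_nonzero_dvd (mem_nonZeroDivisors_of_ne_zero hx)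
    refine ⟨c, hc, fun j hj ↦ ?_⟩
    have h := congrArg (φ j) hy
    rw [map_mul, hj, zero_mul] at h
    simpa using h
  refine (((Finset.range (c.natAbs + 1)).finite_toSet).preimage hl.injOn).subset fun j hj ↦ ?_
  have : (l j : ℤ) ∣ c := (CharP.intCast_eq_zero_iff (k j) (l j) c).1 (hc.2 j hj)
  rw [Set.mem_preimage, Finset.mem_coe, Finset.mem_range]
  have := Nat.le_of_dvd (Int.natAbs_pos.2 hc.1) (Int.natCast_dvd.1 this)
  omega

/-- If a finite group has two-dimensional representations in infinitely many characteristics with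
the same algebraic traces and determinants, it has one over `ℂ`. -/
theorem exists_lift {J : Type} [Infinite J] (l : J → ℕ) (hl : Function.Injective l)
    (k : J → Type) [∀ j, Field (k j)] [∀ j, CharP (k j) (l j)]
    (φ : ∀ j, integralClosure ℤ ℂ →+* k j) {G : Type} [Group G] [Finite G]
    (R : ∀ j, G →* GL (Fin 2) (k j)) (t d : G → integralClosure ℤ ℂ)
    (ht : ∀ j g, ((R j g : GL (Fin 2) (k j)) : Matrix (Fin 2) (Fin 2) (k j)).trace = φ j (t g))
    (hd : ∀ j g, ((R j g : GL (Fin 2) (k j)) : Matrix (Fin 2) (Fin 2) (k j)).det = φ j (d g)) :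
    ∃ r : G →* GL (Fin 2) ℂ, ∀ g,
      ((r g : GL (Fin 2) ℂ) : Matrix (Fin 2) (Fin 2) ℂ).trace = (t g : ℂ) ∧
      ((r g : GL (Fin 2) ℂ) : Matrix (Fin 2) (Fin 2) ℂ).det = (d g : ℂ) := by
  classical
  let O := integralClosure ℤ ℂ
  -- almost all components
  let I : Ideal (∀ j, k j) :=
    { carrier := {x | {j | x j ≠ 0}.Finite}
      add_mem' := fun {x y} hx hy ↦ (hx.union hy).subset fun j (hj : x j + y j ≠ 0) ↦ by
        by_contra h
        simp only [Set.mem_union, Set.mem_ofPred_eq, not_or, not_not] at h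
        exact hj (by rw [h.1, h.2, add_zero])
      zero_mem' := by simp
      smul_mem' := fun c x hx ↦ hx.subset fun j (hj : c j * x j ≠ 0) ↦ right_ne_zero_of_mul hj }
  have hI : I ≠ ⊤ := fun h ↦ by
    have h1 : (1 : ∀ j, k j) ∈ I := h ▸ Submodule.mem_top
    exact Set.infinite_univ (Set.Finite.subset h1 fun j _ ↦ one_ne_zero)
  obtain ⟨m, hm, hIm⟩ := I.exists_le_maximal hI
  let K := (∀ j, k j) ⧸ m
  let : Field K := Ideal.Quotient.field m
  let q : (∀ j, k j) →+* K := Ideal.Quotient.mk m
  let ψ : O →+* K := q.comp (RingHom.pi φ)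
  have hψ : Function.Injective ψ := by
    rw [injective_iff_map_eq_zero]
    intro x hx
    by_contra hx0
    have hfin := finite_ker_char l hl k φ hx0
    let y : ∀ j, k j := fun j ↦ (φ j x)⁻¹
    have h1 : 1 - y * RingHom.pi φ x ∈ I := hfin.subset fun j hj ↦ by
      by_contra h
      exact hj (by simp [y, inv_mul_cancel₀ (show φ j x ≠ 0 from h)])
    have h2 : q (1 - y * RingHom.pi φ x) = 0 := Ideal.Quotient.eq_zero_iff_mem.2 (hIm h1)
    rw [map_sub, map_one, map_mul, show q (RingHom.pi φ x) = 0 from hx, mul_zero, sub_zero] at h2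
    exact one_ne_zero h2
  let F := FractionRing O
  let : Algebra F K := (IsFractionRing.lift (K := F) hψ).toAlgebra
  let : Algebra F ℂ :=
    (IsFractionRing.lift (K := F) (g := (O.val : O →+* ℂ)) Subtype.val_injective).toAlgebra
  have hFK : ∀ x : O, algebraMap F K (algebraMap O F x) = ψ x := fun x ↦
    IsFractionRing.lift_algebraMap hψ x
  have hFC : ∀ x : O, algebraMap F ℂ (algebraMap O F x) = (x : ℂ) := fun x ↦
    IsFractionRing.lift_algebraMap _ x
  let M : G → Matrix (Fin 2) (Fin 2) K := fun g ↦ Matrix.of fun i i' ↦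
    q fun j ↦ ((R j g : GL (Fin 2) (k j)) : Matrix (Fin 2) (Fin 2) (k j)) i i'
  have hM1 : M 1 = 1 := by
    ext i i'
    by_cases h : i = i' <;> simp [M, h, ← Pi.one_def, ← Pi.zero_def, Matrix.one_apply]
  have hMmul : ∀ g g', M (g * g') = M g * M g' := fun g g' ↦ by
    ext i i'
    simp only [M, Matrix.of_apply, Matrix.mul_apply, ← map_mul, ← map_sum]
    congr 1
    funext j
    simp [Matrix.mul_apply]
  let A : Subalgebra F K := Algebra.adjoin F (Set.range fun p : G × Fin 2 × Fin 2 ↦ M p.1 p.2.1 p.2.2)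
  have hft : Algebra.FiniteType F A :=
    (Subalgebra.fg_iff_finiteType A).1 (Subalgebra.fg_def.2 ⟨_, Set.finite_range _, rfl⟩)
  obtain ⟨n, hn⟩ := Ideal.exists_maximal A
  let : Field (A ⧸ n) := Ideal.Quotient.field n
  have : Algebra.FiniteType F (A ⧸ n) :=
    hft.of_surjective (Ideal.Quotient.mkₐ F n) (Ideal.Quotient.mkₐ_surjective F n)
  have : Module.Finite F (A ⧸ n) := finite_of_finite_type_of_isJacobsonRing F (A ⧸ n)
  have : Algebra.IsAlgebraic F (A ⧸ n) := Algebra.IsAlgebraic.of_finite F (A ⧸ n)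
  let θ : A →ₐ[F] ℂ := (IsAlgClosed.lift (R := F) (S := A ⧸ n) (M := ℂ)).comp (Ideal.Quotient.mkₐ F n)
  let MA : G → Matrix (Fin 2) (Fin 2) A := fun g ↦ Matrix.of fun i i' ↦
    ⟨M g i i', Algebra.subset_adjoin ⟨(g, i, i'), rfl⟩⟩
  let r₀ : G →* Matrix (Fin 2) (Fin 2) ℂ :=
    { toFun := fun g ↦ (MA g).map θ
      map_one' := by
        have h : MA 1 = 1 := by
          ext i i' : 2
          show M 1 i i' = _
          rw [hM1]
          by_cases h : i = i' <;> simp [h, Matrix.one_apply]
        rw [h, Matrix.map_one _ (map_zero θ) (map_one θ)]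
      map_mul' := fun g g' ↦ by
        have h : MA (g * g') = MA g * MA g' := by
          ext i i' : 2
          show M (g * g') i i' = _
          rw [hMmul]
          simp [Matrix.mul_apply, MA]
        rw [h, Matrix.map_mul] }
  refine ⟨r₀.toHomUnits, fun g ↦ ?_⟩
  show ((MA g).map θ).trace = _ ∧ ((MA g).map θ).det = _
  simp only [trace_fin_two, det_fin_two, Matrix.map_apply, ← map_add, ← map_mul, ← map_sub]
  have key : ∀ (a : A) (x : O), (a : K) = ψ x → θ a = (x : ℂ) := fun a x h ↦ by
    rw [show a = algebraMap F A (algebraMap O F x) from Subtype.ext (h.trans (hFK x).symm),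
      θ.commutes, hFC]
  constructor
  · refine key _ _ ?_
    show M g 0 0 + M g 1 1 = _
    simp only [M, Matrix.of_apply, ← map_add]
    exact congrArg q (funext fun j ↦ (trace_fin_two _).symm.trans (ht j g))
  · refine key _ _ ?_
    show M g 0 0 * M g 1 1 - M g 0 1 * M g 1 0 = _
    simp only [M, Matrix.of_apply, ← map_mul, ← map_sub]
    exact congrArg q (funext fun j ↦ (det_fin_two _).symm.trans (hd j g))

end Fermat.Agent.DS
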