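import Fermat.Agent.DS.Conj
import Fermat.Agent.DS.AutC
import Fermat.Prelude.Thm_ModularForm_sturm_bound_of_isArithmetic
import Mathlib.RingTheory.PowerSeries.Ideal
import Mathlib.RingTheory.LaurentSeries
import Mathlib.RingTheory.Polynomial.RationalRoot
import Mathlib.RingTheory.Localization.FractionRing

/-!
# Bounded denominators and integral bases of forms on `Γ₁(N)`
-/

set_option autoImplicit false

noncomputable section

namespace Fermat.Agent.DS

open UpperHalfPlane hiding I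
open ModularForm CongruenceSubgroup Finset
open scoped MatrixGroups

variable {N : ℕ}

/-- `z` is integral. -/
def IsIntNum (z : ℂ) : Prop := ∃ m : ℤ, z = m

/-- Some positive multiple of `s` has integral coefficients. -/
def BoundedDen (s : PowerSeries ℂ) : Prop :=
  ∃ D : ℕ, D ≠ 0 ∧ (D : ℂ) • s ∈ intSeries

theorem natCast_smul_mem_intSeries {s : PowerSeries ℂ} (hs : s ∈ intSeries) (D : ℕ) :
    (D : ℂ) • s ∈ intSeries := by
  rw [Nat.cast_smul_eq_nsmul]
  exact nsmul_mem hs D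

theorem BoundedDen.add {s t : PowerSeries ℂ} (hs : BoundedDen s) (ht : BoundedDen t) :
    BoundedDen (s + t) := by
  obtain ⟨D, hD, hs⟩ := hs
  obtain ⟨E, hE, ht⟩ := ht
  refine ⟨D * E, mul_ne_zero hD hE, ?_⟩
  rw [smul_add, Nat.cast_mul]
  refine add_mem ?_ ?_
  · rw [mul_comm, mul_smul]
    exact natCast_smul_mem_intSeries hs E
  · rw [mul_smul]
    exact natCast_smul_mem_intSeries ht D

theorem BoundedDen.rat_smul {s : PowerSeries ℂ} (hs : BoundedDen s) (q : ℚ) :
    BoundedDen ((q : ℂ) • s) := by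
  obtain ⟨D, hD, hs⟩ := hs
  refine ⟨q.den * D, mul_ne_zero q.den_nz hD, ?_⟩
  have h1 : ((q.den * D : ℕ) : ℂ) * (q : ℂ) = (q.num : ℂ) * (D : ℂ) := by
    have h : (q : ℂ) * (q.den : ℂ) = (q.num : ℂ) := by exact_mod_cast q.mul_den_eq_num
    rw [← h]
    push_cast
    ring
  rw [smul_smul, h1, mul_smul, Int.cast_smul_eq_zsmul]
  exact zsmul_mem hs _

/-- Apply a `ℚ`-linear map to the coefficients. -/
def mapCoeff (π : ℂ →ₗ[ℚ] ℂ) (s : PowerSeries ℂ) : PowerSeries ℂ :=
  PowerSeries.mk fun n ↦ π (s.coeff n)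

theorem mapCoeff_add (π : ℂ →ₗ[ℚ] ℂ) (s t : PowerSeries ℂ) :
    mapCoeff π (s + t) = mapCoeff π s + mapCoeff π t := by
  ext n; simp [mapCoeff]

theorem mapCoeff_zero (π : ℂ →ₗ[ℚ] ℂ) : mapCoeff π 0 = 0 := by
  ext n; simp [mapCoeff]

theorem mapCoeff_sum {ι : Type*} (π : ℂ →ₗ[ℚ] ℂ) (S : Finset ι) (f : ι → PowerSeries ℂ) :
    mapCoeff π (∑ i ∈ S, f i) = ∑ i ∈ S, mapCoeff π (f i) := by
  classical
  induction S using Finset.induction_on with
  | empty => simp [mapCoeff_zero]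
  | insert a S ha ih => rw [sum_insert ha, sum_insert ha, mapCoeff_add, ih]

/-- Power series with rational coefficients. -/
def ratSeries : Subring (PowerSeries ℂ) := (PowerSeries.map (Rat.castHom ℂ)).range

theorem intSeries_le_ratSeries : intSeries ≤ ratSeries := fun s hs ↦ by
  obtain ⟨t, rfl⟩ := hs
  exact ⟨PowerSeries.map (Int.castRingHom ℚ) t, by ext n; simp⟩

theorem apply_rat_mul (π : ℂ →ₗ[ℚ] ℂ) (q : ℚ) (z : ℂ) : π ((q : ℂ) * z) = (q : ℂ) * π z := by
  rw [← Rat.smul_def, ← Rat.smul_def]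
  exact π.map_smul q z

theorem mapCoeff_mul_rat (π : ℂ →ₗ[ℚ] ℂ) {r : PowerSeries ℂ} (hr : r ∈ ratSeries)
    (s : PowerSeries ℂ) : mapCoeff π (r * s) = r * mapCoeff π s := by
  obtain ⟨t, rfl⟩ := hr
  ext n
  simp [mapCoeff, PowerSeries.coeff_mul, map_sum, apply_rat_mul]

theorem mapCoeff_self {π : ℂ →ₗ[ℚ] ℂ} (hπ : π 1 = 1) {r : PowerSeries ℂ} (hr : r ∈ ratSeries) :
    mapCoeff π r = r := by
  obtain ⟨t, rfl⟩ := hr
  ext n
  have := apply_rat_mul π (t.coeff n) 1
  simpa [mapCoeff, hπ] using this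

theorem boundedDen_mapCoeff (π : ℂ →ₗ[ℚ] ℂ) (hπ : ∀ z, ∃ q : ℚ, π z = q) {w : ℤ}
    {s : PowerSeries ℂ} (hs : s ∈ intForms N w) : BoundedDen (mapCoeff π s) := by
  obtain ⟨n, f, g, rfl⟩ := Submodule.mem_span_set'.1 hs
  rw [mapCoeff_sum]
  refine Finset.sum_induction _ BoundedDen (fun a b ha hb ↦ ha.add hb)
    ⟨1, one_ne_zero, by simp⟩ fun i _ ↦ ?_
  obtain ⟨q, hq⟩ := hπ (f i)
  have hi : ((g i : PowerSeries ℂ)) ∈ intSeries := (g i).2.2
  have : mapCoeff π (f i • (g i : PowerSeries ℂ)) = (q : ℂ) • (g i : PowerSeries ℂ) := by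
    rw [PowerSeries.smul_eq_C_mul, mul_comm,
      mapCoeff_mul_rat π (intSeries_le_ratSeries hi), mul_comm, PowerSeries.smul_eq_C_mul]
    congr 1
    ext m
    simp only [mapCoeff, PowerSeries.coeff_mk, PowerSeries.coeff_C]
    split_ifs <;> simp [hq]
  exact this ▸ BoundedDen.rat_smul ⟨1, one_ne_zero, by simpa using hi⟩ q

theorem exists_retraction :
    ∃ π : ℂ →ₗ[ℚ] ℂ, π 1 = 1 ∧ ∀ z, ∃ q : ℚ, π z = q := by
  have hinj : LinearMap.ker (Algebra.linearMap ℚ ℂ) = ⊥ :=
    LinearMap.ker_eq_bot.2 (algebraMap ℚ ℂ).injective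
  obtain ⟨g, hg⟩ := (Algebra.linearMap ℚ ℂ).exists_leftInverse_of_injective hinj
  refine ⟨(Algebra.linearMap ℚ ℂ).comp g, ?_, fun z ↦ ⟨g z, by simp⟩⟩
  have := LinearMap.congr_fun hg 1
  simp only [LinearMap.comp_apply, Algebra.linearMap_apply, map_one, LinearMap.id_apply] at this
  simp [this]

/-- A cusp form as a modular form. -/
def cuspToMF [NeZero N] {k : ℤ} : CuspForm (Gamma1 N) k →ₗ[ℂ] MF1 N k where
  toFun f :=
    { toFun := f
      slash_action_eq' := f.slash_action_eq'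
      holo' := f.holo'
      bdd_at_cusps' := fun hc γ hγ ↦ (f.zero_at_cusps' hc γ hγ).boundedAtFilter }
  map_add' _ _ := rfl
  map_smul' _ _ := rfl

/-- `ℤ⟦q⟧` is integrally closed. -/
theorem mem_intSeries_of_monic {y num den : PowerSeries ℂ} (hnum : num ∈ intSeries)
    (hden : den ∈ intSeries) (hden0 : den ≠ 0) (hy : y * den = num) {D : ℕ} (hD : 0 < D)
    {d : ℕ → PowerSeries ℂ} (hd : ∀ t ∈ range D, d t ∈ intSeries)
    (hroot : y ^ D + ∑ t ∈ range D, d t * y ^ (D - (t + 1)) = 0) : y ∈ intSeries := by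
  obtain ⟨a, rfl⟩ := hnum
  obtain ⟨b, rfl⟩ := hden
  choose! d' hd' using hd
  set ι : PowerSeries ℤ →+* PowerSeries ℂ := PowerSeries.map (Int.castRingHom ℂ)
  have hι : Function.Injective ι := fun p q h ↦ by
    ext i
    simpa [ι] using congrArg (PowerSeries.coeff i) h
  have hb : b ≠ 0 := fun h ↦ hden0 (by rw [h, map_zero])
  obtain ⟨a₁, b₁, c, hrel, rfl, rfl⟩ := UniqueFactorizationMonoid.exists_reduced_factors' a b hb
  obtain ⟨hc0, hb1⟩ := mul_ne_zero_iff.1 hb
  have hy' : y * ι b₁ = ι a₁ := by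
    refine mul_left_cancel₀ ((map_ne_zero_iff ι hι).2 hc0) ?_
    rw [← map_mul, ← hy, map_mul]
    ring
  have hdvd : b₁ ∣ a₁ ^ D := by
    refine (dvd_add_left (b := a₁ ^ D)
      (c := ∑ t ∈ range D, d' t * a₁ ^ (D - (t + 1)) * b₁ ^ (t + 1))
      (dvd_sum fun t _ ↦ (dvd_pow_self _ t.succ_ne_zero).mul_left _)).1 ?_
    suffices h0 : a₁ ^ D + ∑ t ∈ range D, d' t * a₁ ^ (D - (t + 1)) * b₁ ^ (t + 1) = 0 by
      rw [h0]; exact dvd_zero _
    refine (map_eq_zero_iff ι hι).1 ?_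
    rw [← zero_mul (ι b₁ ^ D), ← hroot, map_add, map_pow, map_sum, add_mul, ← mul_pow, hy', sum_mul]
    congr 1
    refine sum_congr rfl fun t ht ↦ ?_
    have h' : D - (t + 1) + (t + 1) = D := by
      have := Finset.mem_range.1 ht
      omega
    have hpow : ι b₁ ^ D = ι b₁ ^ (D - (t + 1)) * ι b₁ ^ (t + 1) := by rw [← pow_add, h']
    rw [map_mul, map_mul, map_pow, map_pow, hd' t ht, ← hy', mul_pow, hpow]
    ring
  obtain ⟨u, hu⟩ := (hrel.symm.pow_right (n := D)).isUnit_of_dvd hdvd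
  refine ⟨a₁ * ↑u⁻¹, ?_⟩
  show ι _ = y
  rw [map_mul, ← hy', mul_assoc, ← map_mul, ← hu, Units.mul_inv, map_one, mul_one]

/-- A form with rational `q`-expansion has bounded denominators. -/
theorem boundedDen_of_rat [NeZero N] {k : ℤ} (F : MF1 N k) (hF : qE F ∈ ratSeries) :
    BoundedDen (qE F) := by
  classical
  obtain ⟨π, hπ1, hπ⟩ := exists_retraction
  obtain ⟨n, B, hB, hB0, hFB⟩ := exists_ratio F
  obtain ⟨m, hm⟩ : ∃ m, B.coeff m ≠ 0 := by
    by_contra h
    push Not at h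
    exact hB0 (PowerSeries.ext (by simpa using h))
  set B₁ := (B.coeff m)⁻¹ • B with hB₁
  have hb1 : mapCoeff π B₁ ≠ 0 := fun h ↦ by
    have := congrArg (PowerSeries.coeff m) h
    simp [mapCoeff, B₁, hm, hπ1] at this
  obtain ⟨Db, hDb, b, hb⟩ := boundedDen_mapCoeff π hπ (Submodule.smul_mem _ _ hB : B₁ ∈ intForms N n)
  obtain ⟨Da, hDa, a, ha⟩ := boundedDen_mapCoeff π hπ
    (show qE F * B₁ ∈ intForms N (k + n) by
      rw [hB₁, mul_smul_comm]; exact Submodule.smul_mem _ _ hFB)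
  rw [mapCoeff_mul_rat π hF] at ha
  rw [← hB₁] at hb
  obtain ⟨D, e, hD, he0, hrel, -⟩ := exists_monic F
  set c : ℕ → PowerSeries ℂ := fun t ↦ mapCoeff π (qE (e t))
  have hc0 : c 0 = 1 := by
    simp only [c, he0, qE_one]
    exact mapCoeff_self hπ1 (one_mem _)
  have hc : ∀ t, BoundedDen (c t) := fun t ↦
    boundedDen_mapCoeff π hπ (levelOne_mem_intForms' (N := N) (e t))
  choose E hE hcE using hc
  have hroot : ∑ t ∈ range (D + 1), (-1 : PowerSeries ℂ) ^ t * (qE F ^ (D - t) * c t) = 0 := by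
    have hmem : ∀ t, ⇑F ^ (D - t) * ⇑(e t) ∈ MF.qFunctions := fun t ↦
      mul_mem (pow_mem (form_mem_qFunctions F) _) (MF.coe_levelOne_mem_qFunctions _)
    have h := congrArg (fun s ↦ mapCoeff π (qE s)) hrel
    simp only [qE_zero, mapCoeff_zero] at h
    rw [qE_sum _ _ fun t _ ↦ zsmul_mem (hmem t) _, mapCoeff_sum] at h
    rw [← h]
    refine sum_congr rfl fun t _ ↦ ?_
    have hC : PowerSeries.C (((-1 : ℤ) ^ t : ℤ) : ℂ) ∈ ratSeries :=
      ⟨PowerSeries.C (((-1 : ℤ) ^ t : ℤ) : ℚ), by simp⟩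
    rw [← Int.cast_smul_eq_zsmul ℂ, qE_smul _ (hmem t),
      qE_mul (pow_mem (form_mem_qFunctions F) _) (MF.coe_levelOne_mem_qFunctions _),
      qE_pow (form_mem_qFunctions F), PowerSeries.smul_eq_C_mul, mapCoeff_mul_rat π hC,
      mapCoeff_mul_rat π (pow_mem hF _)]
    simp [c]
  set μ : ℕ := ∏ t ∈ range (D + 1), E t
  have hμ0 : μ ≠ 0 := prod_ne_zero_iff.2 fun t _ ↦ hE t
  set y : PowerSeries ℂ := (μ : ℂ) • qE F
  -- the coefficients of the scaled relation are integral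
  have hint : ∀ t ∈ range (D + 1),
      (-1) ^ t * (((μ : ℂ) ^ t) • c t) ∈ intSeries := by
    intro t ht
    refine mul_mem (pow_mem (neg_mem (one_mem _)) _) ?_
    rcases Nat.eq_zero_or_pos t with rfl | htp
    · simpa [hc0] using one_mem intSeries
    · obtain ⟨j, rfl⟩ := Nat.exists_eq_succ_of_ne_zero htp.ne'
      rw [Nat.succ_eq_add_one, pow_succ, show (μ : ℂ) ^ j * (μ : ℂ) =
        ((μ ^ j : ℕ) : ℂ) * (((∏ i ∈ (range (D + 1)).erase (j + 1), E i : ℕ) : ℂ) *
          (E (j + 1) : ℂ)) by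
          rw [← Nat.cast_mul (∏ i ∈ _, E i), prod_erase_mul _ _ ht]; push_cast; simp [μ],
        mul_smul, mul_smul]
      exact natCast_smul_mem_intSeries (natCast_smul_mem_intSeries (hcE _) _) _
  have hlast : ∀ t ∈ range (D + 1),
      (-1) ^ t * (((μ : ℂ) ^ t) • c t) * y ^ (D - t) =
        ((μ : ℂ) ^ D) • ((-1 : PowerSeries ℂ) ^ t * (qE F ^ (D - t) * c t)) := by
    intro t ht
    have h' : t + (D - t) = D := by
      have := Finset.mem_range.1 ht
      omega
    simp only [y, PowerSeries.smul_eq_C_mul, map_pow, mul_pow]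
    conv_rhs => rw [← h', pow_add, h']
    ring
  refine ⟨μ, hμ0, mem_intSeries_of_monic (y := y)
    (num := ((μ * Db : ℕ) : PowerSeries ℂ) * PowerSeries.map (Int.castRingHom ℂ) a)
    (den := (Da : PowerSeries ℂ) * PowerSeries.map (Int.castRingHom ℂ) b)
    (mul_mem (natCast_mem _ _) ⟨a, rfl⟩) (mul_mem (natCast_mem _ _) ⟨b, rfl⟩) ?_ ?_ hD
    (fun t ht ↦ hint (t + 1) (by have := Finset.mem_range.1 ht; simp; omega)) ?_⟩
  · rw [hb]
    have h1 : (Da : ℂ) ≠ 0 := by exact_mod_cast hDa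
    have h2 : (Db : ℂ) ≠ 0 := by exact_mod_cast hDb
    refine mul_ne_zero ?_ (smul_ne_zero h2 hb1)
    rw [← map_natCast PowerSeries.C]
    exact fun h0 ↦ h1 (by simpa using congrArg PowerSeries.constantCoeff h0)
  · rw [ha, hb]
    simp only [y, PowerSeries.smul_eq_C_mul, map_natCast]
    push_cast
    ring
  · have := congrArg (fun s ↦ ((μ : ℂ) ^ D) • s) hroot
    simp only [smul_zero, smul_sum] at this
    rw [sum_range_succ' _ D, ← sum_congr rfl fun t ht ↦ hlast (t + 1)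
      (by have := Finset.mem_range.1 ht; simp; omega), add_comm] at this
    simpa [hc0, y, smul_pow] using this

theorem one_mem_strictPeriods_gamma1' (N : ℕ) :
    (1 : ℝ) ∈ ((Gamma1 N : Subgroup SL(2, ℤ)) : Subgroup (GL (Fin 2) ℝ)).strictPeriods :=
  one_mem_strictPeriods_gamma1 N

/-- The `q`-expansion, as a linear map. -/
def qELin (N : ℕ) (k : ℤ) [NeZero N] : MF1 N k →ₗ[ℂ] PowerSeries ℂ where
  toFun F := qE F
  map_add' F G := by rw [FunLike.coe_add, qE_add (form_mem_qFunctions F) (form_mem_qFunctions G)]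
  map_smul' c F := by rw [FunLike.coe_smul, qE_smul c (form_mem_qFunctions F)]; rfl

theorem qELin_injective (N : ℕ) (k : ℤ) [NeZero N] : Function.Injective (qELin N k) := by
  rw [injective_iff_map_eq_zero]
  exact fun F hF ↦ (FunLike.coe_zero_iff F).1 ((qE_eq_zero_iff (form_mem_qFunctions F)).1 hF)

instance instFiniteDimensionalMF1 [NeZero N] (k : ℤ) : FiniteDimensional ℂ (MF1 N k) := by
  let M := (k * ((Gamma1 N : Subgroup SL(2, ℤ)) : Subgroup (GL (Fin 2) ℝ)).relIndex 𝒮ℒ).toNat / 12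
  refine Module.Finite.of_injective
    ((LinearMap.pi fun n : Fin (M + 1) ↦ (PowerSeries.coeff (R := ℂ) (n : ℕ))).comp (qELin N k)) ?_
  rw [injective_iff_map_eq_zero]
  intro F hF
  refine ModularForm.sturm_bound_of_isArithmetic (one_mem_strictPeriods_gamma1 N) ?_
  exact lt_of_lt_of_le (by exact_mod_cast Nat.lt_succ_self M)
    (PowerSeries.nat_le_order _ (M + 1) fun i hi ↦ congrFun hF ⟨i, hi⟩)

theorem cuspToMF_injective (N : ℕ) (k : ℤ) [NeZero N] :
    Function.Injective (cuspToMF (N := N) (k := k)) := fun _ _ h ↦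
  DFunLike.ext _ _ fun z ↦ (DFunLike.congr_fun h z :)

instance instFiniteDimensionalCusp1 [NeZero N] (k : ℤ) :
    FiniteDimensional ℂ (CuspForm (Gamma1 N) k) :=
  Module.Finite.of_injective cuspToMF (cuspToMF_injective N k)

/-- The span of the `q`-expansions of the weight `k` cusp forms on `Γ₁(N)`. -/
def cuspSeries (N : ℕ) (k : ℤ) [NeZero N] : Submodule ℂ (PowerSeries ℂ) :=
  LinearMap.range ((qELin N k).comp cuspToMF)

theorem mem_cuspSeries [NeZero N] {k : ℤ} {s : PowerSeries ℂ} :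
    s ∈ cuspSeries N k ↔ ∃ f : CuspForm (Gamma1 N) k, qE f = s :=
  LinearMap.mem_range

/-- A finite-dimensional space of power series stable under the endomorphisms of `ℂ` is spanned
by series with rational coefficients. -/
theorem exists_rat_spanning {W : Submodule ℂ (PowerSeries ℂ)} [FiniteDimensional ℂ W]
    (hW : ∀ σ : ℂ →+* ℂ, ∀ s ∈ W, PowerSeries.map σ s ∈ W) :
    ∃ S : Finset (PowerSeries ℂ), (∀ s ∈ S, s ∈ W ∧ s ∈ ratSeries) ∧
      W ≤ Submodule.span ℂ (S : Set (PowerSeries ℂ)) := by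
  classical
  let ev : ℕ → (W →ₗ[ℂ] ℂ) := fun n ↦ (PowerSeries.coeff n).comp W.subtype
  obtain ⟨κ, a, -, hspan, hli⟩ := exists_linearIndependent' ℂ ev
  have : Fintype κ := @Fintype.ofFinite κ hli.finite
  let Φ : W →ₗ[ℂ] κ → ℂ := LinearMap.pi fun i ↦ ev (a i)
  have hΦ : ∀ x, Φ x = 0 → x = 0 := by
    intro x hx
    refine Subtype.ext (PowerSeries.ext fun n ↦ ?_)
    have hn : ev n ∈ Submodule.span ℂ (Set.range (ev ∘ a)) :=
      hspan ▸ Submodule.subset_span ⟨n, rfl⟩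
    have : ev n x = 0 := by
      revert hn
      generalize ev n = φ
      intro hn
      induction hn using Submodule.span_induction with
      | mem f hf => obtain ⟨i, rfl⟩ := hf; exact congrFun hx i
      | zero => rfl
      | add f g _ _ hf hg => simp [hf, hg]
      | smul c f _ hf => simp [hf]
    simpa [ev] using this
  have hsurj : Function.Surjective Φ := by
    rw [← LinearMap.range_eq_top]
    refine Submodule.eq_top_of_finrank_eq (le_antisymm (Submodule.finrank_le _) ?_)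
    rw [LinearMap.finrank_range_of_inj ((injective_iff_map_eq_zero Φ).2 hΦ), Module.finrank_pi,
      ← Subspace.dual_finrank_eq]
    exact hli.fintype_card_le_finrank
  choose w hw using fun i : κ ↦ hsurj (Pi.single i 1)
  refine ⟨Finset.univ.image fun i ↦ (w i : PowerSeries ℂ), ?_, fun s hs ↦ ?_⟩
  · simp only [Finset.mem_image, Finset.mem_univ, true_and, forall_exists_index,
      forall_apply_eq_imp_iff]
    refine fun i ↦ ⟨(w i).2, ?_⟩
    have hfix : ∀ σ : ℂ →+* ℂ, PowerSeries.map σ (w i : PowerSeries ℂ) = (w i : PowerSeries ℂ) := by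
      intro σ
      have h := hΦ (⟨_, hW σ _ (w i).2⟩ - w i) ?_
      · exact congrArg Subtype.val (sub_eq_zero.1 h)
      · rw [map_sub, hw, sub_eq_zero]
        funext l
        show σ ((w i : PowerSeries ℂ).coeff (a l)) = _
        rw [show (w i : PowerSeries ℂ).coeff (a l) = (Pi.single i 1 : κ → ℂ) l from congrFun (hw i) l]
        by_cases h : l = i <;> simp [Pi.single_apply, h]
    choose q hq using fun n ↦ mem_range_rat_of_fixed (x := (w i : PowerSeries ℂ).coeff n) fun σ ↦ by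
      simpa using congrArg (PowerSeries.coeff n) (hfix σ)
    exact ⟨PowerSeries.mk q, PowerSeries.ext fun n ↦ by simp [hq]⟩
  · have h : (⟨s, hs⟩ : W) = ∑ i, Φ ⟨s, hs⟩ i • w i := by
      rw [← sub_eq_zero]
      refine hΦ _ ?_
      rw [map_sub, map_sum, sub_eq_zero]
      simp_rw [map_smul, hw]
      exact pi_eq_sum_univ' _
    rw [show s = ((⟨s, hs⟩ : W) : PowerSeries ℂ) from rfl, h, AddSubmonoidClass.coe_finsetSum]
    refine sum_mem fun i _ ↦ Submodule.smul_mem _ _ (Submodule.subset_span ?_)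
    simp

/-- The weight `k` cusp forms on `Γ₁(N)` are spanned by forms with integral `q`-expansion. -/
theorem exists_integral_spanning (N : ℕ) [NeZero N] (k : ℤ) :
    ∃ S : Finset (PowerSeries ℂ), (∀ s ∈ S, s ∈ cuspSeries N k ∧ s ∈ intSeries) ∧
      cuspSeries N k ≤ Submodule.span ℂ (S : Set (PowerSeries ℂ)) := by
  classical
  have : FiniteDimensional ℂ (cuspSeries N k) :=
    inferInstanceAs (FiniteDimensional ℂ (LinearMap.range ((qELin N k).comp cuspToMF)))
  obtain ⟨S, hS, hspan⟩ := exists_rat_spanning (W := cuspSeries N k) fun σ s hs ↦ by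
    obtain ⟨f, rfl⟩ := mem_cuspSeries.1 hs
    exact mem_cuspSeries.2 (exists_conj_cusp σ f)
  have hden : ∀ s ∈ S, ∃ D : ℕ, D ≠ 0 ∧ (D : ℂ) • s ∈ intSeries := by
    intro s hs
    obtain ⟨f, rfl⟩ := mem_cuspSeries.1 (hS s hs).1
    exact boundedDen_of_rat (cuspToMF f) (hS _ hs).2
  choose! D hD0 hD using hden
  refine ⟨S.image fun s ↦ (D s : ℂ) • s, ?_, hspan.trans (Submodule.span_le.2 fun s hs ↦ ?_)⟩
  · simp only [Finset.mem_image, forall_exists_index, and_imp, forall_apply_eq_imp_iff₂]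
    exact fun s hs ↦ ⟨Submodule.smul_mem _ _ (hS s hs).1, hD s hs⟩
  · rw [show s = ((D s : ℂ))⁻¹ • ((D s : ℂ) • s) by
      rw [smul_smul, inv_mul_cancel₀ (by exact_mod_cast hD0 s hs), one_smul]]
    exact Submodule.smul_mem _ _ (Submodule.subset_span (Finset.mem_image_of_mem _ hs))

end Fermat.Agent.DS
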