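import Fermat.Agent.DS.Defs
import Fermat.Agent.DS.RationalBasis
import Fermat.Agent.DS.PrimeDensity
import Mathlib.NumberTheory.NumberField.Basic
import Mathlib.NumberTheory.MulChar.Basic
import Mathlib.Algebra.FreeMonoid.Basic
import Mathlib.LinearAlgebra.LinearIndependent.Lemmas
import Mathlib.RingTheory.IntegralClosure.IsIntegralClosure.Basic

/-!
# Coefficient field and conjugates of a weight one eigen system
-/

set_option autoImplicit false

noncomputable section

namespace Fermat.Agent.DS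

open UpperHalfPlane hiding I
open CongruenceSubgroup ModularFormClass

/-- The coefficient operator `a ↦ (n ↦ a (p n) + c · a (n / p))`. -/
def heckeSeqOp (c : ℂ) (p : ℕ) : (ℕ → ℂ) →ₗ[ℂ] (ℕ → ℂ) where
  toFun a n := a (p * n) + c * (if p ∣ n then a (n / p) else 0)
  map_add' a b := by
    funext n
    simp only [Pi.add_apply]
    split_ifs <;> ring
  map_smul' r a := by
    funext n
    simp only [Pi.smul_apply, smul_eq_mul, RingHom.id_apply]
    split_ifs <;> ring

/-- Distinct eigen systems of one nebentypus in a finite-dimensional space are finite in number. -/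
theorem finite_eigenSystems (N : ℕ) (e : ℕ → ℂ) (W : Submodule ℂ (ℕ → ℂ)) [FiniteDimensional ℂ W] :
    {χ : {p : ℕ // p.Prime ∧ ¬ p ∣ N} → ℂ | ∃ a ∈ W, a 1 = 1 ∧ HeckeRel 1 N e a ∧
      ∀ p : {p : ℕ // p.Prime ∧ ¬ p ∣ N}, χ p = a p}.Finite := by
  let P := {p : ℕ // p.Prime ∧ ¬ p ∣ N}
  let L : FreeMonoid P →* Module.End ℂ (ℕ → ℂ) :=
    FreeMonoid.lift fun p ↦ heckeSeqOp (e p.1) p.1
  let ev : W →ₗ[ℂ] (FreeMonoid P → ℂ) :=
    LinearMap.pi fun w ↦ ((LinearMap.proj 1).comp (L w)).comp W.subtype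
  let chi : (P → ℂ) → (FreeMonoid P →* ℂ) := fun χ ↦ FreeMonoid.lift χ
  have hchi : Function.Injective chi := FreeMonoid.lift.injective
  suffices h : {φ : FreeMonoid P →* ℂ | (φ : FreeMonoid P → ℂ) ∈ LinearMap.range ev}.Finite by
    refine Set.Finite.of_finite_image (h.subset ?_) hchi.injOn
    rintro _ ⟨χ, ⟨a, haW, ha1, hrel, hχ⟩, rfl⟩
    refine ⟨⟨a, haW⟩, funext fun w ↦ ?_⟩
    have heig : ∀ w, L w a = chi χ w • a := by
      intro w
      induction w using FreeMonoid.inductionOn' with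
      | one => simp
      | of_mul p w ih =>
        rw [map_mul, map_mul, Module.End.mul_apply, ih, LinearMap.map_smul, mul_comm, mul_smul]
        congr 1
        funext n
        simp only [L, chi, FreeMonoid.lift_eval_of, heckeSeqOp, LinearMap.coe_mk, AddHom.coe_mk,
          Pi.smul_apply, smul_eq_mul, hχ]
        simpa using (heckeRel_one_iff.1 hrel p.1 p.2.1 p.2.2 n)
    simp [ev, heig, ha1]
  have hli := (linearIndependent_monoidHom (FreeMonoid P) ℂ).comp
    (fun φ : {φ : FreeMonoid P →* ℂ | (φ : FreeMonoid P → ℂ) ∈ LinearMap.range ev} ↦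
      (φ : FreeMonoid P →* ℂ)) Subtype.val_injective
  have hli' : LinearIndependent ℂ
      (fun φ : {φ : FreeMonoid P →* ℂ | (φ : FreeMonoid P → ℂ) ∈ LinearMap.range ev} ↦
        (⟨_, φ.2⟩ : LinearMap.range ev)) :=
    LinearIndependent.of_comp (LinearMap.range ev).subtype hli
  exact Set.finite_coe_iff.1 hli'.finite

/-- An element whose powers have bounded denominators is integral. -/
theorem isIntegral_of_smul_pow {K : Type*} [Field K] [NumberField K] {x : K} {D : ℕ} (hD : D ≠ 0)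
    (h : ∀ r : ℕ, IsIntegral ℤ ((D : K) * x ^ r)) : IsIntegral ℤ x := by
  have hD' : (D : K) ≠ 0 := Nat.cast_ne_zero.2 hD
  let O : Submodule ℤ K := Subalgebra.toSubmodule (integralClosure ℤ K)
  have hO : O.FG := Module.Finite.iff_fg.1 (inferInstanceAs (Module.Finite ℤ (NumberField.RingOfIntegers K)))
  have hfg : (O.map (LinearMap.mulLeft ℤ (D : K)⁻¹)).FG := hO.map _
  have hle : Subalgebra.toSubmodule (Algebra.adjoin ℤ {x}) ≤ O.map (LinearMap.mulLeft ℤ (D : K)⁻¹) := by
    rw [Algebra.adjoin_eq_span, Submodule.span_le]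
    intro y hy
    obtain ⟨r, rfl⟩ := Submonoid.mem_closure_singleton.1 hy
    exact ⟨(D : K) * x ^ r, h r, by simp [inv_mul_cancel_left₀ hD']⟩
  exact IsIntegral.of_mem_of_fg _ (hfg.of_le hle) _ (Algebra.self_mem_adjoin_singleton ℤ x)

theorem isIntegral_natCast_mul_pow {K : Type*} [Field K] {x e : K} (he : IsIntegral ℤ e)
    {D p : ℕ} {α : ℕ → K} (h1 : α 1 = 1) (hp : p.Prime)
    (hrel : ∀ n, α (p * n) + e * (if p ∣ n then α (n / p) else 0) = x * α n)
    (hD : ∀ n, IsIntegral ℤ ((D : K) * α n)) :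
    ∀ r j : ℕ, IsIntegral ℤ ((D : K) * x ^ r * α (p ^ j)) := by
  intro r
  induction r with
  | zero => intro j; simpa using hD (p ^ j)
  | succ r ih =>
    intro j
    have h := hrel (p ^ j)
    rw [show (D : K) * x ^ (r + 1) * α (p ^ j) = (D : K) * (x ^ r * (x * α (p ^ j))) by ring, ← h]
    rcases j with _ | j
    · rw [pow_zero, mul_one, if_neg (by simpa using hp.one_lt.ne'), mul_zero, add_zero]
      simpa [mul_assoc] using ih 1
    · rw [if_pos (dvd_pow_self p j.succ_ne_zero), ← pow_succ', pow_succ' p j,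
        Nat.mul_div_cancel_left _ hp.pos, mul_add, mul_add]
      refine IsIntegral.add ?_ ?_
      · simpa [mul_assoc] using ih (j + 1 + 1)
      · rw [show (D : K) * (x ^ r * (e * α (p ^ j))) = e * ((D : K) * x ^ r * α (p ^ j)) by ring]
        exact he.mul (ih j)

/-- A weight one eigen system has algebraic coefficients in a number field, with bounded
denominators, and every conjugate of the system is again attached to a weight one cusp form.
The coefficient sequence `α` may differ from that of `f` at `n` not prime to `N`. -/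
theorem exists_coefficientField (N : ℕ) [NeZero N] (ε : DirichletCharacter ℂ N)
    (f : CuspForm (Gamma1 N) 1) (hf : qCoeff f 1 = 1)
    (hT : HeckeRel 1 N (fun p ↦ ε (p : ZMod N)) (qCoeff f)) :
    ∃ (K : Type) (_ : Field K) (_ : NumberField K) (ι : K →+* ℂ) (α : ℕ → K) (e : ℕ → K),
      (∀ p : ℕ, p.Prime → ¬ p ∣ N →
        ι (α p) = qCoeff f p ∧ ι (e p) = ε (p : ZMod N) ∧ IsIntegral ℤ (α p)) ∧
      (∃ D : ℕ, D ≠ 0 ∧ ∀ n : ℕ, IsIntegral ℤ ((D : K) * α n)) ∧
      ∀ σ : K →+* ℂ, ∃ (g : CuspForm (Gamma1 N) 1) (ε' : DirichletCharacter ℂ N),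
        (∀ n : ℕ, qCoeff g n = σ (α n)) ∧
        (∀ p : ℕ, p.Prime → ¬ p ∣ N → ε' (p : ZMod N) = σ (e p)) ∧
        qCoeff g 1 = 1 ∧
        HeckeRel 1 N (fun p ↦ ε' (p : ZMod N)) (qCoeff g) := by
  classical
  let P := {p : ℕ // p.Prime ∧ ¬ p ∣ N}
  have hfin : FiniteDimensional ℂ (cuspSeries N 1) :=
    inferInstanceAs (FiniteDimensional ℂ (LinearMap.range ((qELin N 1).comp cuspToMF)))
  let coef : PowerSeries ℂ →ₗ[ℂ] (ℕ → ℂ) := LinearMap.pi fun n ↦ PowerSeries.coeff n
  let W : Submodule ℂ (ℕ → ℂ) := (cuspSeries N 1).map coef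
  let v : P ⊕ ZMod N → ℂ := Sum.elim (fun p ↦ qCoeff f p) (fun x ↦ ε x)
  have horb : (Set.range fun σ : ℂ →+* ℂ ↦ fun i ↦ σ (v i)).Finite := by
    have hE : (⋃ η : DirichletCharacter ℂ N,
        (fun χ : P → ℂ ↦ Sum.elim χ (fun x ↦ η x)) '' {χ | ∃ a ∈ W, a 1 = 1 ∧
          HeckeRel 1 N (fun p ↦ η (p : ZMod N)) a ∧ ∀ p : P, χ p = a p}).Finite :=
      Set.finite_iUnion fun η ↦ (finite_eigenSystems N _ W).image _
    refine hE.subset ?_
    rintro _ ⟨σ, rfl⟩
    obtain ⟨g, hg⟩ := exists_conj_cusp σ f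
    have hgc : ∀ n, (qE g).coeff n = σ (qCoeff f n) := fun n ↦ by rw [hg]; simp [qE, qCoeff]
    refine Set.mem_iUnion.2 ⟨ε.ringHomComp σ, fun p ↦ σ (qCoeff f p),
      ⟨fun n ↦ σ (qCoeff f n), ⟨qE g, mem_cuspSeries.2 ⟨g, rfl⟩, funext hgc⟩, by simp [hf], ?_,
        fun p ↦ rfl⟩, ?_⟩
    · refine heckeRel_one_iff.2 fun p hp hpN n ↦ ?_
      have := congrArg σ (heckeRel_one_iff.1 hT p hp hpN n)
      simpa [apply_ite σ] using this
    · funext i
      rcases i with p | x <;> rfl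
  let K : IntermediateField ℚ ℂ := IntermediateField.adjoin ℚ (Set.range v)
  have hK : FiniteDimensional ℚ K := finiteDimensional_adjoin_of_finite_orbit v horb
  have hNF : NumberField K := @NumberField.mk K _ inferInstance (by convert hK)
  have hv : ∀ i, v i ∈ K := fun i ↦ IntermediateField.subset_adjoin ℚ _ ⟨i, rfl⟩
  -- a `K`-linear retraction
  obtain ⟨π, hπ⟩ := (Algebra.linearMap K ℂ).exists_leftInverse_of_injective
    (LinearMap.ker_eq_bot.2 (algebraMap K ℂ).injective)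
  have hπK : ∀ y : K, π (y : ℂ) = y := fun y ↦ LinearMap.congr_fun hπ y
  have hπmul : ∀ (y : K) (z : ℂ), π ((y : ℂ) * z) = y * π z := fun y z ↦ π.map_smul y z
  let α : ℕ → K := fun n ↦ π (qCoeff f n)
  let εK : ZMod N → K := fun x ↦ ⟨ε x, hv (.inr x)⟩
  let χK : MulChar (ZMod N) K :=
    { toFun := εK
      map_one' := Subtype.ext (map_one ε)
      map_mul' := fun x y ↦ Subtype.ext (map_mul ε x y)
      map_nonunit' := fun x hx ↦ Subtype.ext (ε.map_nonunit hx) }
  have hαp : ∀ p : P, ((α p : K) : ℂ) = qCoeff f p := fun p ↦ by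
    have := hπK ⟨_, hv (.inl p)⟩
    exact congrArg Subtype.val this
  have hα1 : α 1 = 1 := by
    show π _ = _
    rw [hf]
    exact hπK 1
  have hαrel : ∀ p : ℕ, p.Prime → ¬ p ∣ N → ∀ n,
      α (p * n) + εK p * (if p ∣ n then α (n / p) else 0) = α p * α n := by
    intro p hp hpN n
    have h := congrArg π (heckeRel_one_iff.1 hT p hp hpN n)
    rw [map_add, ← hαp ⟨p, hp, hpN⟩, hπmul,
      show ε (p : ZMod N) = ((εK p : K) : ℂ) from rfl, hπmul, apply_ite π, map_zero] at h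
    exact h
  obtain ⟨S, hS, hspan⟩ := exists_integral_spanning N 1
  obtain ⟨c, hc⟩ : ∃ c : S → ℂ, ∑ s, c s • (s : PowerSeries ℂ) = qE f := by
    have := hspan (mem_cuspSeries.2 ⟨f, rfl⟩)
    rw [Submodule.mem_span_finset] at this
    obtain ⟨c, -, hc⟩ := this
    refine ⟨fun s ↦ c s, ?_⟩
    rw [← hc, ← Finset.sum_coe_sort S]
  have hz : ∀ (s : S) (n : ℕ), ∃ z : ℤ, (s : PowerSeries ℂ).coeff n = z := fun s ↦
    mem_intSeries_iff.1 (hS _ s.2).2
  choose z hz using hz
  have hαsum : ∀ n, α n = ∑ s, π (c s) * (z s n : K) := by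
    intro n
    have h0 : qCoeff f n = ∑ s : S, ((z s n : K) : ℂ) * c s := by
      have := congrArg (PowerSeries.coeff n) hc
      simp only [map_sum, PowerSeries.coeff_smul, hz, smul_eq_mul] at this
      rw [show qCoeff f n = (qE f).coeff n from rfl, ← this]
      exact Finset.sum_congr rfl fun s _ ↦ by push_cast; ring
    show π _ = _
    rw [h0, map_sum]
    exact Finset.sum_congr rfl fun s _ ↦ by rw [hπmul]; ring
  have hden : ∀ s : S, ∃ D : ℕ, D ≠ 0 ∧ IsIntegral ℤ ((D : K) * π (c s)) := by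
    intro s
    obtain ⟨d, hd0, hd⟩ := (IsFractionRing.isAlgebraic_iff ℤ ℚ K).2
      (Algebra.IsAlgebraic.isAlgebraic (π (c s))) |>.exists_integral_multiple
    refine ⟨d.natAbs, Int.natAbs_ne_zero.2 hd0, ?_⟩
    rcases Int.natAbs_eq d with h | h
    · rw [h] at hd; simpa [zsmul_eq_mul] using hd
    · rw [h] at hd; simpa [zsmul_eq_mul] using hd
  choose D hD0 hD using hden
  have hDint : ∀ n, IsIntegral ℤ (((∏ s, D s : ℕ) : K) * α n) := by
    intro n
    rw [hαsum, Finset.mul_sum]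
    refine IsIntegral.sum _ fun s _ ↦ ?_
    rw [← Finset.mul_prod_erase _ _ (Finset.mem_univ s), Nat.cast_mul]
    rw [show (D s : K) * (∏ x ∈ Finset.univ.erase s, D x : ℕ) * (π (c s) * (z s n : K)) =
      ((D s : K) * π (c s)) * (((∏ x ∈ Finset.univ.erase s, D x : ℕ) : K) * (z s n : K)) by ring]
    exact (hD s).mul ((isIntegral_algebraMap (R := ℤ) (x := ((∏ x ∈ Finset.univ.erase s, D x : ℕ) : ℤ))).mul
      (isIntegral_algebraMap (R := ℤ) (x := z s n))) |> fun h ↦ by simpa using h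
  have hP0 : (∏ s, D s) ≠ 0 := Finset.prod_ne_zero_iff.2 fun s _ ↦ hD0 s
  have hεint : ∀ p : ℕ, p.Prime → ¬ p ∣ N → IsIntegral ℤ (εK p) := by
    intro p hp hpN
    have hu : IsUnit (p : ZMod N) := (ZMod.isUnit_iff_coprime p N).2 (hp.coprime_iff_not_dvd.2 hpN)
    obtain ⟨u, hu⟩ := hu
    refine .of_pow (Monoid.exponent_pos.2 (Monoid.ExponentExists.of_finite (G := (ZMod N)ˣ))) ?_
    rw [← hu, show εK (u : ZMod N) = χK u from rfl, ← map_pow, ← Units.val_pow_eq_pow_val,
      Monoid.pow_exponent_eq_one, Units.val_one, map_one]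
    exact isIntegral_one
  refine ⟨K, inferInstance, hNF, K.val.toRingHom, α, fun p ↦ εK p, fun p hp hpN ↦
    ⟨hαp ⟨p, hp, hpN⟩, rfl, ?_⟩, ⟨_, hP0, hDint⟩, fun σ ↦ ?_⟩
  · refine isIntegral_of_smul_pow hP0 fun r ↦ ?_
    have := isIntegral_natCast_mul_pow (hεint p hp hpN) hα1 hp (hαrel p hp hpN) hDint r 0
    simpa [hα1] using this
  · have hmem : ∑ s : S, σ (π (c s)) • (s : PowerSeries ℂ) ∈ cuspSeries N 1 :=
      sum_mem fun s _ ↦ Submodule.smul_mem _ _ (hS _ s.2).1
    obtain ⟨g, hg⟩ := mem_cuspSeries.1 hmem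
    have hgn : ∀ n, qCoeff g n = σ (α n) := by
      intro n
      rw [show qCoeff g n = (qE g).coeff n from rfl, hg, hαsum]
      simp [hz]
    refine ⟨g, χK.ringHomComp σ, hgn, fun p _ _ ↦ rfl, by rw [hgn, hα1, map_one], ?_⟩
    refine heckeRel_one_iff.2 fun p hp hpN n ↦ ?_
    have := congrArg σ (hαrel p hp hpN n)
    rw [hgn, hgn, hgn, hgn, show χK.ringHomComp σ (p : ZMod N) = σ (εK p) from rfl]
    rw [map_add, map_mul, map_mul, apply_ite σ, map_zero] at this
    exact this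

end Fermat.Agent.DS
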