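import Fermat.Agent.DS.Defs
import Fermat.Agent.TraceFn.Burnside
import Mathlib.LinearAlgebra.Matrix.ToLin
import Mathlib.LinearAlgebra.Matrix.GeneralLinearGroup.FinTwo
import Mathlib.FieldTheory.IsAlgClosed.Basic

/-!
# Semisimple two-dimensional representations with few characteristic polynomials
-/

set_option autoImplicit false

noncomputable section

namespace Fermat.Agent.DS

open Matrix Finset
open scoped Classical

variable {k : Type*} [Field k] {Γ : Type*} [Group Γ]

/-- Absolutely irreducible or diagonal. -/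
def IsSplitOrFull (ρ : Γ →* GL (Fin 2) k) : Prop :=
  Submodule.span k (Set.range fun g ↦ ((ρ g : GL (Fin 2) k) : Matrix (Fin 2) (Fin 2) k)) = ⊤ ∨
    ∀ g, ((ρ g : GL (Fin 2) k) : Matrix (Fin 2) (Fin 2) k) 0 1 = 0 ∧
      ((ρ g : GL (Fin 2) k) : Matrix (Fin 2) (Fin 2) k) 1 0 = 0

/-- A common eigenvector triangularises: there are two characters with the same trace and
determinant. -/
theorem exists_chars_of_invariant (ρ : Γ →* GL (Fin 2) k) {W : Submodule k (Fin 2 → k)}
    (hW : ∀ g, ∀ x ∈ W, ((ρ g : GL (Fin 2) k) : Matrix (Fin 2) (Fin 2) k) *ᵥ x ∈ W)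
    (hbot : W ≠ ⊥) (htop : W ≠ ⊤) :
    ∃ χ₁ χ₂ : Γ →* kˣ, (∀ g, ((ρ g : GL (Fin 2) k) : Matrix (Fin 2) (Fin 2) k).trace = χ₁ g + χ₂ g ∧
      ((ρ g : GL (Fin 2) k) : Matrix (Fin 2) (Fin 2) k).det = χ₁ g * χ₂ g) ∧
      ρ.ker ≤ χ₁.ker ∧ ρ.ker ≤ χ₂.ker := by
  obtain ⟨v, hvW, hv0⟩ := W.exists_mem_ne_zero_of_ne_bot hbot
  have hW1 : Module.finrank k W ≤ 1 := by
    have h : Module.finrank k W < Module.finrank k (Fin 2 → k) := Submodule.finrank_lt htop
    rw [Module.finrank_fin_fun] at h
    omega
  have heig : ∀ g, ∃ c : k, ((ρ g : GL (Fin 2) k) : Matrix (Fin 2) (Fin 2) k) *ᵥ v = c • v := by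
    intro g
    obtain ⟨c, hc⟩ := (finrank_eq_one_iff_of_nonzero' (⟨v, hvW⟩ : W) (by simpa using hv0)).1
      (le_antisymm hW1 (Submodule.one_le_finrank_iff.2 hbot)) ⟨_, hW g v hvW⟩
    exact ⟨c, (congrArg Subtype.val hc).symm⟩
  choose c hc using heig
  have hone : c 1 = 1 := by
    have := hc 1
    rw [map_one, Units.val_one, one_mulVec] at this
    exact (smul_left_injective k hv0 (by simpa using this)).symm
  have hmul : ∀ g h, c (g * h) = c g * c h := fun g h ↦ by
    refine smul_left_injective k hv0 ?_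
    show c (g * h) • v = (c g * c h) • v
    rw [← hc, map_mul, Units.val_mul, ← mulVec_mulVec, hc, mulVec_smul, hc, smul_smul, mul_comm]
  set χ₁ : Γ →* kˣ := ({ toFun := c, map_one' := hone, map_mul' := hmul } : Γ →* k).toHomUnits
  set χ₂ : Γ →* kˣ := (Matrix.GeneralLinearGroup.det.comp ρ) * χ₁⁻¹
  have hker : ρ.ker ≤ χ₁.ker := fun g hg ↦ by
    refine Units.ext ?_
    show c g = 1
    refine smul_left_injective k hv0 ?_
    show c g • v = (1 : k) • v
    rw [← hc, show ρ g = 1 from hg, Units.val_one, one_mulVec, one_smul]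
  refine ⟨χ₁, χ₂, fun g ↦ ?_, hker, fun g hg ↦ ?_⟩
  · set A := ((ρ g : GL (Fin 2) k) : Matrix (Fin 2) (Fin 2) k)
    have hdet : A.det = c g * (χ₂ g : k) := by
      have : (χ₂ g : k) = A.det * ((χ₁ g)⁻¹ : kˣ) := rfl
      rw [this, mul_left_comm, show c g = (χ₁ g : k) from rfl, Units.mul_inv, mul_one]
    refine ⟨?_, hdet⟩
    have hroot : (A - c g • (1 : Matrix (Fin 2) (Fin 2) k)).det = 0 :=
      exists_mulVec_eq_zero_iff.1 ⟨v, hv0, by
        rw [sub_mulVec, smul_mulVec, one_mulVec, hc, sub_self]⟩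
    rw [det_fin_two] at hroot hdet
    simp at hroot
    show A.trace = c g + χ₂ g
    refine mul_left_cancel₀ ((χ₁ g).ne_zero : c g ≠ 0) ?_
    rw [show (χ₁ g : k) = c g from rfl, mul_add, ← hdet, trace_fin_two]
    linear_combination -hroot
  · show _ * _ = (1 : kˣ)
    rw [MonoidHom.comp_apply, show ρ g = 1 from hg, map_one, MonoidHom.inv_apply,
      show χ₁ g = 1 from hker hg, inv_one, mul_one]

/-- The diagonal representation of two characters. -/
def diagRep (χ₁ χ₂ : Γ →* kˣ) : Γ →* GL (Fin 2) k :=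
  MonoidHom.toHomUnits
    { toFun := fun g ↦ diagonal ![(χ₁ g : k), (χ₂ g : k)]
      map_one' := by ext i j; fin_cases i <;> fin_cases j <;> simp
      map_mul' := fun a b ↦ by
        rw [diagonal_mul_diagonal]
        congr 1
        ext i; fin_cases i <;> simp }

theorem diagRep_apply (χ₁ χ₂ : Γ →* kˣ) (g : Γ) :
    ((diagRep χ₁ χ₂ g : GL (Fin 2) k) : Matrix (Fin 2) (Fin 2) k) =
      diagonal ![(χ₁ g : k), (χ₂ g : k)] := rfl

/-- Semisimplification. -/
theorem exists_isSplitOrFull [IsAlgClosed k] (ρ : Γ →* GL (Fin 2) k) :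
    ∃ ρ' : Γ →* GL (Fin 2) k, IsSplitOrFull ρ' ∧ ρ.ker ≤ ρ'.ker ∧ ∀ g,
      ((ρ' g : GL (Fin 2) k) : Matrix (Fin 2) (Fin 2) k).trace =
        ((ρ g : GL (Fin 2) k) : Matrix (Fin 2) (Fin 2) k).trace ∧
      ((ρ' g : GL (Fin 2) k) : Matrix (Fin 2) (Fin 2) k).det =
        ((ρ g : GL (Fin 2) k) : Matrix (Fin 2) (Fin 2) k).det := by
  by_cases h : ∀ W : Submodule k (Fin 2 → k),
      (∀ g, ∀ x ∈ W, ((ρ g : GL (Fin 2) k) : Matrix (Fin 2) (Fin 2) k) *ᵥ x ∈ W) → W = ⊥ ∨ W = ⊤
  · refine ⟨ρ, Or.inl ?_, le_rfl, fun g ↦ ⟨rfl, rfl⟩⟩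
    let e : Matrix (Fin 2) (Fin 2) k ≃ₐ[k] Module.End k (Fin 2 → k) := Matrix.toLinAlgEquiv'
    let R : Γ →* Module.End k (Fin 2 → k) :=
      e.toAlgHom.toRingHom.toMonoidHom.comp ((Units.coeHom _).comp ρ)
    have htop := TraceFn.span_range_eq_top_of_irreducible R fun W hW ↦ h W fun g x hx ↦ hW g x hx
    have hrange : Set.range (fun g ↦ ((ρ g : GL (Fin 2) k) : Matrix (Fin 2) (Fin 2) k)) =
        e.symm.toLinearMap '' Set.range R := by
      rw [← Set.range_comp]
      exact congrArg Set.range (funext fun g ↦ (e.symm_apply_apply _).symm)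
    rw [hrange, Submodule.span_image, htop, Submodule.map_top, LinearMap.range_eq_top]
    exact e.symm.surjective
  · push Not at h
    obtain ⟨W, hW, hbot, htop⟩ := h
    obtain ⟨χ₁, χ₂, htd, h1, h2⟩ := exists_chars_of_invariant ρ hW hbot htop
    refine ⟨diagRep χ₁ χ₂, Or.inr fun g ↦ ⟨rfl, rfl⟩, fun g hg ↦ Units.ext ?_, fun g ↦ ?_⟩
    · rw [diagRep_apply, show χ₁ g = 1 from h1 hg, show χ₂ g = 1 from h2 hg]
      ext i j
      fin_cases i <;> fin_cases j <;> simp
    · rw [diagRep_apply, trace_fin_two, det_fin_two, (htd g).1, (htd g).2]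
      simp

/-- A semisimple finite image most of whose elements have one of `M` characteristic polynomials
is bounded by `4 M ^ 4`. -/
theorem card_le_of_few_charpolys {G : Type*} [Group G] [Fintype G] (R : G →* GL (Fin 2) k)
    (hR : Function.Injective R) (hss : IsSplitOrFull R) (S : Finset (k × k))
    (hbad : 8 * (univ.filter fun g ↦ (((R g : GL (Fin 2) k) : Matrix (Fin 2) (Fin 2) k).trace,
      ((R g : GL (Fin 2) k) : Matrix (Fin 2) (Fin 2) k).det) ∉ S).card ≤ Fintype.card G) :
    Fintype.card G ≤ 4 * S.card ^ 4 := by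
  set m : G → Matrix (Fin 2) (Fin 2) k := fun g ↦ ((R g : GL (Fin 2) k) : Matrix (Fin 2) (Fin 2) k)
  set bad := univ.filter fun g ↦ ((m g).trace, (m g).det) ∉ S with hbaddef
  have hinj : Function.Injective m := fun a b h ↦ hR (Units.ext h)
  have hpos : 0 < Fintype.card G := Fintype.card_pos
  have hSpos : 1 ≤ S.card := by
    by_contra h0
    have : bad = univ := Finset.filter_true_of_mem fun g _ ↦ by
      rw [Finset.card_eq_zero.1 (by omega : S.card = 0)]; exact notMem_empty _
    rw [this, card_univ] at hbad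
    omega
  rcases hss with hfull | hdiag
  · obtain ⟨b, hb, hspan, hli⟩ := exists_linearIndependent k (Set.range m)
    rw [hfull] at hspan
    have : Fintype b := ((Set.finite_range m).subset hb).fintype
    have hb4 : Fintype.card b = 4 := by
      have h1 := finrank_span_set_eq_card hli
      rw [hspan, finrank_top, Module.finrank_matrix, Fintype.card_fin, Module.finrank_self,
        Set.toFinset_card] at h1
      omega
    choose pre hpre using fun x : b ↦ hb x.2
    -- the elements whose products with the basis are all good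
    set good := univ.filter fun g : G ↦ ∀ x : b, g * pre x ∉ bad with hgood
    have h1 : (univ.filter fun g : G ↦ g ∉ good).card ≤ 4 * bad.card := by
      calc _ ≤ (univ.biUnion fun x : b ↦ bad.image fun h ↦ h * (pre x)⁻¹).card := by
            refine card_le_card fun g hg ↦ ?_
            simp only [hgood, mem_filter, mem_univ, true_and, not_forall, not_not] at hg
            obtain ⟨x, hx⟩ := hg
            exact mem_biUnion.2 ⟨x, mem_univ _, mem_image.2 ⟨_, hx, mul_inv_cancel_right _ _⟩⟩
        _ ≤ ∑ _x : b, bad.card := card_biUnion_le.trans (sum_le_sum fun x _ ↦ card_image_le)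
        _ = 4 * bad.card := by
            rw [sum_const, card_univ, smul_eq_mul, hb4]
    have h2 : good.card ≤ S.card ^ 4 := by
      let T := S.image Prod.fst
      calc good.card ≤ (Fintype.piFinset fun _ : b ↦ T).card := by
            refine card_le_card_of_injOn (fun g (x : b) ↦ (m g * (x : Matrix (Fin 2) (Fin 2) k)).trace)
              (fun g hg ↦ ?_) fun g _ h _ hgh ↦ hinj ?_
            · rw [mem_coe] at hg ⊢
              refine Fintype.mem_piFinset.2 fun x ↦ ?_
              have hgx := (mem_filter.1 hg).2 x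
              rw [hbaddef, mem_filter, and_iff_right (mem_univ _), not_not] at hgx
              refine mem_image.2 ⟨_, hgx, ?_⟩
              show (m (g * pre x)).trace = _
              simp [m, ← hpre x]
            · have hL : ((Matrix.traceLinearMap (Fin 2) k k).comp
                  (LinearMap.mulLeft k (m g - m h))) = 0 := by
                refine LinearMap.ext_on hspan fun x hx ↦ ?_
                have := congrFun hgh ⟨x, hx⟩
                simpa [sub_mul, sub_eq_zero] using this
              refine sub_eq_zero.1 ?_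
              ext i j
              have := LinearMap.congr_fun hL (Matrix.single j i 1)
              simpa [Matrix.trace_mul_single] using this
        _ = T.card ^ 4 := by
            rw [Fintype.card_piFinset, prod_const, card_univ, hb4]
        _ ≤ S.card ^ 4 := Nat.pow_le_pow_left card_image_le 4
    have h3 : good.card + (univ.filter fun g : G ↦ g ∉ good).card = Fintype.card G := by
      rw [← card_univ, ← card_filter_add_card_filter_not (fun g ↦ g ∈ good) (s := univ),
        filter_mem_eq_inter, univ_inter]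
    omega
  · set good := univ.filter fun g ↦ ((m g).trace, (m g).det) ∈ S
    have h3 : good.card + bad.card = Fintype.card G := by
      rw [hbaddef, card_filter_add_card_filter_not, card_univ]
    have h2 : good.card ≤ 2 * S.card := by
      calc good.card ≤ (S.biUnion fun td ↦ good.filter fun g ↦ ((m g).trace, (m g).det) = td).card :=
            card_le_card fun g hg ↦ mem_biUnion.2 ⟨_, (mem_filter.1 hg).2, mem_filter.2 ⟨hg, rfl⟩⟩
        _ ≤ ∑ td ∈ S, 2 := card_biUnion_le.trans (sum_le_sum fun td _ ↦ ?_)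
        _ = 2 * S.card := by rw [sum_const, smul_eq_mul, mul_comm]
      set F := good.filter fun g ↦ ((m g).trace, (m g).det) = td
      have hroot : ∀ g ∈ F, (m g 0 0) ^ 2 - td.1 * m g 0 0 + td.2 = 0 ∧
          m g 1 1 = td.1 - m g 0 0 := fun g hg ↦ by
        rw [← (mem_filter.1 hg).2]
        simp only [trace_fin_two, det_fin_two, (hdiag g).1, m]
        constructor <;> ring
      rcases F.eq_empty_or_nonempty with hF | ⟨g₀, hg₀⟩
      · simp [hF]
      refine (card_le_card_of_injOn (t := {m g₀ 0 0, td.1 - m g₀ 0 0}) (fun g ↦ m g 0 0)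
        (fun g hg ↦ ?_) fun g hg h hh hgh ↦ hinj ?_).trans card_le_two
      · rw [mem_coe] at hg ⊢
        have : (m g 0 0 - m g₀ 0 0) * (m g 0 0 - (td.1 - m g₀ 0 0)) = 0 := by
          linear_combination (hroot g hg).1 - (hroot g₀ hg₀).1
        rcases mul_eq_zero.1 this with h' | h' <;> simp [sub_eq_zero.1 h']
      · ext i j
        fin_cases i <;> fin_cases j
        · exact hgh
        · exact ((hdiag g).1).trans (hdiag h).1.symm
        · exact ((hdiag g).2).trans (hdiag h).2.symm
        · exact (hroot g hg).2.trans ((congrArg (td.1 - ·) hgh).trans (hroot h hh).2.symm)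
    have : S.card ≤ S.card ^ 4 := Nat.le_self_pow (by norm_num) _
    omega

end Fermat.Agent.DS
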