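import Fermat.Agent.DS.FrobAverage
import Fermat.Agent.DS.TraceBound
import Mathlib.RingTheory.Polynomial.Cyclotomic.Basic
import Mathlib.RingTheory.IntegralClosure.IntegrallyClosed
import Mathlib.FieldTheory.IsAlgClosed.AlgebraicClosure

/-!
# Auxiliary facts for assembling the Deligne–Serre representation
-/

set_option autoImplicit false
set_option synthInstance.maxHeartbeats 100000

noncomputable section

namespace Fermat.Agent.DS

open Matrix Polynomial
open scoped Classical

attribute [local instance] Density.normal_qbar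

/-- Reduction maps from the algebraic integers in every residue characteristic. -/
theorem exists_residueMap (l : ℕ) [hl : Fact l.Prime] :
    Nonempty (integralClosure ℤ ℂ →+* AlgebraicClosure (ZMod l)) := by
  have hspan : Ideal.span {(l : integralClosure ℤ ℂ)} ≠ ⊤ := by
    intro h
    rw [Ideal.span_singleton_eq_top] at h
    obtain ⟨u, hu⟩ := isUnit_iff_exists_inv.1 h
    have h1 : ((l : ℚ) : ℂ) * (u : ℂ) = 1 := by
      have := congrArg (fun x : integralClosure ℤ ℂ ↦ (x : ℂ)) hu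
      simpa using this
    have h2 : IsIntegral ℤ ((l : ℚ)⁻¹) := by
      refine (isIntegral_algebraMap_iff (A := ℚ) (B := ℂ)
        (algebraMap ℚ ℂ).injective).1 ?_
      rw [map_inv₀, eq_ratCast, ← eq_inv_of_mul_eq_one_right h1]
      exact u.2
    obtain ⟨z, hz⟩ := IsIntegrallyClosed.isIntegral_iff.1 h2
    have h3 : (l : ℤ) * z = 1 := by
      have : (l : ℚ) * z = 1 := by
        rw [show ((z : ℤ) : ℚ) = (l : ℚ)⁻¹ by simpa using hz]
        exact mul_inv_cancel₀ (Nat.cast_ne_zero.2 hl.out.ne_zero)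
      exact_mod_cast this
    have := Int.eq_one_of_mul_eq_one_right (by positivity) h3
    exact hl.out.ne_one (by exact_mod_cast this)
  obtain ⟨m, hm, hle⟩ := Ideal.exists_le_maximal _ hspan
  let : Field (integralClosure ℤ ℂ ⧸ m) := Ideal.Quotient.field m
  have hl0 : ((l : ℕ) : integralClosure ℤ ℂ ⧸ m) = 0 := by
    rw [← map_natCast (Ideal.Quotient.mk m), Ideal.Quotient.eq_zero_iff_mem]
    exact hle (Ideal.mem_span_singleton_self _)
  have : CharP (integralClosure ℤ ℂ ⧸ m) l := by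
    obtain ⟨c, hc⟩ := CharP.exists (integralClosure ℤ ℂ ⧸ m)
    rcases (Nat.dvd_prime hl.out).1 ((CharP.cast_eq_zero_iff _ c l).1 hl0) with h | h
    · subst h
      exact absurd hc (fun h ↦ CharP.char_ne_one (integralClosure ℤ ℂ ⧸ m) 1 rfl)
    · exact h ▸ hc
  let : Algebra (ZMod l) (integralClosure ℤ ℂ ⧸ m) := (ZMod.castHom dvd_rfl _).toAlgebra
  have hint : Algebra.IsIntegral ℤ (integralClosure ℤ ℂ ⧸ m) :=
    Algebra.IsIntegral.of_surjective (Ideal.Quotient.mkₐ ℤ m) (Ideal.Quotient.mkₐ_surjective ℤ m)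
  have : IsScalarTower ℤ (ZMod l) (integralClosure ℤ ℂ ⧸ m) :=
    IsScalarTower.of_algebraMap_eq' (Subsingleton.elim _ _)
  have : Algebra.IsAlgebraic (ZMod l) (integralClosure ℤ ℂ ⧸ m) :=
    ⟨fun x ↦ ((Algebra.IsIntegral.isIntegral (R := ℤ) x).tower_top).isAlgebraic⟩
  exact ⟨(IsAlgClosed.lift (R := ZMod l) (S := integralClosure ℤ ℂ ⧸ m)
    (M := AlgebraicClosure (ZMod l))).toRingHom.comp (Ideal.Quotient.mk m)⟩

/-- Character values are integral. -/
theorem isIntegral_dirichlet {N : ℕ} [NeZero N] (ε : DirichletCharacter ℂ N) (x : ZMod N) :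
    IsIntegral ℤ (ε x) := by
  by_cases hx : IsUnit x
  · obtain ⟨u, rfl⟩ := hx
    refine IsIntegral.of_pow (n := Fintype.card (ZMod N)ˣ) Fintype.card_pos ?_
    rw [← map_pow, ← Units.val_pow_eq_pow_val, pow_card_eq_one, Units.val_one, map_one]
    exact isIntegral_one
  · rw [MulChar.map_nonunit ε hx]
    exact isIntegral_zero

/-- A representation factoring through a finite level has finite image. -/
theorem finite_range_of_factors {G : Type} [Group G] {ρ : GalQ →* G}
    (h : GaloisFactorsThroughFiniteLevel ρ) : Finite ρ.range := by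
  obtain ⟨L₀, hL₀, hρ⟩ := h
  let L := IntermediateField.normalClosure ℚ L₀ (AlgebraicClosure ℚ)
  have : Normal ℚ L := normalClosure.normal ℚ _ _
  have hrs : Function.Surjective (AlgEquiv.restrictNormalHom (F := ℚ) (K₁ := AlgebraicClosure ℚ) L) :=
    AlgEquiv.restrictNormalHom_surjective _
  have hker : (AlgEquiv.restrictNormalHom L).ker ≤ ρ.ker := fun σ hσ ↦ hρ σ fun x hx ↦ by
    have h1 := AlgEquiv.restrictNormal_commutes σ L ⟨x, IntermediateField.le_normalClosure L₀ hx⟩
    rw [show σ.restrictNormal L = 1 from hσ] at h1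
    exact h1.symm
  let π : (L ≃ₐ[ℚ] L) →* G := MonoidHom.liftOfSurjective _ hrs ⟨ρ, hker⟩
  have hπ : ∀ σ : GalQ, π (AlgEquiv.restrictNormalHom L σ) = ρ σ := fun σ ↦
    MonoidHom.liftOfRightInverse_comp_apply _ _ _ ⟨ρ, hker⟩ σ
  refine Finite.of_surjective (fun y : L ≃ₐ[ℚ] L ↦ (⟨π y, ?_⟩ : ρ.range)) fun ⟨_, σ, hσ⟩ ↦
    ⟨AlgEquiv.restrictNormalHom L σ, Subtype.ext ((hπ σ).trans hσ)⟩
  obtain ⟨σ, rfl⟩ := hrs y
  exact ⟨σ, (hπ σ).symm⟩

/-- Factoring passes to representations with a larger kernel. -/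
theorem factors_of_ker_le {G G' : Type} [Group G] [Group G'] {ρ : GalQ →* G} {ρ' : GalQ →* G'}
    (h : GaloisFactorsThroughFiniteLevel ρ) (hk : ρ.ker ≤ ρ'.ker) :
    GaloisFactorsThroughFiniteLevel ρ' :=
  let ⟨L, hL, hρ⟩ := h
  ⟨L, hL, fun σ hσ ↦ hk (hρ σ hσ)⟩

/-- Frobenius elements of every class occur at infinitely many primes. -/
theorem exists_mem_frobPrimes {G : Type} [Group G] [Finite G] (ρ : GalQ →* G)
    (hfac : GaloisFactorsThroughFiniteLevel ρ) (hsurj : Function.Surjective ρ) (g : G)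
    (S : Finset ℕ) : ∃ p, p ∉ S ∧ p ∈ frobPrimes ρ (conjugatesOf g) := by
  by_contra! hno
  obtain ⟨D, hD⟩ := chebotarev_lower ρ hfac hsurj g (show (0 : ℝ) < 1 / 2 by norm_num)
  have h := nonpos_of_mul_log_le (a := (1 - 1 / 2) * ((Nat.card (conjugatesOf g) : ℝ) / Nat.card G))
    (B := S.card + D) fun s hs hs2 ↦ by
      obtain ⟨P, hP, hsum⟩ := hD s hs hs2
      have hPS : P ⊆ S := fun p hp ↦ by_contra fun hpS ↦ hno p hpS (hP p hp)
      have h1 : ∑ p ∈ P, (p : ℝ) ^ (-s) ≤ S.card := by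
        calc _ ≤ ∑ _p ∈ P, (1 : ℝ) := Finset.sum_le_sum fun p hp ↦
              Real.rpow_le_one_of_one_le_of_nonpos (Nat.one_le_cast.2 (hP p hp).1.one_le) (by linarith)
          _ ≤ _ := by simpa using Finset.card_le_card hPS
      linarith
  have h1 : (0 : ℝ) < Nat.card (conjugatesOf g) := Nat.cast_pos.2
    (Nat.card_pos_iff.2 ⟨⟨⟨g, mem_conjugatesOf_self⟩⟩, inferInstance⟩)
  have h2 : (0 : ℝ) < Nat.card G := Nat.cast_pos.2 Nat.card_pos
  nlinarith [div_pos h1 h2]

variable {k : Type*} [Field k]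

/-- Trace and determinant of an element of finite order are sums and products of roots of unity
coming from characteristic zero. -/
theorem exists_roots_of_pow_eq_one [IsAlgClosed k] (φ : integralClosure ℤ ℂ →+* k)
    {ζ : integralClosure ℤ ℂ} {n : ℕ} (hn : 0 < n) (hζ : IsPrimitiveRoot ζ n)
    (g : GL (Fin 2) k) (hg : g ^ n = 1) :
    ∃ i < n, ∃ j < n, (g : Matrix (Fin 2) (Fin 2) k).trace = φ (ζ ^ i + ζ ^ j) ∧
      (g : Matrix (Fin 2) (Fin 2) k).det = φ (ζ ^ i * ζ ^ j) := by
  set A : Matrix (Fin 2) (Fin 2) k := (g : Matrix (Fin 2) (Fin 2) k) with hA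
  have hroot : ∀ c : k, c * c - A.trace * c + A.det = 0 → ∃ i < n, φ (ζ ^ i) = c := by
    intro c hc
    obtain ⟨v, hv0, hv⟩ := (exists_mulVec_eq_zero_iff (M := A - c • 1)).2 (by
      rw [det_fin_two]
      simp [trace_fin_two, det_fin_two] at hc ⊢
      linear_combination hc)
    have hAv : A *ᵥ v = c • v := by
      rwa [sub_mulVec, smul_mulVec, one_mulVec, sub_eq_zero] at hv
    have hpow : ∀ m : ℕ, (A ^ m) *ᵥ v = c ^ m • v := fun m ↦ by
      induction m with
      | zero => simp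
      | succ m ih => rw [pow_succ, ← mulVec_mulVec, hAv, mulVec_smul, ih, smul_smul, pow_succ']
    have hc1 : c ^ n = 1 := by
      refine smul_left_injective k hv0 ?_
      show c ^ n • v = (1 : k) • v
      rw [← hpow, hA, ← Units.val_pow_eq_pow_val, hg, Units.val_one, one_mulVec, one_smul]
    have h0 := congrArg (Polynomial.eval₂ φ c) (X_pow_sub_one_eq_prod hn hζ)
    rw [eval₂_sub, eval₂_X_pow, eval₂_one, hc1, sub_self, eval₂_finsetProd, eq_comm,
      Finset.prod_eq_zero_iff] at h0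
    obtain ⟨x, hx, hxc⟩ := h0
    rw [eval₂_sub, eval₂_X, eval₂_C, sub_eq_zero] at hxc
    have : NeZero n := ⟨hn.ne'⟩
    obtain ⟨i, hi, rfl⟩ := hζ.eq_pow_of_pow_eq_one ((Polynomial.mem_nthRootsFinset hn 1).1 hx)
    exact ⟨i, hi, hxc.symm⟩
  obtain ⟨c, hc⟩ := IsAlgClosed.exists_root (X ^ 2 - C A.trace * X + C A.det : k[X]) (by
    rw [degree_eq_natDegree (Monic.ne_zero (by monicity!))]
    have : (X ^ 2 - C A.trace * X + C A.det : k[X]).natDegree = 2 := by compute_degree!
    rw [this]; norm_num)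
  simp only [IsRoot.def, eval_add, eval_sub, eval_pow, eval_X, eval_mul, eval_C] at hc
  obtain ⟨i, hi, hic⟩ := hroot c (by linear_combination hc)
  obtain ⟨j, hj, hjc⟩ := hroot (A.trace - c) (by linear_combination hc)
  exact ⟨i, hi, j, hj, by rw [map_add, hic, hjc]; ring, by
    rw [map_mul, hic, hjc]; linear_combination hc⟩

/-- An element of finite order of `GL₂(ℂ)` with trace `2` and determinant `1` is trivial. -/
theorem eq_one_of_trace_det {g : GL (Fin 2) ℂ} {n : ℕ} (hn : n ≠ 0) (hg : g ^ n = 1)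
    (ht : (g : Matrix (Fin 2) (Fin 2) ℂ).trace = 2) (hd : (g : Matrix (Fin 2) (Fin 2) ℂ).det = 1) :
    g = 1 := by
  set A : Matrix (Fin 2) (Fin 2) ℂ := (g : Matrix (Fin 2) (Fin 2) ℂ) with hA
  set B := A - 1 with hB
  have hBB : B * B = 0 := by
    rw [trace_fin_two] at ht
    rw [det_fin_two] at hd
    ext i j
    fin_cases i <;> fin_cases j <;> simp [hB, Matrix.mul_apply, Fin.sum_univ_two]
    · linear_combination A 0 0 * ht - hd
    · linear_combination A 0 1 * ht
    · linear_combination A 1 0 * ht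
    · linear_combination A 1 1 * ht - hd
  have hpow : ∀ m : ℕ, A ^ m = 1 + (m : ℂ) • B := fun m ↦ by
    induction m with
    | zero => simp
    | succ m ih =>
      rw [pow_succ, ih, show A = 1 + B by rw [hB]; abel]
      simp only [mul_add, add_mul, one_mul, mul_one, smul_mul_assoc, hBB, smul_zero, add_zero]
      push_cast
      rw [add_smul, one_smul]
      abel
  have h := hpow n
  rw [hA, ← Units.val_pow_eq_pow_val, hg, Units.val_one, left_eq_add, smul_eq_zero] at h
  rcases h with h | h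
  · exact absurd (Nat.cast_eq_zero.1 h) hn
  · exact Units.ext (sub_eq_zero.1 h)

end Fermat.Agent.DS
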