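import Fermat.Agent.DS.Defs
import Fermat.Agent.EIS.QSer
import Fermat.Agent.LT.WeightOne.Gamma1Forms
import Mathlib.NumberTheory.LSeries.PrimesInAP

/-!
# An eigen system on `Γ₁(N)` has a nebentypus

The Hecke relations on the coefficients at the primes not dividing `N` force the diamond operators
to act by `ε`: the difference `⟨p⟩ f - ε(p) f` is a form `G` with `G(pτ)` again on `Γ₁(N)`, and
such a form vanishes.
-/

set_option autoImplicit false
set_option linter.style.haveILetI false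

noncomputable section

namespace Fermat.Agent.DS

open CongruenceSubgroup UpperHalfPlane ModularFormClass Matrix.SpecialLinearGroup
open Fermat.Agent.LT.WeightOne
open scoped MatrixGroups ModularForm

variable {N : ℕ} [NeZero N] {k : ℤ}

/-- Multiplication of the variable by a positive integer. -/
def upScale (q : ℕ) [NeZero q] (τ : ℍ) : ℍ :=
  ⟨(q : ℂ) * τ, by
    simpa using mul_pos (Nat.cast_pos.2 (Nat.pos_of_ne_zero (NeZero.ne q))) τ.im_pos⟩

theorem coe_upScale (q : ℕ) [NeZero q] (τ : ℍ) : (upScale q τ : ℂ) = (q : ℂ) * τ := rfl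

theorem isQSer_form (H : CuspForm (Gamma1 N) k) : EIS.IsQSer 1 ⇑H (qExpansion 1 ⇑H) :=
  EIS.isQSer_qExpansion one_pos (periodic_form H) (CuspFormClass.holo H) (bdd_form H)

theorem forall_eq_upScale_iff {q : ℕ} [NeZero q] (G H : CuspForm (Gamma1 N) k) :
    (∀ τ, H τ = G (upScale q τ)) ↔
      ∀ n, qCoeff H n = if q ∣ n then qCoeff G (n / q) else 0 := by
  have hG := (isQSer_form G).comp_mul (NeZero.ne q) (m := upScale q) (coe_upScale q)
  constructor
  · intro h n
    have hu := (isQSer_form H).unique one_pos (hG.congr fun τ => (h τ).symm)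
    show (qExpansion 1 ⇑H).coeff n = _
    rw [hu, PowerSeries.coeff_expand]
    rfl
  · intro h τ
    have hu : qExpansion 1 ⇑H = PowerSeries.expand q (NeZero.ne q) (qExpansion 1 ⇑G) := by
      ext n
      rw [PowerSeries.coeff_expand]
      exact h n
    have h1 := isQSer_form H τ
    rw [hu] at h1
    exact h1.unique (hG τ)

/-- `G(qτ)` is a form on `Γ₁(N)`. -/
def Raisable (q : ℕ) (G : CuspForm (Gamma1 N) k) : Prop :=
  ∃ H : CuspForm (Gamma1 N) k, ∀ n, qCoeff H n = if q ∣ n then qCoeff G (n / q) else 0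

theorem exists_coprime_congr {p : ℕ} (hp : p.Prime) (hpN : ¬ p ∣ N) {a : ℕ} (ha : a.Coprime N)
    (i : ℕ) : ∃ a' : ℕ, a'.Coprime (N * p ^ i) ∧ a'.Coprime N ∧ (a' : ZMod N) = (a : ZMod N) := by
  obtain ⟨a', h1, h2, h3⟩ : ∃ a' : ℕ, ¬ p ∣ a' ∧ a'.Coprime N ∧ (a' : ZMod N) = (a : ZMod N) := by
    by_cases h : p ∣ a
    · exact ⟨a + N, fun h' => hpN ((Nat.dvd_add_right h).1 h'), Nat.coprime_add_self_left.2 ha,
        by simp⟩
    · exact ⟨a, h, ha, rfl⟩
  exact ⟨a', h2.mul_right (((hp.coprime_iff_not_dvd).2 h1).symm.pow_right i), h2, h3⟩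

theorem diaForm_congr' {a b : ℕ} (ha : a.Coprime N) (hb : b.Coprime N)
    (h : (a : ZMod N) = (b : ZMod N)) (f : CuspForm (Gamma1 N) k) : diaForm a f = diaForm b f :=
  DFunLike.coe_injective <| (isInv_form f).slash_eq_of_map_eq
    (by rw [gamma0Map_lowRow ha, gamma0Map_lowRow hb, h])

theorem Raisable.diaForm {p : ℕ} (hp : p.Prime) (hpN : ¬ p ∣ N) {a : ℕ} (ha : a.Coprime N) {i : ℕ}
    {G H : CuspForm (Gamma1 N) k}
    (hH : ∀ n, qCoeff H n = if p ^ i ∣ n then qCoeff G (n / p ^ i) else 0) :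
    ∀ n, qCoeff (diaForm a H) n =
      if p ^ i ∣ n then qCoeff (LT.WeightOne.diaForm a G) (n / p ^ i) else 0 := by
  haveI : NeZero (p ^ i) := ⟨pow_ne_zero i hp.ne_zero⟩
  haveI : NeZero (N * p ^ i) := ⟨mul_ne_zero (NeZero.ne N) (NeZero.ne _)⟩
  set q := p ^ i with hq
  have hfun := (forall_eq_upScale_iff G H).2 hH
  obtain ⟨a', h1, h2, h3⟩ := exists_coprime_congr hp hpN ha i
  rw [← forall_eq_upScale_iff]
  intro τ
  -- the two matrices
  set γ : SL(2, ℤ) := (lowRow (N * q) a' : SL(2, ℤ)) with hγdef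
  obtain ⟨c, hc⟩ : ((N * q : ℕ) : ℤ) ∣ γ 1 0 :=
    (ZMod.intCast_zmod_eq_zero_iff_dvd _ _).1 (Gamma0_mem.1 (lowRow (N * q) a').2)
  have h11 : γ 1 1 = (a' : ℤ) := lowRow_one_one h1
  have hdet : γ 0 0 * γ 1 1 - γ 0 1 * γ 1 0 = 1 := (Matrix.det_fin_two _).symm.trans γ.det_coe
  push_cast at hc
  let δ : SL(2, ℤ) := ⟨!![γ 0 0, (q : ℤ) * γ 0 1; (N : ℤ) * c, γ 1 1], by
    rw [Matrix.det_fin_two_of]
    linear_combination hdet + γ 0 1 * hc⟩
  have hγN : γ ∈ Gamma0 N := Gamma0_mem.2 ((ZMod.intCast_zmod_eq_zero_iff_dvd _ _).2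
    ⟨(q : ℤ) * c, by rw [hc]; ring⟩)
  have hδN : δ ∈ Gamma0 N := Gamma0_mem.2 ((ZMod.intCast_zmod_eq_zero_iff_dvd _ _).2 ⟨c, rfl⟩)
  have eγ : Gamma0Map N ⟨γ, hγN⟩ = Gamma0Map N (lowRow N a) := by
    rw [gamma0Map_lowRow ha, ← h3]
    show ((γ 1 1 : ℤ) : ZMod N) = _
    rw [h11, Int.cast_natCast]
  have eδ : Gamma0Map N ⟨δ, hδN⟩ = Gamma0Map N (lowRow N a) := by
    rw [gamma0Map_lowRow ha, ← h3]
    show ((γ 1 1 : ℤ) : ZMod N) = _
    rw [h11, Int.cast_natCast]
  show (⇑H ∣[k] (lowRow N a : SL(2, ℤ))) τ = (⇑G ∣[k] (lowRow N a : SL(2, ℤ))) (upScale q τ)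
  rw [← (isInv_form H).slash_eq_of_map_eq (γ := ⟨γ, hγN⟩) eγ,
    ← (isInv_form G).slash_eq_of_map_eq (γ := ⟨δ, hδN⟩) eδ]
  show (⇑H ∣[k] γ) τ = (⇑G ∣[k] δ) (upScale q τ)
  have hden : denom δ (upScale q τ) = denom γ τ := by
    rw [ModularGroup.denom_apply, ModularGroup.denom_apply]
    simp [coe_upScale, δ, hc]
    ring
  have hsmul : upScale q (γ • τ) = δ • upScale q τ := by
    apply UpperHalfPlane.ext
    rw [coe_upScale, UpperHalfPlane.coe_specialLinearGroup_apply,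
      UpperHalfPlane.coe_specialLinearGroup_apply]
    simp [δ, hc, coe_upScale]
    field_simp
  rw [ModularForm.SL_slash_apply, ModularForm.SL_slash_apply, hfun, hsmul, hden]

theorem exists_bound (N : ℕ) [NeZero N] (k : ℤ) :
    ∃ B : ℕ, ∀ f : CuspForm (Gamma1 N) k, (∀ n ≤ B, qCoeff f n = 0) → f = 0 := by
  set B := (k * ((Gamma1 N : Subgroup SL(2, ℤ)) : Subgroup (GL (Fin 2) ℝ)).relIndex 𝒮ℒ).toNat / 12
  refine ⟨B, fun f hf => ?_⟩
  have h0 : (ModularFormClass.modularForm f : ModularForm (Gamma1 N) k) = 0 := by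
    refine ModularForm.sturm_bound_of_isArithmetic (one_mem_strictPeriods_Gamma1 N) ?_
    refine lt_of_lt_of_le (b := ((B + 1 : ℕ) : ℕ∞)) (by exact_mod_cast Nat.lt_succ_self B) ?_
    exact PowerSeries.nat_le_order _ _ fun i hi => hf i (by omega)
  exact DFunLike.coe_injective
    (by simpa using congrArg (fun F : ModularForm (Gamma1 N) k => (⇑F : ℍ → ℂ)) h0)

/-- A form `G` with `G(pτ)` on `Γ₁(N)` vanishes, for a prime `p ∤ N`. -/
theorem eq_zero_of_raisable {p : ℕ} (hp : p.Prime) (hpN : ¬ p ∣ N) (G : CuspForm (Gamma1 N) k)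
    (hG : Raisable p G) : G = 0 := by
  haveI := Fact.mk hp
  have hpc : p.Coprime N := coprime_of_not_dvd hpN
  -- the inverse diamond
  let u : (ZMod N)ˣ := (ZMod.unitOfCoprime p hpc)⁻¹
  have key : ∀ j, ∀ G : CuspForm (Gamma1 N) k, Raisable p G →
      Raisable (p ^ j) G ∧ Raisable (p ^ (j + 1)) G := by
    intro j
    induction j with
    | zero => exact fun G hG => ⟨⟨G, fun n => by simp⟩, by simpa using hG⟩
    | succ j ih =>
      intro G hG
      refine ⟨(ih G hG).2, ?_⟩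
      have huc := ZMod.val_coe_unit_coprime u
      set G' := LT.WeightOne.diaForm (u : ZMod N).val G with hG'
      have hG'r : Raisable p G' := by
        obtain ⟨H, hH⟩ := hG
        refine ⟨LT.WeightOne.diaForm (u : ZMod N).val H, fun n => ?_⟩
        have := Raisable.diaForm hp hpN huc (i := 1) (G := G) (H := H) (fun n => by rw [pow_one]; exact hH n) n
        rwa [pow_one] at this
      obtain ⟨⟨H₀, hH₀⟩, ⟨H₁, hH₁⟩⟩ := ih G' hG'r
      have hback : LT.WeightOne.diaForm p G' = G := by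
        rw [hG', diaForm_diaForm huc hpc (Nat.coprime_one_left N) (by simp [u])]
        exact DFunLike.coe_injective <|
          (isInv_form G).diaFun_of_eq_one (Nat.coprime_one_left N) Nat.cast_one
      have hd := Raisable.diaForm hp hpN hpc hH₁
      rw [hback] at hd
      have hpk : (p : ℂ) ^ (k - 1) ≠ 0 := zpow_ne_zero _ (Nat.cast_ne_zero.2 hp.ne_zero)
      refine ⟨((p : ℂ) ^ (k - 1))⁻¹ • (heckeForm p H₁ - H₀), fun n => ?_⟩
      rw [qCoeff_form_smul, ← coeffLin_apply, map_sub, coeffLin_apply, coeffLin_apply,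
        qCoeff_heckeForm, hH₁, hd, hH₀]
      have e0 : p ^ (j + 1) ∣ n * p ↔ p ^ j ∣ n := by
        rw [pow_succ, Nat.mul_dvd_mul_iff_right hp.pos]
      have e1 : n * p / p ^ (j + 1) = n / p ^ j := by
        rw [pow_succ, Nat.mul_div_mul_right _ _ hp.pos]
      simp only [e0, e1, hpN, not_false_eq_true, true_and, add_sub_cancel_left]
      by_cases hn : p ∣ n
      · rw [if_pos hn, ← mul_assoc, inv_mul_cancel₀ hpk, one_mul, pow_succ' p (j + 1),
          Nat.div_div_eq_div_mul]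
        obtain ⟨m, rfl⟩ := hn
        simp [Nat.mul_dvd_mul_iff_left hp.pos, Nat.mul_div_cancel_left _ hp.pos]
      · rw [if_neg hn, mul_zero,
          if_neg fun h => hn ((dvd_pow_self p (Nat.succ_ne_zero _)).trans h)]
  obtain ⟨B, hB⟩ := exists_bound N k
  obtain ⟨H, hH⟩ := (key B G hG).2
  have hH0 : H = 0 := hB H fun n hn => by
    rw [hH]
    split_ifs with h
    · rcases Nat.eq_zero_or_pos n with rfl | hn0
      · rw [Nat.zero_div, qCoeff_form_zero]
      · have h' := Nat.le_of_dvd hn0 h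
        have := (Nat.lt_pow_self (n := B + 1) hp.one_lt)
        omega
    · rfl
  refine form_ext_qCoeff fun n => ?_
  have h := hH (p ^ (B + 1) * n)
  rw [if_pos (dvd_mul_right _ n), Nat.mul_div_cancel_left _ (pow_pos hp.pos _), hH0,
    ← coeffLin_apply, map_zero] at h
  rw [← h, ← coeffLin_apply, map_zero]

variable (ε : DirichletCharacter ℂ N) (f : CuspForm (Gamma1 N) 1)
  (hT : HeckeRel 1 N (fun p ↦ ε (p : ZMod N)) (qCoeff f))

include hT in
theorem diaForm_prime_eq_smul {p : ℕ} (hp : p.Prime) (hpN : ¬ p ∣ N) :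
    diaForm p f = ε (p : ZMod N) • f := by
  haveI := Fact.mk hp
  rw [← sub_eq_zero]
  refine eq_zero_of_raisable hp hpN _ ⟨heckeForm p f - qCoeff f p • f, fun n => ?_⟩
  have h := heckeRel_one_iff.1 hT p hp hpN n
  rw [← coeffLin_apply, map_sub, coeffLin_apply, coeffLin_apply, qCoeff_heckeForm,
    qCoeff_form_smul, ← h, ← coeffLin_apply (n / p) (diaForm p f - _), map_sub, coeffLin_apply,
    coeffLin_apply, qCoeff_form_smul, mul_comm n p]
  simp only [hpN, not_false_eq_true, true_and, sub_self, zpow_zero, one_mul]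
  split_ifs <;> ring

include hT in
/-- The diamond operators act on a weight one eigen system by `ε`. -/
theorem diaForm_eq_smul {a : ℕ} (ha : a.Coprime N) : diaForm a f = ε (a : ZMod N) • f := by
  obtain ⟨p, hpN, hp, hpa⟩ :=
    Nat.forall_exists_prime_gt_and_eq_mod ((ZMod.isUnit_iff_coprime a N).2 ha) N
  have hpd : ¬ p ∣ N := fun h => by
    have := Nat.le_of_dvd (Nat.pos_of_ne_zero (NeZero.ne N)) h
    omega
  haveI := Fact.mk hp
  rw [← hpa, ← diaForm_prime_eq_smul ε f hT hp hpd,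
    diaForm_congr' ha (coprime_of_not_dvd hpd) hpa.symm]

include hT in
/-- A weight one eigen system has nebentypus `ε`. -/
theorem slash_gamma0_eq_smul (γ : Gamma0 N) :
    (⇑f) ∣[(1 : ℤ)] (γ : SL(2, ℤ)) = ε (((γ : SL(2, ℤ)) 1 1 : ℤ) : ZMod N) • ⇑f := by
  have hu : IsUnit ((((γ : SL(2, ℤ)) 1 1 : ℤ)) : ZMod N) :=
    isUnit_iff_exists_inv.2 ⟨(((γ : SL(2, ℤ)) 0 0 : ℤ) : ZMod N), by
      have hdet := congrArg (fun y : ℤ => (y : ZMod N))
        ((Matrix.det_fin_two _).symm.trans (γ : SL(2, ℤ)).det_coe)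
      simp only [Int.cast_sub, Int.cast_mul, Gamma0_mem.1 γ.2, mul_zero, sub_zero,
        Int.cast_one] at hdet
      rw [mul_comm]; exact hdet⟩
  obtain ⟨u, hu⟩ := hu
  have e : Gamma0Map N γ = Gamma0Map N (lowRow N (u : ZMod N).val) := by
    rw [gamma0Map_lowRow (ZMod.val_coe_unit_coprime u), ZMod.natCast_zmod_val, hu]
    rfl
  rw [← hu, (isInv_form f).slash_eq_of_map_eq e]
  have := congrArg DFunLike.coe (diaForm_eq_smul ε f hT (ZMod.val_coe_unit_coprime u))
  rw [ZMod.natCast_zmod_val] at this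
  exact this

end Fermat.Agent.DS
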