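import Fermat.Agent.DS.Defs
import Fermat.Agent.DS.G1.EigenClass
import Fermat.Agent.DS.G1.GaloisAction
import Fermat.Agent.DS.G1.QuadRep
import Fermat.Agent.Density.Qbar
import Fermat.Agent.Galois.Cyclotomic
import Mathlib.NumberTheory.ModularForms.SlashActions
import Mathlib.FieldTheory.IsAlgClosed.Basic

/-!
# Residual representations attached to weight two eigen systems on `Γ₁(M)`

The Galois action on `parHom M (ZMod l)`, extended to `k`, restricted to the eigenspace of the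
eigen system and twisted by the nebentypus, satisfies a quadratic relation at every element, so it
gives a two-dimensional representation.
-/

set_option autoImplicit false
set_option linter.style.haveILetI false

noncomputable section

namespace Fermat.Agent.DS

open CongruenceSubgroup ModularFormClass
open scoped MatrixGroups ModularForm TensorProduct

attribute [local instance] Density.normal_qbar

/-- The cyclotomic character modulo `M`. -/
def cycMod (M : ℕ) [NeZero M] : GalQ →* (ZMod M)ˣ :=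
  (modularCyclotomicCharacter (AlgebraicClosure ℚ)
      (HasEnoughRootsOfUnity.natCard_rootsOfUnity (AlgebraicClosure ℚ) M)).comp
    { toFun := fun σ ↦ (σ : AlgebraicClosure ℚ ≃+* AlgebraicClosure ℚ)
      map_one' := rfl
      map_mul' := fun _ _ ↦ rfl }

/-- The cyclotomic character has finite level. -/
theorem exists_level_cycMod (M : ℕ) [NeZero M] : GaloisFactorsThroughFiniteLevel (cycMod M) := by
  obtain ⟨ζ, hζ⟩ := HasEnoughRootsOfUnity.exists_primitiveRoot (AlgebraicClosure ℚ) M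
  refine ⟨IntermediateField.adjoin ℚ {ζ},
    IntermediateField.adjoin.finiteDimensional (Algebra.IsIntegral.isIntegral ζ), fun σ hσ ↦
    Units.ext (modularCyclotomicCharacter.unique (AlgebraicClosure ℚ) _ _ (c := 1) fun t ht ↦ ?_).symm⟩
  obtain ⟨i, -, hi⟩ := hζ.eq_pow_of_pow_eq_one ((mem_rootsOfUnity' _ t).1 ht)
  show σ (t : AlgebraicClosure ℚ) = _
  rw [← hi, map_pow, hσ ζ (IntermediateField.mem_adjoin_simple_self ℚ ζ), ZMod.val_one_eq_one_mod]
  exact (pow_one _).symm.trans (pow_eq_pow_mod 1 (by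
    rw [← pow_mul, mul_comm, pow_mul, hζ.pow_eq_one, one_pow]))

theorem apply_eq_of_eqOn {G : Type} [Group G] (f : GalQ →* G)
    {L : IntermediateField ℚ (AlgebraicClosure ℚ)}
    (hf : ∀ σ : GalQ, (∀ x ∈ L, σ x = x) → f σ = 1) {g h : GalQ} (hgh : ∀ x ∈ L, g x = h x) :
    f g = f h := by
  have h1 : f (g⁻¹ * h) = 1 := hf _ fun x hx ↦ by
    rw [AlgEquiv.mul_apply, ← hgh x hx, ← AlgEquiv.mul_apply, inv_mul_cancel, AlgEquiv.one_apply]
  rw [map_mul, map_inv, inv_mul_eq_one] at h1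
  exact h1

/-- An endomorphism-valued character is constant on cosets of the fixing group. -/
theorem apply_eq_of_eqOn' {A : Type} [Monoid A] (f : GalQ →* A)
    {L : IntermediateField ℚ (AlgebraicClosure ℚ)}
    (hf : ∀ σ : GalQ, (∀ x ∈ L, σ x = x) → f σ = 1) {g h : GalQ} (hgh : ∀ x ∈ L, g x = h x) :
    f g = f h :=
  congrArg Units.val (apply_eq_of_eqOn f.toHomUnits (fun σ hσ ↦ Units.ext (hf σ hσ)) hgh)

/-- Powers of a root of a monic quadratic are roots of monic quadratics. -/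
theorem exists_quadRel_pow {k A : Type*} [CommRing k] [Ring A] [Algebra k A] {a : A} {t d : k}
    (h : a * a - t • a + d • (1 : A) = 0) (n : ℕ) :
    ∃ s : k, a ^ n * a ^ n - s • a ^ n + (d ^ n) • (1 : A) = 0 := by
  set b : A := t • (1 : A) - a with hb
  have hab : a * b = d • (1 : A) := by
    rw [hb, mul_sub, mul_smul_comm, mul_one]
    linear_combination (norm := abel) -h
  have hcomm : Commute a b :=
    ((Commute.one_right a).smul_right t).sub_right (Commute.refl a)
  have haa : a * a = t • a - d • (1 : A) := by linear_combination (norm := abel) h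
  have hbb : b * b = t • b - d • (1 : A) := by
    rw [← hab]
    nth_rw 1 [hb]
    rw [sub_mul, smul_mul_assoc, one_mul]
  have key : ∀ m, (∃ s : k, a ^ m + b ^ m = s • (1 : A)) ∧
      ∃ s : k, a ^ (m + 1) + b ^ (m + 1) = s • (1 : A) := by
    intro m
    induction m with
    | zero => exact ⟨⟨2, by simp [two_smul]⟩, ⟨t, by simp [hb]⟩⟩
    | succ m ih =>
      refine ⟨ih.2, ?_⟩
      obtain ⟨⟨s₀, h₀⟩, s₁, h₁⟩ := ih
      refine ⟨t * s₁ - d * s₀, ?_⟩
      have e : ∀ x : A, x * x = t • x - d • (1 : A) →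
          x ^ (m + 2) = t • x ^ (m + 1) - d • x ^ m := fun x hx ↦ by
        rw [pow_add, pow_two, hx, mul_sub, mul_smul_comm, mul_smul_comm, mul_one, ← pow_succ]
      rw [e a haa, e b hbb, sub_smul, mul_smul, mul_smul, ← h₁, ← h₀, smul_add, smul_add]
      abel
  obtain ⟨s, hs⟩ := (key n).1
  refine ⟨s, ?_⟩
  have h2 : a ^ n * b ^ n = (d ^ n) • (1 : A) := by
    rw [← hcomm.mul_pow, hab, smul_pow, one_pow]
  have h3 : b ^ n = s • (1 : A) - a ^ n := eq_sub_of_add_eq' hs
  rw [h3, mul_sub, mul_smul_comm, mul_one] at h2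
  linear_combination (norm := abel) -h2

section Extend

open G1

variable {M l : ℕ} [NeZero M] {k : Type} [Field k] [Algebra (ZMod l) k]

/-- Linear maps on `parHom M k` agreeing on classes with values in `ZMod l` are equal. -/
theorem parHom_ext {W : Type} [AddCommGroup W] [Module k W] {f g : parHom M k →ₗ[k] W}
    (h : ∀ χ, f (parHomMap (algebraMap (ZMod l) k).toAddMonoidHom χ) =
      g (parHomMap (algebraMap (ZMod l) k).toAddMonoidHom χ)) : f = g := by
  refine LinearMap.ext fun x ↦ ?_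
  obtain ⟨y, rfl⟩ := (parHomBaseChange M l k).surjective x
  induction y with
  | zero => simp
  | tmul c χ => rw [parHomBaseChange_tmul, map_smul, map_smul, h]
  | add y z hy hz => rw [map_add, map_add, map_add, hy, hz]

/-- An action on `parHom M (ZMod l)`, extended to `parHom M k`. -/
def extendRep (S : GalQ →* Module.End (ZMod l) (parHom M (ZMod l))) :
    GalQ →* Module.End k (parHom M k) where
  toFun σ := (parHomBaseChange M l k).conj ((S σ).baseChange k)
  map_one' := by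
    rw [map_one, show (1 : Module.End (ZMod l) (parHom M (ZMod l))) = LinearMap.id from rfl,
      LinearMap.baseChange_id, LinearEquiv.conj_id]
    rfl
  map_mul' σ τ := by
    rw [map_mul, LinearMap.baseChange_mul]
    exact LinearEquiv.conj_comp _ _ _

theorem extendRep_apply (S : GalQ →* Module.End (ZMod l) (parHom M (ZMod l))) (σ : GalQ)
    (χ : parHom M (ZMod l)) :
    extendRep (k := k) S σ (parHomMap (algebraMap (ZMod l) k).toAddMonoidHom χ) =
      parHomMap (algebraMap (ZMod l) k).toAddMonoidHom (S σ χ) := by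
  have e : ∀ χ : parHom M (ZMod l), parHomMap (algebraMap (ZMod l) k).toAddMonoidHom χ =
      parHomBaseChange M l k (1 ⊗ₜ[ZMod l] χ) := fun χ ↦ by
    rw [parHomBaseChange_tmul, one_smul]
  rw [e χ, e (S σ χ)]
  show (parHomBaseChange M l k).conj ((S σ).baseChange k) _ = _
  rw [LinearEquiv.conj_apply_apply, LinearEquiv.symm_apply_apply, LinearMap.baseChange_tmul]

/-- `T_p` as a linear map. -/
def heckeTEnd (p : ℕ) [Fact p.Prime] (hpM : ¬ p ∣ M) : Module.End k (parHom M k) where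
  toFun := heckeT M p hpM
  map_add' := map_add _
  map_smul' c φ := heckeT_smul hpM c φ

/-- `⟨p⟩` as a linear map. -/
def diamondEnd (p : ℕ) [Fact p.Prime] : Module.End k (parHom M k) where
  toFun := diamond M p
  map_add' := map_add _
  map_smul' c φ := diamond_smul c φ

end Extend

/-- The mod-`l` representation of a weight two eigen system with character on `Γ₁(M)`,
`l ∣ M`, `l ≥ 5`. -/
theorem exists_residualRep_weightTwo {M : ℕ} [NeZero M] (ψ : DirichletCharacter ℂ M)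
    (g : CuspForm (Gamma1 M) 2) (hg : g ≠ 0) (lam : ℕ → ℂ)
    (hT : ∀ p : ℕ, p.Prime → ¬ p ∣ M → ∀ n : ℕ,
      qCoeff g (p * n) + ψ (p : ZMod M) * (p : ℂ) * (if p ∣ n then qCoeff g (n / p) else 0) =
        lam p * qCoeff g n)
    (hneb : ∀ γ : Gamma0 M, (⇑g) ∣[(2 : ℤ)] (γ : SL(2, ℤ)) =
      ψ (((γ : SL(2, ℤ)) 1 1 : ℤ) : ZMod M) • ⇑g)
    {l : ℕ} (hl : l.Prime) (h5 : 5 ≤ l) (hlM : l ∣ M)
    {k : Type} [Field k] [CharP k l] [IsAlgClosed k] (φ : integralClosure ℤ ℂ →+* k) :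
    ∃ ρ : GalQ →* GL (Fin 2) k, GaloisFactorsThroughFiniteLevel ρ ∧
      ∀ p : ℕ, p.Prime → ¬ p ∣ M →
        ∃ a b : integralClosure ℤ ℂ, (a : ℂ) = lam p ∧ (b : ℂ) = ψ (p : ZMod M) ∧
          UnramifiedWith ρ p (φ a) (φ b * (p : k)) := by
  classical
  haveI : Fact l.Prime := ⟨hl⟩
  haveI : NeZero l := ⟨hl.ne_zero⟩
  letI : Algebra (ZMod l) k := ZMod.algebra k l
  haveI : FiniteDimensional k (G1.parHom M k) :=
    Module.Finite.equiv (G1.parHomLinEquiv M k k).symm
  obtain ⟨x₀, hx₀, hex⟩ := G1.exists_eigenClass g ψ hg lam hT hneb (l := l) φ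
  obtain ⟨S, hSfac, hS⟩ := G1.exists_galois_parHom (M := M) (l := l) h5 hlM
  choose a b hab using hex
  -- the nebentypus as a character into `k`
  have hψint : ∀ x : ZMod M, IsIntegral ℤ (ψ x) := fun x ↦ by
    by_cases hx : IsUnit x
    · obtain ⟨u, rfl⟩ := hx
      refine IsIntegral.of_pow (n := Fintype.card (ZMod M)ˣ) Fintype.card_pos ?_
      rw [← map_pow, ← Units.val_pow_eq_pow_val, pow_card_eq_one, Units.val_one, map_one]
      exact isIntegral_one
    · rw [MulChar.map_nonunit ψ hx]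
      exact isIntegral_zero
  let ψk : ZMod M →* k :=
    { toFun := fun x ↦ φ ⟨ψ x, hψint x⟩
      map_one' := by
        rw [show (⟨ψ 1, hψint 1⟩ : integralClosure ℤ ℂ) = 1 from Subtype.ext (map_one ψ), map_one]
      map_mul' := fun x y ↦ by
        rw [← map_mul]
        exact congrArg φ (Subtype.ext (map_mul ψ x y)) }
  have hψk : ∀ (p : ℕ) (hp : Fact p.Prime) (hpM : ¬ p ∣ M), φ (b p hp hpM) = ψk (p : ZMod M) :=
    fun p hp hpM ↦ congrArg φ (Subtype.ext (hab p hp hpM).2.1)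
  let ψu : (ZMod M)ˣ →* kˣ := Units.map ψk
  let lu : (ZMod M)ˣ →* kˣ := Units.map (ZMod.castHom hlM k : ZMod M →+* k).toMonoidHom
  let d : GalQ →* kˣ := (lu * ψu).comp (cycMod M)
  -- the eigenspace
  let V : Submodule k (G1.parHom M k) :=
    { carrier := {x | ∀ (p : ℕ) (hp : Fact p.Prime) (hpM : ¬ p ∣ M),
        G1.heckeT M p hpM x = φ (a p hp hpM) • x ∧ G1.diamond M p x = φ (b p hp hpM) • x}
      add_mem' := fun {x y} hx hy p hp hpM ↦
        ⟨by rw [map_add, (hx p hp hpM).1, (hy p hp hpM).1, smul_add],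
          by rw [map_add, (hx p hp hpM).2, (hy p hp hpM).2, smul_add]⟩
      zero_mem' := fun p hp hpM ↦ ⟨by simp, by simp⟩
      smul_mem' := fun c x hx p hp hpM ↦
        ⟨by rw [G1.heckeT_smul, (hx p hp hpM).1, smul_comm],
          by rw [G1.diamond_smul, (hx p hp hpM).2, smul_comm]⟩ }
  have hx₀V : x₀ ∈ V := fun p hp hpM ↦ (hab p hp hpM).2.2
  haveI : Nontrivial V := Submodule.nontrivial_iff_ne_bot.2
    ((Submodule.ne_bot_iff V).2 ⟨x₀, hx₀V, hx₀⟩)
  -- the action on the eigenspace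
  set R := extendRep (k := k) S with hR
  have hcommT : ∀ (p : ℕ) (hp : Fact p.Prime) (hpM : ¬ p ∣ M) (σ : GalQ) (x : G1.parHom M k),
      R σ (G1.heckeT M p hpM x) = G1.heckeT M p hpM (R σ x) := fun p hp hpM σ ↦
    LinearMap.congr_fun (f := R σ ∘ₗ heckeTEnd p hpM) (g := heckeTEnd p hpM ∘ₗ R σ)
      (parHom_ext (l := l) fun χ ↦ by
        show R σ (G1.heckeT M p hpM _) = G1.heckeT M p hpM (R σ _)
        rw [hR, G1.heckeT_map, extendRep_apply, extendRep_apply, (hS p hpM).1, G1.heckeT_map])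
  have hcommD : ∀ (p : ℕ) (hp : Fact p.Prime) (hpM : ¬ p ∣ M) (σ : GalQ) (x : G1.parHom M k),
      R σ (G1.diamond M p x) = G1.diamond M p (R σ x) := fun p hp hpM σ ↦
    LinearMap.congr_fun (f := R σ ∘ₗ diamondEnd p) (g := diamondEnd p ∘ₗ R σ)
      (parHom_ext (l := l) fun χ ↦ by
        show R σ (G1.diamond M p _) = G1.diamond M p (R σ _)
        rw [hR, G1.diamond_map, extendRep_apply, extendRep_apply, (hS p hpM).2.1, G1.diamond_map])
  have hRV : ∀ σ : GalQ, ∀ x ∈ V, R σ x ∈ V := fun σ x hx p hp hpM ↦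
    ⟨by rw [← hcommT, (hx p hp hpM).1, map_smul],
      by rw [← hcommD p hp hpM, (hx p hp hpM).2, map_smul]⟩
  let S' : GalQ →* Module.End k V :=
    { toFun := fun σ ↦ (R σ).restrict (hRV σ)
      map_one' := by ext x; simp
      map_mul' := fun σ τ ↦ by ext x; simp }
  let r : GalQ →* Module.End k V :=
    { toFun := fun σ ↦ (ψu (cycMod M σ) : k) • S' σ
      map_one' := by simp
      map_mul' := fun σ τ ↦ by
        rw [map_mul, map_mul, map_mul, Units.val_mul, smul_mul_smul_comm] }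
  -- finite level
  obtain ⟨L₁, hL₁, hS1⟩ := hSfac
  obtain ⟨L₂, hL₂, hC1⟩ := exists_level_cycMod M
  let L : IntermediateField ℚ (AlgebraicClosure ℚ) := L₁ ⊔ L₂
  haveI : FiniteDimensional ℚ L := IntermediateField.finiteDimensional_sup _ _
  have htriv : ∀ σ : GalQ, S σ = 1 → cycMod M σ = 1 → r σ = 1 ∧ d σ = 1 := by
    intro σ h1 h2
    have hR1 : R σ = 1 := parHom_ext (l := l) fun χ ↦ by
      rw [hR, extendRep_apply, h1]
      rfl
    refine ⟨?_, by simp [d, h2]⟩
    show (ψu (cycMod M σ) : k) • S' σ = 1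
    rw [h2, map_one, Units.val_one, one_smul]
    ext x
    simp [S', hR1]
  have hrL : ∀ σ : GalQ, (∀ x ∈ L, σ x = x) → r σ = 1 ∧ d σ = 1 := fun σ hσ ↦
    htriv σ (hS1 σ fun x hx ↦ hσ x ((le_sup_left : L₁ ≤ L) hx))
      (hC1 σ fun x hx ↦ hσ x ((le_sup_right : L₂ ≤ L) hx))
  -- Frobenius elements
  have hfrob : ∀ (p : ℕ) (hp : Fact p.Prime) (hpM : ¬ p ∣ M)
      (A : ValuationSubring (AlgebraicClosure ℚ)), A.LiesOverPrime p → ∀ σ : GalQ,
      A.IsFrobeniusAt σ p → (d σ : k) = φ (b p hp hpM) * (p : k) ∧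
        r σ * r σ - φ (a p hp hpM) • r σ + (d σ : k) • (1 : Module.End k V) = 0 := by
    intro p hp hpM A hA σ hσ
    have hcyc : ((cycMod M σ : (ZMod M)ˣ) : ZMod M) = p :=
      Galois.modularCyclotomicCharacter_frobenius hA hp.out hσ hpM _
    have hβ : (ψu (cycMod M σ) : k) = φ (b p hp hpM) := by
      rw [hψk p hp hpM, ← hcyc]
      rfl
    have hd : (d σ : k) = φ (b p hp hpM) * (p : k) := by
      show (lu (cycMod M σ) : k) * (ψu (cycMod M σ) : k) = _
      rw [hβ, mul_comm, ← map_natCast (ZMod.castHom hlM k) p, ← hcyc]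
      rfl
    refine ⟨hd, ?_⟩
    have hq : ∀ x : G1.parHom M k,
        G1.diamond M p (R σ (R σ x)) - G1.heckeT M p hpM (R σ x) + (p : k) • x = 0 := by
      refine LinearMap.congr_fun (f := diamondEnd p ∘ₗ R σ ∘ₗ R σ - heckeTEnd p hpM ∘ₗ R σ +
        (p : k) • LinearMap.id) (g := 0) (parHom_ext (l := l) fun χ ↦ ?_)
      show G1.diamond M p (R σ (R σ _)) - G1.heckeT M p hpM (R σ _) + (p : k) • _ = 0
      rw [hR, extendRep_apply, extendRep_apply, G1.diamond_map, G1.heckeT_map, Nat.cast_smul_eq_nsmul,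
        LinearMap.id_apply, ← map_nsmul, ← map_sub, ← map_add, ((hS p hpM).2.2 A hA).2 σ hσ χ,
        map_zero]
    refine LinearMap.ext fun x ↦ Subtype.ext ?_
    have hx2 := hq (x : G1.parHom M k)
    rw [(hRV σ _ (hRV σ _ x.2) p hp hpM).2, (hRV σ _ x.2 p hp hpM).1] at hx2
    have hr : r σ = (φ (b p hp hpM)) • S' σ := by
      show (ψu (cycMod M σ) : k) • S' σ = _
      rw [hβ]
    simp only [hr, hd, LinearMap.add_apply, LinearMap.sub_apply, LinearMap.smul_apply,
      Module.End.mul_apply, map_smul, Module.End.one_apply, LinearMap.zero_apply, Submodule.coe_add,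
      Submodule.coe_sub, Submodule.coe_smul, Submodule.coe_zero]
    show φ (b p hp hpM) • φ (b p hp hpM) • R σ (R σ x) - φ (a p hp hpM) • φ (b p hp hpM) • R σ x +
      (φ (b p hp hpM) * (p : k)) • (x : G1.parHom M k) = 0
    rw [smul_comm (φ (a p hp hpM)), mul_smul, ← smul_sub, ← smul_add, hx2, smul_zero]
  -- the quadratic relation everywhere
  have hrel : ∀ σ : GalQ,
      ∃ t : k, r σ * r σ - t • r σ + (d σ : k) • (1 : Module.End k V) = 0 := by
    refine Density.forall_of_forall_frobenius_pow L ?_ M.primeFactors ?_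
    · rintro σ τ hστ ⟨t, ht⟩
      exact ⟨t, by rwa [← apply_eq_of_eqOn' r (fun g hg ↦ (hrL g hg).1) hστ,
        ← apply_eq_of_eqOn d (fun g hg ↦ (hrL g hg).2) hστ]⟩
    · intro p hp hpS A hA σ hσ n
      haveI := Fact.mk hp
      have hpM : ¬ p ∣ M := fun h ↦ hpS (Nat.mem_primeFactors.2 ⟨hp, h, NeZero.ne M⟩)
      obtain ⟨hd, hq⟩ := hfrob p ⟨hp⟩ hpM A hA σ hσ
      obtain ⟨s, hs⟩ := exists_quadRel_pow hq n
      exact ⟨s, by rwa [map_pow, map_pow, Units.val_pow_eq_pow_val]⟩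
  obtain ⟨ρ, hρ1, hρd, hρt⟩ := G1.exists_rep_of_quad_rel r d hrel
  refine ⟨ρ, ⟨L, inferInstance, fun σ hσ ↦ hρ1 σ (hrL σ hσ).1 (hrL σ hσ).2⟩, fun p hp hpM ↦ ?_⟩
  haveI := Fact.mk hp
  refine ⟨a p ⟨hp⟩ hpM, b p ⟨hp⟩ hpM, (hab p ⟨hp⟩ hpM).1, (hab p ⟨hp⟩ hpM).2.1,
    fun A hA ↦ ⟨fun σ hσ ↦ ?_, fun σ hσ ↦ ?_⟩⟩
  · obtain ⟨h1, h2⟩ := htriv σ (((hS p hpM).2.2 A hA).1 σ hσ)
      (Galois.modularCyclotomicCharacter_inertia hA hp hσ hpM _)
    exact hρ1 σ h1 h2
  · obtain ⟨hd, hq⟩ := hfrob p ⟨hp⟩ hpM A hA σ hσ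
    exact ⟨hρt σ _ hq, by rw [hρd σ, hd]⟩

end Fermat.Agent.DS
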