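import Fermat.Agent.DS.ProductForm
import Fermat.Agent.DS.Residual
import Fermat.Agent.DS.MainAux
import Fermat.Agent.DS.EigenLift
import Fermat.Agent.DS.Nebentypus

/-!
# The mod `l` representation of a weight one eigen system
-/

set_option autoImplicit false
set_option linter.unusedVariables false

noncomputable section

namespace Fermat.Agent.DS

open CongruenceSubgroup ModularFormClass Fermat.Agent.LT.WeightOne
open scoped MatrixGroups ModularForm

/-- The mod `l` representation attached to a weight one eigen system with bounded denominators. -/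
theorem exists_rep_mod {N : ℕ} [NeZero N] (ε : DirichletCharacter ℂ N)
    (f : CuspForm (Gamma1 N) 1) (hf : qCoeff f 1 = 1)
    (hT : HeckeRel 1 N (fun p ↦ ε (p : ZMod N)) (qCoeff f))
    (D : ℕ) (hD : D ≠ 0) (hint : ∀ n : ℕ, IsIntegral ℤ ((D : ℂ) * qCoeff f n))
    {l : ℕ} [Fact l.Prime] (h5 : 5 ≤ l) (hlN : ¬ l ∣ N) (hlD : ¬ l ∣ D)
    {k : Type} [Field k] [CharP k l] [IsAlgClosed k] (φ : integralClosure ℤ ℂ →+* k) :
    ∃ ρ : GalQ →* GL (Fin 2) k, GaloisFactorsThroughFiniteLevel ρ ∧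
      ∀ p : ℕ, p.Prime → ¬ p ∣ N * l → ∀ a b : integralClosure ℤ ℂ,
        (a : ℂ) = qCoeff f p → (b : ℂ) = ε (p : ZMod N) → UnramifiedWith ρ p (φ a) (φ b) := by
  have : NeZero (N * l) := ⟨mul_ne_zero (NeZero.ne N) (Fact.out : l.Prime).ne_zero⟩
  let c : ℕ → integralClosure ℤ ℂ := fun n ↦ ⟨(D : ℂ) * qCoeff f n, hint n⟩
  let e : ℕ → integralClosure ℤ ℂ := fun n ↦ ⟨ε (n : ZMod N), isIntegral_dirichlet ε _⟩
  have hDk : φ (D : integralClosure ℤ ℂ) ≠ 0 := by
    rw [map_natCast, Ne, CharP.cast_eq_zero_iff k l]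
    exact hlD
  have hcop : ∀ p : ℕ, p.Prime → ¬ p ∣ N * l → p.Coprime (N * l) := fun p hp h ↦
    hp.coprime_iff_not_dvd.2 h
  have hne : ∀ a : ℕ, a.Coprime (N * l) → (a : k) ≠ 0 := fun a ha ↦ by
    rw [Ne, CharP.cast_eq_zero_iff k l]
    exact (Nat.Prime.coprime_iff_not_dvd Fact.out).1 (ha.coprime_dvd_right (dvd_mul_left l N)).symm
  have hneb : ∀ γ : Gamma0 N, (⇑((D : ℂ) • f)) ∣[(1 : ℤ)] (γ : SL(2, ℤ)) =
      ε (((γ : SL(2, ℤ)) 1 1 : ℤ) : ZMod N) • ⇑((D : ℂ) • f) := fun γ ↦ by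
    rw [FunLike.coe_smul, ModularForm.SL_smul_slash, slash_gamma0_eq_smul ε f hT γ, smul_comm]
  set F := productForm (l := l) (by omega) ((D : ℂ) • f)
  set A : ℕ → k := fun p ↦ φ (c p) / φ (D : integralClosure ℤ ℂ)
  set B : ℕ → k := fun a ↦ φ (e a) / (a : k)
  set Φ : ℕ → k := fun n ↦ 3 * φ (c n)
  have hB1 : B 1 = 1 := by
    have : e 1 = 1 := Subtype.ext (by simp [e])
    simp [B, this]
  have hBmul : ∀ a b : ℕ, a.Coprime (N * l) → b.Coprime (N * l) → B (a * b) = B a * B b :=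
    fun a b _ _ ↦ by
    have : e (a * b) = e a * e b := Subtype.ext (by simp [e])
    simp only [B, this, map_mul, Nat.cast_mul, div_mul_div_comm]
  have h3 : (3 : k) ≠ 0 := by
    intro h
    have h' : ((3 : ℕ) : k) = 0 := by exact_mod_cast h
    rw [CharP.cast_eq_zero_iff k l] at h'
    exact absurd (Nat.le_of_dvd three_pos h') (by omega)
  have hΦ : Φ 1 ≠ 0 := by
    refine mul_ne_zero h3 ?_
    rwa [show c 1 = (D : integralClosure ℤ ℂ) from Subtype.ext (by simp [c, hf])]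
  have hF : ∀ a : ℕ, a.Coprime (N * l) → ∀ n, ∃ z : integralClosure ℤ ℂ,
      (z : ℂ) = qCoeff (diaForm a F) n ∧ φ z = B a * Φ n := fun a ha n ↦
    exists_qCoeff_diaForm_productForm (by omega) ε _ hneb (c := c)
      (fun m ↦ (qCoeff_form_smul (D : ℂ) f m).symm) (e a) ha rfl φ n
  have hA : ∀ p : ℕ, p.Prime → ¬ p ∣ N * l → ∀ n,
      Φ (n * p) + (if p ∣ n then (p : k) * B p * Φ (n / p) else 0) = A p * Φ n := by
    intro p hp hpl n
    have hrel := heckeRel_one_iff.1 hT p hp (fun h ↦ hpl (h.mul_right _)) n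
    have hO : (D : integralClosure ℤ ℂ) * c (n * p) + (D : integralClosure ℤ ℂ) *
        (if p ∣ n then e p * c (n / p) else 0) = c p * c n := by
      refine Subtype.ext ?_
      split_ifs with h <;> simp only [h, ↓reduceIte, mul_zero, add_zero] at hrel <;>
        simp [c, e, mul_comm n p] <;> linear_combination (D : ℂ) * D * hrel
    have hφO := congrArg φ hO
    simp only [A, Φ, B]
    split_ifs at hφO ⊢ <;> simp only [map_add, map_mul, mul_zero, add_zero] at hφO <;>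
      field_simp [hne p (hcop p hp hpl)] <;>
      first | linear_combination hφO | linear_combination 3 * hφO
  obtain ⟨g, ψ, lam, φ', hg, hgneb, hgT, hlam⟩ := exists_eigenLift φ F A B Φ hB1 hBmul hF hΦ hA
  obtain ⟨ρ, hρf, hρ⟩ := exists_residualRep_weightTwo ψ g hg lam hgT
    hgneb (Fact.out : l.Prime) h5 (dvd_mul_left l N) φ'
  refine ⟨ρ, hρf, fun p hp hpl a b ha hb ↦ ?_⟩
  obtain ⟨a', b', ha', hb', hunr⟩ := hρ p hp hpl
  obtain ⟨a'', b'', ha'', hb'', hA', hB'⟩ := hlam p hp hpl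
  have h1 : φ' a' = φ a := by
    rw [Subtype.ext (ha'.trans ha''.symm), hA', div_eq_iff hDk, ← map_mul]
    exact congrArg φ (Subtype.ext (by simp [c, ha, mul_comm]))
  have h2 : φ' b' * (p : k) = φ b := by
    rw [Subtype.ext (hb'.trans hb''.symm), hB', div_mul_cancel₀ _ (hne p (hcop p hp hpl))]
    exact congrArg φ (Subtype.ext hb.symm)
  rwa [h1, h2] at hunr

end Fermat.Agent.DS
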