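import Fermat.Agent.DS.MainAux
import Fermat.Agent.DS.Lift
import Fermat.Agent.DS.Rationality
import Fermat.Agent.DS.RepMod
import Fermat.Agent.DS.Irreducible
import Fermat.Agent.DS.PrimeDensity
import Fermat.Agent.DS.IntForms
import Mathlib.Data.Fintype.Pigeonhole
import Mathlib.RingTheory.RootsOfUnity.Complex

/-!
# The Deligne–Serre representation of a weight one eigen system
-/

set_option autoImplicit false

noncomputable section

namespace Fermat.Agent.DS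

open CongruenceSubgroup ModularFormClass Matrix Finset
open scoped Classical

local notation "O" => integralClosure ℤ ℂ

/-- The standard primitive root of unity as an algebraic integer. -/
def rootInt (n : ℕ) : O :=
  if h : n = 0 then 1 else
    ⟨Complex.exp (2 * Real.pi * Complex.I / n),
      IsIntegral.of_pow (Nat.pos_of_ne_zero h) (by
        rw [(Complex.isPrimitiveRoot_exp n h).pow_eq_one]; exact isIntegral_one)⟩

theorem isPrimitiveRoot_rootInt {n : ℕ} (hn : n ≠ 0) : IsPrimitiveRoot (rootInt n) n := by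
  refine IsPrimitiveRoot.of_map_of_injective (f := (integralClosure ℤ ℂ).val) ?_ Subtype.val_injective
  rw [rootInt, dif_neg hn]
  exact Complex.isPrimitiveRoot_exp n hn

/-- Sums and products of two roots of unity of order at most `A`. -/
def rootVals (A : ℕ) : Finset O :=
  (Finset.range (A + 1)).biUnion fun n ↦
    (Finset.range n ×ˢ Finset.range n).biUnion fun ij ↦
      {rootInt n ^ ij.1 + rootInt n ^ ij.2, rootInt n ^ ij.1 * rootInt n ^ ij.2}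

theorem exists_rootVals {k : Type*} [Field k] [IsAlgClosed k] (φ : O →+* k) {G : Type*} [Group G]
    [Finite G] (R : G →* GL (Fin 2) k) {A : ℕ} (hA : Nat.card G ≤ A) (g : G) :
    ∃ t ∈ rootVals A, ∃ d ∈ rootVals A,
      ((R g : GL (Fin 2) k) : Matrix (Fin 2) (Fin 2) k).trace = φ t ∧
      ((R g : GL (Fin 2) k) : Matrix (Fin 2) (Fin 2) k).det = φ d := by
  have hn : 0 < Nat.card G := Nat.card_pos
  obtain ⟨i, hi, j, hj, ht, hd⟩ := exists_roots_of_pow_eq_one φ hn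
    (isPrimitiveRoot_rootInt hn.ne') (R g) (by rw [← map_pow, pow_card_eq_one', map_one])
  have hmem : ∀ x ∈ ({rootInt (Nat.card G) ^ i + rootInt (Nat.card G) ^ j,
      rootInt (Nat.card G) ^ i * rootInt (Nat.card G) ^ j} : Finset O), x ∈ rootVals A := fun x hx ↦
    mem_biUnion.2 ⟨Nat.card G, mem_range.2 (by omega), mem_biUnion.2
      ⟨(i, j), mem_product.2 ⟨mem_range.2 hi, mem_range.2 hj⟩, hx⟩⟩
  exact ⟨_, hmem _ (mem_insert_self _ _), _, hmem _ (mem_insert_of_mem (mem_singleton_self _)),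
    ht, hd⟩

/-- The image of a semisimple representation stays semisimple. -/
theorem isSplitOrFull_subtype {k : Type*} [Field k] {Γ : Type*} [Group Γ] {ρ : Γ →* GL (Fin 2) k}
    (h : IsSplitOrFull ρ) : IsSplitOrFull ρ.range.subtype := by
  rcases h with h | h
  · refine Or.inl ?_
    rw [← h]
    congr 1
    ext x
    exact ⟨fun ⟨⟨_, σ, rfl⟩, e⟩ ↦ ⟨σ, e⟩, fun ⟨σ, e⟩ ↦ ⟨⟨_, σ, rfl⟩, e⟩⟩
  · exact Or.inr fun ⟨_, σ, hσ⟩ ↦ by subst hσ; exact h σ

theorem trace_det_of_isConj {k : Type*} [Field k] {Γ : Subgroup (GL (Fin 2) k)} {g h : Γ}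
    (hgh : IsConj g h) :
    ((g : GL (Fin 2) k) : Matrix (Fin 2) (Fin 2) k).trace =
        ((h : GL (Fin 2) k) : Matrix (Fin 2) (Fin 2) k).trace ∧
      ((g : GL (Fin 2) k) : Matrix (Fin 2) (Fin 2) k).det =
        ((h : GL (Fin 2) k) : Matrix (Fin 2) (Fin 2) k).det := by
  obtain ⟨u, rfl⟩ := isConj_iff.1 hgh
  push_cast
  constructor
  · rw [Matrix.trace_mul_cycle, ← Matrix.coe_units_inv, ← Units.val_mul, inv_mul_cancel,
      Units.val_one, one_mul]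
  · rw [← Matrix.coe_units_inv, det_units_conj]

/-- A set of characteristics avoiding a finite set of coincidences. -/
theorem finite_coincidences {J : Type*} (l : J → ℕ) (hl : Function.Injective l) (k : J → Type*)
    [∀ j, Field (k j)] [∀ j, CharP (k j) (l j)] (φ : ∀ j, O →+* k j) (W : Finset O) :
    {j | ∃ x ∈ W, ∃ y ∈ W, x ≠ y ∧ φ j x = φ j y}.Finite := by
  refine (((W ×ˢ W).filter fun xy ↦ xy.1 ≠ xy.2).finite_toSet.biUnion fun xy hxy ↦
    finite_ker_char l hl k φ (sub_ne_zero.2 (mem_filter.1 hxy).2)).subset ?_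
  rintro j ⟨x, hx, y, hy, hne, he⟩
  exact Set.mem_biUnion (x := (x, y)) (mem_filter.2 ⟨mem_product.2 ⟨hx, hy⟩, hne⟩)
    (show φ j (x - y) = 0 by rw [map_sub, he, sub_self])

/-- A number matched modulo infinitely many characteristics with a finite set lies in it. -/
theorem mem_of_infinite_matches {J : Type*} (l : J → ℕ) (hl : Function.Injective l)
    (k : J → Type*) [∀ j, Field (k j)] [∀ j, CharP (k j) (l j)] (φ : ∀ j, O →+* k j)
    (W : Finset O) (x : O) (h : {j | ∃ w ∈ W, φ j x = φ j w}.Infinite) : x ∈ W := by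
  by_contra hx
  refine h ((W.finite_toSet.biUnion fun w hw ↦
    finite_ker_char l hl k φ (sub_ne_zero.2 (fun e : x = w ↦ hx (e ▸ hw)))).subset ?_)
  rintro j ⟨w, hw, he⟩
  exact Set.mem_biUnion (x := w) hw (show φ j (x - w) = 0 by rw [map_sub, he, sub_self])

variable {J : Type} {l : J → ℕ} {k : J → Type} [∀ j, Field (k j)]
  {N : ℕ} {a b : ℕ → O}

/-- Few Frobenius characteristic polynomials off a set of small density bound the image. -/
theorem card_range_le_of_density [NeZero N] {k : Type} [Field k] {l : ℕ} (hl : l.Prime)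
    (φ : O →+* k) (ρ : GalQ →* GL (Fin 2) k) (hss : IsSplitOrFull ρ)
    (hfac : GaloisFactorsThroughFiniteLevel ρ)
    (hρ : ∀ p : ℕ, p.Prime → ¬ p ∣ N * l → UnramifiedWith ρ p (φ (a p)) (φ (b p)))
    (WY WE : Finset O) {T : Set ℕ}
    (hT : ∀ p : ℕ, p.Prime → ¬ p ∣ N → p ∉ T → a p ∈ WY ∧ b p ∈ WE)
    (hdens : PrimeDensityLE T (1 / 16)) :
    Nat.card ρ.range ≤ 4 * (WY.card * WE.card) ^ 4 := by
  obtain ⟨Cη, hCη⟩ := hdens
  have := finite_range_of_factors hfac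
  have := Fintype.ofFinite ρ.range
  let S : Finset (k × k) := (WY ×ˢ WE).image fun td ↦ (φ td.1, φ td.2)
  let td : ρ.range → k × k := fun g ↦ (((g : GL (Fin 2) k) : Matrix (Fin 2) (Fin 2) k).trace,
    ((g : GL (Fin 2) k) : Matrix (Fin 2) (Fin 2) k).det)
  let w : ρ.range → ℝ := fun g ↦ if td g ∈ S then 0 else 1
  have h := sum_le_of_frob_primeSum ρ.rangeRestrict
    (factors_of_ker_le hfac (MonoidHom.ker_rangeRestrict _).ge)
    ρ.rangeRestrict_surjective w (fun g ↦ by simp only [w]; split_ifs <;> norm_num)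
    (fun g g' hgg' ↦ by
      simp only [w, td, (trace_det_of_isConj hgg').1, (trace_det_of_isConj hgg').2])
    (N * l).primeFactors (c := 1 / 16) (D := Cη) (show (0 : ℝ) < 1 / 2 by norm_num)
    fun s hs hs2 P γ hP ↦ by
      have hin : ∀ p ∈ P, w (γ p) ≠ 0 → p.Prime ∧ p ∈ T := by
        intro p hp hw
        obtain ⟨hpS, hpF⟩ := hP p hp
        have hpl : ¬ p ∣ N * l := fun h ↦ hpS (Nat.mem_primeFactors.2
          ⟨hpF.1, h, mul_ne_zero (NeZero.ne N) hl.ne_zero⟩)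
        have hpN : ¬ p ∣ N := fun h ↦ hpl (h.mul_right _)
        refine ⟨hpF.1, by_contra fun hpT ↦ hw (if_pos ?_)⟩
        obtain ⟨B, σ, hB, hσ⟩ := Galois.exists_place_isFrobeniusAt hpF.1
        obtain ⟨ht, hd⟩ := (hρ p hpF.1 hpl B hB).2 σ hσ
        obtain ⟨ht', hd'⟩ := trace_det_of_isConj (hpF.2 B hB σ hσ)
        simp only [td]
        rw [ht', hd', MonoidHom.coe_rangeRestrict, ht, hd]
        exact mem_image.2 ⟨(a p, b p), mem_product.2 (hT p hpF.1 hpN hpT), rfl⟩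
      calc ∑ p ∈ P, w (γ p) * (p : ℝ) ^ (-s)
          ≤ ∑ p ∈ P.filter (fun p ↦ w (γ p) ≠ 0), (p : ℝ) ^ (-s) := by
            rw [sum_filter]
            refine sum_le_sum fun p _ ↦ ?_
            simp only [w]
            split_ifs <;> simp_all
        _ ≤ _ := hCη s hs hs2 _ fun p hp ↦ hin p (mem_filter.1 hp).1 (mem_filter.1 hp).2
  have hsum : ∑ g, w g = ((univ.filter fun g ↦ td g ∉ S).card : ℝ) := by
    rw [Finset.card_filter, Nat.cast_sum]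
    exact sum_congr rfl fun g _ ↦ by simp only [w]; split_ifs <;> simp
  rw [hsum] at h
  have hbad : 8 * ((univ.filter fun g ↦ td g ∉ S).card : ℝ) ≤ Fintype.card ρ.range := by linarith
  rw [Nat.card_eq_fintype_card]
  refine (card_le_of_few_charpolys ρ.range.subtype Subtype.val_injective
    (isSplitOrFull_subtype hss) S (by exact_mod_cast hbad)).trans ?_
  exact Nat.mul_le_mul_left _ (Nat.pow_le_pow_left (card_image_le.trans (card_product _ _).le) 4)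

/-- With bounded images, the numbers are sums and products of roots of unity. -/
theorem mem_rootVals [Infinite J] (hl : Function.Injective l) [∀ j, CharP (k j) (l j)]
    [∀ j, IsAlgClosed (k j)] (hlp : ∀ j, (l j).Prime) (φ : ∀ j, O →+* k j)
    (ρ : ∀ j, GalQ →* GL (Fin 2) (k j)) {A : ℕ} (hA : ∀ j, Nat.card (ρ j).range ≤ A)
    (hfin : ∀ j, Finite (ρ j).range)
    (hρ : ∀ j (p : ℕ), p.Prime → ¬ p ∣ N * l j → UnramifiedWith (ρ j) p (φ j (a p)) (φ j (b p)))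
    {p : ℕ} (hp : p.Prime) (hpN : ¬ p ∣ N) : a p ∈ rootVals A ∧ b p ∈ rootVals A := by
  obtain ⟨B, σ, hB, hσ⟩ := Galois.exists_place_isFrobeniusAt hp
  have key : ∀ j, l j ≠ p → (∃ w ∈ rootVals A, φ j (a p) = φ j w) ∧
      ∃ w ∈ rootVals A, φ j (b p) = φ j w := by
    intro j hj
    have := hfin j
    have hpl : ¬ p ∣ N * l j := fun h ↦ ((Nat.Prime.dvd_mul hp).1 h).elim hpN fun h ↦
      hj ((Nat.prime_dvd_prime_iff_eq hp (hlp j)).1 h).symm
    obtain ⟨t, ht, d, hd, htr, hdet⟩ :=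
      exists_rootVals (φ j) (ρ j).range.subtype (hA j) ⟨ρ j σ, σ, rfl⟩
    obtain ⟨h1, h2⟩ := (hρ j p hp hpl B hB).2 σ hσ
    exact ⟨⟨t, ht, h1.symm.trans htr⟩, ⟨d, hd, h2.symm.trans hdet⟩⟩
  have hinf : {j : J | l j ≠ p}.Infinite := ((Set.finite_singleton p).preimage hl.injOn).infinite_compl
  exact ⟨mem_of_infinite_matches _ hl k φ _ _ (hinf.mono fun j hj ↦ (key j hj).1),
    mem_of_infinite_matches _ hl k φ _ _ (hinf.mono fun j hj ↦ (key j hj).2)⟩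

/-- Infinitely many characteristics with images of one order and one shape. -/
theorem exists_uniform_shape [Infinite J] [∀ j, IsAlgClosed (k j)] (φ : ∀ j, O →+* k j)
    (G : ∀ j, Subgroup (GL (Fin 2) (k j))) (hfin : ∀ j, Finite (G j)) {A : ℕ}
    (hA : ∀ j, Nat.card (G j) ≤ A) :
    ∃ (s : Set J) (j₀ : J) (t d : G j₀ → O), s.Infinite ∧ j₀ ∈ s ∧
      (∀ g, t g ∈ rootVals A ∧ d g ∈ rootVals A) ∧ ∀ j ∈ s, ∃ e : G j₀ ≃* G j, ∀ g,
        ((e g : GL (Fin 2) (k j)) : Matrix (Fin 2) (Fin 2) (k j)).trace = φ j (t g) ∧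
        ((e g : GL (Fin 2) (k j)) : Matrix (Fin 2) (Fin 2) (k j)).det = φ j (d g) := by
  obtain ⟨⟨n, hn⟩, hJ⟩ := Finite.exists_infinite_fiber
    (fun j ↦ (⟨Nat.card (G j), Nat.lt_succ_of_le (hA j)⟩ : Fin (A + 1)))
  set J₂ := (fun j ↦ (⟨Nat.card (G j), Nat.lt_succ_of_le (hA j)⟩ : Fin (A + 1))) ⁻¹' {⟨n, hn⟩}
  let eq' : ∀ j : J₂, G j.1 ≃ Fin n := fun j ↦
    have := hfin j.1
    (Finite.equivFin _).trans (finCongr (congrArg Fin.val j.2))
  have htd : ∀ (j : J₂) (g : G j.1), ∃ td : rootVals A × rootVals A,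
      ((g : GL (Fin 2) (k j.1)) : Matrix (Fin 2) (Fin 2) (k j.1)).trace = φ j.1 td.1 ∧
      ((g : GL (Fin 2) (k j.1)) : Matrix (Fin 2) (Fin 2) (k j.1)).det = φ j.1 td.2 := fun j g ↦ by
    have := hfin j.1
    obtain ⟨t, ht, d, hd, h⟩ := exists_rootVals (φ j.1) (G j.1).subtype (hA _) g
    exact ⟨(⟨t, ht⟩, ⟨d, hd⟩), h⟩
  choose td htd using htd
  let data : J₂ → (Fin n → Fin n → Fin n) × (Fin n → rootVals A × rootVals A) := fun j ↦
    (fun x y ↦ eq' j ((eq' j).symm x * (eq' j).symm y), fun x ↦ td j ((eq' j).symm x))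
  obtain ⟨⟨tbl, T⟩, hJ₃⟩ := Finite.exists_infinite_fiber data
  obtain ⟨j₀, hj₀⟩ := (Set.infinite_coe_iff.1 hJ₃).nonempty
  refine ⟨Subtype.val '' (data ⁻¹' {(tbl, T)}), j₀.1, fun g ↦ ((T (eq' j₀ g)).1 : O),
    fun g ↦ ((T (eq' j₀ g)).2 : O), (Set.infinite_coe_iff.1 hJ₃).image Subtype.val_injective.injOn,
    ⟨j₀, hj₀, rfl⟩, fun g ↦ ⟨(T (eq' j₀ g)).1.2, (T (eq' j₀ g)).2.2⟩, ?_⟩
  rintro _ ⟨j, hj, rfl⟩
  refine ⟨{ toEquiv := (eq' j₀).trans (eq' j).symm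
            map_mul' := fun g h ↦ ?_ }, fun g ↦ ?_⟩
  · have h0 := congrFun (congrFun (congrArg Prod.fst hj₀) (eq' j₀ g)) (eq' j₀ h)
    have h1 := congrFun (congrFun (congrArg Prod.fst hj) (eq' j₀ g)) (eq' j₀ h)
    simp only [data, Equiv.symm_apply_apply] at h0 h1
    apply (eq' j).injective
    simp only [Equiv.toFun_as_coe, Equiv.trans_apply, Equiv.apply_symm_apply]
    exact h0.trans h1.symm
  · obtain ⟨ht, hd⟩ := htd j ((eq' j).symm (eq' j₀ g))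
    have h2 : td j ((eq' j).symm (eq' j₀ g)) = T (eq' j₀ g) :=
      congrFun (congrArg Prod.snd hj) (eq' j₀ g)
    rw [h2] at ht hd
    exact ⟨ht, hd⟩

/-- Complex representations in two different characteristics. -/
theorem exists_candidates [Infinite J] (hl : Function.Injective l) [∀ j, CharP (k j) (l j)]
    [∀ j, IsAlgClosed (k j)] (φ : ∀ j, O →+* k j) (ρ : ∀ j, GalQ →* GL (Fin 2) (k j))
    (hfac : ∀ j, GaloisFactorsThroughFiniteLevel (ρ j)) {A : ℕ}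
    (hA : ∀ j, Nat.card (ρ j).range ≤ A)
    (hρ : ∀ j (p : ℕ), p.Prime → ¬ p ∣ N * l j → UnramifiedWith (ρ j) p (φ j (a p)) (φ j (b p)))
    (hmem : ∀ p : ℕ, p.Prime → ¬ p ∣ N → a p ∈ rootVals A ∧ b p ∈ rootVals A) :
    ∃ j₀ j₁ : J, j₀ ≠ j₁ ∧ ∀ j ∈ ({j₀, j₁} : Set J), ∃ R : GalQ →* GL (Fin 2) ℂ,
      GaloisFactorsThroughFiniteLevel R ∧
      ∀ p : ℕ, p.Prime → ¬ p ∣ N * l j → UnramifiedWith R p (a p : ℂ) (b p : ℂ) := by
  -- work in characteristics separating the finite set of values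
  let J₁ := {j : J | ¬ ∃ x ∈ rootVals A, ∃ y ∈ rootVals A, x ≠ y ∧ φ j x = φ j y}
  have : Infinite J₁ := (finite_coincidences l hl k φ (rootVals A)).infinite_compl.to_subtype
  have hfin : ∀ j : J₁, Finite (ρ j.1).range := fun j ↦ finite_range_of_factors (hfac j.1)
  obtain ⟨s, j₀, t, d, hs, hj₀, htdW, hiso⟩ := exists_uniform_shape (fun j : J₁ ↦ φ j.1)
    (fun j ↦ (ρ j.1).range) hfin fun j ↦ hA j.1
  choose e he using hiso
  have : Infinite s := hs.to_subtype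
  have := hfin j₀
  obtain ⟨r, hr⟩ := exists_lift (fun j : s ↦ l j.1.1)
    (fun _ _ h ↦ Subtype.ext (Subtype.ext (hl h))) (fun j ↦ k j.1.1) (fun j ↦ φ j.1.1)
    (fun j ↦ ((ρ j.1.1).range.subtype).comp (e j.1 j.2).toMonoidHom) t d
    (fun j g ↦ (he j.1 j.2 g).1) (fun j g ↦ (he j.1 j.2 g).2)
  obtain ⟨j₁, hj₁⟩ := exists_ne (⟨j₀, hj₀⟩ : s)
  refine ⟨j₀.1, j₁.1.1, fun h ↦ hj₁ (Subtype.ext (Subtype.ext h.symm)), ?_⟩
  suffices key : ∀ (j : J₁) (hj : j ∈ s), ∃ R : GalQ →* GL (Fin 2) ℂ,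
      GaloisFactorsThroughFiniteLevel R ∧
      ∀ p : ℕ, p.Prime → ¬ p ∣ N * l j.1 → UnramifiedWith R p (a p : ℂ) (b p : ℂ) by
    rintro j (rfl | rfl)
    exacts [key j₀ hj₀, key j₁.1 j₁.2]
  intro j hj
  refine ⟨r.comp ((e j hj).symm.toMonoidHom.comp (ρ j.1).rangeRestrict),
    factors_of_ker_le (hfac j.1) fun σ hσ ↦ ?_, fun p hp hpl B hB ↦ ?_⟩
  · show r ((e j hj).symm ((ρ j.1).rangeRestrict σ)) = 1
    rw [show (ρ j.1).rangeRestrict σ = 1 from Subtype.ext hσ, map_one, map_one]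
  obtain ⟨h1, h2⟩ := hρ j.1 p hp hpl B hB
  refine ⟨fun σ hσ ↦ ?_, fun σ hσ ↦ ?_⟩
  · show r ((e j hj).symm ((ρ j.1).rangeRestrict σ)) = 1
    rw [show (ρ j.1).rangeRestrict σ = 1 from Subtype.ext (h1 σ hσ), map_one, map_one]
  · set g := (e j hj).symm ((ρ j.1).rangeRestrict σ) with hg
    obtain ⟨htr, hde⟩ := hr g
    obtain ⟨htr', hde'⟩ := he j hj g
    obtain ⟨h3, h4⟩ := h2 σ hσ
    rw [hg, MulEquiv.apply_symm_apply, MonoidHom.coe_rangeRestrict, h3] at htr'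
    rw [hg, MulEquiv.apply_symm_apply, MonoidHom.coe_rangeRestrict, h4] at hde'
    have hpN : ¬ p ∣ N := fun h ↦ hpl (h.mul_right _)
    obtain ⟨ha, hb⟩ := hmem p hp hpN
    refine ⟨htr.trans (congrArg Subtype.val (by_contra fun hne ↦
        j.2 ⟨t g, (htdW g).1, a p, ha, hne, htr'.symm⟩)),
      hde.trans (congrArg Subtype.val (by_contra fun hne ↦
        j.2 ⟨d g, (htdW g).2, b p, hb, hne, hde'.symm⟩))⟩

/-- Two candidates differ nowhere in trace and determinant. -/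
theorem trace_det_eq_of_unramifiedWith {R R' : GalQ →* GL (Fin 2) ℂ}
    (hR : GaloisFactorsThroughFiniteLevel R) (hR' : GaloisFactorsThroughFiniteLevel R')
    (t d : ℕ → ℂ) {M : ℕ} (hM : M ≠ 0)
    (h : ∀ p : ℕ, p.Prime → ¬ p ∣ M → UnramifiedWith R p (t p) (d p))
    (h' : ∀ p : ℕ, p.Prime → ¬ p ∣ M → UnramifiedWith R' p (t p) (d p)) (σ : GalQ) :
    ((R σ : GL (Fin 2) ℂ) : Matrix (Fin 2) (Fin 2) ℂ).trace =
        ((R' σ : GL (Fin 2) ℂ) : Matrix (Fin 2) (Fin 2) ℂ).trace ∧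
      ((R σ : GL (Fin 2) ℂ) : Matrix (Fin 2) (Fin 2) ℂ).det =
        ((R' σ : GL (Fin 2) ℂ) : Matrix (Fin 2) (Fin 2) ℂ).det := by
  let π : GalQ →* GL (Fin 2) ℂ × GL (Fin 2) ℂ := R.prod R'
  have hπ : GaloisFactorsThroughFiniteLevel π := by
    obtain ⟨L₀, _, h₀⟩ := hR
    obtain ⟨L₁, _, h₁⟩ := hR'
    exact ⟨L₀ ⊔ L₁, IntermediateField.finiteDimensional_sup _ _, fun τ hτ ↦ Prod.ext
      (h₀ τ fun x hx ↦ hτ x ((le_sup_left : L₀ ≤ L₀ ⊔ L₁) hx))
      (h₁ τ fun x hx ↦ hτ x ((le_sup_right : L₁ ≤ L₀ ⊔ L₁) hx))⟩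
  have := finite_range_of_factors hπ
  obtain ⟨p, hpS, hp⟩ := exists_mem_frobPrimes π.rangeRestrict
    (factors_of_ker_le hπ (MonoidHom.ker_rangeRestrict _).ge) π.rangeRestrict_surjective
    (π.rangeRestrict σ) M.primeFactors
  have hpM : ¬ p ∣ M := fun hd ↦ hpS (Nat.mem_primeFactors.2 ⟨hp.1, hd, hM⟩)
  obtain ⟨B, τ, hB, hτ⟩ := Galois.exists_place_isFrobeniusAt hp.1
  obtain ⟨u, hu⟩ := isConj_iff.1 (hp.2 B hB τ hτ)
  have hu' := congrArg Subtype.val hu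
  obtain ⟨s0, t0⟩ := (h p hp.1 hpM B hB).2 τ hτ
  obtain ⟨s1, t1⟩ := (h' p hp.1 hpM B hB).2 τ hτ
  have e0 : (u : GL (Fin 2) ℂ × GL (Fin 2) ℂ).1 * R σ * (u : GL (Fin 2) ℂ × GL (Fin 2) ℂ).1⁻¹ =
      R τ := congrArg Prod.fst hu'
  have e1 : (u : GL (Fin 2) ℂ × GL (Fin 2) ℂ).2 * R' σ * (u : GL (Fin 2) ℂ × GL (Fin 2) ℂ).2⁻¹ =
      R' τ := congrArg Prod.snd hu'
  rw [← e0, Units.val_mul, Units.val_mul] at s0 t0
  rw [← e1, Units.val_mul, Units.val_mul] at s1 t1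
  rw [Matrix.trace_mul_cycle, Units.inv_mul, one_mul] at s0 s1
  rw [det_units_conj] at t0 t1
  exact ⟨s0.trans s1.symm, t0.trans t1.symm⟩

/-- The residue maps and representations in all large characteristics give a representation. -/
theorem exists_galoisRep_of_residual [NeZero N] [Infinite J] (hl : Function.Injective l)
    (hlp : ∀ j, (l j).Prime) [∀ j, CharP (k j) (l j)] [∀ j, IsAlgClosed (k j)]
    (φ : ∀ j, O →+* k j) (ρ : ∀ j, GalQ →* GL (Fin 2) (k j)) (hss : ∀ j, IsSplitOrFull (ρ j))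
    (hfac : ∀ j, GaloisFactorsThroughFiniteLevel (ρ j))
    (hρ : ∀ j (p : ℕ), p.Prime → ¬ p ∣ N * l j → UnramifiedWith (ρ j) p (φ j (a p)) (φ j (b p)))
    (WY WE : Finset O) {T : Set ℕ}
    (hT : ∀ p : ℕ, p.Prime → ¬ p ∣ N → p ∉ T → a p ∈ WY ∧ b p ∈ WE)
    (hdens : PrimeDensityLE T (1 / 16)) :
    ∃ (A : ℕ) (R : GalQ →* GL (Fin 2) ℂ), GaloisFactorsThroughFiniteLevel R ∧
      ∀ p : ℕ, p.Prime → ¬ p ∣ N →
        a p ∈ rootVals A ∧ UnramifiedWith R p (a p : ℂ) (b p : ℂ) := by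
  set A := 4 * (WY.card * WE.card) ^ 4
  have hA : ∀ j, Nat.card (ρ j).range ≤ A := fun j ↦
    card_range_le_of_density (hlp j) (φ j) (ρ j) (hss j) (hfac j) (hρ j) WY WE hT hdens
  have hmem : ∀ p : ℕ, p.Prime → ¬ p ∣ N → a p ∈ rootVals A ∧ b p ∈ rootVals A := fun p hp hpN ↦
    mem_rootVals hl hlp φ ρ hA (fun j ↦ finite_range_of_factors (hfac j)) hρ hp hpN
  obtain ⟨j₀, j₁, hne, hR⟩ := exists_candidates hl φ ρ hfac hA hρ hmem
  obtain ⟨R, hRf, hR₀⟩ := hR j₀ (Or.inl rfl)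
  obtain ⟨R', hRf', hR₁⟩ := hR j₁ (Or.inr rfl)
  refine ⟨A, R, hRf, fun p hp hpN ↦ ⟨(hmem p hp hpN).1, ?_⟩⟩
  by_cases hpj : p = l j₀
  · have hpl : ¬ p ∣ N * l j₁ := fun h ↦ ((Nat.Prime.dvd_mul hp).1 h).elim hpN fun h ↦
      hne (hl (hpj.symm.trans ((Nat.prime_dvd_prime_iff_eq hp (hlp j₁)).1 h)))
    have hsame := trace_det_eq_of_unramifiedWith hRf hRf' (fun q ↦ (a q : ℂ)) (fun q ↦ (b q : ℂ))
      (M := N * l j₀ * l j₁)
      (mul_ne_zero (mul_ne_zero (NeZero.ne N) (hlp j₀).ne_zero) (hlp j₁).ne_zero)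
      (fun q hq hqM ↦ hR₀ q hq fun h ↦ hqM (h.mul_right _))
      (fun q hq hqM ↦ hR₁ q hq fun h ↦
        hqM (h.trans (mul_dvd_mul_right (dvd_mul_right N _) _)))
    have := finite_range_of_factors hRf
    intro B hB
    obtain ⟨h1, h2⟩ := hR₁ p hp hpl B hB
    refine ⟨fun σ hσ ↦ ?_, fun σ hσ ↦ ⟨(hsame σ).1.trans (h2 σ hσ).1,
      (hsame σ).2.trans (h2 σ hσ).2⟩⟩
    refine eq_one_of_trace_det (n := Nat.card R.range) Nat.card_pos.ne' ?_ ?_ ?_
    · exact congrArg Subtype.val (pow_card_eq_one' (x := R.rangeRestrict σ))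
    · rw [(hsame σ).1, h1 σ hσ, Units.val_one, trace_one, Fintype.card_fin]; norm_num
    · rw [(hsame σ).2, h1 σ hσ, Units.val_one, det_one]
  · exact hR₀ p hp fun h ↦ ((Nat.Prime.dvd_mul hp).1 h).elim hpN fun h ↦
      hpj ((Nat.prime_dvd_prime_iff_eq hp (hlp j₀)).1 h)

/-- **Deligne–Serre.** -/
theorem exists_galoisRep {N : ℕ} [NeZero N] (ε : DirichletCharacter ℂ N)
    (f : CuspForm (Gamma1 N) 1) (hf : qCoeff f 1 = 1)
    (hT : HeckeRel 1 N (fun p ↦ ε (p : ZMod N)) (qCoeff f)) :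
    ∃ ρ : GalQ →* GL (Fin 2) ℂ, GaloisFactorsThroughFiniteLevel ρ ∧
      (Deformation.matrixRepresentation ρ).IsIrreducible ∧
      ∀ p : ℕ, p.Prime → ¬ p ∣ N → UnramifiedWith ρ p (qCoeff f p) (ε (p : ZMod N)) := by
  obtain ⟨K, _, _, ι, α, e, hα, ⟨D, hD, hDint⟩, hconj⟩ := exists_coefficientField N ε f hf hT
  -- the form with integral coefficients
  obtain ⟨f₀, ε₀, hf₀, hε₀, hf₀1, hT₀⟩ := hconj ι
  have hint₀ : ∀ n, IsIntegral ℤ ((D : ℂ) * qCoeff f₀ n) := fun n ↦ by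
    have h := (hDint n).map ι.toIntAlgHom
    simpa [hf₀] using h
  let a : ℕ → O := fun p ↦
    if h : IsIntegral ℤ (qCoeff f p) then ⟨qCoeff f p, h⟩ else 0
  let b : ℕ → O := fun p ↦ ⟨ε (p : ZMod N), isIntegral_dirichlet ε _⟩
  have ha : ∀ p : ℕ, p.Prime → ¬ p ∣ N → (a p : ℂ) = qCoeff f p := fun p hp hpN ↦ by
    have h : IsIntegral ℤ (qCoeff f p) := by
      rw [← (hα p hp hpN).1]; exact (hα p hp hpN).2.2.map ι.toIntAlgHom
    simp [a, h]
  -- the finitely many values at most primes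
  have hbd : ∀ σ : K →+* ℂ, MulAwayFrom N (fun n ↦ σ (α n)) ∧
      ∃ C : ℝ, ∀ X : ℕ, 0 < X → ∑ n ∈ Finset.range (X + 1), ‖σ (α n)‖ ^ 2 ≤ C * X := fun σ ↦ by
    obtain ⟨g, ε', hg, -, hg1, hTg⟩ := hconj σ
    simp only [← hg]
    exact ⟨mulAwayFrom_of_hecke hg1 (heckeRel_one_iff.1 hTg),
      exists_sum_sq_qCoeff_le g (one_mem_strictPeriods_gamma1 N)⟩
  obtain ⟨Y, hY, hdens⟩ := exists_finite_values (N := N) K α (fun p hp hpN ↦ (hα p hp hpN).2.2)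
    (fun σ ↦ (hbd σ).1) (fun σ ↦ (hbd σ).2) (show (0 : ℝ) < 1 / 16 by norm_num)
  let WY : Finset O := ((hY.image ι).preimage (Subtype.val_injective.injOn (s := _))).toFinset
  let WE : Finset O := univ.image fun x : ZMod N ↦ ⟨ε x, isIntegral_dirichlet ε x⟩
  -- the characteristics
  let J : Type := {l : ℕ // l.Prime ∧ 5 ≤ l ∧ ¬ l ∣ N ∧ ¬ l ∣ D}
  have : Infinite J := by
    refine Set.infinite_coe_iff.2 ((Nat.infinite_setOfPred_prime.sdiff
      (Finset.range (5 + N + D + 1)).finite_toSet).mono fun l hl ↦ ?_)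
    obtain ⟨hp, hl⟩ := hl
    rw [mem_coe, mem_range, not_lt] at hl
    exact ⟨hp, by omega, fun h ↦ absurd (Nat.le_of_dvd (NeZero.pos N) h) (by omega),
      fun h ↦ absurd (Nat.le_of_dvd (Nat.pos_of_ne_zero hD) h) (by omega)⟩
  have hfact : ∀ j : J, Fact (j.1).Prime := fun j ↦ ⟨j.2.1⟩
  let φ : ∀ j : J, O →+* AlgebraicClosure (ZMod j.1) := fun j ↦ (exists_residueMap j.1).some
  have hrep : ∀ j : J, ∃ ρ : GalQ →* GL (Fin 2) (AlgebraicClosure (ZMod j.1)), IsSplitOrFull ρ ∧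
      GaloisFactorsThroughFiniteLevel ρ ∧ ∀ p : ℕ, p.Prime → ¬ p ∣ N * j.1 →
        UnramifiedWith ρ p (φ j (a p)) (φ j (b p)) := by
    intro j
    obtain ⟨ρ, hρf, hρ⟩ := exists_rep_mod ε₀ f₀ hf₀1 hT₀ D hD hint₀ j.2.2.1 j.2.2.2.1 j.2.2.2.2 (φ j)
    obtain ⟨ρ', hss, hker, htd⟩ := exists_isSplitOrFull ρ
    refine ⟨ρ', hss, factors_of_ker_le hρf hker, fun p hp hpl P hP ↦ ?_⟩
    have hpN : ¬ p ∣ N := fun h ↦ hpl (h.mul_right _)
    have h₀ : (a p : ℂ) = qCoeff f₀ p ∧ (b p : ℂ) = ε₀ (p : ZMod N) := by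
      rw [hf₀, hε₀ p hp hpN, (hα p hp hpN).1, (hα p hp hpN).2.1]
      exact ⟨ha p hp hpN, rfl⟩
    obtain ⟨h1, h2⟩ := hρ p hp hpl (a p) (b p) h₀.1 h₀.2 P hP
    exact ⟨fun σ hσ ↦ hker (h1 σ hσ), fun σ hσ ↦
      ⟨(htd σ).1.trans (h2 σ hσ).1, (htd σ).2.trans (h2 σ hσ).2⟩⟩
  choose ρ hss hfac hρ using hrep
  obtain ⟨A, R, hRf, hR⟩ := exists_galoisRep_of_residual (l := fun j : J ↦ j.1) (N := N)
    (a := a) (b := b) Subtype.val_injective (fun j ↦ j.2.1) φ ρ hss hfac hρ WY WE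
    (T := {p | p.Prime ∧ ¬ p ∣ N ∧ α p ∉ Y})
    (fun p hp hpN hpT ↦ ⟨by
      rw [Set.Finite.mem_toFinset, Set.mem_preimage]
      exact ⟨α p, by_contra fun h ↦ hpT ⟨hp, hpN, h⟩, ((hα p hp hpN).1).trans (ha p hp hpN).symm⟩,
      mem_image.2 ⟨_, mem_univ _, rfl⟩⟩) hdens
  have hfinal : ∀ p : ℕ, p.Prime → ¬ p ∣ N →
      UnramifiedWith R p (qCoeff f p) (ε (p : ZMod N)) := fun p hp hpN ↦ by
    rw [← ha p hp hpN]
    exact (hR p hp hpN).2
  refine ⟨R, hRf, ?_, hfinal⟩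
  obtain ⟨C, hC⟩ := exists_sum_sq_qCoeff_le f (one_mem_strictPeriods_gamma1 N)
  refine isIrreducible_of_sum_sq_le (N := N) R hRf (qCoeff f)
    (fun p ↦ ε (p : ZMod N)) hfinal ?_ (finite_range_of_factors hRf)
  refine (mulAwayFrom_of_hecke hf (heckeRel_one_iff.1 hT)).exists_sum_sq_le hC
    (c := ∑ w ∈ rootVals A, ‖(w : ℂ)‖ ^ 2) fun p hp hpN ↦ ?_
  rw [← ha p hp hpN]
  exact single_le_sum (f := fun w : O ↦ ‖(w : ℂ)‖ ^ 2) (fun w _ ↦ sq_nonneg _) (hR p hp hpN).1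

end Fermat.Agent.DS
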