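import Fermat.Agent.DS.IdealLSeries
import Mathlib.Analysis.SpecialFunctions.Log.Summable
import Mathlib.Analysis.SpecialFunctions.Complex.Log
import Mathlib.NumberTheory.DirichletCharacter.Orthogonality

/-!
# Twisted sums over degree one primes near `s = 1`

`primeSum K χ s = ∑_p a(p) χ(p) p^(-s)`: bounded above in real part, and bounded once it is
bounded below in real part, for `χ` nontrivial on norms.
-/

set_option autoImplicit false

noncomputable section

namespace Fermat.Agent.DS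

open NumberField Filter Topology Complex
open scoped nonZeroDivisors Classical

variable (K : Type*) [Field K] [NumberField K] {m : ℕ} (χ : DirichletCharacter ℂ m)

/-- The coefficient function of the twisted series. -/
def twistTerm (s : ℝ) (n : ℕ) : ℂ :=
  χ (n : ℕ) * ((Density.zetaTerm K s n : ℝ) : ℂ)

/-- The twisted sum over degree one primes. -/
def primeSum (s : ℝ) : ℂ := ∑' p : Nat.Primes, twistTerm K χ s p

/-- The untwisted sum over degree one primes. -/
def primeSumOne (s : ℝ) : ℝ := ∑' p : Nat.Primes, Density.zetaTerm K s p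

/-- `χ` is nontrivial on the norms of infinitely many degree one primes. -/
def NontrivialOnNorms : Prop :=
  {p : ℕ | p.Prime ∧ 0 < Density.idealCount K p ∧ χ (p : ℕ) ≠ 0 ∧ χ (p : ℕ) ≠ 1}.Infinite

variable {K χ}

theorem norm_twistTerm_le (s : ℝ) (n : ℕ) : ‖twistTerm K χ s n‖ ≤ Density.zetaTerm K s n := by
  rw [twistTerm, norm_mul, Complex.norm_real, Real.norm_of_nonneg (Density.zetaTerm_nonneg K s n)]
  exact mul_le_of_le_one_left (Density.zetaTerm_nonneg K s n) (χ.norm_le_one _)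

theorem summable_primes_zetaTerm {s : ℝ} (hs : 1 < s) :
    Summable fun p : Nat.Primes ↦ Density.zetaTerm K s p :=
  (summable_zetaTerm hs).comp_injective Subtype.val_injective

theorem summable_twistTerm {s : ℝ} (hs : 1 < s) :
    Summable fun p : Nat.Primes ↦ twistTerm K χ s p :=
  Summable.of_norm_bounded (summable_primes_zetaTerm hs) fun p ↦ norm_twistTerm_le s p

theorem norm_primeSum_le {s : ℝ} (hs : 1 < s) : ‖primeSum K χ s‖ ≤ primeSumOne K s :=
  tsum_of_norm_bounded (summable_primes_zetaTerm hs).hasSum fun p ↦ norm_twistTerm_le s p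

theorem primeSumOne_nonneg (s : ℝ) : 0 ≤ primeSumOne K s :=
  tsum_nonneg fun p ↦ Density.zetaTerm_nonneg K s p

theorem primeSumOne_anti {s t : ℝ} (hs : 1 < s) (hst : s ≤ t) :
    primeSumOne K t ≤ primeSumOne K s := by
  refine (summable_primes_zetaTerm (hs.trans_le hst)).tsum_le_tsum (fun p ↦ ?_)
    (summable_primes_zetaTerm hs)
  exact mul_le_mul_of_nonneg_left (Real.rpow_le_rpow_of_exponent_le
    (Nat.one_le_cast.2 p.2.one_le) (by linarith)) (Nat.cast_nonneg _)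

variable (K) in
theorem exists_primeSumOne_bound :
    ∃ B : ℝ, ∀ s : ℝ, 1 < s → s ≤ 2 → |primeSumOne K s - Real.log (1 / (s - 1))| ≤ B := by
  obtain ⟨B, hB⟩ := Density.exists_bound_primeSum K
  obtain ⟨u, hu, hsub⟩ := (mem_nhdsGT_iff_exists_Ioo_subset).1 hB
  set s₀ := min ((1 + u) / 2) 2
  have hs₀ : 1 < s₀ := lt_min (by linarith [Set.mem_Ioi.1 hu]) one_lt_two
  refine ⟨max B (primeSumOne K s₀ + Real.log (1 / (s₀ - 1))), fun s hs hs2 ↦ ?_⟩
  rw [one_div, Real.log_inv, sub_neg_eq_add]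
  by_cases hsu : s < s₀
  · refine le_trans ?_ (le_max_left _ _)
    have hsu' : s < u := hsu.trans_le ((min_le_left _ _).trans (by linarith [Set.mem_Ioi.1 hu]))
    exact (hsub ⟨hs, hsu'⟩).2
  · rw [not_lt] at hsu
    refine le_trans ?_ (le_max_right _ _)
    have h1 := primeSumOne_anti (K := K) hs₀ hsu
    have h2 := primeSumOne_nonneg (K := K) s
    have h3 : Real.log (s - 1) ≤ 0 := Real.log_nonpos (by linarith) (by linarith)
    have h4 : Real.log (s₀ - 1) ≤ Real.log (s - 1) := Real.log_le_log (by linarith) (by linarith)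
    rw [one_div, Real.log_inv, abs_le]
    constructor <;> linarith [primeSumOne_nonneg (K := K) s₀]

/-- The Euler factor minus one. -/
def eulerRem (K : Type*) [Field K] [NumberField K] {m : ℕ} (χ : DirichletCharacter ℂ m) (s : ℝ)
    (p : ℕ) : ℂ :=
  ∑' e : ℕ, twistTerm K χ s (p ^ (e + 1))

theorem twistTerm_one (s : ℝ) : twistTerm K χ s 1 = 1 := by
  simp [twistTerm, Density.zetaTerm_one]

theorem twistTerm_zero {s : ℝ} (hs : s ≠ 0) : twistTerm K χ s 0 = 0 := by
  simp [twistTerm, Density.zetaTerm_zero K hs]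

theorem twistTerm_mul (s : ℝ) {a b : ℕ} (h : a.Coprime b) :
    twistTerm K χ s (a * b) = twistTerm K χ s a * twistTerm K χ s b := by
  rw [twistTerm, twistTerm, twistTerm, Density.zetaTerm_mul K s h, Nat.cast_mul, map_mul]
  push_cast
  ring

theorem summable_norm_twistTerm {s : ℝ} (hs : 1 < s) : Summable fun n ↦ ‖twistTerm K χ s n‖ :=
  (summable_zetaTerm hs).of_nonneg_of_le (fun _ ↦ norm_nonneg _) fun n ↦ norm_twistTerm_le s n

theorem summable_twistTerm_pow {s : ℝ} (hs : 1 < s) {p : ℕ} (hp : p.Prime) :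
    Summable fun e : ℕ ↦ twistTerm K χ s (p ^ (e + 1)) :=
  (summable_nat_add_iff 1 (f := fun e ↦ twistTerm K χ s (p ^ e))).2
    ((summable_norm_twistTerm hs).of_norm.comp_injective (Nat.pow_right_injective hp.two_le))

variable (K) in
/-- The constant bounding `p` times the Euler factor minus one. -/
def remConst : ℝ := (2 : ℝ) ^ Module.finrank ℤ (𝓞 K) + Density.tailConst K

theorem norm_eulerRem_le {s : ℝ} (hs : 1 < s) {p : ℕ} (hp : p.Prime) :
    ‖eulerRem K χ s p‖ ≤ remConst K * (p : ℝ)⁻¹ ∧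
      ‖eulerRem K χ s p - twistTerm K χ s p‖ ≤ Density.tailConst K * ((p : ℝ) ^ 2)⁻¹ := by
  have h := summable_twistTerm_pow (K := K) (χ := χ) hs hp
  have hz := fun e ↦ (norm_twistTerm_le (K := K) (χ := χ) s (p ^ (e + 2))).trans
    (Density.zetaTerm_pow_add_two_le K hp hs e)
  have hT : ‖∑' e : ℕ, twistTerm K χ s (p ^ (e + 2))‖ ≤
      Density.tailConst K * ((p : ℝ) ^ 2)⁻¹ := by
    rw [mul_comm]
    exact tsum_of_norm_bounded ((Density.summable_tailConst K).hasSum.mul_left _) hz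
  have hsplit : eulerRem K χ s p =
      twistTerm K χ s p + ∑' e : ℕ, twistTerm K χ s (p ^ (e + 2)) := by
    rw [eulerRem, ← h.sum_add_tsum_nat_add 1]
    simp [add_assoc]
  refine ⟨?_, by rwa [hsplit, add_sub_cancel_left]⟩
  have hp1 : (1 : ℝ) ≤ p := Nat.one_le_cast.2 hp.one_le
  have hx1 : ‖twistTerm K χ s p‖ ≤ (2 : ℝ) ^ Module.finrank ℤ (𝓞 K) * (p : ℝ)⁻¹ := by
    refine (norm_twistTerm_le s p).trans ?_
    have h1 := Density.rpow_neg_le_pow_neg hp hs 1
    rw [pow_one, pow_one] at h1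
    have ha := Density.idealCount_pow_le K hp 1
    rw [pow_one] at ha
    refine mul_le_mul ?_ h1 (by positivity) (by positivity)
    exact_mod_cast ha
  have hT' : Density.tailConst K * ((p : ℝ) ^ 2)⁻¹ ≤ Density.tailConst K * (p : ℝ)⁻¹ := by
    gcongr
    · exact Density.tailConst_nonneg K
    · exact le_self_pow₀ hp1 two_ne_zero
  rw [hsplit, remConst, add_mul]
  exact (norm_add_le _ _).trans (add_le_add hx1 (hT.trans hT'))

/-- The logarithm of the twisted series. -/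
def logL (K : Type*) [Field K] [NumberField K] {m : ℕ} (χ : DirichletCharacter ℂ m) (s : ℝ) : ℂ :=
  ∑' p : Nat.Primes, Complex.log (1 + eulerRem K χ s p)

/-- The modulus contains every small prime. -/
def KillsSmall (K : Type*) [Field K] [NumberField K] {m : ℕ} (χ : DirichletCharacter ℂ m) : Prop :=
  ∀ p : ℕ, p.Prime → (p : ℝ) < 2 * remConst K → χ (p : ℕ) = 0

theorem norm_eulerRem_le_half (hχ : KillsSmall K χ) {s : ℝ} (hs : 1 < s) {p : ℕ} (hp : p.Prime) :
    ‖eulerRem K χ s p‖ ≤ 1 / 2 := by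
  by_cases h : (p : ℝ) < 2 * remConst K
  · have h0 : eulerRem K χ s p = 0 := by
      have : ∀ e : ℕ, twistTerm K χ s (p ^ (e + 1)) = 0 := fun e ↦ by
        rw [twistTerm, Nat.cast_pow, map_pow, hχ p hp h, zero_pow (Nat.succ_ne_zero e), zero_mul]
      simp [eulerRem, this]
    rw [h0, norm_zero]
    norm_num
  · refine (norm_eulerRem_le hs hp).1.trans ?_
    have hp0 : (0 : ℝ) < p := Nat.cast_pos.2 hp.pos
    rw [← div_eq_mul_inv, div_le_iff₀ hp0]
    linarith

theorem norm_log_sub_le (hχ : KillsSmall K χ) {s : ℝ} (hs : 1 < s) (p : Nat.Primes) :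
    ‖Complex.log (1 + eulerRem K χ s p) - twistTerm K χ s p‖ ≤
      (remConst K ^ 2 + Density.tailConst K) * ((p : ℝ) ^ 2)⁻¹ := by
  have hx := norm_eulerRem_le (K := K) (χ := χ) hs p.2
  have hhalf := norm_eulerRem_le_half hχ hs p.2
  set x := eulerRem K χ s p
  have h1 := Complex.norm_log_one_add_sub_self_le (z := x) (by linarith)
  have h2 : ‖x‖ ^ 2 * (1 - ‖x‖)⁻¹ / 2 ≤ ‖x‖ ^ 2 := by
    have h3 : (1 - ‖x‖)⁻¹ ≤ 2 := inv_le_of_inv_le₀ two_pos (by linarith)
    nlinarith [mul_le_mul_of_nonneg_left h3 (sq_nonneg ‖x‖)]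
  have h4 : ‖x‖ ^ 2 ≤ remConst K ^ 2 * ((p : ℝ) ^ 2)⁻¹ := by
    rw [← inv_pow, ← mul_pow]
    exact pow_le_pow_left₀ (norm_nonneg _) hx.1 2
  calc ‖Complex.log (1 + x) - twistTerm K χ s p‖
      ≤ ‖Complex.log (1 + x) - x‖ + ‖x - twistTerm K χ s p‖ := norm_sub_le_norm_sub_add_norm_sub ..
    _ ≤ ‖x‖ ^ 2 + Density.tailConst K * ((p : ℝ) ^ 2)⁻¹ := add_le_add (h1.trans h2) hx.2
    _ ≤ _ := by rw [add_mul]; linarith

theorem summable_log (hχ : KillsSmall K χ) {s : ℝ} (hs : 1 < s) :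
    Summable fun p : Nat.Primes ↦ Complex.log (1 + eulerRem K χ s p) := by
  have h := (Summable.of_norm_bounded (Density.summable_primes_inv_sq.mul_left _)
    (norm_log_sub_le hχ hs)).add (summable_twistTerm (K := K) (χ := χ) hs)
  simpa using h

theorem norm_logL_sub_primeSum_le (hχ : KillsSmall K χ) {s : ℝ} (hs : 1 < s) :
    ‖logL K χ s - primeSum K χ s‖ ≤
      (remConst K ^ 2 + Density.tailConst K) * ∑' p : Nat.Primes, ((p : ℝ) ^ 2)⁻¹ := by
  rw [logL, primeSum, ← (summable_log hχ hs).tsum_sub (summable_twistTerm hs), ← tsum_mul_left]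
  exact tsum_of_norm_bounded (Density.summable_primes_inv_sq.mul_left _).hasSum
    (norm_log_sub_le hχ hs)

theorem tsum_twistTerm_eq_exp (hχ : KillsSmall K χ) {s : ℝ} (hs : 1 < s) :
    ∑' n, twistTerm K χ s n = Complex.exp (logL K χ s) := by
  have hne : ∀ p : Nat.Primes, 1 + eulerRem K χ s p ≠ 0 := fun p h ↦ by
    have := norm_eulerRem_le_half hχ hs p.2
    rw [eq_neg_of_add_eq_zero_right h, norm_neg, norm_one] at this
    norm_num at this
  have h1 := Complex.hasProd_of_hasSum_log hne (summable_log hχ hs).hasSum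
  have h2 := EulerProduct.eulerProduct_hasProd (twistTerm_one s)
    (fun h ↦ twistTerm_mul (K := K) (χ := χ) s h) (summable_norm_twistTerm hs)
    (twistTerm_zero (by linarith))
  have h3 : (fun p : Nat.Primes ↦ ∑' e, twistTerm K χ s ((p : ℕ) ^ e)) =
      fun p : Nat.Primes ↦ 1 + eulerRem K χ s p := funext fun p ↦ by
    have hS : Summable fun e : ℕ ↦ twistTerm K χ s ((p : ℕ) ^ e) :=
      (summable_norm_twistTerm hs).of_norm.comp_injective (Nat.pow_right_injective p.2.two_le)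
    rw [hS.tsum_eq_zero_add, pow_zero, twistTerm_one, eulerRem]
  rw [h3] at h2
  exact h2.unique h1

theorem idealLSeries_eq_tsum [NeZero m] (hm : m ≠ 1) {s : ℝ} (hs : 1 < s) :
    idealLSeries K χ s = ∑' n, twistTerm K χ s n := by
  set f : Ideal (𝓞 K) → ℂ := fun I ↦
    χ (Ideal.absNorm I : ℕ) * (((Ideal.absNorm I : ℝ) ^ (-s) : ℝ) : ℂ)
  have h0 : Function.support f ⊆ Set.range (Subtype.val : NZIdeal K → Ideal (𝓞 K)) := fun I hI ↦ by
    refine ⟨⟨I, mem_nonZeroDivisors_of_ne_zero fun h ↦ hI ?_⟩, rfl⟩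
    simp [f, h, Real.zero_rpow (by linarith : (-s : ℝ) ≠ 0)]
  have hs' : Summable f :=
    ((Subtype.val_injective (p := fun I ↦ I ∈ (Ideal (𝓞 K))⁰)).summable_iff
      (fun I hI ↦ Function.notMem_support.1 fun h ↦ hI (h0 h))).1 (summable_idealTerm χ hs)
  rw [idealLSeries, show (fun a : NZIdeal K ↦ idealTerm χ s a) = fun a : NZIdeal K ↦ f (a : Ideal (𝓞 K)) from rfl,
    Subtype.val_injective.tsum_eq h0,
    ← (Equiv.sigmaFiberEquiv fun I : Ideal (𝓞 K) ↦ Ideal.absNorm I).tsum_eq f]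
  refine (((Equiv.sigmaFiberEquiv fun I : Ideal (𝓞 K) ↦
    Ideal.absNorm I).summable_iff.2 hs').tsum_sigma).trans (tsum_congr fun n ↦ ?_)
  have := (Ideal.finite_setOfPred_absNorm_eq (S := 𝓞 K) n).to_subtype
  cases nonempty_fintype {I : Ideal (𝓞 K) // Ideal.absNorm I = n}
  rw [tsum_fintype]
  simp only [Function.comp_apply, Equiv.sigmaFiberEquiv, Equiv.coe_fn_mk, f]
  rw [Finset.sum_congr rfl fun I _ ↦ by rw [I.2], Finset.sum_const, Finset.card_univ, nsmul_eq_mul,
    ← Nat.card_eq_fintype_card, twistTerm, Density.zetaTerm, Density.idealCount]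
  push_cast
  ring

theorem continuousOn_logL (hχ : KillsSmall K χ) : ContinuousOn (logL K χ) (Set.Ioc 1 2) := by
  intro s hs
  set s₀ := (1 + s) / 2
  have hs₀ : 1 < s₀ := by simp only [s₀]; linarith [hs.1]
  suffices ContinuousOn (logL K χ) (Set.Icc s₀ 2) by
    refine (this s ⟨by simp only [s₀]; linarith [hs.1], hs.2⟩).mono_of_mem_nhdsWithin ?_
    rw [mem_nhdsWithin]
    exact ⟨Set.Ioi s₀, isOpen_Ioi, by simp only [Set.mem_Ioi, s₀]; linarith [hs.1],
      fun t ht ↦ ⟨le_of_lt ht.1, ht.2.2⟩⟩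
  have hterm : ∀ n, ContinuousOn (fun t : ℝ ↦ twistTerm K χ t n) (Set.Icc s₀ 2) := fun n ↦ by
    refine continuousOn_const.mul (Complex.continuous_ofReal.comp_continuousOn ?_)
    refine continuousOn_const.mul ?_
    rcases eq_or_ne n 0 with rfl | hn
    · refine (continuousOn_const (c := (0 : ℝ))).congr fun t ht ↦ ?_
      simp [Real.zero_rpow (by linarith [ht.1] : (-t : ℝ) ≠ 0)]
    · exact ((Real.continuous_const_rpow (Nat.cast_ne_zero.2 hn)).comp
        continuous_neg).continuousOn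
  have hz : ∀ n, ∀ t ∈ Set.Icc s₀ 2, ‖twistTerm K χ t n‖ ≤ Density.zetaTerm K s₀ n := fun n t ht ↦ by
    refine (norm_twistTerm_le t n).trans ?_
    rcases eq_or_ne n 0 with rfl | hn
    · rw [Density.zetaTerm_zero K (by linarith [ht.1]), Density.zetaTerm_zero K (by linarith)]
    exact mul_le_mul_of_nonneg_left (Real.rpow_le_rpow_of_exponent_le
      (Nat.one_le_cast.2 (Nat.one_le_iff_ne_zero.2 hn)) (by linarith [ht.1])) (Nat.cast_nonneg _)
  refine continuousOn_tsum (u := fun p : Nat.Primes ↦ (remConst K ^ 2 + Density.tailConst K) *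
    ((p : ℝ) ^ 2)⁻¹ + Density.zetaTerm K s₀ p) (fun p ↦ ?_)
    ((Density.summable_primes_inv_sq.mul_left _).add (summable_primes_zetaTerm hs₀))
    fun p t ht ↦ ?_
  · have hrem : ContinuousOn (fun t : ℝ ↦ eulerRem K χ t p) (Set.Icc s₀ 2) :=
      continuousOn_tsum (fun e ↦ hterm _)
        ((summable_zetaTerm (K := K) hs₀).comp_injective
          ((Nat.pow_right_injective p.2.two_le).comp (add_left_injective 1)))
        fun e t ht ↦ hz _ t ht
    refine (continuousOn_const.add hrem).clog fun t ht ↦ ?_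
    refine Complex.mem_slitPlane_iff.2 (Or.inl ?_)
    have := norm_eulerRem_le_half hχ (hs₀.trans_le ht.1) p.2
    have h2 := Complex.abs_re_le_norm (eulerRem K χ t p)
    show 0 < ((1 : ℂ) + eulerRem K χ t p).re
    rw [Complex.add_re, Complex.one_re]
    linarith [(abs_le.1 h2).1]
  · have h1 := norm_log_sub_le hχ (hs₀.trans_le ht.1) p
    have h2 := hz p t ht
    calc ‖Complex.log (1 + eulerRem K χ t p)‖ ≤
          ‖Complex.log (1 + eulerRem K χ t p) - twistTerm K χ t p‖ + ‖twistTerm K χ t p‖ := by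
            simpa using norm_add_le (Complex.log (1 + eulerRem K χ t p) - twistTerm K χ t p)
              (twistTerm K χ t p)
      _ ≤ _ := add_le_add h1 h2

/-- An integer valued continuous function on an interval is constant. -/
theorem eq_of_continuousOn_int {f : ℝ → ℝ} {a b : ℝ} (hf : ContinuousOn f (Set.Ioc a b))
    (hint : ∀ t ∈ Set.Ioc a b, ∃ n : ℤ, f t = n) {x y : ℝ} (hx : x ∈ Set.Ioc a b)
    (hy : y ∈ Set.Ioc a b) : f x = f y := by
  wlog h : f x ≤ f y generalizing x y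
  · exact (this hy hx (le_of_not_ge h)).symm
  by_contra hne
  obtain ⟨n, hn⟩ := hint x hx
  obtain ⟨k, hk⟩ := hint y hy
  have hnk : n + 1 ≤ k := by
    have : f x < f y := lt_of_le_of_ne h hne
    rw [hn, hk, Int.cast_lt] at this
    omega
  have hnk' : (n : ℝ) + 1 ≤ k := by exact_mod_cast hnk
  obtain ⟨t, ht, hft⟩ := isPreconnected_Ioc.intermediate_value hx hy hf
    (show (n : ℝ) + 1 / 2 ∈ Set.Icc (f x) (f y) by rw [hn, hk]; constructor <;> linarith)
  obtain ⟨j, hj⟩ := hint t ht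
  rw [hj] at hft
  have : ((2 * j : ℤ) : ℝ) = ((2 * n + 1 : ℤ) : ℝ) := by push_cast; linarith
  have := Int.cast_injective this
  omega

/-- A level at which all small primes are killed. -/
theorem exists_killsSmall [NeZero m] (h : NontrivialOnNorms K χ) :
    ∃ (m' : ℕ) (_ : NeZero m') (χ' : DirichletCharacter ℂ m'), m' ≠ 1 ∧ KillsSmall K χ' ∧
      (∃ B : ℝ, ∀ s, 1 < s → ‖primeSum K χ' s - primeSum K χ s‖ ≤ B) ∧
      ∃ F : ℝ → ℂ, ContinuousOn F (Set.Icc 1 2) ∧
        ∀ s ∈ Set.Ioc (1 : ℝ) 2, idealLSeries K χ' s = F s := by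
  set P := Finset.filter Nat.Prime (Finset.range (⌈2 * remConst K⌉₊ + 3))
  set m' := m * ∏ p ∈ P, p
  have hprod : ∏ p ∈ P, p ≠ 0 := Finset.prod_ne_zero_iff.2 fun p hp ↦ (Finset.mem_filter.1 hp).2.ne_zero
  have : NeZero m' := ⟨mul_ne_zero (NeZero.ne m) hprod⟩
  have hdiv : m ∣ m' := dvd_mul_right _ _
  set χ' := DirichletCharacter.changeLevel hdiv χ
  have hval : ∀ n : ℕ, n.Coprime m' → χ' (n : ℕ) = χ (n : ℕ) := fun n hn ↦ by
    have := DirichletCharacter.changeLevel_eq_cast_of_dvd χ hdiv (ZMod.unitOfCoprime n hn)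
    simp only [ZMod.coe_unitOfCoprime, ZMod.cast_natCast hdiv] at this
    exact this
  have hzero : ∀ n : ℕ, ¬ n.Coprime m' → χ' (n : ℕ) = 0 := fun n hn ↦
    χ'.map_nonunit ((ZMod.isUnit_iff_coprime n m').not.2 hn)
  refine ⟨m', this, χ', ?_, ?_, ?_, ?_⟩
  · intro h1
    have h2 : 2 ∈ P := Finset.mem_filter.2 ⟨Finset.mem_range.2 (by omega), Nat.prime_two⟩
    have : 2 ∣ m' := (Finset.dvd_prod_of_mem (fun p : ℕ ↦ p) h2).trans (dvd_mul_left _ _)
    rw [h1] at this
    norm_num at this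
  · intro p hp hlt
    refine hzero p fun hc ↦ hp.coprime_iff_not_dvd.1 hc ?_
    refine (Finset.dvd_prod_of_mem (fun p : ℕ ↦ p) (a := p) ?_).trans (dvd_mul_left _ _)
    refine Finset.mem_filter.2 ⟨Finset.mem_range.2 ?_, hp⟩
    have := hlt.trans_le (Nat.le_ceil _)
    rw [Nat.cast_lt] at this
    omega
  · refine ⟨∑ p ∈ (m'.primeFactors.subtype Nat.Prime : Finset Nat.Primes),
      ‖χ (p : ℕ)‖ * (Density.idealCount K p : ℝ), fun s hs ↦ ?_⟩
    rw [primeSum, primeSum, ← (summable_twistTerm hs).tsum_sub (summable_twistTerm hs)]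
    refine le_of_eq_of_le (congrArg norm (tsum_eq_sum (L := SummationFilter.unconditional Nat.Primes)
      (s := (m'.primeFactors.subtype Nat.Prime : Finset Nat.Primes)) ?_)) ?_
    rotate_left
    · refine (norm_sum_le _ _).trans (Finset.sum_le_sum fun p hp ↦ ?_)
      have hdvd : (p : ℕ) ∣ m' := (Nat.mem_primeFactors.1 (Finset.mem_subtype.1 hp)).2.1
      rw [twistTerm, hzero p fun hc ↦ p.2.coprime_iff_not_dvd.1 hc hdvd, zero_mul, zero_sub,
        norm_neg, twistTerm, norm_mul, Complex.norm_real,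
        Real.norm_of_nonneg (Density.zetaTerm_nonneg K s p)]
      refine mul_le_mul_of_nonneg_left (mul_le_of_le_one_right (Nat.cast_nonneg _) ?_) (norm_nonneg _)
      exact Real.rpow_le_one_of_one_le_of_nonpos (Nat.one_le_cast.2 p.2.one_le) (by linarith)
    · intro p hp
      have hc : (p : ℕ).Coprime m' := p.2.coprime_iff_not_dvd.2 fun hdvd ↦
        hp (Finset.mem_subtype.2 (Nat.mem_primeFactors.2 ⟨p.2, hdvd, NeZero.ne m'⟩))
      rw [twistTerm, twistTerm, hval p hc, sub_self]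
  · obtain ⟨p, ⟨hp, hc, -, h1⟩, hpm⟩ := (h.sdiff m'.primeFactors.finite_toSet).nonempty
    obtain ⟨⟨I, hI⟩⟩ := (Nat.card_pos_iff.1 hc).1
    have hcop : p.Coprime m' := hp.coprime_iff_not_dvd.2 fun hdvd ↦
      hpm (Nat.mem_primeFactors.2 ⟨hp, hdvd, NeZero.ne m'⟩)
    refine exists_continuousOn_idealLSeries χ' (I := I) ?_ (hI.symm ▸ hcop) ?_
    · rintro rfl
      rw [Ideal.absNorm_bot] at hI
      exact hp.ne_zero hI.symm
    · rw [hI, hval p hcop]
      exact h1

/-- The real part is bounded above. -/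
theorem exists_re_primeSum_le [NeZero m] (h : NontrivialOnNorms K χ) :
    ∃ B : ℝ, ∀ s : ℝ, 1 < s → s ≤ 2 → (primeSum K χ s).re ≤ B := by
  obtain ⟨m', _, χ', hm1, hsmall, ⟨B₁, hB₁⟩, F, hF, hLF⟩ := exists_killsSmall h
  obtain ⟨C, hC⟩ := isCompact_Icc.exists_bound_of_continuousOn hF
  set T := (remConst K ^ 2 + Density.tailConst K) * ∑' p : Nat.Primes, ((p : ℝ) ^ 2)⁻¹
  refine ⟨Real.log (max C 1) + T + B₁, fun s hs hs2 ↦ ?_⟩
  have h1 : Complex.exp (logL K χ' s) = F s := by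
    rw [← tsum_twistTerm_eq_exp hsmall hs, ← idealLSeries_eq_tsum hm1 hs, hLF s ⟨hs, hs2⟩]
  have h2 : (logL K χ' s).re ≤ Real.log (max C 1) := by
    rw [← Real.log_exp (logL K χ' s).re, ← Complex.norm_exp, h1]
    refine Real.log_le_log ?_ ((hC s ⟨hs.le, hs2⟩).trans (le_max_left _ _))
    rw [← h1, Complex.norm_exp]
    exact Real.exp_pos _
  have h3 := (Complex.abs_re_le_norm _).trans (norm_logL_sub_primeSum_le hsmall hs)
  have h4 := (Complex.abs_re_le_norm _).trans (hB₁ s hs)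
  simp only [Complex.sub_re, abs_le] at h3 h4
  linarith [h3.1, h4.1]

/-- If the real part is bounded below, the sum is bounded. -/
theorem exists_norm_primeSum_le [NeZero m] (h : NontrivialOnNorms K χ)
    (hlow : ∃ B : ℝ, ∀ s : ℝ, 1 < s → s ≤ 2 → -B ≤ (primeSum K χ s).re) :
    ∃ B : ℝ, ∀ s : ℝ, 1 < s → s ≤ 2 → ‖primeSum K χ s‖ ≤ B := by
  obtain ⟨m', _, χ', hm1, hsmall, ⟨B₁, hB₁⟩, F, hF, hLF⟩ := exists_killsSmall h
  obtain ⟨B₀, hB₀⟩ := hlow
  set T := (remConst K ^ 2 + Density.tailConst K) * ∑' p : Nat.Primes, ((p : ℝ) ^ 2)⁻¹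
  have hexp : ∀ s ∈ Set.Ioc (1 : ℝ) 2, Complex.exp (logL K χ' s) = F s := fun s hs ↦ by
    rw [← tsum_twistTerm_eq_exp hsmall hs.1, ← idealLSeries_eq_tsum hm1 hs.1, hLF s hs]
  have hlogB : ∀ s ∈ Set.Ioc (1 : ℝ) 2, -(B₀ + B₁ + T) ≤ (logL K χ' s).re := fun s hs ↦ by
    have h3 := (Complex.abs_re_le_norm _).trans (norm_logL_sub_primeSum_le hsmall hs.1)
    have h4 := (Complex.abs_re_le_norm _).trans (hB₁ s hs.1)
    simp only [Complex.sub_re, abs_le] at h3 h4
    linarith [h3.1, h4.1, hB₀ s hs.1 hs.2]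
  have hF1 : F 1 ≠ 0 := by
    intro h0
    have ht : Tendsto (fun s ↦ ‖F s‖) (𝓝[Set.Icc 1 2] 1) (𝓝 0) := by
      simpa [h0] using ((hF 1 ⟨le_rfl, one_le_two⟩).tendsto).norm
    have hev : ∀ᶠ s in 𝓝[Set.Ioc 1 2] (1 : ℝ), ‖F s‖ < Real.exp (-(B₀ + B₁ + T)) :=
      (ht.eventually (gt_mem_nhds (Real.exp_pos _))).filter_mono
        (nhdsWithin_mono _ Set.Ioc_subset_Icc_self)
    rw [nhdsWithin_Ioc_eq_nhdsGT one_lt_two] at hev
    obtain ⟨s, hs, hs'⟩ := (hev.and (Ioc_mem_nhdsGT one_lt_two)).exists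
    rw [← hexp s hs', Complex.norm_exp, Real.exp_lt_exp] at hs
    linarith [hlogB s hs']
  -- near `1` the quotient `F / F 1` stays in the slit plane
  obtain ⟨ε, hε, hball⟩ : ∃ ε > 0, ∀ s ∈ Set.Icc (1 : ℝ) (1 + ε),
      s ≤ 2 ∧ ‖F s / F 1 - 1‖ < 1 / 2 := by
    have ht : Tendsto (fun s ↦ ‖F s / F 1 - 1‖) (𝓝[Set.Icc 1 2] 1) (𝓝 0) := by
      have h2 := ((((hF 1 ⟨le_rfl, one_le_two⟩).div_const (F 1)).sub
        (continuousWithinAt_const (b := (1 : ℂ)))).norm).tendsto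
      simpa [div_self hF1] using h2
    obtain ⟨δ, hδ, hsub⟩ := Metric.mem_nhdsWithin_iff.1
      (ht.eventually (gt_mem_nhds (show (0 : ℝ) < 1 / 2 by norm_num)))
    refine ⟨min (δ / 2) 1, by positivity, fun s hs ↦ ?_⟩
    have h2 : s ≤ 2 := by linarith [hs.2, min_le_right (δ / 2) 1]
    refine ⟨h2, hsub ⟨?_, hs.1, h2⟩⟩
    rw [Metric.mem_ball, Real.dist_eq, abs_of_nonneg (by linarith [hs.1])]
    linarith [hs.2, min_le_left (δ / 2) 1]
  set s₀ := 1 + ε
  have hs₀ : 1 < s₀ := lt_add_of_pos_right 1 hε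
  have hsub : Set.Ioc 1 s₀ ⊆ Set.Ioc (1 : ℝ) 2 := fun s hs ↦ ⟨hs.1, (hball s ⟨hs.1.le, hs.2⟩).1⟩
  have hslit : ∀ s ∈ Set.Icc (1 : ℝ) s₀, F s / F 1 ∈ Complex.slitPlane := fun s hs ↦ by
    refine Complex.mem_slitPlane_iff.2 (Or.inl ?_)
    have h1 := (abs_le.1 ((Complex.abs_re_le_norm _).trans (hball s hs).2.le)).1
    simp only [Complex.sub_re, Complex.one_re] at h1
    linarith
  set G : ℝ → ℂ := fun s ↦ Complex.log (F s / F 1) + Complex.log (F 1)
  have hG : ContinuousOn G (Set.Icc 1 s₀) :=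
    (((hF.mono fun s hs ↦ ⟨hs.1, (hball s hs).1⟩).div_const _).clog hslit).add continuousOn_const
  set φ : ℝ → ℝ := fun s ↦ (logL K χ' s - G s).im / (2 * Real.pi)
  have hint : ∀ s ∈ Set.Ioc (1 : ℝ) s₀, ∃ n : ℤ, logL K χ' s - G s = n * (2 * Real.pi * I) := by
    intro s hs
    have hne : F s ≠ 0 := by rw [← hexp s (hsub hs)]; exact Complex.exp_ne_zero _
    refine Complex.exp_eq_one_iff.1 ?_
    rw [Complex.exp_sub, hexp s (hsub hs), Complex.exp_add, Complex.exp_log (div_ne_zero hne hF1),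
      Complex.exp_log hF1, div_mul_cancel₀ _ hF1, div_self hne]
  have hφ : ∀ s ∈ Set.Ioc (1 : ℝ) s₀, φ s = φ s₀ := fun s hs ↦ by
    refine eq_of_continuousOn_int ?_ (fun t ht ↦ ?_) hs (Set.right_mem_Ioc.2 hs₀)
    · exact (Complex.continuous_im.comp_continuousOn (((continuousOn_logL hsmall).mono hsub).sub
        (hG.mono Set.Ioc_subset_Icc_self))).div_const _
    · obtain ⟨n, hn⟩ := hint t ht
      refine ⟨n, ?_⟩
      simp only [φ, hn]
      simp
  obtain ⟨C, hC⟩ := isCompact_Icc.exists_bound_of_continuousOn hG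
  refine ⟨max (C + |φ s₀| * (2 * Real.pi) + T + B₁) (primeSumOne K s₀), fun s hs hs2 ↦ ?_⟩
  by_cases hcase : s₀ < s
  · exact ((norm_primeSum_le hs).trans (primeSumOne_anti hs₀ hcase.le)).trans (le_max_right _ _)
  rw [not_lt] at hcase
  refine le_trans ?_ (le_max_left _ _)
  obtain ⟨n, hn⟩ := hint s ⟨hs, hcase⟩
  have hnorm : ‖logL K χ' s‖ ≤ C + |φ s₀| * (2 * Real.pi) := by
    have h1 : ‖logL K χ' s - G s‖ = |φ s₀| * (2 * Real.pi) := by
      rw [← hφ s ⟨hs, hcase⟩]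
      simp only [φ, hn]
      simp [abs_of_pos Real.pi_pos]
    calc ‖logL K χ' s‖ ≤ ‖G s‖ + ‖logL K χ' s - G s‖ := by
          simpa using norm_add_le (G s) (logL K χ' s - G s)
      _ ≤ _ := add_le_add (hC s ⟨hs.le, hcase⟩) h1.le
  have h3 := norm_logL_sub_primeSum_le hsmall hs
  have h4 := hB₁ s hs
  have h5 := norm_sub_norm_le (primeSum K χ' s) (logL K χ' s)
  have h6 := norm_sub_norm_le (primeSum K χ s) (primeSum K χ' s)
  rw [norm_sub_rev] at h5 h6
  linarith

end Fermat.Agent.DS
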