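import Fermat.Agent.DS.AuxEis
import Fermat.Agent.LT.WeightOne.Gamma1Forms

/-!
# The weight two product of a weight one form and the auxiliary Eisenstein form
-/

set_option autoImplicit false
set_option linter.unusedSectionVars false

noncomputable section

namespace Fermat.Agent.DS

open CongruenceSubgroup ModularFormClass UpperHalfPlane EIS Matrix.SpecialLinearGroup
open Fermat.Agent.LT.WeightOne
open scoped MatrixGroups ModularForm Manifold

variable {N l : ℕ} [NeZero N] [hl : Fact l.Prime]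

theorem gamma_low_cast_eq_zero {γ : SL(2, ℤ)} (hγ : γ ∈ Gamma0 (N * l)) :
    ((γ 1 0 : ℤ) : ZMod l) = 0 := by
  have h := Gamma0_mem.1 hγ
  rw [ZMod.intCast_zmod_eq_zero_iff_dvd] at h ⊢
  exact (Int.natCast_dvd_natCast.2 (dvd_mul_left l N)).trans h

theorem mem_Gamma0_of_mul {γ : SL(2, ℤ)} (hγ : γ ∈ Gamma0 (N * l)) : γ ∈ Gamma0 N := by
  have h := Gamma0_mem.1 hγ
  rw [Gamma0_mem, ZMod.intCast_zmod_eq_zero_iff_dvd] at *
  exact (Int.natCast_dvd_natCast.2 (dvd_mul_right N l)).trans h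

theorem mem_Gamma1_of_mul {γ : SL(2, ℤ)} (hγ : γ ∈ Gamma1 (N * l)) :
    γ ∈ Gamma1 N ∧ ((γ 1 1 : ℤ) : ZMod l) = 1 ∧ ((γ 1 0 : ℤ) : ZMod l) = 0 := by
  obtain ⟨h0, h1, h2⟩ := (Gamma1_mem _ _).1 hγ
  have c : ∀ {x : ℤ} {y : ℕ} (M : ℕ), M ∣ N * l → (x : ZMod (N * l)) = (y : ZMod (N * l)) →
      (x : ZMod M) = (y : ZMod M) := fun {x y} M hM h ↦ by
    have := congrArg (ZMod.castHom hM (ZMod M)) h
    simpa using this
  exact ⟨(Gamma1_mem _ _).2 ⟨by simpa using c (y := 1) N (dvd_mul_right N l) (by simpa using h0),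
      by simpa using c (y := 1) N (dvd_mul_right N l) (by simpa using h1),
      by simpa using c (y := 0) N (dvd_mul_right N l) (by simpa using h2)⟩,
    by simpa using c (y := 1) l (dvd_mul_left l N) (by simpa using h1),
    by simpa using c (y := 0) l (dvd_mul_left l N) (by simpa using h2)⟩

variable (hl2 : l ≠ 2)

/-- `f · E` as a cusp form of weight two on `Γ₁(N l)`. -/
def productForm (f : CuspForm (Gamma1 N) 1) : CuspForm (Gamma1 (N * l)) 2 where
  toFun := ⇑f * auxEis (1 : ZMod l)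
  slash_action_eq' := by
    rintro _ ⟨γ, hγ, rfl⟩
    obtain ⟨hN, h1, h0⟩ := mem_Gamma1_of_mul hγ
    show (⇑f * auxEis (1 : ZMod l)) ∣[((1 : ℤ) + 1)] γ = _
    rw [ModularForm.mul_slash_SL2, isInv_form f γ hN, auxEis_slash _ h0, h1, mul_one]
  holo' := (CuspFormClass.holo f).mul (auxEis_mdiff hl2 one_ne_zero)
  zero_at_cusps' {c} hc := by
    rw [Subgroup.IsArithmetic.isCusp_iff_isCusp_SL2Z] at hc
    rw [OnePoint.isZeroAt_iff_forall_SL2Z hc]
    intro γ _
    show IsZeroAtImInfty ((⇑f * auxEis (1 : ZMod l)) ∣[((1 : ℤ) + 1)] γ)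
    rw [ModularForm.mul_slash_SL2]
    have hf : IsZeroAtImInfty (⇑f ∣[(1 : ℤ)] γ) := by
      have hc' : IsCusp (mapGL ℝ γ • (OnePoint.infty : OnePoint ℝ))
          (Gamma1 N : Subgroup (GL (Fin 2) ℝ)) := by
        rw [Subgroup.IsArithmetic.isCusp_iff_isCusp_SL2Z, isCusp_SL2Z_iff']
        exact ⟨_, rfl⟩
      exact CuspFormClass.zero_at_cusps f hc' _ rfl
    exact Filter.ZeroAtFilter.mul_boundedAtFilter hf
      (auxEis_isBoundedAtImInfty_slash hl2 one_ne_zero γ)

theorem coe_productForm (f : CuspForm (Gamma1 N) 1) :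
    ⇑(productForm hl2 f) = ⇑f * auxEis (1 : ZMod l) := rfl

variable (ε : DirichletCharacter ℂ N) (f : CuspForm (Gamma1 N) 1)
  (hneb : ∀ γ : Gamma0 N, (⇑f) ∣[(1 : ℤ)] (γ : SL(2, ℤ)) =
    ε (((γ : SL(2, ℤ)) 1 1 : ℤ) : ZMod N) • ⇑f)

include hneb in
/-- The diamond translates of the product. -/
theorem coe_diaForm_productForm {a : ℕ} (ha : a.Coprime (N * l)) :
    ⇑(diaForm a (productForm hl2 f)) = ε (a : ZMod N) • (⇑f * auxEis ((a : ℕ) : ZMod l)) := by
  have hγ := (lowRow (N * l) a).2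
  have h11 := lowRow_one_one ha
  show (⇑f * auxEis (1 : ZMod l)) ∣[((1 : ℤ) + 1)] ((lowRow (N * l) a : SL(2, ℤ))) = _
  rw [ModularForm.mul_slash_SL2, auxEis_slash _ (gamma_low_cast_eq_zero hγ),
    hneb ⟨_, mem_Gamma0_of_mul hγ⟩, one_mul, h11, Int.cast_natCast, Int.cast_natCast, smul_mul_assoc]

include hneb in
/-- The translates of `f · E` have integral coefficients congruent to multiples of those of `f`. -/
theorem exists_qCoeff_diaForm_productForm {c : ℕ → integralClosure ℤ ℂ}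
    (hc : ∀ n, (c n : ℂ) = qCoeff f n) (e : integralClosure ℤ ℂ) {a : ℕ} (ha : a.Coprime (N * l))
    (he : (e : ℂ) = ε (a : ZMod N)) {k : Type*} [Field k] [CharP k l]
    (φ : integralClosure ℤ ℂ →+* k) (n : ℕ) :
    ∃ z : integralClosure ℤ ℂ, (z : ℂ) = qCoeff (diaForm a (productForm hl2 f)) n ∧
      φ z = φ e / (a : k) * (3 * φ (c n)) := by
  have hal : ((a : ℕ) : ZMod l) ≠ 0 := by
    rw [Ne, ZMod.natCast_eq_zero_iff]
    exact (Nat.Prime.coprime_iff_not_dvd hl.out).1 (ha.coprime_dvd_right (dvd_mul_left l N)).symm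
  obtain ⟨S, hS, hφS⟩ := exists_auxEis_series hl2 hal φ
  set ι : integralClosure ℤ ℂ →+* ℂ := (integralClosure ℤ ℂ).val.toRingHom
  have hf : IsQSer 1 (⇑f) (PowerSeries.map ι (PowerSeries.mk c)) := by
    have h := isQSer_qExpansion one_pos (periodic_form f) (CuspFormClass.holo f) (bdd_form f)
    convert h using 1
    ext m
    rw [PowerSeries.coeff_map, PowerSeries.coeff_mk]
    exact hc m
  have hT : IsQSer 1 (ε (a : ZMod N) • (⇑f * auxEis ((a : ℕ) : ZMod l)))
      (PowerSeries.map ι (PowerSeries.C e * (PowerSeries.mk c * S))) := by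
    rw [map_mul, map_mul, PowerSeries.map_C, ← PowerSeries.smul_eq_C_mul]
    have := (hf.mul one_pos hS).smul (ε (a : ZMod N))
    rwa [← he] at this ⊢
  refine ⟨PowerSeries.coeff n (PowerSeries.C e * (PowerSeries.mk c * S)), ?_, ?_⟩
  · rw [coe_diaForm_productForm hl2 ε f hneb ha, qCoeff, hT.qExpansion_eq one_pos,
      PowerSeries.coeff_map]
    rfl
  · have h := congrArg (PowerSeries.coeff n) (show PowerSeries.map φ (PowerSeries.C e * (PowerSeries.mk c * S)) =
        PowerSeries.C (φ e * (3 / (a : k))) * PowerSeries.map φ (PowerSeries.mk c) by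
      rw [map_mul, map_mul, hφS, PowerSeries.map_C, map_mul]; ring)
    rw [PowerSeries.coeff_map, PowerSeries.coeff_C_mul (φ := PowerSeries.map φ (PowerSeries.mk c)),
      PowerSeries.coeff_map, PowerSeries.coeff_mk] at h
    rw [h]
    ring

end Fermat.Agent.DS
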