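import Fermat.Agent.DS.Symmetric
import Mathlib.Algebra.Polynomial.Roots

/-!
# Every form on `Γ₁(N)` is a ratio of integrally generated forms
-/

set_option autoImplicit false

noncomputable section

namespace Fermat.Agent.DS

open UpperHalfPlane hiding I
open ModularForm CongruenceSubgroup Finset Polynomial
open scoped MatrixGroups Manifold Classical

variable {N : ℕ} [NeZero N]

/-- The normalised weight `k` congruence form, with integral `q`-expansion. -/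
def eisInt (N : ℕ) [NeZero N] {k : ℕ} (hk : 3 ≤ k) (a : ZMod N) : MF1 N k :=
  (eisConst k)⁻¹ • rowEis (k := (k : ℤ)) (by omega) a

theorem qE_eisInt_mem {k : ℕ} (hk : 3 ≤ k) {a : ZMod N} (ha : a ≠ 0) :
    qE (eisInt N hk a) ∈ intSeries := by
  refine mem_intSeries_iff.2 fun n ↦ ⟨rowCoeff N k a n, ?_⟩
  rw [eisInt, FunLike.coe_smul, qE_smul _ (form_mem_qFunctions _), PowerSeries.coeff_smul,
    smul_eq_mul, show (qE ⇑(rowEis (k := (k : ℤ)) (by omega) a)).coeff n = _ from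
      qCoeff_rowEis hk ha n, inv_mul_cancel_left₀ (eisConst_ne_zero k)]

theorem slash_eisInt {k : ℕ} (hk : 3 ≤ k) (a : ZMod N) (γ : SL(2, ℤ)) :
    ⇑(eisInt N hk a) ∣[(k : ℤ)] γ =
      (eisConst k)⁻¹ • congrEis (k : ℤ) (linSet (γ 1 1 : ZMod N) (-(γ 1 0 : ZMod N)) a) := by
  rw [eisInt, FunLike.coe_smul, ModularForm.SL_smul_slash, rowEis_slash]

theorem exists_separating (N : ℕ) [NeZero N] :
    ∃ h : MF1 N 4, qE h ∈ intForms N 4 ∧ ∀ γ : SL(2, ℤ), ⇑h ∣[(4 : ℤ)] γ = ⇑h →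
      (γ 1 0 : ZMod N) = 0 ∧ ((γ 1 1 : ZMod N) = 1 ∨ (γ 1 1 : ZMod N) = -1) := by
  set A : Finset (ZMod N) := univ.erase 0 with hA
  set H : ZMod N → ZMod N → ZMod N → ℍ → ℂ := fun x y a ↦ congrEis ((4 : ℕ) : ℤ) (linSet x y a)
  set bad : Finset (ZMod N × ZMod N) := univ.filter fun p ↦ ∃ a ∈ A, H p.1 p.2 a ≠ H 1 0 a
  have hP : ∀ p ∈ bad, ∃ z : ℍ, (∑ a ∈ A, C (H p.1 p.2 a z - H 1 0 a z) * X ^ a.val) ≠ 0 := by
    intro p hp
    obtain ⟨a, ha, hne⟩ := (mem_filter.1 hp).2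
    obtain ⟨z, hz⟩ := Function.ne_iff.1 hne
    refine ⟨z, fun h0 ↦ sub_ne_zero.2 hz ?_⟩
    have := congrArg (fun P ↦ P.coeff a.val) h0
    simp only [finsetSum_coeff, coeff_C_mul_X_pow, coeff_zero] at this
    rwa [sum_eq_single_of_mem a ha fun b _ hb ↦ if_neg fun h ↦ hb (ZMod.val_injective N h.symm),
      if_pos rfl] at this
  choose! z hz using hP
  set P : ℂ[X] := ∏ p ∈ bad, ∑ a ∈ A, C (H p.1 p.2 a (z p) - H 1 0 a (z p)) * X ^ a.val
  have hP0 : P ≠ 0 := prod_ne_zero_iff.2 hz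
  obtain ⟨t, ht⟩ : ∃ t : ℕ, P.eval (t : ℂ) ≠ 0 := by
    by_contra hc
    push Not at hc
    exact hP0 (eq_zero_of_infinite_isRoot _
      ((Set.infinite_range_of_injective (Nat.cast_injective (R := ℂ))).mono
        (by rintro _ ⟨m, rfl⟩; exact hc m)))
  set h : MF1 N ((4 : ℕ) : ℤ) := ∑ a ∈ A, ((t : ℂ) ^ a.val) • eisInt N (show 3 ≤ 4 by norm_num) a
    with hh
  have hcoe : ⇑h = ∑ a ∈ A, ((t : ℂ) ^ a.val) • ⇑(eisInt N (show 3 ≤ 4 by norm_num) a) := by
    rw [hh, FunLike.coe_sum]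
    simp
  refine ⟨h, ?_, fun γ hγ ↦ ?_⟩
  · rw [hcoe]
    have hq : ∀ a, ((t : ℂ) ^ a.val) • ⇑(eisInt N (show 3 ≤ 4 by norm_num) a) ∈ MF.qFunctions :=
      fun a ↦ Subalgebra.smul_mem _ (form_mem_qFunctions _) _
    suffices hsub : ∀ s : Finset (ZMod N), s ⊆ A →
        qE (∑ a ∈ s, ((t : ℂ) ^ a.val) • ⇑(eisInt N (show 3 ≤ 4 by norm_num) a)) ∈ intForms N 4
      from hsub A subset_rfl
    intro s
    induction s using Finset.induction_on with
    | empty => simp [qE_zero]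
    | insert a s has ih =>
      intro hsA
      rw [sum_insert has, qE_add (hq a) (sum_mem fun b _ ↦ hq b), qE_smul _ (form_mem_qFunctions _)]
      exact add_mem (Submodule.smul_mem _ _ (mem_intForms_of_form _
        (qE_eisInt_mem _ (ne_of_mem_erase (hsA (mem_insert_self a s))))))
        (ih fun b hb ↦ hsA (mem_insert_of_mem hb))
  · set x : ZMod N := ((γ 1 1 : ℤ) : ZMod N)
    set y : ZMod N := ((γ 1 0 : ℤ) : ZMod N)
    have hnb : (x, -y) ∉ bad := by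
      intro hb
      apply ht
      rw [eval_prod]
      refine prod_eq_zero hb ?_
      have h1 : ∀ δ : SL(2, ℤ), (⇑h ∣[(4 : ℤ)] δ) (z (x, -y)) = (eisConst 4)⁻¹ *
          ∑ a ∈ A, (t : ℂ) ^ a.val *
            H (δ 1 1 : ZMod N) (-(δ 1 0 : ZMod N)) a (z (x, -y)) := by
        intro δ
        rw [hcoe, SlashAction.sum_slash, Finset.sum_apply, mul_sum]
        refine sum_congr rfl fun a _ ↦ ?_
        rw [ModularForm.SL_smul_slash]
        erw [slash_eisInt]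
        simp only [Pi.smul_apply, smul_eq_mul, H]
        ring
      have e := (h1 γ).symm.trans ((congrFun hγ _).trans
        ((congrFun (SlashAction.slash_one (4 : ℤ) ⇑h).symm _).trans (h1 1)))
      simp at e
      have e' := e.resolve_right (eisConst_ne_zero 4)
      simp only [eval_finset_sum, eval_mul, eval_C, eval_pow, eval_X, sub_mul, sum_sub_distrib]
      rw [sub_eq_zero]
      simpa [mul_comm] using e'
    simp only [bad, mem_filter, mem_univ, true_and, not_exists, not_and, not_not] at hnb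
    have hunit : -y = 0 → IsUnit x := by
      intro hy
      have hdet : (γ 0 0 : ℤ) * γ 1 1 - γ 0 1 * γ 1 0 = 1 := by
        have := γ.2
        rwa [Matrix.det_fin_two] at this
      have := congrArg (Int.cast : ℤ → ZMod N) hdet
      push_cast at this
      rw [neg_eq_zero] at hy
      rw [show ((γ 1 0 : ℤ) : ZMod N) = 0 from hy, mul_zero, sub_zero, mul_comm] at this
      exact IsUnit.of_mul_eq_one _ this
    obtain ⟨hy, hx⟩ := eq_one_or_neg_one_of_congrEis_eq (k := 4) (by norm_num) ⟨2, rfl⟩ hunit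
      fun a ha ↦ hnb a (mem_erase.2 ⟨ha, mem_univ _⟩)
    exact ⟨neg_eq_zero.1 hy, hx⟩

theorem slash_neg_eq {w : ℤ} (hw : Even w) (F : ℍ → ℂ) (γ : SL(2, ℤ)) :
    F ∣[w] (-γ) = F ∣[w] γ := by
  ext z
  rw [ModularForm.SL_slash_apply, ModularForm.SL_slash_apply]
  congr 1
  · simp
  · rw [show denom ↑(-γ) ↑z = -denom ↑γ ↑z by simp [denom]; ring, Even.neg_zpow hw.neg]

theorem slash_eq_of_separating {w : ℤ} (hw : Even w) {h : MF1 N 4}
    (hsep : ∀ γ : SL(2, ℤ), ⇑h ∣[(4 : ℤ)] γ = ⇑h →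
      (γ 1 0 : ZMod N) = 0 ∧ ((γ 1 1 : ZMod N) = 1 ∨ (γ 1 1 : ZMod N) = -1))
    (G : MF1 N w) {γ δ : SL(2, ℤ)} (h1 : ⇑h ∣[(4 : ℤ)] γ = ⇑h ∣[(4 : ℤ)] δ) :
    ⇑G ∣[w] γ = ⇑G ∣[w] δ := by
  suffices ⇑G ∣[w] (γ * δ⁻¹) = ⇑G by
    calc ⇑G ∣[w] γ = ⇑G ∣[w] (γ * δ⁻¹ * δ) := by simp
      _ = _ := by rw [SlashAction.slash_mul, this]
  have hfix : ⇑h ∣[(4 : ℤ)] (γ * δ⁻¹) = ⇑h := by
    rw [SlashAction.slash_mul, h1, ← SlashAction.slash_mul, mul_inv_cancel, SlashAction.slash_one]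
  obtain ⟨hy, hx⟩ := hsep _ hfix
  set ε : SL(2, ℤ) := γ * δ⁻¹
  have hdet : (ε 0 0 : ℤ) * ε 1 1 - ε 0 1 * ε 1 0 = 1 := by
    have := ε.2
    rwa [Matrix.det_fin_two] at this
  have hd := congrArg (Int.cast : ℤ → ZMod N) hdet
  push_cast at hd
  rw [hy, mul_zero, sub_zero] at hd
  rcases hx with hx | hx
  · rw [hx, mul_one] at hd
    exact SlashInvariantFormClass.slash_action_eq G _ ⟨ε, (Gamma1_mem N ε).2 ⟨hd, hx, hy⟩, rfl⟩
  · rw [hx, mul_neg, mul_one] at hd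
    rw [← slash_neg_eq hw]
    refine SlashInvariantFormClass.slash_action_eq G _ ⟨-ε, (Gamma1_mem N (-ε)).2 ?_, rfl⟩
    simp [hx, hy, hd]

theorem neg_one_mem_gamma1 (hN : N ≤ 2) : (-1 : SL(2, ℤ)) ∈ Gamma1 N := by
  rw [Gamma1_mem]
  interval_cases N
  · exact absurd rfl (NeZero.ne 0)
  · refine ⟨Subsingleton.elim _ _, Subsingleton.elim _ _, Subsingleton.elim _ _⟩
  · decide

theorem eq_zero_of_odd_weight (hN : N ≤ 2) {k : ℤ} (hk : Odd k) (F : MF1 N k) : F = 0 := by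
  refine ModularForm.ext fun z ↦ ?_
  have h0 : ⇑F ∣[k] (-1 : SL(2, ℤ)) = ⇑F :=
    SlashInvariantFormClass.slash_action_eq F _ ⟨-1, neg_one_mem_gamma1 hN, rfl⟩
  have h := congrFun h0 z
  rw [ModularForm.SL_slash_apply] at h
  simp [denom, hk.neg.neg_one_zpow] at h
  exact CharZero.eq_neg_self_iff.1 h.symm

theorem exists_weight_adjust (N : ℕ) [NeZero N] {k : ℤ} (hN : Even k ∨ 3 ≤ N) :
    ∃ (m : ℤ) (R : MF1 N m), Even (k + m) ∧ qE R ∈ intForms N m ∧ R ≠ 0 := by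
  by_cases hk : Even k
  · refine ⟨0, ModularForm.const 1, by simpa using hk, ?_, fun h ↦ ?_⟩
    · rw [show ⇑(ModularForm.const 1 : MF1 N 0) = 1 from rfl, qE_one]
      exact one_mem_intForms
    · simpa using congrFun (congrArg DFunLike.coe h) UpperHalfPlane.I
  · have h3 : 3 ≤ N := hN.resolve_left hk
    have h1 : (1 : ZMod N) ≠ 0 := by
      have : Fact (1 < N) := ⟨by omega⟩
      exact one_ne_zero
    refine ⟨3, eisInt N (show 3 ≤ 3 from le_rfl) 1, ?_,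
      mem_intForms_of_form _ (qE_eisInt_mem _ h1), fun h ↦ rowEis_three_ne_zero h3 ?_⟩
    · exact (Int.not_even_iff_odd.1 hk).add_odd (by decide)
    · exact (smul_eq_zero.1 h).resolve_left (inv_ne_zero (eisConst_ne_zero 3))

/-- Every form is a ratio of two integrally generated forms. -/
theorem exists_ratio {k : ℤ} (F : MF1 N k) :
    ∃ (n : ℤ) (B : PowerSeries ℂ), B ∈ intForms N n ∧ B ≠ 0 ∧
      qE F * B ∈ intForms N (k + n) := by
  by_cases hN : Even k ∨ 3 ≤ N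
  swap
  · push Not at hN
    refine ⟨0, 1, one_mem_intForms, one_ne_zero, ?_⟩
    rw [eq_zero_of_odd_weight (by omega) (Int.not_even_iff_odd.1 hN.1) F]
    simp [qE_zero]
  obtain ⟨m, R, hw, hRi, hR0⟩ := exists_weight_adjust N hN
  obtain ⟨h, hhi, hsep⟩ := exists_separating N
  set O := orbitFS h
  set D := #O with hD
  have hD0 : 0 < D := card_pos.2 ⟨_, coe_mem_orbitFS h⟩
  set P : ℍ → ℂ := ∏ ψ ∈ O.erase ⇑h, (⇑h - ψ) with hP
  have hkey : ∀ {w : ℤ} (G : MF1 N w), Even w →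
      ⇑G * P ∈ MF.qFunctions ∧ qE (⇑G * P) ∈ intForms N (w + 4 * (D - 1 : ℕ)) := by
    intro w G hw'
    obtain ⟨T, hT⟩ := exists_interpolation h G fun γ δ ↦ slash_eq_of_separating hw' hsep G
    rw [hP, hT, ← hD]
    have hmem : ∀ t, (-1 : ℤ) ^ t • (⇑h ^ (D - 1 - t) * ⇑(T t)) ∈ MF.qFunctions := fun t ↦
      zsmul_mem (mul_mem (pow_mem (form_mem_qFunctions h) _)
        (MF.coe_levelOne_mem_qFunctions _)) _
    refine ⟨sum_mem fun t _ ↦ hmem t, ?_⟩
    suffices hsub : ∀ s : Finset ℕ, s ⊆ range D →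
        qE (∑ t ∈ s, (-1 : ℤ) ^ t • (⇑h ^ (D - 1 - t) * ⇑(T t)))
          ∈ intForms N (w + 4 * (D - 1 : ℕ)) from hsub _ subset_rfl
    intro s
    induction s using Finset.induction_on with
    | empty => simp [qE_zero]
    | insert a s has ih =>
      intro hsD
      rw [sum_insert has, qE_add (hmem a) (sum_mem fun b _ ↦ hmem b)]
      refine add_mem ?_ (ih fun b hb ↦ hsD (mem_insert_of_mem hb))
      have hmm := mul_mem (pow_mem (form_mem_qFunctions h) (D - 1 - a))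
        (MF.coe_levelOne_mem_qFunctions (T a))
      rw [← Int.cast_smul_eq_zsmul ℂ, qE_smul _ hmm, qE_mul (pow_mem (form_mem_qFunctions h) _)
        (MF.coe_levelOne_mem_qFunctions _), qE_pow (form_mem_qFunctions h)]
      refine Submodule.smul_mem _ _ (intForms_cast ?_
        (mul_mem_intForms (pow_mem_intForms hhi (D - 1 - a)) (levelOne_mem_intForms' (T a))))
      have : a ≤ D - 1 := by
        have := Finset.mem_range.1 (hsD (mem_insert_self a s))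
        omega
      push_cast [this]
      ring
  obtain ⟨hPq, hPi⟩ := hkey (ModularForm.const 1 : MF1 N 0) ⟨0, rfl⟩
  rw [show ⇑(ModularForm.const 1 : MF1 N 0) = 1 from rfl, one_mul] at hPq hPi
  have hP0 : P ≠ 0 := by
    have hmd : ∀ ψ ∈ O.erase ⇑h, MDiff (⇑h - ψ) := fun ψ hψ ↦
      (ModularFormClass.holo h).sub (orbitFS_mem_hbFun (mem_of_mem_erase hψ)).1
    rw [hP]
    refine Finset.prod_induction _ (fun f : ℍ → ℂ ↦ MDiff f ∧ f ≠ 0)
      (fun a b ha hb ↦ ⟨ha.1.mul hb.1, fun h0 ↦ ?_⟩) ⟨mdifferentiable_const, one_ne_zero⟩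
      (fun ψ hψ ↦ ⟨hmd ψ hψ, sub_ne_zero.2 (ne_of_mem_erase hψ).symm⟩) |>.2
    exact ((UpperHalfPlane.mul_eq_zero_iff ha.1 hb.1).1 h0).elim ha.2 hb.2
  refine ⟨m + (0 + 4 * (D - 1 : ℕ)), qE R * qE P, mul_mem_intForms hRi hPi, mul_ne_zero ?_ ?_, ?_⟩
  · exact fun h0 ↦ hR0 ((FunLike.coe_zero_iff R).1 ((qE_eq_zero_iff (form_mem_qFunctions R)).1 h0))
  · exact fun h0 ↦ hP0 ((qE_eq_zero_iff hPq).1 h0)
  · obtain ⟨-, hi⟩ := hkey (F.mul R) hw
    rw [ModularForm.coe_mul, qE_mul (mul_mem (form_mem_qFunctions F) (form_mem_qFunctions R)) hPq,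
      qE_mul (form_mem_qFunctions F) (form_mem_qFunctions R), mul_assoc] at hi
    exact intForms_cast (by ring) hi

end Fermat.Agent.DS
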