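import Fermat.Agent.DS.IntForms
import Fermat.Agent.DS.CongrEisQExp

/-!
# Symmetric functions of the translates of a form on `Γ₁(N)`
-/

set_option autoImplicit false

noncomputable section

namespace Fermat.Agent.DS

open UpperHalfPlane hiding I
open ModularForm CongruenceSubgroup Finset Filter
open scoped MatrixGroups Manifold Classical

/-- Holomorphic functions on `ℍ` bounded at `i∞`. -/
def hbFun : Subalgebra ℂ (ℍ → ℂ) where
  carrier := {f | MDiff f ∧ IsBoundedAtImInfty f}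
  mul_mem' := fun {f g} hf hg => ⟨hf.1.mul hg.1, hf.2.mul hg.2⟩
  one_mem' := ⟨mdifferentiable_const, Filter.const_boundedAtFilter _ _⟩
  add_mem' := fun {f g} hf hg => ⟨hf.1.add hg.1, hf.2.add hg.2⟩
  zero_mem' := ⟨mdifferentiable_const, Filter.const_boundedAtFilter _ _⟩
  algebraMap_mem' := fun c => ⟨mdifferentiable_const, Filter.const_boundedAtFilter _ c⟩

theorem slash_mem_hbFun {N : ℕ} [NeZero N] {k : ℤ} (F : MF1 N k) (γ : SL(2, ℤ)) :
    (⇑F ∣[k] γ) ∈ hbFun :=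
  ⟨(ModularFormClass.holo F).slash k _, ModularFormClass.bdd_at_infty_slash F γ⟩

theorem prod_slash_SL (k : ℤ) (γ : SL(2, ℤ)) {ι : Type*} (U : Finset ι) (f : ι → ℍ → ℂ) :
    (∏ i ∈ U, f i) ∣[k * #U] γ = ∏ i ∈ U, (f i ∣[k] γ) := by
  induction U using Finset.induction_on with
  | empty => simp [ModularForm.is_invariant_one]
  | insert a U ha ih =>
    rw [prod_insert ha, prod_insert ha, card_insert_of_notMem ha,
      show k * ((#U + 1 : ℕ) : ℤ) = k + k * #U by push_cast; ring, ModularForm.mul_slash_SL2, ih]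

/-- Slashing by `γ` as a permutation of functions. -/
def slashEquiv (k : ℤ) (γ : SL(2, ℤ)) : (ℍ → ℂ) ≃ (ℍ → ℂ) where
  toFun f := f ∣[k] γ
  invFun f := f ∣[k] γ⁻¹
  left_inv f := by simp [← SlashAction.slash_mul]
  right_inv f := by simp [← SlashAction.slash_mul]

/-- The translates of `F` by `SL(2, ℤ)`. -/
def translates {N : ℕ} {k : ℤ} (F : MF1 N k) : Set (ℍ → ℂ) :=
  Set.range fun γ : SL(2, ℤ) ↦ ⇑F ∣[k] γ

section

variable {N : ℕ} [NeZero N] {k : ℤ}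

theorem slash_eq_of_redMat_eq (F : MF1 N k) {γ δ : SL(2, ℤ)} (h : redMat N γ = redMat N δ) :
    ⇑F ∣[k] γ = ⇑F ∣[k] δ := by
  have h1 : γ * δ⁻¹ ∈ Gamma N := by
    refine Gamma_mem'.2 (Subtype.ext ?_)
    show redMat N (γ * δ⁻¹) = 1
    rw [redMat_mul, h, ← redMat_mul, mul_inv_cancel, redMat_one]
  have h2 : γ * δ⁻¹ ∈ Gamma1 N := by
    have := Gamma_mem.1 h1
    exact (Gamma1_mem N _).2 ⟨this.1, this.2.2.2, this.2.2.1⟩
  have h3 : ⇑F ∣[k] (γ * δ⁻¹) = ⇑F :=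
    SlashInvariantFormClass.slash_action_eq F _ ⟨_, h2, rfl⟩
  calc ⇑F ∣[k] γ = ⇑F ∣[k] (γ * δ⁻¹ * δ) := by simp
    _ = _ := by rw [SlashAction.slash_mul, h3]

theorem translates_finite (F : MF1 N k) : (translates F).Finite := by
  have : Finite (Set.range (redMat N)) := Subtype.finite
  refine (Set.finite_range fun M : Set.range (redMat N) ↦ ⇑F ∣[k] M.2.choose).subset ?_
  rintro _ ⟨γ, rfl⟩
  have hex : ∃ y, redMat N y = redMat N γ := ⟨γ, rfl⟩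
  exact ⟨⟨_, hex⟩, slash_eq_of_redMat_eq F hex.choose_spec⟩

/-- The translates as a `Finset`. -/
def orbitFS (F : MF1 N k) : Finset (ℍ → ℂ) := (translates_finite F).toFinset

theorem mem_orbitFS {F : MF1 N k} {φ : ℍ → ℂ} :
    φ ∈ orbitFS F ↔ ∃ γ : SL(2, ℤ), ⇑F ∣[k] γ = φ := by
  simp [orbitFS, translates]

theorem coe_mem_orbitFS (F : MF1 N k) : ⇑F ∈ orbitFS F :=
  mem_orbitFS.2 ⟨1, by simp⟩

theorem orbitFS_map (F : MF1 N k) (δ : SL(2, ℤ)) :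
    (orbitFS F).map (slashEquiv k δ).toEmbedding = orbitFS F := by
  ext φ
  simp only [Finset.mem_map_equiv, mem_orbitFS]
  constructor
  · rintro ⟨γ, hγ⟩
    refine ⟨γ * δ, ?_⟩
    rw [SlashAction.slash_mul, hγ]
    exact (slashEquiv k δ).apply_symm_apply φ
  · rintro ⟨γ, rfl⟩
    exact ⟨γ * δ⁻¹, by rw [SlashAction.slash_mul]; rfl⟩

theorem orbitFS_mem_hbFun {F : MF1 N k} {φ : ℍ → ℂ} (h : φ ∈ orbitFS F) : φ ∈ hbFun := by
  obtain ⟨γ, rfl⟩ := mem_orbitFS.1 h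
  exact slash_mem_hbFun F γ

/-- `t`-th elementary symmetric function of a set of functions. -/
def esymmFun (S : Finset (ℍ → ℂ)) (t : ℕ) : ℍ → ℂ := ∑ U ∈ S.powersetCard t, ∏ φ ∈ U, φ

theorem esymmFun_slash (k : ℤ) (δ : SL(2, ℤ)) (S : Finset (ℍ → ℂ)) (t : ℕ) :
    esymmFun S t ∣[k * t] δ = esymmFun (S.map (slashEquiv k δ).toEmbedding) t := by
  rw [esymmFun, esymmFun, SlashAction.sum_slash, powersetCard_map, Finset.sum_map]
  refine Finset.sum_congr rfl fun U hU ↦ ?_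
  rw [← (mem_powersetCard.1 hU).2, prod_slash_SL]
  simp [slashEquiv]

theorem esymmFun_mem_hbFun {S : Finset (ℍ → ℂ)} (hS : ∀ φ ∈ S, φ ∈ hbFun) (t : ℕ) :
    esymmFun S t ∈ hbFun :=
  sum_mem fun U hU ↦ prod_mem fun φ hφ ↦ hS φ ((mem_powersetCard.1 hU).1 hφ)

end

/-- An `SL(2, ℤ)` invariant function in `hbFun` is a level one form. -/
def levelOneOfInvariant {w : ℤ} (T : ℍ → ℂ) (hT : T ∈ hbFun)
    (hinv : ∀ δ : SL(2, ℤ), T ∣[w] δ = T) : ModularForm 𝒮ℒ w where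
  toFun := T
  slash_action_eq' _ hg := by obtain ⟨δ, rfl⟩ := hg; exact hinv δ
  holo' := hT.1
  bdd_at_cusps' {c} hc := by
    rw [OnePoint.isBoundedAt_iff_forall_SL2Z hc]
    exact fun δ _ ↦ (hinv δ).symm ▸ hT.2

@[simp]
theorem coe_levelOneOfInvariant {w : ℤ} (T : ℍ → ℂ) (hT : T ∈ hbFun)
    (hinv : ∀ δ : SL(2, ℤ), T ∣[w] δ = T) : ⇑(levelOneOfInvariant T hT hinv) = T := rfl

/-- The monic relation of a form over the level one forms. -/
theorem exists_monic {N : ℕ} [NeZero N] {k : ℤ} (F : MF1 N k) :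
    ∃ (D : ℕ) (e : (t : ℕ) → ModularForm 𝒮ℒ (k * t)), 0 < D ∧ ⇑(e 0) = 1 ∧
      ∑ t ∈ range (D + 1), (-1) ^ t • (⇑F ^ (D - t) * ⇑(e t)) = 0 ∧
      ((∀ γ : SL(2, ℤ), IsZeroAtImInfty (⇑F ∣[k] γ)) →
        ∀ t, 1 ≤ t → IsZeroAtImInfty (⇑(e t))) := by
  refine ⟨#(orbitFS F), fun t ↦ levelOneOfInvariant (esymmFun (orbitFS F) t)
    (esymmFun_mem_hbFun (fun φ ↦ orbitFS_mem_hbFun) t)
    (fun δ ↦ by rw [esymmFun_slash, orbitFS_map]), card_pos.2 ⟨_, coe_mem_orbitFS F⟩,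
    by simp [esymmFun], ?_, fun hz t ht ↦ ?_⟩
  · have h0 : ∏ φ ∈ orbitFS F, (⇑F - φ) = 0 :=
      prod_eq_zero (coe_mem_orbitFS F) (sub_self _)
    rw [prod_sub (fun _ ↦ ⇑F) (fun φ ↦ φ), sum_powerset] at h0
    rw [← h0]
    refine sum_congr rfl fun t _ ↦ ?_
    simp only [coe_levelOneOfInvariant, esymmFun, mul_sum, smul_sum]
    refine sum_congr rfl fun U hU ↦ ?_
    rw [prod_const, card_sdiff_of_subset (mem_powersetCard.1 hU).1, (mem_powersetCard.1 hU).2,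
      zsmul_eq_mul]
    push_cast
    ring
  · simp only [coe_levelOneOfInvariant, esymmFun]
    refine Finset.sum_induction _ IsZeroAtImInfty (fun a b ha hb ↦ ha.add hb)
      (zero_zeroAtFilter _) fun U hU ↦ ?_
    obtain ⟨φ, hφ⟩ := card_pos.1 ((mem_powersetCard.1 hU).2 ▸ ht)
    rw [← mul_prod_erase _ _ hφ, mul_comm]
    obtain ⟨γ, rfl⟩ := mem_orbitFS.1 ((mem_powersetCard.1 hU).1 hφ)
    have hb : IsBoundedAtImInfty (∏ ψ ∈ U.erase (⇑F ∣[k] γ), ψ) :=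
      (prod_mem (S := hbFun) fun ψ hψ ↦
        orbitFS_mem_hbFun ((mem_powersetCard.1 hU).1 (mem_of_mem_erase hψ))).2
    exact hb.mul_zeroAtFilter (hz γ)

section Interpolation

variable {N : ℕ} [NeZero N]

/-- If the stabiliser of `h` fixes `G`, then `G ∏_{ψ ≠ h} (h - ψ)` is a combination of level
one forms times powers of `h`. -/
theorem exists_interpolation {v w : ℤ} (h : MF1 N v) (G : MF1 N w)
    (hG : ∀ γ δ : SL(2, ℤ), ⇑h ∣[v] γ = ⇑h ∣[v] δ → ⇑G ∣[w] γ = ⇑G ∣[w] δ) :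
    ∃ T : (t : ℕ) → ModularForm 𝒮ℒ (w + v * t),
      ⇑G * ∏ ψ ∈ (orbitFS h).erase ⇑h, (⇑h - ψ)
        = ∑ t ∈ range #(orbitFS h), (-1) ^ t • (⇑h ^ (#(orbitFS h) - 1 - t) * ⇑(T t)) := by
  set O := orbitFS h
  set Gof : (ℍ → ℂ) → (ℍ → ℂ) := fun φ ↦
    if hφ : φ ∈ O then ⇑G ∣[w] (mem_orbitFS.1 hφ).choose else 0 with hGof
  have hGofs : ∀ γ : SL(2, ℤ), Gof (⇑h ∣[v] γ) = ⇑G ∣[w] γ := by
    intro γ
    have hm : ⇑h ∣[v] γ ∈ O := mem_orbitFS.2 ⟨γ, rfl⟩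
    simp only [hGof]
    rw [dif_pos hm]
    exact hG _ _ (mem_orbitFS.1 hm).choose_spec
  set T : ℕ → (ℍ → ℂ) := fun t ↦ ∑ φ ∈ O, Gof φ * esymmFun (O.erase φ) t with hT
  have hTinv : ∀ (t : ℕ) (δ : SL(2, ℤ)), T t ∣[w + v * t] δ = T t := by
    intro t δ
    simp only [hT, SlashAction.sum_slash]
    conv_rhs => rw [show O = O.map (slashEquiv v δ).toEmbedding from (orbitFS_map h δ).symm]
    rw [Finset.sum_map]
    refine sum_congr rfl fun φ hφ ↦ ?_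
    rw [ModularForm.mul_slash_SL2, esymmFun_slash, map_erase, orbitFS_map]
    obtain ⟨γ, rfl⟩ := mem_orbitFS.1 hφ
    have : (slashEquiv v δ).toEmbedding (⇑h ∣[v] γ) = ⇑h ∣[v] (γ * δ) := by
      rw [SlashAction.slash_mul]; rfl
    rw [this, hGofs, hGofs]
    simp only [SlashAction.slash_mul, O]
  have hTmem : ∀ t, T t ∈ hbFun := fun t ↦ sum_mem fun φ hφ ↦ by
    obtain ⟨γ, rfl⟩ := mem_orbitFS.1 hφ
    rw [hGofs]
    exact mul_mem (slash_mem_hbFun G γ)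
      (esymmFun_mem_hbFun (fun ψ hψ ↦ orbitFS_mem_hbFun (mem_of_mem_erase hψ)) t)
  refine ⟨fun t ↦ levelOneOfInvariant (T t) (hTmem t) (hTinv t), ?_⟩
  have hmain : ∑ φ ∈ O, Gof φ * ∏ ψ ∈ O.erase φ, (⇑h - ψ)
      = ⇑G * ∏ ψ ∈ O.erase ⇑h, (⇑h - ψ) := by
    rw [Finset.sum_eq_single_of_mem (⇑h) (coe_mem_orbitFS h) fun φ hφ hne ↦ by
      rw [prod_eq_zero (mem_erase.2 ⟨hne.symm, coe_mem_orbitFS h⟩) (sub_self _), mul_zero]]
    have := hGofs 1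
    simp only [SlashAction.slash_one] at this
    rw [this]
  have hexp : ∀ φ ∈ O, ∏ ψ ∈ O.erase φ, (⇑h - ψ) =
      ∑ t ∈ range #O, (-1) ^ t • (⇑h ^ (#O - 1 - t) * esymmFun (O.erase φ) t) := by
    intro φ hφ
    have hc : #(O.erase φ) + 1 = #O := card_erase_add_one hφ
    rw [prod_sub (fun _ ↦ ⇑h) (fun ψ ↦ ψ), sum_powerset, hc]
    refine sum_congr rfl fun t _ ↦ ?_
    simp only [esymmFun, mul_sum, smul_sum]
    refine sum_congr rfl fun U hU ↦ ?_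
    rw [prod_const, card_sdiff_of_subset (mem_powersetCard.1 hU).1, (mem_powersetCard.1 hU).2,
      zsmul_eq_mul, show #(O.erase φ) = #O - 1 by omega]
    push_cast
    ring
  rw [← hmain, sum_congr rfl fun φ hφ ↦ by rw [hexp φ hφ, mul_sum], sum_comm]
  refine sum_congr rfl fun t _ ↦ ?_
  simp only [coe_levelOneOfInvariant, hT, mul_sum, smul_sum]
  refine sum_congr rfl fun φ _ ↦ ?_
  rw [zsmul_eq_mul, zsmul_eq_mul]
  ring

end Interpolation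

end Fermat.Agent.DS
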