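import Mathlib.NumberTheory.ModularForms.Bounds
import Mathlib.Analysis.Fourier.AddCircle
import Mathlib.Analysis.SpecialFunctions.Log.Deriv
import Mathlib.Analysis.PSeries
import Mathlib.Analysis.Complex.ExponentialBounds
import Mathlib.Data.Nat.Squarefree
import Fermat.Prelude.Def_FLTPrelim_Modularity

/-!
# The mean-square bound for the coefficients of a weight one cusp form

For a weight one cusp form `f`, `∑_{n ≤ X} ‖a_n‖² ≤ C X`, hence
`∑ ‖a_n‖² n^{-s} ≤ C / (s - 1)`, hence for multiplicative coefficients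
`∑_p min (‖a_p‖²) c · p^{-s} ≤ log (1 / (s - 1)) + O_c (1)`.
-/

set_option autoImplicit false

noncomputable section

namespace Fermat.Agent.DS

open UpperHalfPlane ModularFormClass MeasureTheory Finset Real

/-- `∑_{n ∈ T} b n · n^{-s} ≤ K / (s - 1)` when the partial sums of `b ≥ 0` grow linearly. -/
theorem exists_dirichlet_sum_le {b : ℕ → ℝ} (hb : ∀ n, 0 ≤ b n) {C : ℝ}
    (hC : ∀ X : ℕ, 0 < X → ∑ n ∈ Finset.range (X + 1), b n ≤ C * X) :
    ∃ K : ℝ, 0 < K ∧ ∀ s : ℝ, 1 < s → s ≤ 2 → ∀ T : Finset ℕ, 0 ∉ T →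
      ∑ n ∈ T, b n * (n : ℝ) ^ (-s) ≤ K / (s - 1) := by
  have hC0 : 0 ≤ C := by simpa using (sum_nonneg fun n _ ↦ hb n).trans (hC 1 one_pos)
  refine ⟨4 * (C + 1) / Real.log 2, by positivity, fun s hs hs2 T hT ↦ ?_⟩
  set r : ℝ := (2 : ℝ) ^ (-(s - 1)) with hr
  have hr0 : 0 < r := by positivity
  have hl : 0 < Real.log 2 := Real.log_pos one_lt_two
  set x := (s - 1) * Real.log 2 with hx
  have hx0 : 0 < x := mul_pos (by linarith) hl
  have hx1 : x ≤ 1 := by
    have := Real.log_two_lt_d9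
    nlinarith
  have hrle : r ≤ 1 / (1 + x) := by
    rw [hr, Real.rpow_def_of_pos two_pos, one_div, show Real.log 2 * -(s - 1) = -x by ring,
      Real.exp_neg]
    gcongr
    linarith [Real.add_one_le_exp x]
  have hr1 : r < 1 := hrle.trans_lt (by rw [div_lt_one (by linarith)]; linarith)
  have hgeom : (1 - r)⁻¹ ≤ 2 / x := by
    have : x / 2 ≤ 1 - r := by
      have h1 : r * (1 + x) ≤ 1 := (le_div_iff₀ (by linarith)).1 hrle
      nlinarith
    calc (1 - r)⁻¹ ≤ (x / 2)⁻¹ := by gcongr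
      _ = 2 / x := by rw [inv_div]
  have block : ∀ k : ℕ, ∑ n ∈ T with Nat.log 2 n = k, b n * (n : ℝ) ^ (-s)
      ≤ 2 * (C + 1) * r ^ k := by
    intro k
    calc _ ≤ ∑ n ∈ T with Nat.log 2 n = k, b n * ((2 : ℝ) ^ k) ^ (-s) := by
          refine sum_le_sum fun n hn ↦ mul_le_mul_of_nonneg_left ?_ (hb n)
          obtain ⟨hnT, rfl⟩ := mem_filter.1 hn
          have hn0 : n ≠ 0 := fun h ↦ hT (h ▸ hnT)
          exact Real.rpow_le_rpow_of_nonpos (by positivity)
            (mod_cast Nat.pow_log_le_self 2 hn0) (by linarith)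
      _ ≤ (∑ n ∈ Finset.range (2 ^ (k + 1) + 1), b n) * ((2 : ℝ) ^ k) ^ (-s) := by
          rw [← sum_mul]
          refine mul_le_mul_of_nonneg_right (sum_le_sum_of_subset_of_nonneg ?_ fun n _ _ ↦ hb n)
            (by positivity)
          intro n hn
          obtain ⟨-, rfl⟩ := mem_filter.1 hn
          have := Nat.lt_pow_succ_log_self one_lt_two n
          simp only [Finset.mem_range, Nat.succ_eq_add_one] at this ⊢
          omega
      _ ≤ ((C + 1) * (2 : ℝ) ^ (k + 1)) * ((2 : ℝ) ^ k) ^ (-s) := by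
          gcongr
          refine (hC _ (by positivity)).trans ?_
          push_cast
          gcongr
          linarith
      _ = 2 * (C + 1) * r ^ k := by
          have h2 : (2 : ℝ) ^ k = (2 : ℝ) ^ (k : ℝ) := (Real.rpow_natCast 2 k).symm
          rw [hr, ← Real.rpow_natCast ((2 : ℝ) ^ (-(s - 1))), ← Real.rpow_mul zero_le_two,
            pow_succ, h2, ← Real.rpow_mul zero_le_two]
          rw [show (C + 1) * (2 ^ (k : ℝ) * 2) * 2 ^ ((k : ℝ) * -s)
            = 2 * (C + 1) * ((2 : ℝ) ^ (k : ℝ) * 2 ^ ((k : ℝ) * -s)) by ring, ← Real.rpow_add two_pos]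
          ring_nf
  set M := T.sup (Nat.log 2) + 1 with hM
  calc ∑ n ∈ T, b n * (n : ℝ) ^ (-s)
      = ∑ k ∈ Finset.range M, ∑ n ∈ T with Nat.log 2 n = k, b n * (n : ℝ) ^ (-s) :=
        (sum_fiberwise_of_maps_to (fun n hn ↦ Finset.mem_range.2
          (Nat.lt_succ_of_le (Finset.le_sup (f := Nat.log 2) hn))) _).symm
    _ ≤ ∑ k ∈ Finset.range M, 2 * (C + 1) * r ^ k := sum_le_sum fun k _ ↦ block k
    _ = 2 * (C + 1) * ∑ k ∈ Finset.range M, r ^ k := (mul_sum ..).symm
    _ ≤ 2 * (C + 1) * (2 / x) := by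
        gcongr
        rw [← tsum_geometric_of_lt_one hr0.le hr1] at hgeom
        exact (Summable.sum_le_tsum _ (fun i _ ↦ by positivity)
          (summable_geometric_of_lt_one hr0.le hr1)).trans hgeom
    _ = 4 * (C + 1) / Real.log 2 / (s - 1) := by rw [hx, div_div]; ring

section CuspForm

variable {Γ : Subgroup (GL (Fin 2) ℝ)} [Γ.IsArithmetic]
  {F : Type*} [FunLike F ℍ ℂ] [CuspFormClass F Γ 1] (f : F)

/-- The mean-square coefficient bound. -/
theorem exists_sum_sq_qCoeff_le (hΓ : (1 : ℝ) ∈ Γ.strictPeriods) :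
    ∃ C : ℝ, ∀ X : ℕ, 0 < X → ∑ n ∈ Finset.range (X + 1), ‖qCoeff f n‖ ^ 2 ≤ C * X := by
  obtain ⟨C, hC⟩ := CuspFormClass.exists_bound f
  refine ⟨Real.exp (4 * π) * C ^ 2, fun X hX ↦ ?_⟩
  set t : ℝ := (X : ℝ)⁻¹ with ht
  have ht0 : 0 < t := by positivity
  set g : ℝ → ℂ := fun u ↦ f ⟨u + t * Complex.I, by simpa using ht0⟩ with hg
  have hgc : Continuous g :=
    (ModularFormClass.holo f).continuous.comp (by fun_prop)
  have hgb : ∀ u, ‖g u‖ ≤ C / t ^ (1 / 2 : ℝ) := fun u ↦ by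
    simpa [hg, ← UpperHalfPlane.coe_im] using hC ⟨u + t * Complex.I, by simpa using ht0⟩
  have hL2 : MemLp g 2 (volume.restrict (Set.Ioc (0 : ℝ) 1)) :=
    (memLp_top_of_bound hgc.aestronglyMeasurable _ (ae_of_all _ hgb)).mono_exponent le_top
  have hP := hasSum_sq_fourierCoeffOn (zero_lt_one' ℝ) hL2
  have hcoe : ∀ n : ℕ, fourierCoeffOn (zero_lt_one' ℝ) g (n : ℤ)
      = qCoeff f n * (Real.exp (-2 * π * n * t) : ℂ) := by
    intro n
    rw [fourierCoeffOn_eq_integral, qCoeff,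
      ModularFormClass.qExpansion_coeff_eq_intervalIntegral f one_pos hΓ n ht0]
    simp only [sub_zero, one_div, inv_one, one_smul, Complex.ofReal_one, one_mul]
    rw [← intervalIntegral.integral_mul_const]
    refine intervalIntegral.integral_congr fun u _ ↦ ?_
    simp only [smul_eq_mul, fourier_coe_apply, Function.Periodic.qParam, hg, Complex.ofReal_exp,
      ← Complex.exp_nat_mul, ← Complex.exp_neg]
    rw [mul_right_comm _ (f _), ← Complex.exp_add]
    congr 2
    push_cast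
    have := Complex.I_sq
    grind
  have hint : (1 - 0 : ℝ)⁻¹ • ∫ u in (0:ℝ)..1, ‖g u‖ ^ 2 ≤ C ^ 2 * X := by
    calc _ = ∫ u in (0:ℝ)..1, ‖g u‖ ^ 2 := by simp
      _ ≤ ∫ _ in (0:ℝ)..1, C ^ 2 * X := by
          refine intervalIntegral.integral_mono zero_le_one ((hgc.norm.pow 2).intervalIntegrable _ _) ?_ ?_
          · exact intervalIntegrable_const
          · intro u
            calc ‖g u‖ ^ 2 ≤ (C / t ^ (1 / 2 : ℝ)) ^ 2 := by gcongr; exact hgb u
              _ = C ^ 2 * X := by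
                rw [div_pow, ← Real.sqrt_eq_rpow, Real.sq_sqrt ht0.le, ht, div_inv_eq_mul]
      _ = _ := by simp
  have hfin : ∑ n ∈ Finset.range (X + 1), ‖fourierCoeffOn (zero_lt_one' ℝ) g (n : ℤ)‖ ^ 2
      ≤ C ^ 2 * X := by
    refine le_trans ?_ hint
    rw [← hP.tsum_eq]
    have := hP.summable.sum_le_tsum ((Finset.range (X + 1)).map Nat.castEmbedding)
      (fun i _ ↦ by positivity)
    simpa [Finset.sum_map] using this
  calc ∑ n ∈ Finset.range (X + 1), ‖qCoeff f n‖ ^ 2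
      ≤ ∑ n ∈ Finset.range (X + 1),
          Real.exp (4 * π) * ‖fourierCoeffOn (zero_lt_one' ℝ) g (n : ℤ)‖ ^ 2 := by
        refine sum_le_sum fun n hn ↦ ?_
        rw [hcoe, norm_mul, Complex.norm_real, Real.norm_of_nonneg (Real.exp_pos _).le, mul_pow,
          ← Real.exp_nat_mul, ← mul_left_comm, ← Real.exp_add]
        refine le_mul_of_one_le_right (by positivity) (Real.one_le_exp ?_)
        have hnt : (n : ℝ) * t ≤ 1 := by
          rw [ht, ← div_eq_mul_inv, div_le_one (by positivity)]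
          exact_mod_cast Nat.lt_succ_iff.1 (Finset.mem_range.1 hn)
        push_cast
        nlinarith [Real.pi_pos]
    _ ≤ Real.exp (4 * π) * (C ^ 2 * X) := by rw [← mul_sum]; gcongr
    _ = _ := by ring

end CuspForm

section Multiplicative

variable {N : ℕ} {a : ℕ → ℂ}

/-- `a` is multiplicative on square-free numbers prime to `N`. -/
def MulAwayFrom (N : ℕ) (a : ℕ → ℂ) : Prop :=
  a 1 = 1 ∧ ∀ p : ℕ, p.Prime → ¬ p ∣ N → ∀ n : ℕ, ¬ p ∣ n → a (p * n) = a p * a n

theorem MulAwayFrom.prod_apply (ha : MulAwayFrom N a) {S : Finset ℕ}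
    (hS : ∀ p ∈ S, p.Prime ∧ ¬ p ∣ N) : a (∏ p ∈ S, p) = ∏ p ∈ S, a p := by
  induction S using Finset.induction_on with
  | empty => simpa using ha.1
  | insert p S hp ih =>
    obtain ⟨hpP, hpN⟩ := hS p (mem_insert_self _ _)
    rw [prod_insert hp, prod_insert hp, ha.2 p hpP hpN, ih fun q hq ↦ hS q (mem_insert_of_mem hq)]
    intro hdvd
    obtain ⟨q, hq, hpq⟩ := (hpP.prime.dvd_finsetProd_iff _).1 hdvd
    exact hp ((Nat.prime_dvd_prime_iff_eq hpP (hS q (mem_insert_of_mem hq)).1).1 hpq ▸ hq)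

/-- The weighted prime sum bound. -/
theorem MulAwayFrom.exists_sum_min_le (ha : MulAwayFrom N a) {C : ℝ}
    (hC : ∀ X : ℕ, 0 < X → ∑ n ∈ Finset.range (X + 1), ‖a n‖ ^ 2 ≤ C * X) {c : ℝ} (hc : 0 ≤ c) :
    ∃ D : ℝ, ∀ s : ℝ, 1 < s → s ≤ 2 → ∀ P : Finset ℕ, (∀ p ∈ P, p.Prime ∧ ¬ p ∣ N) →
      ∑ p ∈ P, min (‖a p‖ ^ 2) c * (p : ℝ) ^ (-s) ≤ Real.log (1 / (s - 1)) + D := by
  obtain ⟨K, hK0, hK⟩ := exists_dirichlet_sum_le (fun n ↦ sq_nonneg ‖a n‖) hC
  have hsum : Summable fun n : ℕ ↦ c ^ 2 * ((n : ℝ) ^ 2)⁻¹ :=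
    (Real.summable_nat_pow_inv.2 one_lt_two).mul_left _
  refine ⟨Real.log K + ∑' n : ℕ, c ^ 2 * ((n : ℝ) ^ 2)⁻¹, fun s hs hs2 P hP ↦ ?_⟩
  set x : ℕ → ℝ := fun p ↦ ‖a p‖ ^ 2 * (p : ℝ) ^ (-s)
  have hx : ∀ p, 0 ≤ x p := fun p ↦ by positivity
  have hinj : Set.InjOn (fun S ↦ ∏ p ∈ S, p) (P.powerset : Set (Finset ℕ)) := by
    intro S hS S' hS' h
    simp only [coe_powerset, Set.mem_preimage, Set.mem_powerset_iff, coe_subset] at hS hS'
    have := congrArg Nat.primeFactors h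
    simpa [Nat.primeFactors_prod (fun p hp ↦ (hP p (hS hp)).1),
      Nat.primeFactors_prod (fun p hp ↦ (hP p (hS' hp)).1)] using this
  have hprod : ∏ p ∈ P, (1 + x p) ≤ K / (s - 1) := by
    rw [prod_one_add]
    refine le_trans (le_of_eq ?_) (hK s hs hs2 (P.powerset.image fun S ↦ ∏ p ∈ S, p) ?_)
    · rw [sum_image hinj]
      refine sum_congr rfl fun S hS ↦ ?_
      rw [ha.prod_apply fun p hp ↦ hP p (mem_powerset.1 hS hp), norm_prod, ← prod_pow,
        Nat.cast_prod, ← Real.finsetProd_rpow _ _ fun p _ ↦ by positivity, ← prod_mul_distrib]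
    · simp only [mem_image, mem_powerset, not_exists, not_and]
      exact fun S hS ↦ prod_ne_zero_iff.2 fun p hp ↦ (hP p (hS hp)).1.ne_zero
  have hlog : ∑ p ∈ P, Real.log (1 + x p) ≤ Real.log (1 / (s - 1)) + Real.log K := by
    have h0 : ∀ p ∈ P, 0 < 1 + x p := fun p _ ↦ by linarith [hx p]
    rw [← Real.log_prod fun p hp ↦ (h0 p hp).ne', add_comm, ← Real.log_mul hK0.ne'
      (by have : 0 < s - 1 := by linarith
          positivity), ← div_eq_mul_one_div]
    exact Real.log_le_log (prod_pos h0) hprod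
  calc ∑ p ∈ P, min (‖a p‖ ^ 2) c * (p : ℝ) ^ (-s)
      ≤ ∑ p ∈ P, (Real.log (1 + x p) + c ^ 2 * ((p : ℝ) ^ 2)⁻¹) := by
        refine sum_le_sum fun p hp ↦ ?_
        set y := min (‖a p‖ ^ 2) c * (p : ℝ) ^ (-s)
        have hp1 : (1 : ℝ) ≤ p := mod_cast (hP p hp).1.one_le
        have hy0 : 0 ≤ y := mul_nonneg (le_min (by positivity) hc) (by positivity)
        have hy1 : y ≤ x p := by
          refine mul_le_mul_of_nonneg_right (min_le_left _ _) (by positivity)
        have hy2 : y ^ 2 ≤ c ^ 2 * ((p : ℝ) ^ 2)⁻¹ := by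
          have : y ≤ c * (p : ℝ)⁻¹ := by
            refine mul_le_mul (min_le_right _ _) ?_ (by positivity) hc
            rw [← Real.rpow_neg_one]
            exact Real.rpow_le_rpow_of_exponent_le hp1 (by linarith)
          rw [← inv_pow, ← mul_pow]
          gcongr
        have hl : y - y ^ 2 ≤ Real.log (1 + y) := by
          refine le_trans ?_ (Real.one_sub_inv_le_log_of_pos (by linarith))
          rw [show 1 - (1 + y)⁻¹ = y / (1 + y) by field_simp; ring, le_div_iff₀ (by linarith)]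
          nlinarith
        have : Real.log (1 + y) ≤ Real.log (1 + x p) :=
          Real.log_le_log (by linarith) (by linarith)
        linarith
    _ ≤ _ := by
        rw [sum_add_distrib, ← add_assoc]
        exact add_le_add hlog (hsum.sum_le_tsum P fun i _ ↦ by positivity)

end Multiplicative

end Fermat.Agent.DS
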